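import Mathlib
import Fermat.Prelude.Thm_CongruenceSubgroup_one_mem_strictPeriods_Gamma0
import Fermat.Prelude.Def_FLTPrelim_Modularity

set_option autoImplicit false

open UpperHalfPlane Function
open scoped MatrixGroups Manifold ModularForm

namespace Fermat.Agent.S23.helper1255

/-- A function on the upper half plane is *nice* if it is `1`-periodic, holomorphic and bounded
at `i∞`.  On nice functions the `q`-expansion (with `h = 1`) is an injective ring homomorphism. -/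
def Nice (F : ℍ → ℂ) : Prop :=
  Periodic (F ∘ ofComplex) ((1 : ℝ) : ℂ) ∧ MDiff F ∧ IsBoundedAtImInfty F

namespace Nice

variable {F G : ℍ → ℂ}

lemma analyticAt (hF : Nice F) : AnalyticAt ℂ (cuspFunction 1 F) 0 :=
  UpperHalfPlane.analyticAt_cuspFunction_zero one_pos hF.1 hF.2.1 hF.2.2

lemma add (hF : Nice F) (hG : Nice G) : Nice (F + G) :=
  ⟨hF.1.add hG.1, hF.2.1.add hG.2.1, hF.2.2.add hG.2.2⟩

lemma mul (hF : Nice F) (hG : Nice G) : Nice (F * G) :=
  ⟨hF.1.mul hG.1, hF.2.1.mul hG.2.1, hF.2.2.mul hG.2.2⟩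

lemma neg (hF : Nice F) : Nice (-F) :=
  ⟨fun x => by
      have h := hF.1 x
      simp only [Function.comp_apply, Pi.neg_apply] at h ⊢
      rw [h], hF.2.1.neg, hF.2.2.neg⟩

lemma sub (hF : Nice F) (hG : Nice G) : Nice (F - G) := by
  rw [sub_eq_add_neg]; exact hF.add hG.neg

lemma const (c : ℂ) : Nice (fun _ => c) :=
  ⟨fun _ => rfl, mdifferentiable_const, Filter.const_boundedAtFilter _ c⟩

lemma one : Nice (1 : ℍ → ℂ) := const 1

lemma zero : Nice (0 : ℍ → ℂ) := const 0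

lemma pow (hF : Nice F) (n : ℕ) : Nice (F ^ n) := by
  induction n with
  | zero => simpa using one
  | succ n ih => rw [pow_succ]; exact ih.mul hF

lemma sum {ι : Type*} (s : Finset ι) {F : ι → ℍ → ℂ} (hF : ∀ i ∈ s, Nice (F i)) :
    Nice (∑ i ∈ s, F i) := by
  classical
  induction s using Finset.induction_on with
  | empty => simpa using zero
  | insert a s ha ih =>
    rw [Finset.sum_insert ha]
    exact (hF a (Finset.mem_insert_self a s)).add
      (ih fun i hi => hF i (Finset.mem_insert_of_mem hi))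

lemma qExp_add (hF : Nice F) (hG : Nice G) :
    qExpansion 1 (F + G) = qExpansion 1 F + qExpansion 1 G :=
  UpperHalfPlane.qExpansion_add hF.analyticAt hG.analyticAt

lemma qExp_mul (hF : Nice F) (hG : Nice G) :
    qExpansion 1 (F * G) = qExpansion 1 F * qExpansion 1 G :=
  UpperHalfPlane.qExpansion_mul hF.analyticAt hG.analyticAt

lemma qExp_pow (hF : Nice F) (n : ℕ) : qExpansion 1 (F ^ n) = qExpansion 1 F ^ n := by
  induction n with
  | zero => simpa using UpperHalfPlane.qExpansion_one 1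
  | succ n ih => rw [pow_succ, (hF.pow n).qExp_mul hF, ih, pow_succ]

lemma qExp_sum {ι : Type*} (s : Finset ι) {F : ι → ℍ → ℂ} (hF : ∀ i ∈ s, Nice (F i)) :
    qExpansion 1 (∑ i ∈ s, F i) = ∑ i ∈ s, qExpansion 1 (F i) := by
  classical
  induction s using Finset.induction_on with
  | empty => simpa using UpperHalfPlane.qExpansion_zero 1
  | insert a s ha ih =>
    rw [Finset.sum_insert ha, Finset.sum_insert ha,
      (hF a (Finset.mem_insert_self a s)).qExp_add
        (sum s fun i hi => hF i (Finset.mem_insert_of_mem hi)),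
      ih fun i hi => hF i (Finset.mem_insert_of_mem hi)]

/-- A nice function is determined by its `q`-expansion. -/
lemma eq_zero_of_qExp_eq_zero (hF : Nice F) (h : qExpansion 1 F = 0) : F = 0 :=
  (UpperHalfPlane.qExpansion_eq_zero_iff one_pos hF.1 hF.2.1 hF.2.2).1 h

end Nice

/-- Modular forms (of any weight) for a subgroup having `1` as a strict period are nice. -/
lemma nice_of_modularFormClass {Γ : Subgroup (GL (Fin 2) ℝ)} {k : ℤ} {F : Type*} [FunLike F ℍ ℂ]
    [ModularFormClass F Γ k] (hΓ : (1 : ℝ) ∈ Γ.strictPeriods) (f : F) : Nice (f : ℍ → ℂ) := by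
  have : Fact (IsCusp OnePoint.infty Γ) := ⟨Γ.isCusp_of_mem_strictPeriods one_pos hΓ⟩
  exact ⟨SlashInvariantFormClass.periodic_comp_ofComplex f hΓ, ModularFormClass.holo f,
    ModularFormClass.bdd_at_infty f⟩


/-- Restriction of a modular form to a smaller subgroup. -/
def restr {Γ Γ' : Subgroup (GL (Fin 2) ℝ)} (h : Γ' ≤ Γ) {k : ℤ} (f : ModularForm Γ k) :
    ModularForm Γ' k where
  toFun := f
  slash_action_eq' γ hγ := f.slash_action_eq' γ (h hγ)
  holo' := f.holo'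
  bdd_at_cusps' hc := f.bdd_at_cusps' (hc.mono h)

@[simp] lemma coe_restr {Γ Γ' : Subgroup (GL (Fin 2) ℝ)} (h : Γ' ≤ Γ) {k : ℤ}
    (f : ModularForm Γ k) : (restr h f : ℍ → ℂ) = f := rfl

/-- `Γ₀(N)` (inside `GL₂(ℝ)`) is contained in `SL₂(ℤ)` (inside `GL₂(ℝ)`). -/
lemma gamma0_le_SL (N : ℕ) :
    ((CongruenceSubgroup.Gamma0 N : Subgroup SL(2, ℤ)) : Subgroup (GL (Fin 2) ℝ)) ≤ 𝒮ℒ :=
  Subgroup.map_le_range _ _

/-- Coercion to functions commutes with finite sums of modular forms. -/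
lemma coe_finset_sum {Γ : Subgroup (GL (Fin 2) ℝ)} {k : ℤ} {ι : Type*} (s : Finset ι)
    (F : ι → ModularForm Γ k) :
    ((∑ i ∈ s, F i : ModularForm Γ k) : ℍ → ℂ) = ∑ i ∈ s, (F i : ℍ → ℂ) :=
  map_sum (FunLike.coeAddMonoidHom (ModularForm Γ k) ℍ ℂ) F s

/-- Notation-free abbreviation for `Γ₀(N)` inside `GL₂(ℝ)`. -/
abbrev G0 (N : ℕ) : Subgroup (GL (Fin 2) ℝ) :=
  ((CongruenceSubgroup.Gamma0 N : Subgroup SL(2, ℤ)) : Subgroup (GL (Fin 2) ℝ))

lemma nice_G0 (N : ℕ) {k : ℤ} {F : Type*} [FunLike F ℍ ℂ] [ModularFormClass F (G0 N) k] (f : F) :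
    Nice (f : ℍ → ℂ) :=
  nice_of_modularFormClass (CongruenceSubgroup.one_mem_strictPeriods_Gamma0 N) f

lemma nice_SL {k : ℤ} {F : Type*} [FunLike F ℍ ℂ] [ModularFormClass F 𝒮ℒ k] (f : F) :
    Nice (f : ℍ → ℂ) :=
  nice_of_modularFormClass one_mem_strictPeriods_SL f

/-- **σ-transport (CONJ).**  From the level-one conjugation principle `(L1)`, a primitive form `w`
with `σ`-fixed `q`-expansion, an interpolation identity `(T)`, an integrality relation `(I)` and
the analytic converse `(H)`, every cusp form on `Γ₀(N)` has a `σ`-conjugate cusp form. -/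
theorem conj_of_data (N : ℕ) [NeZero N] (k : ℤ) (σ : ℂ →+* ℂ)
    (hL1 : ∀ (m : ℤ) (r : ModularForm 𝒮ℒ m), ∃ r' : ModularForm 𝒮ℒ m,
      qExpansion 1 r' = (qExpansion 1 r).map σ)
    (l : ℤ) (w : ModularForm (G0 N) l) (hw : (qExpansion 1 w).map σ = qExpansion 1 w)
    (f : CuspForm (G0 N) k)
    (μ : ℕ) (M : ℤ) (D : ModularForm 𝒮ℒ M) (hD : D ≠ 0)
    (c : (j : Fin μ) → ModularForm 𝒮ℒ (k + M - l * j))
    (hT : ∀ z, D z * f z = ∑ j, c j z * w z ^ (j : ℕ))
    (n : ℕ) (e : (i : Fin n) → CuspForm 𝒮ℒ (k * (i + 1)))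
    (hI : ∀ z, f z ^ n + ∑ i : Fin n, e i z * f z ^ (n - 1 - i) = 0)
    (hH : ∀ (M : ℤ) (E : ModularForm (G0 N) M) (P : ModularForm (G0 N) (k + M)) (n : ℕ)
      (c : (i : Fin n) → CuspForm 𝒮ℒ (k * (i + 1))), E ≠ 0 →
      (∀ z, P z ^ n + ∑ i : Fin n, c i z * E z ^ (i + 1 : ℕ) * P z ^ (n - 1 - i) = 0) →
      ∃ g : CuspForm (G0 N) k, ∀ z, g z * E z = P z) :
    ∃ g : CuspForm (G0 N) k, ∀ n, ModularFormClass.qCoeff g n = σ (ModularFormClass.qCoeff f n) := by
  classical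
  have hσinj : Function.Injective (PowerSeries.map σ) := PowerSeries.map_injective σ σ.injective
  -- conjugate level-one data
  obtain ⟨D', hD'⟩ := hL1 M D
  choose c' hc' using fun j => hL1 _ (c j)
  have he' : ∀ i : Fin n, ∃ e'i : CuspForm 𝒮ℒ (k * (i + 1)),
      qExpansion 1 e'i = (qExpansion 1 (e i)).map σ := by
    intro i
    obtain ⟨r', hr'⟩ := hL1 _ (ModularFormClass.modularForm (e i))
    have h0 : (qExpansion 1 r').coeff 0 = 0 := by
      rw [hr', PowerSeries.coeff_map]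
      have : (qExpansion 1 (ModularFormClass.modularForm (e i))).coeff 0 = 0 :=
        CuspFormClass.qExpansion_coeff_zero (e i) one_pos one_mem_strictPeriods_SL
      rw [this, map_zero]
    exact ⟨ModularForm.toCuspForm r' h0, hr'⟩
  choose e' he' using he'
  -- niceness
  have nD : Nice (D : ℍ → ℂ) := nice_SL D
  have nD' : Nice (D' : ℍ → ℂ) := nice_SL D'
  have nf : Nice (f : ℍ → ℂ) := nice_G0 N f
  have nw : Nice (w : ℍ → ℂ) := nice_G0 N w
  have nc : ∀ j, Nice (c j : ℍ → ℂ) := fun j => nice_SL (c j)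
  have nc' : ∀ j, Nice (c' j : ℍ → ℂ) := fun j => nice_SL (c' j)
  have ne : ∀ i, Nice (e i : ℍ → ℂ) := fun i => nice_SL (e i)
  have ne' : ∀ i, Nice (e' i : ℍ → ℂ) := fun i => nice_SL (e' i)
  -- `D' ≠ 0`
  have hqD'0 : qExpansion 1 D' ≠ 0 := by
    rw [hD']
    intro h0
    have : qExpansion 1 D = 0 := hσinj (by rw [h0, map_zero])
    exact hD ((ModularForm.qExpansion_eq_zero_iff one_pos one_mem_strictPeriods_SL D).1 this)
  have hD'0 : D' ≠ 0 := by
    rintro rfl
    exact hqD'0 (UpperHalfPlane.qExpansion_zero 1)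
  -- the transported numerator as a function
  set Pf : ℍ → ℂ := (D : ℍ → ℂ) * f with hPf
  have hPf_eq : Pf = ∑ j, (c j : ℍ → ℂ) * (w : ℍ → ℂ) ^ (j : ℕ) := by
    funext z
    simp only [hPf, Pi.mul_apply, Finset.sum_apply, Pi.pow_apply]
    exact hT z
  set P'f : ℍ → ℂ := ∑ j, (c' j : ℍ → ℂ) * (w : ℍ → ℂ) ^ (j : ℕ) with hP'f
  have nPf : Nice Pf := nD.mul nf
  have nP'f : Nice P'f := Nice.sum _ fun j _ => (nc' j).mul (nw.pow _)
  have hqPf : qExpansion 1 Pf = qExpansion 1 D * qExpansion 1 f := nD.qExp_mul nf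
  have hqP' : qExpansion 1 P'f = (qExpansion 1 Pf).map σ := by
    rw [hPf_eq, hP'f, Nice.qExp_sum _ (fun j _ => (nc' j).mul (nw.pow _)),
      Nice.qExp_sum _ (fun j _ => (nc j).mul (nw.pow _)), map_sum]
    refine Finset.sum_congr rfl fun j _ => ?_
    rw [(nc' j).qExp_mul (nw.pow _), (nc j).qExp_mul (nw.pow _), nw.qExp_pow, map_mul, map_pow,
      hw, hc' j]
  -- the two relations
  set R : ℍ → ℂ := Pf ^ n +
    ∑ i : Fin n, (e i : ℍ → ℂ) * (D : ℍ → ℂ) ^ ((i : ℕ) + 1) * Pf ^ (n - 1 - i) with hR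
  set R' : ℍ → ℂ := P'f ^ n +
    ∑ i : Fin n, (e' i : ℍ → ℂ) * (D' : ℍ → ℂ) ^ ((i : ℕ) + 1) * P'f ^ (n - 1 - i) with hR'
  have hR0 : R = 0 := by
    funext z
    have hIz := hI z
    simp only [hR, hPf, Pi.add_apply, Pi.pow_apply, Pi.mul_apply, Finset.sum_apply, Pi.zero_apply]
    have key : ∀ i : Fin n, e i z * D z ^ ((i : ℕ) + 1) * (D z * f z) ^ (n - 1 - i) =
        D z ^ n * (e i z * f z ^ (n - 1 - i)) := by
      intro i
      have hi : (i : ℕ) + 1 + (n - 1 - i) = n := by have := i.2; omega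
      calc e i z * D z ^ ((i : ℕ) + 1) * (D z * f z) ^ (n - 1 - i)
          = D z ^ ((i : ℕ) + 1 + (n - 1 - i)) * (e i z * f z ^ (n - 1 - i)) := by
            rw [pow_add, mul_pow]; ring
        _ = D z ^ n * (e i z * f z ^ (n - 1 - i)) := by rw [hi]
    rw [Finset.sum_congr rfl (fun i _ => key i), ← Finset.mul_sum, mul_pow, ← mul_add, hIz,
      mul_zero]
  have nR' : Nice R' :=
    (nP'f.pow n).add (Nice.sum _ fun i _ => ((ne' i).mul (nD'.pow _)).mul (nP'f.pow _))
  have hqR' : qExpansion 1 R' = (qExpansion 1 R).map σ := by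
    rw [hR, hR', (nP'f.pow n).qExp_add
        (Nice.sum _ fun i _ => ((ne' i).mul (nD'.pow _)).mul (nP'f.pow _)),
      (nPf.pow n).qExp_add (Nice.sum _ fun i _ => ((ne i).mul (nD.pow _)).mul (nPf.pow _)),
      Nice.qExp_sum _ (fun i _ => ((ne' i).mul (nD'.pow _)).mul (nP'f.pow _)),
      Nice.qExp_sum _ (fun i _ => ((ne i).mul (nD.pow _)).mul (nPf.pow _)),
      map_add, map_sum, nP'f.qExp_pow, nPf.qExp_pow, map_pow, hqP']
    congr 1
    refine Finset.sum_congr rfl fun i _ => ?_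
    rw [((ne' i).mul (nD'.pow _)).qExp_mul (nP'f.pow _), (ne' i).qExp_mul (nD'.pow _),
      ((ne i).mul (nD.pow _)).qExp_mul (nPf.pow _), (ne i).qExp_mul (nD.pow _),
      nD'.qExp_pow, nD.qExp_pow, nP'f.qExp_pow, nPf.qExp_pow, map_mul, map_mul, map_pow, map_pow,
      hqP', hD', he' i]
  have hR'0 : R' = 0 :=
    nR'.eq_zero_of_qExp_eq_zero (by rw [hqR', hR0, UpperHalfPlane.qExpansion_zero, map_zero])
  -- package the numerator as a modular form on `Γ₀(N)`
  let P' : ModularForm (G0 N) (k + M) := ∑ j : Fin μ,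
    ModularForm.mcast (by ring) ((restr (gamma0_le_SL N) (c' j)).mul (w.pow (j : ℕ)))
  have hP'coe : (P' : ℍ → ℂ) = P'f := by
    rw [hP'f, coe_finset_sum]
    refine Finset.sum_congr rfl fun j _ => ?_
    funext z
    simp [ModularForm.coe_pow]
  have hE0 : restr (gamma0_le_SL N) D' ≠ 0 := by
    intro h0
    apply hD'0
    ext z
    have := congrArg (fun F : ModularForm (G0 N) M => F z) h0
    simpa using this
  obtain ⟨g, hg⟩ := hH M (restr (gamma0_le_SL N) D') P' n e' hE0 (fun z => by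
    have hz := congrFun hR'0 z
    simp only [hR', Pi.add_apply, Pi.pow_apply, Pi.mul_apply, Finset.sum_apply,
      Pi.zero_apply] at hz
    rw [hP'coe]
    simpa using hz)
  have hgE : (g : ℍ → ℂ) * (D' : ℍ → ℂ) = P'f := by
    funext z
    rw [← hP'coe]
    simpa using hg z
  have hq : qExpansion 1 g * qExpansion 1 D' = qExpansion 1 D' * (qExpansion 1 f).map σ := by
    rw [← (nice_G0 N g).qExp_mul nD', hgE, hqP', hqPf, map_mul, hD']
  have hfin : qExpansion 1 g = (qExpansion 1 f).map σ := by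
    apply mul_left_cancel₀ hqD'0
    rw [mul_comm, hq]
  refine ⟨g, fun m => ?_⟩
  simp only [ModularFormClass.qCoeff, hfin, PowerSeries.coeff_map]

end Fermat.Agent.S23.helper1255
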