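/-
helper143 — S23 package (P): the primitive element `wN N = E₄ ∣[4] diag(N,1)`
(i.e. `z ↦ N^3 * E₄(N z)`) as a modular form on `Γ₀(N)`, its stabiliser in `SL(2,ℤ)`,
and injectivity of its translates over `𝒮ℒ ⧸ Γ₀(N)`.
-/
import Mathlib
import Fermat.Prelude.Thm_CongruenceSubgroup_one_mem_strictPeriods_Gamma0

set_option autoImplicit false

open UpperHalfPlane ModularForm CongruenceSubgroup Matrix MatrixGroups Filter Topology
open scoped Manifold

namespace Fermat.Agent.S23.helper143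

/-! ### Hermite normal form of `diag(N,1) * γ` -/

/-- Hermite normal form for `diag(N,1) * γ`, `γ ∈ SL(2,ℤ)` (integer entry version):
`diag(N,1) * [a b; c d] = [u -y; v x] * [A B; 0 D]`. -/
theorem hermite_int {N a b c d : ℤ} (hN : 0 < N) (hdet : a * d - b * c = 1) :
    ∃ u v x y A B D : ℤ, u * x + y * v = 1 ∧ 0 < A ∧ 0 < D ∧ A * D = N ∧
      u * A = N * a ∧ u * B - y * D = N * b ∧ v * A = c ∧ v * B + x * D = d := by
  have hne : Int.gcd (N * a) c ≠ 0 := by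
    intro h
    rw [Int.gcd_eq_zero_iff] at h
    obtain ⟨h1, h2⟩ := h
    rcases mul_eq_zero.mp h1 with h1 | h1
    · omega
    · subst h1; subst h2; simp at hdet
  set A : ℤ := (Int.gcd (N * a) c : ℤ) with hA
  have hApos : 0 < A := by positivity
  obtain ⟨u, hu⟩ : A ∣ N * a := Int.gcd_dvd_left _ _
  obtain ⟨v, hv⟩ : A ∣ c := Int.gcd_dvd_right _ _
  have hbez : A = N * a * Int.gcdA (N * a) c + c * Int.gcdB (N * a) c := Int.gcd_eq_gcd_ab _ _
  set x := Int.gcdA (N * a) c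
  set y := Int.gcdB (N * a) c
  have hux : u * x + y * v = 1 := by
    have : A * (u * x + y * v) = A * 1 := by
      linear_combination (-x) * hu + (-y) * hv - hbez
    exact mul_left_cancel₀ hApos.ne' this
  have hAD : A * (u * d - v * N * b) = N := by
    have : A * (u * d - v * N * b) = (A * u) * d - (A * v) * N * b := by ring
    rw [this, ← hu, ← hv]
    linear_combination N * hdet
  have hDpos : 0 < u * d - v * N * b := by
    by_contra hcon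
    rw [not_lt] at hcon
    have : A * (u * d - v * N * b) ≤ 0 := mul_nonpos_of_nonneg_of_nonpos hApos.le hcon
    omega
  refine ⟨u, v, x, y, A, x * N * b + y * d, u * d - v * N * b, hux, hApos, hDpos, hAD, ?_, ?_, ?_, ?_⟩
  · rw [hu]; ring
  · linear_combination (N * b) * hux
  · rw [hv]; ring
  · linear_combination d * hux

/-- Upper triangular matrix `[A B; 0 D]` with positive diagonal, as an element of `GL(2,ℝ)`. -/
noncomputable def tri (A B D : ℝ) (hA : 0 < A) (hD : 0 < D) : GL (Fin 2) ℝ :=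
  GeneralLinearGroup.mkOfDetNeZero !![A, B; 0, D] (by
    rw [det_fin_two_of]; simp; exact ⟨hA.ne', hD.ne'⟩)

theorem tri_det (A B D : ℝ) (hA : 0 < A) (hD : 0 < D) :
    (tri A B D hA hD).det.val = A * D := by
  simp [tri, GeneralLinearGroup.mkOfDetNeZero, det_fin_two_of]

/-- Hermite normal form of `diag(N,1) * γ` in `GL(2,ℝ)`. -/
theorem hermite_GL (N : ℕ) (hN : 0 < N) (γ : SL(2, ℤ)) :
    ∃ (γ' : SL(2, ℤ)) (A B D : ℤ) (hA : 0 < (A : ℝ)) (hD : 0 < (D : ℝ)), A * D = N ∧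
      γ 1 0 = γ' 1 0 * A ∧
      tri N 0 1 (by exact_mod_cast hN) one_pos * SpecialLinearGroup.mapGL ℝ γ =
        SpecialLinearGroup.mapGL ℝ γ' * tri A B D hA hD := by
  have hdet : γ 0 0 * γ 1 1 - γ 0 1 * γ 1 0 = 1 := by
    have := γ.det_coe
    rw [det_fin_two] at this
    exact this
  obtain ⟨u, v, x, y, A, B, D, hux, hA, hD, hAD, h00, h01, h10, h11⟩ :=
    hermite_int (N := (N : ℤ)) (by exact_mod_cast hN) hdet
  obtain ⟨γ', g00, g01, g10, g11⟩ : ∃ γ' : SL(2, ℤ), γ' 0 0 = u ∧ γ' 0 1 = -y ∧ γ' 1 0 = v ∧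
      γ' 1 1 = x :=
    ⟨⟨!![u, -y; v, x], by rw [det_fin_two_of]; linarith⟩, rfl, rfl, rfl, rfl⟩
  refine ⟨γ', A, B, D, by exact_mod_cast hA, by exact_mod_cast hD, hAD, by rw [g10, h10], ?_⟩
  have e00 : (u : ℝ) * A = N * (γ 0 0 : ℤ) := by exact_mod_cast h00
  have e01 : (u : ℝ) * B - y * D = N * (γ 0 1 : ℤ) := by exact_mod_cast h01
  have e10 : (v : ℝ) * A = (γ 1 0 : ℤ) := by exact_mod_cast h10
  have e11 : (v : ℝ) * B + x * D = (γ 1 1 : ℤ) := by exact_mod_cast h11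
  ext i j
  fin_cases i <;> fin_cases j <;>
    simp [tri, GeneralLinearGroup.mkOfDetNeZero, Matrix.mul_apply, Fin.sum_univ_two,
      g00, g01, g10, g11] <;>
    linarith

/-! ### Limits at `i∞` -/

/-- `E₄ → 1` at `i∞`. -/
theorem tendsto_E₄_atImInfty : Tendsto (E₄ : ℍ → ℂ) atImInfty (𝓝 1) := by
  have hper : Function.Periodic ((E₄ : ℍ → ℂ) ∘ ofComplex) (1 : ℝ) := by
    exact_mod_cast SlashInvariantFormClass.periodic_comp_ofComplex (E₄) (h := 1) (by simp)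
  have han : AnalyticAt ℂ (cuspFunction 1 (E₄ : ℍ → ℂ)) 0 :=
    ModularFormClass.analyticAt_cuspFunction_zero E₄ one_pos (by simp)
  have h0 : cuspFunction 1 (E₄ : ℍ → ℂ) 0 = 1 := by
    have := EisensteinSeries.E_qExpansion_coeff_zero (k := 4) (by norm_num) ⟨2, rfl⟩
    rw [qExpansion_coeff] at this
    simpa using this
  have : (cuspFunction 1 (E₄ : ℍ → ℂ) ∘ fun τ : ℍ ↦ Function.Periodic.qParam 1 τ : ℍ → ℂ) = E₄ := by
    funext τ
    simpa using eq_cuspFunction (h := 1) τ one_ne_zero hper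
  rw [← this, ← h0]
  exact han.continuousAt.tendsto.comp (qParam_tendsto_atImInfty one_pos)

theorem slash_tri_apply (f : ℍ → ℂ) (k : ℤ) (A B D : ℝ) (hA : 0 < A) (hD : 0 < D) (τ : ℍ) :
    (f ∣[k] tri A B D hA hD) τ =
      f (tri A B D hA hD • τ) * ((A * D : ℝ) : ℂ) ^ (k - 1) * (D : ℂ) ^ (-k) := by
  rw [ModularForm.slash_apply]
  have hdet : 0 < (tri A B D hA hD).det.val := by rw [tri_det]; positivity
  have hσ : σ (tri A B D hA hD) = ContinuousAlgEquiv.refl ℝ ℂ := by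
    simp only [σ]; rw [if_pos hdet]
  have hden : denom (tri A B D hA hD) (τ : ℂ) = D := by
    simp [denom, tri, GeneralLinearGroup.mkOfDetNeZero]
  rw [hσ, hden, tri_det, abs_of_pos (by positivity)]
  simp

theorem tendsto_E₄_slash_tri (A B D : ℝ) (hA : 0 < A) (hD : 0 < D) :
    Tendsto ((E₄ : ℍ → ℂ) ∣[(4 : ℤ)] tri A B D hA hD) atImInfty
      (𝓝 (((A * D : ℝ) : ℂ) ^ (3 : ℤ) * (D : ℂ) ^ (-4 : ℤ))) := by
  have h1 : Tendsto (fun τ : ℍ ↦ tri A B D hA hD • τ) atImInfty atImInfty :=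
    tendsto_smul_atImInfty (by simp [tri, GeneralLinearGroup.mkOfDetNeZero])
  have h2 := tendsto_E₄_atImInfty.comp h1
  have h3 : ((E₄ : ℍ → ℂ) ∣[(4 : ℤ)] tri A B D hA hD) =
      fun τ ↦ ((E₄ : ℍ → ℂ) ∘ fun τ : ℍ ↦ tri A B D hA hD • τ) τ *
        (((A * D : ℝ) : ℂ) ^ (3 : ℤ) * (D : ℂ) ^ (-4 : ℤ)) := by
    funext τ
    rw [slash_tri_apply]
    simp only [Function.comp]
    norm_num
    ring
  rw [h3]
  simpa using h2.mul_const (((A * D : ℝ) : ℂ) ^ (3 : ℤ) * (D : ℂ) ^ (-4 : ℤ))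

/-! ### The primitive element -/

/-- `diag(N,1)` as an element of `GL(2,ℝ)`. -/
noncomputable def gN (N : ℕ) [NeZero N] : GL (Fin 2) ℝ :=
  tri N 0 1 (by exact_mod_cast Nat.pos_of_ne_zero (NeZero.ne N)) one_pos

/-- The function `z ↦ N^3 * E₄(N z)`, i.e. `E₄ ∣[4] diag(N,1)`. -/
noncomputable def wFun (N : ℕ) [NeZero N] : ℍ → ℂ := (E₄ : ℍ → ℂ) ∣[(4 : ℤ)] gN N

theorem tendsto_wFun (N : ℕ) [NeZero N] :
    Tendsto (wFun N) atImInfty (𝓝 ((N : ℂ) ^ (3 : ℤ))) := by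
  have := tendsto_E₄_slash_tri N 0 1 (by exact_mod_cast Nat.pos_of_ne_zero (NeZero.ne N)) one_pos
  simpa [wFun, gN] using this

/-- Translates of `wFun` by `SL(2,ℤ)` are slashes of `E₄` by upper triangular matrices. -/
theorem wFun_slash (N : ℕ) [NeZero N] (γ : SL(2, ℤ)) :
    ∃ (γ' : SL(2, ℤ)) (A B D : ℤ) (hA : 0 < (A : ℝ)) (hD : 0 < (D : ℝ)), A * D = N ∧
      γ 1 0 = γ' 1 0 * A ∧
      wFun N ∣[(4 : ℤ)] (SpecialLinearGroup.mapGL ℝ γ) = (E₄ : ℍ → ℂ) ∣[(4 : ℤ)] tri A B D hA hD := by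
  obtain ⟨γ', A, B, D, hA, hD, hAD, h10, hmat⟩ :=
    hermite_GL N (Nat.pos_of_ne_zero (NeZero.ne N)) γ
  refine ⟨γ', A, B, D, hA, hD, hAD, h10, ?_⟩
  have hinv : (E₄ : ℍ → ℂ) ∣[(4 : ℤ)] (SpecialLinearGroup.mapGL ℝ γ') = E₄ :=
    SlashInvariantFormClass.slash_action_eq E₄ _ ⟨γ', rfl⟩
  rw [wFun, ← SlashAction.slash_mul]
  show (E₄ : ℍ → ℂ) ∣[(4 : ℤ)] (gN N * SpecialLinearGroup.mapGL ℝ γ) = _
  rw [show gN N * SpecialLinearGroup.mapGL ℝ γ = SpecialLinearGroup.mapGL ℝ γ' * tri A B D hA hD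
    from hmat, SlashAction.slash_mul, hinv]

/-- The stabiliser of `wFun N` in `SL(2,ℤ)` is contained in `Γ₀(N)`. -/
theorem mem_Gamma0_of_wFun_slash_eq (N : ℕ) [NeZero N] (γ : SL(2, ℤ))
    (h : wFun N ∣[(4 : ℤ)] (SpecialLinearGroup.mapGL ℝ γ) = wFun N) : γ ∈ Gamma0 N := by
  obtain ⟨γ', A, B, D, hA, hD, hAD, h10, hslash⟩ := wFun_slash N γ
  have hNpos : (0 : ℝ) < N := by exact_mod_cast Nat.pos_of_ne_zero (NeZero.ne N)
  have hlim1 := tendsto_E₄_slash_tri A B D hA hD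
  rw [← hslash, h] at hlim1
  have hlim2 := tendsto_wFun N
  have heq := tendsto_nhds_unique hlim1 hlim2
  have hADr : (A : ℝ) * D = N := by exact_mod_cast hAD
  rw [hADr] at heq
  have hN3 : ((N : ℝ) : ℂ) ^ (3 : ℤ) ≠ 0 := zpow_ne_zero _ (by exact_mod_cast hNpos.ne')
  have hD4 : ((D : ℝ) : ℂ) ^ (-4 : ℤ) = 1 := by
    have : ((N : ℝ) : ℂ) ^ (3 : ℤ) * ((D : ℝ) : ℂ) ^ (-4 : ℤ) = ((N : ℝ) : ℂ) ^ (3 : ℤ) * 1 := by
      rw [mul_one]; exact_mod_cast heq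
    exact mul_left_cancel₀ hN3 this
  have hD4' : (D : ℝ) ^ 4 = 1 := by
    have h1 : ((D : ℝ) : ℂ) ^ (4 : ℕ) = 1 := by
      have hne : ((D : ℝ) : ℂ) ≠ 0 := by exact_mod_cast hD.ne'
      have : ((D : ℝ) : ℂ) ^ (-4 : ℤ) = (((D : ℝ) : ℂ) ^ (4 : ℕ))⁻¹ := by
        rw [_root_.zpow_neg]; norm_cast
      rw [this] at hD4
      exact inv_eq_one.mp hD4
    exact_mod_cast h1
  have hD1 : D = 1 := by
    have hDpos : 0 < D := by exact_mod_cast hD
    have hDr : (D : ℝ) = 1 := by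
      have := pow_eq_one_iff_of_nonneg hD.le (n := 4) (by norm_num)
      exact this.mp hD4'
    exact_mod_cast hDr
  have hAN : A = N := by rw [hD1, mul_one] at hAD; exact hAD
  rw [Gamma0_mem, h10, hAN]
  simp

/-- `diag(N,1) * γ = γ' * diag(N,1)` for `γ ∈ Γ₀(N)`. -/
theorem gN_mul_of_mem_Gamma0 (N : ℕ) [NeZero N] {γ : SL(2, ℤ)} (hγ : γ ∈ Gamma0 N) :
    ∃ γ' : SL(2, ℤ), gN N * SpecialLinearGroup.mapGL ℝ γ = SpecialLinearGroup.mapGL ℝ γ' * gN N := by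
  rw [Gamma0_mem, ZMod.intCast_zmod_eq_zero_iff_dvd] at hγ
  obtain ⟨c', hc'⟩ := hγ
  have hdet : γ 0 0 * γ 1 1 - γ 0 1 * γ 1 0 = 1 := by
    have := γ.det_coe
    rw [det_fin_two] at this
    exact this
  obtain ⟨γ', g00, g01, g10, g11⟩ : ∃ γ' : SL(2, ℤ), γ' 0 0 = γ 0 0 ∧ γ' 0 1 = N * γ 0 1 ∧
      γ' 1 0 = c' ∧ γ' 1 1 = γ 1 1 :=
    ⟨⟨!![γ 0 0, N * γ 0 1; c', γ 1 1], by rw [det_fin_two_of]; rw [hc'] at hdet; linarith⟩,
      rfl, rfl, rfl, rfl⟩
  refine ⟨γ', ?_⟩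
  have e10 : ((γ 1 0 : ℤ) : ℝ) = N * c' := by exact_mod_cast hc'
  ext i j
  fin_cases i <;> fin_cases j <;>
    simp [gN, tri, GeneralLinearGroup.mkOfDetNeZero, Matrix.mul_apply, Fin.sum_univ_two,
      g00, g01, g10, g11] <;>
    linarith

open ConjAct Pointwise in
theorem Gamma0_le_conj (N : ℕ) [NeZero N] :
    (Gamma0 N : Subgroup (GL (Fin 2) ℝ)) ≤ toConjAct (gN N)⁻¹ • 𝒮ℒ := by
  rintro _ ⟨γ, hγ, rfl⟩
  obtain ⟨γ', hγ'⟩ := gN_mul_of_mem_Gamma0 N hγ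
  rw [Subgroup.mem_pointwise_smul_iff_inv_smul_mem, ← map_inv, inv_inv, ConjAct.toConjAct_smul]
  refine ⟨γ', ?_⟩
  show SpecialLinearGroup.mapGL ℝ γ' = gN N * SpecialLinearGroup.mapGL ℝ γ * (gN N)⁻¹
  rw [hγ', mul_inv_cancel_right]

/-- The primitive element: `z ↦ N^3 * E₄(N z)` as a modular form of weight 4 on `Γ₀(N)`. -/
noncomputable def wN (N : ℕ) [NeZero N] : ModularForm (Gamma0 N : Subgroup (GL (Fin 2) ℝ)) 4 where
  toFun := wFun N
  slash_action_eq' γ hγ :=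
    (ModularForm.translate E₄ (gN N)).slash_action_eq' γ (Gamma0_le_conj N hγ)
  holo' := (ModularForm.translate E₄ (gN N)).holo'
  bdd_at_cusps' hc := (ModularForm.translate E₄ (gN N)).bdd_at_cusps' (hc.mono (Gamma0_le_conj N))

@[simp] theorem coe_wN (N : ℕ) [NeZero N] : (wN N : ℍ → ℂ) = wFun N := rfl

/-- The translates of `wN N` over `𝒮ℒ ⧸ Γ₀(N)` are pairwise distinct functions. -/
theorem quotientFunc_wN_injective (N : ℕ) [NeZero N] :
    Function.Injective (SlashInvariantForm.quotientFunc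
      (𝒢 := (Gamma0 N : Subgroup (GL (Fin 2) ℝ))) (ℋ := 𝒮ℒ) (wN N)) := by
  intro q q' hqq
  induction q using Quotient.inductionOn with | h r => ?_
  induction q' using Quotient.inductionOn with | h r' => ?_
  simp only [SlashInvariantForm.quotientFunc_mk, coe_wN] at hqq
  have hst : wFun N ∣[(4 : ℤ)] (r.val⁻¹ * r'.val) = wFun N := by
    rw [SlashAction.slash_mul, hqq, ← SlashAction.slash_mul, inv_mul_cancel, SlashAction.slash_one]
  obtain ⟨γ, hγ⟩ : ∃ γ : SL(2, ℤ), SpecialLinearGroup.mapGL ℝ γ = r.val⁻¹ * r'.val := (r⁻¹ * r').2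
  rw [← hγ] at hst
  have hmem := mem_Gamma0_of_wFun_slash_eq N γ hst
  exact QuotientGroup.eq.mpr (Subgroup.mem_subgroupOf.mpr ⟨γ, hmem, hγ⟩)

/-- There is a point of `ℍ` at which all translates of `wN N` take pairwise distinct values. -/
theorem exists_injective_quotientFunc_wN (N : ℕ) [NeZero N] :
    ∃ τ : ℍ, Function.Injective (fun q ↦ SlashInvariantForm.quotientFunc
      (𝒢 := (Gamma0 N : Subgroup (GL (Fin 2) ℝ))) (ℋ := 𝒮ℒ) (wN N) q τ) := by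
  classical
  let 𝒬 := ↥𝒮ℒ ⧸ (Gamma0 N : Subgroup (GL (Fin 2) ℝ)).subgroupOf 𝒮ℒ
  let _ : Fintype 𝒬 := Fintype.ofFinite 𝒬
  let a : 𝒬 → ℍ → ℂ := SlashInvariantForm.quotientFunc
      (𝒢 := (Gamma0 N : Subgroup (GL (Fin 2) ℝ))) (ℋ := 𝒮ℒ) (wN N)
  have hholo : ∀ q : 𝒬, MDiff (a q) :=
    Quotient.forall.mpr fun r ↦ (ModularForm.translate (wN N) r.val⁻¹).holo'
  by_contra hcon
  simp only [not_exists, Function.Injective] at hcon
  have hprod : ∏ p ∈ (Finset.univ : Finset 𝒬).offDiag, (a p.1 - a p.2) = 0 := by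
    funext τ
    rw [Finset.prod_apply, Pi.zero_apply, Finset.prod_eq_zero_iff]
    have := hcon τ
    push Not at this
    obtain ⟨q, q', hqq, hne⟩ := this
    exact ⟨(q, q'), by simp [hne], by simp [a, hqq]⟩
  rw [UpperHalfPlane.prod_eq_zero_iff (fun p _ ↦ (hholo p.1).sub (hholo p.2))] at hprod
  obtain ⟨⟨q, q'⟩, hp, h0⟩ := hprod
  rw [Finset.mem_offDiag] at hp
  exact hp.2.2 (quotientFunc_wN_injective N (sub_eq_zero.mp h0))

/-! ### The `q`-expansion of the primitive element -/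

theorem coe_gN_smul (N : ℕ) [NeZero N] (τ : ℍ) : ((gN N • τ : ℍ) : ℂ) = N * τ := by
  have hdet : 0 < (gN N).det.val := by
    rw [gN, tri_det]; simp; exact Nat.pos_of_ne_zero (NeZero.ne N)
  rw [coe_smul_of_det_pos hdet]
  simp [num, denom, gN, tri, GeneralLinearGroup.mkOfDetNeZero]

theorem wFun_apply (N : ℕ) [NeZero N] (τ : ℍ) : wFun N τ = (N : ℂ) ^ 3 * E₄ (gN N • τ) := by
  rw [wFun, gN, slash_tri_apply]
  norm_num
  ring

theorem hasSum_wFun (N : ℕ) [NeZero N] (τ : ℍ) :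
    HasSum (fun m : ℕ ↦ (if N ∣ m then (N : ℂ) ^ 3 *
        (qExpansion 1 (E₄ : ℍ → ℂ)).coeff (m / N) else 0) •
      Function.Periodic.qParam 1 τ ^ m) (wFun N τ) := by
  have hN : N ≠ 0 := NeZero.ne N
  have h1 := ModularForm.hasSum_qExpansion (h := 1) E₄ one_pos (by simp) (gN N • τ)
  have hq : Function.Periodic.qParam 1 ((gN N • τ : ℍ) : ℂ) =
      Function.Periodic.qParam 1 (τ : ℂ) ^ N := by
    rw [coe_gN_smul]
    simp only [Function.Periodic.qParam]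
    rw [← Complex.exp_nat_mul]
    congr 1
    ring
  rw [hq] at h1
  have h2 := h1.mul_left ((N : ℂ) ^ 3)
  rw [← wFun_apply] at h2
  have hinj : Function.Injective (fun n : ℕ ↦ N * n) :=
    fun a b h ↦ Nat.eq_of_mul_eq_mul_left (Nat.pos_of_ne_zero hN) h
  rw [← hinj.hasSum_iff]
  · have hfun : ((fun m : ℕ ↦ (if N ∣ m then (N : ℂ) ^ 3 *
          (qExpansion 1 (E₄ : ℍ → ℂ)).coeff (m / N) else 0) •
          Function.Periodic.qParam 1 τ ^ m) ∘ fun n : ℕ ↦ N * n) =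
        fun i ↦ (N : ℂ) ^ 3 * ((qExpansion 1 (E₄ : ℍ → ℂ)).coeff i *
          (Function.Periodic.qParam 1 (τ : ℂ) ^ N) ^ i) := by
      funext n
      simp only [Function.comp, dvd_mul_right, if_true,
        Nat.mul_div_cancel_left _ (Nat.pos_of_ne_zero hN), smul_eq_mul]
      rw [pow_mul]
      ring
    rw [hfun]
    exact h2
  · intro m hm
    have : ¬ N ∣ m := by
      rintro ⟨n, rfl⟩
      exact hm ⟨n, rfl⟩
    simp [this]

/-- The `q`-expansion of `wN N` is that of `N^3 * E₄` with `q` replaced by `q^N`. -/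
theorem qExpansion_wN_coeff (N : ℕ) [NeZero N] (m : ℕ) :
    (qExpansion 1 (wN N)).coeff m =
      if N ∣ m then (N : ℂ) ^ 3 * (qExpansion 1 (E₄ : ℍ → ℂ)).coeff (m / N) else 0 :=
  (ModularFormClass.qExpansion_coeff_unique one_pos
    (CongruenceSubgroup.one_mem_strictPeriods_Gamma0 N) (f := wN N) (hasSum_wFun N) m).symm

/-- The `q`-expansion coefficients of `E₄` are the integers `1, 240 σ₃(m)`. -/
theorem qExpansion_E₄_coeff (m : ℕ) :
    (qExpansion 1 (E₄ : ℍ → ℂ)).coeff m =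
      ((if m = 0 then 1 else 240 * (ArithmeticFunction.sigma 3 m : ℤ) : ℤ) : ℂ) := by
  have hb : bernoulli 4 = -1 / 30 := by
    rw [bernoulli_eq_bernoulli'_of_ne_one (by norm_num), bernoulli'_four]
  rw [EisensteinSeries.E_qExpansion_coeff (k := 4) (by norm_num) ⟨2, rfl⟩ m]
  split_ifs with h
  · simp
  · rw [hb]
    push_cast
    norm_num

/-- The `q`-expansion of `wN N` has integer coefficients. -/
theorem qExpansion_wN_int (N : ℕ) [NeZero N] :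
    ∃ p : PowerSeries ℤ, qExpansion 1 (wN N) = p.map (Int.castRingHom ℂ) := by
  refine ⟨PowerSeries.mk fun m ↦ if N ∣ m then (N : ℤ) ^ 3 *
    (if m / N = 0 then 1 else 240 * (ArithmeticFunction.sigma 3 (m / N) : ℤ)) else 0, ?_⟩
  ext m
  rw [qExpansion_wN_coeff, PowerSeries.coeff_map, PowerSeries.coeff_mk]
  split_ifs with h1 h2
  · rw [qExpansion_E₄_coeff, if_pos h2]; simp
  · rw [qExpansion_E₄_coeff, if_neg h2]; simp
  · simp

end Fermat.Agent.S23.helper143
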