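import Mathlib

/-!
# The fixed field of the ring automorphisms of `ℂ` is `ℚ`

Main result `Fermat.Agent.S23.helper206.stmt_FF`:
`∀ c : ℂ, (∀ σ : ℂ ≃+* ℂ, σ c = c) → ∃ r : ℚ, (r : ℂ) = c`.
-/

set_option autoImplicit false

namespace Fermat.Agent.S23.helper206

open MvPolynomial

/-- A ring automorphism of `Algebra.adjoin R (range v)`, for `v` a transcendence basis of the
algebraically closed field `K` over `R`, extends to a ring automorphism of `K`. -/
theorem exists_ringEquiv_extending {R K ι : Type*} [CommRing R] [Field K] [Algebra R K]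
    [IsAlgClosed K] (v : ι → K) (hv : IsTranscendenceBasis R v)
    (e : Algebra.adjoin R (Set.range v) ≃+* Algebra.adjoin R (Set.range v)) :
    ∃ σ : K ≃+* K, ∀ a : Algebra.adjoin R (Set.range v), σ (a : K) = (e a : K) := by
  have := IsAlgClosed.isAlgClosure_of_transcendence_basis v hv
  exact ⟨IsAlgClosure.equivOfEquiv K K e, fun a => IsAlgClosure.equivOfEquiv_algebraMap K K e a⟩

/-- The "shift one variable" automorphism of a polynomial ring. -/
noncomputable def shiftEquiv {ι : Type*} (R : Type*) [CommRing R] [DecidableEq ι] (i₀ : ι) :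
    MvPolynomial ι R ≃ₐ[R] MvPolynomial ι R :=
  AlgEquiv.ofAlgHom
    (aeval fun i => if i = i₀ then X i + 1 else X i)
    (aeval fun i => if i = i₀ then X i - 1 else X i)
    (by
      ext i
      by_cases h : i = i₀ <;> simp [h])
    (by
      ext i
      by_cases h : i = i₀ <;> simp [h])

theorem shiftEquiv_X {ι : Type*} (R : Type*) [CommRing R] [DecidableEq ι] (i₀ : ι) :
    shiftEquiv R i₀ (X i₀) = X i₀ + 1 := by
  simp [shiftEquiv]

/-- A transcendental element of an algebraically closed field is moved by some automorphism. -/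
theorem exists_ringEquiv_ne_of_transcendental {K : Type*} [Field K] [CharZero K] [IsAlgClosed K]
    (c : K) (hc : Transcendental ℚ c) : ∃ σ : K ≃+* K, σ c ≠ c := by
  classical
  have hs : AlgebraicIndepOn ℚ id ({c} : Set K) := by
    have : AlgebraicIndependent ℚ (fun i : ({c} : Set K) => id (i : K)) :=
      (algebraicIndependent_singleton_iff (⟨c, rfl⟩ : ({c} : Set K))).2 hc
    exact this
  obtain ⟨t, hct, ht⟩ := exists_isTranscendenceBasis_superset hs
  let i₀ : t := ⟨c, hct rfl⟩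
  let e₀ : MvPolynomial t ℚ ≃ₐ[ℚ] MvPolynomial t ℚ := shiftEquiv ℚ i₀
  let e : Algebra.adjoin ℚ (Set.range ((↑) : t → K)) ≃+*
      Algebra.adjoin ℚ (Set.range ((↑) : t → K)) :=
    (ht.1.aevalEquiv.symm.trans (e₀.trans ht.1.aevalEquiv)).toRingEquiv
  obtain ⟨σ, hσ⟩ := exists_ringEquiv_extending _ ht e
  refine ⟨σ, ?_⟩
  have h1 : ((ht.1.aevalEquiv (X i₀) : Algebra.adjoin ℚ (Set.range ((↑) : t → K))) : K) = c := by
    simp [i₀]
  have h2 : ((e (ht.1.aevalEquiv (X i₀)) : Algebra.adjoin ℚ (Set.range ((↑) : t → K))) : K)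
      = c + 1 := by
    simp [e, e₀, shiftEquiv_X, i₀]
  have h3 := hσ (ht.1.aevalEquiv (X i₀))
  rw [h1, h2] at h3
  rw [h3]
  simp

/-- The algebraic closure of `ℚ` inside an algebraically closed field of characteristic zero is
Galois over `ℚ` (for the default `ℚ`-algebra structure). -/
theorem isGalois_algebraicClosure_rat {K : Type*} [Field K] [CharZero K] [IsAlgClosed K] :
    IsGalois ℚ (algebraicClosure ℚ K) := by
  have h1 := algebraicClosure.isAlgClosure (F := ℚ) (E := K)
  have h0 : ((algebraicClosure ℚ K).algebra' : Algebra ℚ (algebraicClosure ℚ K)) =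
      DivisionRing.toRatAlgebra := Subsingleton.elim _ _
  rw [h0] at h1
  infer_instance

/-- An algebraic, non-rational element of an algebraically closed field of characteristic zero
is moved by some automorphism. -/
theorem exists_ringEquiv_ne_of_isAlgebraic {K : Type*} [Field K] [CharZero K] [IsAlgClosed K]
    (c : K) (hc : IsAlgebraic ℚ c) (hcQ : c ∉ Set.range (algebraMap ℚ K)) :
    ∃ σ : K ≃+* K, σ c ≠ c := by
  classical
  let Qb : IntermediateField ℚ K := algebraicClosure ℚ K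
  have hcQb : c ∈ Qb := mem_algebraicClosure_iff.2 hc
  have hGal : IsGalois ℚ Qb := isGalois_algebraicClosure_rat
  have hnot : (⟨c, hcQb⟩ : Qb) ∉ (⊥ : IntermediateField ℚ Qb) := by
    intro h
    rw [IntermediateField.mem_bot] at h
    obtain ⟨r, hr⟩ := h
    apply hcQ
    refine ⟨r, ?_⟩
    have := congrArg (fun x : Qb => (x : K)) hr
    simpa using this
  rw [InfiniteGalois.mem_bot_iff_fixed] at hnot
  push Not at hnot
  obtain ⟨τ, hτ⟩ := hnot
  obtain ⟨ι, w, hw⟩ := exists_isTranscendenceBasis' Qb K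
  let e₀ : MvPolynomial ι Qb ≃+* MvPolynomial ι Qb := MvPolynomial.mapEquiv ι τ.toRingEquiv
  let e : Algebra.adjoin Qb (Set.range w) ≃+* Algebra.adjoin Qb (Set.range w) :=
    (hw.1.aevalEquiv.symm.toRingEquiv.trans (e₀.trans hw.1.aevalEquiv.toRingEquiv))
  obtain ⟨σ, hσ⟩ := exists_ringEquiv_extending w hw e
  refine ⟨σ, ?_⟩
  have h1 : ((hw.1.aevalEquiv (C (⟨c, hcQb⟩ : Qb)) : Algebra.adjoin Qb (Set.range w)) : K) = c := by
    simp
  have h2 : ((e (hw.1.aevalEquiv (C (⟨c, hcQb⟩ : Qb))) : Algebra.adjoin Qb (Set.range w)) : K)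
      = ((τ ⟨c, hcQb⟩ : Qb) : K) := by
    simp [e, e₀]
  have h3 := hσ (hw.1.aevalEquiv (C (⟨c, hcQb⟩ : Qb)))
  rw [h1, h2] at h3
  rw [h3]
  intro h
  exact hτ (Subtype.ext h)

/-- **Stmt_FF**: the fixed field of the group of ring automorphisms of `ℂ` is `ℚ`. -/
theorem stmt_FF : ∀ c : ℂ, (∀ σ : ℂ ≃+* ℂ, σ c = c) → ∃ r : ℚ, (r : ℂ) = c := by
  intro c hfix
  by_contra hne
  have hcQ : c ∉ Set.range (algebraMap ℚ ℂ) := by
    rintro ⟨r, hr⟩
    exact hne ⟨r, by rw [← hr]; simp⟩
  by_cases hc : IsAlgebraic ℚ c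
  · obtain ⟨σ, hσ⟩ := exists_ringEquiv_ne_of_isAlgebraic c hc hcQ
    exact hσ (hfix σ)
  · obtain ⟨σ, hσ⟩ := exists_ringEquiv_ne_of_transcendental c hc
    exact hσ (hfix σ)

end Fermat.Agent.S23.helper206
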