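import Mathlib
import Fermat.Prelude.Def_CuspForm_IntegralStructure

/-!
# S23 top-level interface (helper263)

Hypothesis-passing spec for `CuspForm.HasIntegralStructure N k` (S23 is the case `k = 2`;
every weight is needed for S22).

* `Stmt_FF`       : the fixed field of the ring automorphisms of `ℂ` is `ℚ`.
* `Stmt_Conj N k` : coefficientwise conjugates of weight `k` cusp forms on `Γ₀(N)` are again
  such forms.
* `Stmt_BD N k`   : a weight `k` cusp form on `Γ₀(N)` with rational `q`-coefficients has bounded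
  denominators.

`helper263_Assembly.lean` proves
`Stmt_FF → Stmt_Conj N k → Stmt_BD N k → CuspForm.HasIntegralStructure N k`.
-/

set_option autoImplicit false

namespace Fermat.Agent.S23.helper263

/-- The only complex numbers fixed by every ring automorphism of `ℂ` are the rationals. -/
def Stmt_FF : Prop :=
  ∀ c : ℂ, (∀ σ : ℂ ≃+* ℂ, σ c = c) → ∃ r : ℚ, (r : ℂ) = c

/-- Coefficientwise conjugation by a ring automorphism of `ℂ` preserves `S_k(Γ₀(N))`. -/
def Stmt_Conj (N : ℕ) (k : ℤ) : Prop :=
  ∀ (f : CuspForm (CongruenceSubgroup.Gamma0 N) k) (σ : ℂ ≃+* ℂ),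
    ∃ g : CuspForm (CongruenceSubgroup.Gamma0 N) k,
      ∀ n : ℕ, ModularFormClass.qCoeff g n = σ (ModularFormClass.qCoeff f n)

/-- Bounded denominators: a form in `S_k(Γ₀(N))` with rational `q`-coefficients has a nonzero
integer multiple with integral `q`-coefficients. -/
def Stmt_BD (N : ℕ) (k : ℤ) : Prop :=
  ∀ f : CuspForm (CongruenceSubgroup.Gamma0 N) k,
    (∀ n : ℕ, ∃ r : ℚ, ModularFormClass.qCoeff f n = (r : ℂ)) →
      ∃ D : ℕ, D ≠ 0 ∧ ∀ n : ℕ, ∃ m : ℤ, (D : ℂ) * ModularFormClass.qCoeff f n = (m : ℂ)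

end Fermat.Agent.S23.helper263
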