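import Mathlib
import Fermat.Prelude.Def_CuspForm_IntegralStructure
import Fermat.Prelude.Thm_CuspForm_intLattice_fg
import Fermat.Agent.S23.helper263_Spec

/-!
# S23 assembly (helper263)

`assembly : Stmt_FF → Stmt_Conj N k → Stmt_BD N k → CuspForm.HasIntegralStructure N k`
(`assembly_two` is the case `k = 2`, which is S23).

Pure linear algebra on top of the Sturm bound (Prelude): the truncated coefficient map
`S_k(Γ₀(N)) → ℂ^(B+1)` is injective and its image is stable under coordinatewise ring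
automorphisms of `ℂ`; a minimal-support argument shows the image is spanned by rational vectors.
-/

set_option autoImplicit false

namespace Fermat.Agent.S23.helper263

open ModularFormClass

local notation "Γ₀(" N ")" => CongruenceSubgroup.Gamma0 N

/-- Galois descent in coordinates: a subspace of `ℂ^m` stable under all coordinatewise ring
automorphisms of `ℂ` is spanned by its vectors with rational coordinates. -/
theorem descent_fin (hFF : Stmt_FF) {m : ℕ} (W : Submodule ℂ (Fin m → ℂ))
    (hW : ∀ (σ : ℂ ≃+* ℂ) (w : Fin m → ℂ), w ∈ W → (fun i => σ (w i)) ∈ W) :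
    ∀ w ∈ W, w ∈ Submodule.span ℂ {u : Fin m → ℂ | u ∈ W ∧ ∀ i, ∃ r : ℚ, u i = (r : ℂ)} := by
  classical
  set S : Set (Fin m → ℂ) := {u | u ∈ W ∧ ∀ i, ∃ r : ℚ, u i = (r : ℂ)} with hS
  suffices H : ∀ n : ℕ, ∀ w ∈ W, (Finset.univ.filter (fun i => w i ≠ 0)).card ≤ n →
      w ∈ Submodule.span ℂ S from fun w hw => H _ w hw le_rfl
  intro n
  induction n with
  | zero =>
    intro w hw hcard
    have hw0 : w = 0 := by
      funext i
      by_contra hi
      have hmem : i ∈ Finset.univ.filter (fun i => w i ≠ 0) := by simpa using hi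
      have := Finset.card_pos.mpr ⟨i, hmem⟩
      omega
    rw [hw0]; exact Submodule.zero_mem _
  | succ n ih =>
    intro w hw hcard
    by_cases hw0 : w = 0
    · rw [hw0]; exact Submodule.zero_mem _
    let supp : (Fin m → ℂ) → Finset (Fin m) := fun v => Finset.univ.filter (fun i => v i ≠ 0)
    have hsupp : ∀ (v : Fin m → ℂ) (i : Fin m), i ∈ supp v ↔ v i ≠ 0 := by
      intro v i; simp [supp]
    have hex : ∃ c : ℕ, ∃ w' ∈ W, w' ≠ 0 ∧ supp w' ⊆ supp w ∧ (supp w').card = c :=
      ⟨_, w, hw, hw0, Finset.Subset.refl _, rfl⟩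
    obtain ⟨w', hw', hw'0, hsub, hc⟩ := Nat.find_spec hex
    have hmin : ∀ v ∈ W, v ≠ 0 → supp v ⊆ supp w → (supp w').card ≤ (supp v).card := by
      intro v hv hv0 hvs
      rw [hc]
      exact Nat.find_min' hex ⟨v, hv, hv0, hvs, rfl⟩
    obtain ⟨i₀, hi₀⟩ : ∃ i, w' i ≠ 0 := by
      by_contra h
      exact hw'0 (funext fun i => not_not.mp fun hi => h ⟨i, hi⟩)
    set u : Fin m → ℂ := (w' i₀)⁻¹ • w' with hu
    have huW : u ∈ W := W.smul_mem _ hw'
    have hu_i₀ : u i₀ = 1 := by simp [hu, hi₀]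
    have hsupp_u : supp u = supp w' := by
      ext i
      rw [hsupp, hsupp]
      simp [hu, hi₀]
    have hfix : ∀ σ : ℂ ≃+* ℂ, (fun i => σ (u i)) = u := by
      intro σ
      by_contra hne
      set v : Fin m → ℂ := (fun i => σ (u i)) - u with hv
      have hvW : v ∈ W := W.sub_mem (hW σ u huW) huW
      have hv0 : v ≠ 0 := fun h => hne (sub_eq_zero.mp h)
      have hvsub : supp v ⊆ (supp u).erase i₀ := by
        intro i hi
        rw [hsupp] at hi
        rw [Finset.mem_erase, hsupp]
        constructor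
        · rintro rfl
          apply hi
          simp [hv, hu_i₀]
        · intro hui
          apply hi
          simp [hv, hui]
      have h1 : (supp v).card < (supp u).card :=
        lt_of_le_of_lt (Finset.card_le_card hvsub)
          (Finset.card_erase_lt_of_mem ((hsupp u i₀).mpr (by simp [hu_i₀])))
      have h2 := hmin v hvW hv0
        ((hvsub.trans (Finset.erase_subset _ _)).trans (hsupp_u ▸ hsub))
      rw [hsupp_u] at h1
      omega
    have huS : u ∈ S := by
      refine ⟨huW, fun i => ?_⟩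
      obtain ⟨r, hr⟩ := hFF (u i) (fun σ => congrFun (hfix σ) i)
      exact ⟨r, hr.symm⟩
    set w'' : Fin m → ℂ := w - (w i₀) • u with hw''
    have hw''W : w'' ∈ W := W.sub_mem hw (W.smul_mem _ huW)
    have hi₀w : i₀ ∈ supp w := hsub ((hsupp w' i₀).mpr hi₀)
    have hsub'' : supp w'' ⊆ (supp w).erase i₀ := by
      intro i hi
      rw [hsupp] at hi
      rw [Finset.mem_erase, hsupp]
      constructor
      · rintro rfl
        apply hi
        simp [hw'', hu_i₀]
      · intro hwi
        apply hi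
        have hui : u i = 0 := by
          by_contra hui
          have h3 : i ∈ supp u := (hsupp u i).mpr hui
          rw [hsupp_u] at h3
          exact (hsupp w i).mp (hsub h3) hwi
        simp [hw'', hwi, hui]
    have hcard'' : (supp w'').card ≤ n := by
      have h4 : (supp w'').card < (supp w).card :=
        lt_of_le_of_lt (Finset.card_le_card hsub'') (Finset.card_erase_lt_of_mem hi₀w)
      have h5 : (supp w).card ≤ n + 1 := hcard
      omega
    have h1 := ih w'' hw''W hcard''
    have hdecomp : w = w'' + (w i₀) • u := by simp [hw'']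
    rw [hdecomp]
    exact Submodule.add_mem _ h1 (Submodule.smul_mem _ _ (Submodule.subset_span huS))

theorem qCoeff_add' {N : ℕ} {k : ℤ} (f g : CuspForm Γ₀(N) k) (n : ℕ) :
    qCoeff ⇑(f + g) n = qCoeff ⇑f n + qCoeff ⇑g n :=
  P2MW.S_CuspForm_intLattice_fg.W3WsD.qCoeff_add f g n

theorem qCoeff_smul' {N : ℕ} {k : ℤ} (c : ℂ) (f : CuspForm Γ₀(N) k) (n : ℕ) :
    qCoeff ⇑(c • f) n = c * qCoeff ⇑f n := by
  have h1 : ⇑(c • f) = c • ⇑f := rfl
  simp only [qCoeff, h1]
  rw [ModularForm.qExpansion_smul one_pos (P2MW.S_CuspForm_intLattice_fg.W3WsD.hΓ N) c f]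
  simp

/-- The truncated coefficient map, as a `ℂ`-linear map. -/
noncomputable def truncC (N : ℕ) (k : ℤ) (B : ℕ) :
    CuspForm Γ₀(N) k →ₗ[ℂ] (Fin (B + 1) → ℂ) where
  toFun f i := qCoeff ⇑f i
  map_add' f g := by funext i; exact qCoeff_add' f g i
  map_smul' c f := by
    funext i
    simp only [RingHom.id_apply, Pi.smul_apply, smul_eq_mul]
    exact qCoeff_smul' c f i

theorem truncC_injective (N : ℕ) [NeZero N] (k : ℤ) :
    Function.Injective (truncC N k (P2MW.S_CuspForm_intLattice_fg.W3WsD.sturmB N k)) := by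
  intro f g hfg
  apply P2MW.S_CuspForm_intLattice_fg.W3WsD.trunc_injective N k
  funext i
  exact congrFun hfg i

/-- **Assembly** (all weights). -/
theorem assembly (N : ℕ) [NeZero N] (k : ℤ) (hFF : Stmt_FF) (hC : Stmt_Conj N k)
    (hBD : Stmt_BD N k) : CuspForm.HasIntegralStructure N k := by
  classical
  unfold CuspForm.HasIntegralStructure
  rw [eq_top_iff]
  intro f _
  set B := P2MW.S_CuspForm_intLattice_fg.W3WsD.sturmB N k with hB
  set L : Submodule ℂ (CuspForm Γ₀(N) k) :=
    Submodule.span ℂ (CuspForm.intLattice N k : Set (CuspForm Γ₀(N) k)) with hL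
  have hτinj : Function.Injective (truncC N k B) := truncC_injective N k
  have hW : ∀ (σ : ℂ ≃+* ℂ) (w : Fin (B + 1) → ℂ), w ∈ LinearMap.range (truncC N k B) →
      (fun i => σ (w i)) ∈ LinearMap.range (truncC N k B) := by
    rintro σ _ ⟨h, rfl⟩
    obtain ⟨g, hg⟩ := hC h σ
    exact ⟨g, funext fun i => hg i⟩
  have key := descent_fin hFF (LinearMap.range (truncC N k B)) hW (truncC N k B f) ⟨f, rfl⟩
  have hS : {u : Fin (B + 1) → ℂ | u ∈ LinearMap.range (truncC N k B) ∧
      ∀ i, ∃ r : ℚ, u i = (r : ℂ)} ⊆ (L.map (truncC N k B) : Set (Fin (B + 1) → ℂ)) := by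
    rintro u ⟨⟨h, rfl⟩, hrat⟩
    refine ⟨h, ?_, rfl⟩
    have hall : ∀ n : ℕ, ∃ r : ℚ, qCoeff ⇑h n = (r : ℂ) := by
      intro n
      have hfix : ∀ σ : ℂ ≃+* ℂ, σ (qCoeff ⇑h n) = qCoeff ⇑h n := by
        intro σ
        obtain ⟨g, hg⟩ := hC h σ
        have hgh : g = h := by
          apply hτinj
          funext i
          show qCoeff ⇑g i = qCoeff ⇑h i
          rw [hg]
          obtain ⟨r, hr⟩ := hrat i
          have hr' : qCoeff ⇑h i = (r : ℂ) := hr
          rw [hr']
          simp
        rw [← hg, hgh]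
      obtain ⟨r, hr⟩ := hFF _ hfix
      exact ⟨r, hr.symm⟩
    obtain ⟨D, hD0, hD⟩ := hBD h hall
    have hmem : (D : ℂ) • h ∈ CuspForm.intLattice N k := by
      rw [P2MW.S_CuspForm_intLattice_fg.W3WsD.mem_intLattice_iff]
      intro n
      obtain ⟨m, hm⟩ := hD n
      exact ⟨m, by rw [qCoeff_smul', hm]⟩
    have hh : h = ((D : ℂ)⁻¹) • ((D : ℂ) • h) := by
      rw [smul_smul, inv_mul_cancel₀ (Nat.cast_ne_zero.mpr hD0), one_smul]
    show h ∈ L
    rw [hh]
    exact Submodule.smul_mem _ _ (Submodule.subset_span hmem)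
  have hmemL : truncC N k B f ∈ L.map (truncC N k B) := Submodule.span_le.mpr hS key
  obtain ⟨f', hf', hff'⟩ := hmemL
  rwa [← hτinj hff']

/-- **Assembly for S23** (weight 2). -/
theorem assembly_two (N : ℕ) [NeZero N] (hFF : Stmt_FF) (hC : Stmt_Conj N 2)
    (hBD : Stmt_BD N 2) : CuspForm.HasIntegralStructure N 2 :=
  assembly N 2 hFF hC hBD

end Fermat.Agent.S23.helper263
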