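import Mathlib

set_option autoImplicit false
set_option linter.unusedSectionVars false

namespace Fermat.Agent.S23.helper563

open UpperHalfPlane ModularForm MatrixGroups SlashInvariantForm
open scoped Manifold

noncomputable section

/-- `F` is the underlying function of a modular form of weight `k` for `Γ`. -/
def IsMF (Γ : Subgroup (GL (Fin 2) ℝ)) (k : ℤ) (F : ℍ → ℂ) : Prop :=
  ∃ f : ModularForm Γ k, ⇑f = F

namespace IsMF

variable {Γ : Subgroup (GL (Fin 2) ℝ)} {k k' : ℤ} {F G : ℍ → ℂ}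

lemma coe (f : ModularForm Γ k) : IsMF Γ k ⇑f := ⟨f, rfl⟩

lemma cast (h : k = k') (hF : IsMF Γ k F) : IsMF Γ k' F := h ▸ hF

lemma zero : IsMF Γ k 0 := ⟨0, rfl⟩

lemma add (hF : IsMF Γ k F) (hG : IsMF Γ k G) : IsMF Γ k (F + G) := by
  obtain ⟨f, rfl⟩ := hF
  obtain ⟨g, rfl⟩ := hG
  exact ⟨f + g, rfl⟩

lemma neg (hF : IsMF Γ k F) : IsMF Γ k (-F) := by
  obtain ⟨f, rfl⟩ := hF
  exact ⟨-f, rfl⟩

lemma sub (hF : IsMF Γ k F) (hG : IsMF Γ k G) : IsMF Γ k (F - G) := by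
  obtain ⟨f, rfl⟩ := hF
  obtain ⟨g, rfl⟩ := hG
  exact ⟨f - g, rfl⟩

lemma mul [Γ.HasDetPlusMinusOne] {k₁ k₂ : ℤ} (hF : IsMF Γ k₁ F) (hG : IsMF Γ k₂ G) :
    IsMF Γ (k₁ + k₂) (F * G) := by
  obtain ⟨f, rfl⟩ := hF
  obtain ⟨g, rfl⟩ := hG
  exact ⟨f.mul g, rfl⟩

lemma one [Γ.HasDetPlusMinusOne] : IsMF Γ 0 1 := ⟨1, ModularForm.one_coe_eq_one⟩

lemma pow [Γ.HasDetPlusMinusOne] (hF : IsMF Γ k F) (n : ℕ) : IsMF Γ (n * k) (F ^ n) := by
  obtain ⟨f, rfl⟩ := hF
  exact ⟨f.pow n, coe_pow f n⟩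

lemma sum {ι : Type*} (s : Finset ι) {F : ι → ℍ → ℂ} (h : ∀ i ∈ s, IsMF Γ k (F i)) :
    IsMF Γ k (∑ i ∈ s, F i) := by
  classical
  induction s using Finset.induction_on with
  | empty => simpa using zero
  | insert i t hi IH =>
    rw [Finset.sum_insert hi]
    exact (h i (Finset.mem_insert_self i t)).add
      (IH fun j hj => h j (Finset.mem_insert_of_mem hj))

lemma prod [Γ.HasDetPlusMinusOne] {ι : Type*} (s : Finset ι) {κ : ι → ℤ} {F : ι → ℍ → ℂ}
    (h : ∀ i ∈ s, IsMF Γ (κ i) (F i)) : IsMF Γ (∑ i ∈ s, κ i) (∏ i ∈ s, F i) := by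
  classical
  induction s using Finset.induction_on with
  | empty => simpa using one
  | insert i t hi IH =>
    rw [Finset.sum_insert hi, Finset.prod_insert hi]
    exact (h i (Finset.mem_insert_self i t)).mul
      (IH fun j hj => h j (Finset.mem_insert_of_mem hj))

lemma det [Γ.HasDetPlusMinusOne] {n : Type*} [Fintype n] [DecidableEq n]
    (M : Matrix n n (ℍ → ℂ)) (a b : n → ℤ) (h : ∀ i j, IsMF Γ (a i + b j) (M i j)) :
    IsMF Γ (∑ i, a i + ∑ j, b j) M.det := by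
  rw [Matrix.det_apply]
  refine sum _ fun σ _ => ?_
  have h1 : IsMF Γ (∑ i, a i + ∑ j, b j) (∏ i, M (σ i) i) := by
    refine (prod Finset.univ (κ := fun i => a (σ i) + b i) fun i _ => h (σ i) i).cast ?_
    rw [Finset.sum_add_distrib, Equiv.sum_comp σ a]
  rcases Int.units_eq_one_or (Equiv.Perm.sign σ) with hs | hs
  · simpa [hs] using h1
  · simpa [hs] using h1.neg

end IsMF

section translates

variable {𝒢 : Subgroup (GL (Fin 2) ℝ)} [𝒢.IsFiniteRelIndex 𝒮ℒ] [𝒢.HasDetPlusMinusOne]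

local notation "𝒬" => 𝒮ℒ ⧸ (𝒢.subgroupOf 𝒮ℒ)

lemma slash_mul_of_mem {k₁ k₂ : ℤ} (F G : ℍ → ℂ) {A : GL (Fin 2) ℝ} (hA : A ∈ 𝒮ℒ) :
    (F * G) ∣[k₁ + k₂] A = (F ∣[k₁] A) * (G ∣[k₂] A) := by
  rw [ModularForm.mul_slash, Subgroup.HasDetPlusMinusOne.abs_det hA, one_smul]

lemma slash_pow_of_mem {k : ℤ} (F : ℍ → ℂ) {A : GL (Fin 2) ℝ} (hA : A ∈ 𝒮ℒ) (n : ℕ) :
    (F ^ n) ∣[(n : ℤ) * k] A = (F ∣[k] A) ^ n := by
  induction n with
  | zero =>
    obtain ⟨γ, rfl⟩ := hA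
    have h := ModularForm.is_invariant_one γ
    rw [ModularForm.SL_slash] at h
    simp only [pow_zero, Nat.cast_zero, zero_mul]
    exact h
  | succ n ih =>
    rw [pow_succ, pow_succ, ← ih, ← slash_mul_of_mem _ _ hA]
    congr 1
    push_cast
    ring

lemma quotientFunc_mul {k₁ k₂ : ℤ} (f : ModularForm 𝒢 k₁) (g : ModularForm 𝒢 k₂) (q : 𝒬) :
    quotientFunc (f.mul g) q = quotientFunc f q * quotientFunc g q := by
  induction q using Quotient.inductionOn with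
  | h r =>
    simp only [quotientFunc_mk]
    exact slash_mul_of_mem _ _ (inv_mem r.2)

lemma quotientFunc_pow {k : ℤ} (f : ModularForm 𝒢 k) (n : ℕ) (q : 𝒬) :
    quotientFunc (f.pow n) q = quotientFunc f q ^ n := by
  induction q using Quotient.inductionOn with
  | h r =>
    simp only [quotientFunc_mk, coe_pow]
    exact slash_pow_of_mem _ (inv_mem r.2) n

lemma quotientFunc_one_coset {k : ℤ} (f : ModularForm 𝒢 k) :
    quotientFunc f (QuotientGroup.mk (1 : 𝒮ℒ) : 𝒬) = ⇑f := by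
  show quotientFunc f ⟦(1 : 𝒮ℒ)⟧ = _
  simp [quotientFunc_mk]

lemma mdiff_quotientFunc {k : ℤ} (f : ModularForm 𝒢 k) (q : 𝒬) :
    MDiff (quotientFunc f q) := by
  induction q using Quotient.inductionOn with
  | h r =>
    simp only [quotientFunc_mk]
    exact (ModularFormClass.holo f).slash k _

end translates

section hankel

variable {𝒢 : Subgroup (GL (Fin 2) ℝ)} [𝒢.IsFiniteRelIndex 𝒮ℒ] [𝒢.HasDetPlusMinusOne]

local notation "𝒬" => 𝒮ℒ ⧸ (𝒢.subgroupOf 𝒮ℒ)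

/-- power sums of the translates of `w` -/
def psum {l : ℤ} (w : ModularForm 𝒢 l) (m : ℕ) : ℍ → ℂ :=
  letI := Fintype.ofFinite 𝒬
  ∑ q : 𝒬, quotientFunc w q ^ m

/-- mixed power sums of the translates of `f` and `w` -/
def tsum {k l : ℤ} (f : ModularForm 𝒢 k) (w : ModularForm 𝒢 l) (i : ℕ) : ℍ → ℂ :=
  letI := Fintype.ofFinite 𝒬
  ∑ q : 𝒬, quotientFunc f q * quotientFunc w q ^ i

lemma isMF_psum {l : ℤ} (w : ModularForm 𝒢 l) (m : ℕ) : IsMF 𝒮ℒ ((m : ℤ) * l) (psum w m) := by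
  refine ⟨ModularForm.trace 𝒮ℒ (w.pow m), ?_⟩
  rw [ModularForm.coe_trace]
  unfold psum
  exact Finset.sum_congr rfl fun q _ => quotientFunc_pow w m q

lemma isMF_tsum {k l : ℤ} (f : ModularForm 𝒢 k) (w : ModularForm 𝒢 l) (i : ℕ) :
    IsMF 𝒮ℒ (k + (i : ℤ) * l) (tsum f w i) := by
  refine ⟨ModularForm.trace 𝒮ℒ (f.mul (w.pow i)), ?_⟩
  rw [ModularForm.coe_trace]
  unfold tsum
  refine Finset.sum_congr rfl fun q _ => ?_
  rw [quotientFunc_mul, quotientFunc_pow]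

/-- the Hankel matrix of power sums of the translates of `w`, as a matrix of functions -/
def hankelMat {l : ℤ} (w : ModularForm 𝒢 l) (μ : ℕ) : Matrix (Fin μ) (Fin μ) (ℍ → ℂ) :=
  Matrix.of fun i j => psum w ((i : ℕ) + (j : ℕ))

/-- the Hankel determinant (a level one form of weight `hankelWeight l μ`) -/
def hankelDet {l : ℤ} (w : ModularForm 𝒢 l) (μ : ℕ) : ℍ → ℂ := (hankelMat w μ).det

/-- the Cramer numerators -/
def hankelCoeff {k l : ℤ} (f : ModularForm 𝒢 k) (w : ModularForm 𝒢 l) (μ : ℕ) (j : Fin μ) :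
    ℍ → ℂ :=
  ((hankelMat w μ).updateCol j (fun i => tsum f w i)).det

/-- the weight of the Hankel determinant -/
def hankelWeight (l : ℤ) (μ : ℕ) : ℤ := ∑ i : Fin μ, (i : ℤ) * l + ∑ j : Fin μ, (j : ℤ) * l

lemma isMF_hankelDet {l : ℤ} (w : ModularForm 𝒢 l) (μ : ℕ) :
    IsMF 𝒮ℒ (hankelWeight l μ) (hankelDet w μ) :=
  IsMF.det (hankelMat w μ) (fun i : Fin μ => (i : ℤ) * l) (fun j : Fin μ => (j : ℤ) * l)
    (fun i j => (isMF_psum w ((i : ℕ) + (j : ℕ))).cast (by push_cast; ring))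

lemma isMF_hankelCoeff {k l : ℤ} (f : ModularForm 𝒢 k) (w : ModularForm 𝒢 l) (μ : ℕ)
    (j : Fin μ) : IsMF 𝒮ℒ (k + hankelWeight l μ - l * (j : ℤ)) (hankelCoeff f w μ j) := by
  classical
  have h := IsMF.det (Γ := 𝒮ℒ) ((hankelMat w μ).updateCol j (fun i => tsum f w i))
    (fun i : Fin μ => (i : ℤ) * l) (Function.update (fun j : Fin μ => (j : ℤ) * l) j k) ?_
  · refine h.cast ?_
    rw [Finset.sum_update_of_mem (Finset.mem_univ j)]
    have h2 := Finset.sum_sdiff (Finset.subset_univ ({j} : Finset (Fin μ)))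
      (f := fun j : Fin μ => (j : ℤ) * l)
    simp only [Finset.sum_singleton] at h2
    unfold hankelWeight
    linarith
  · intro i j'
    rw [Matrix.updateCol_apply, Function.update_apply]
    split_ifs with hj
    · exact (isMF_tsum f w i).cast (by ring)
    · exact (isMF_psum w ((i : ℕ) + (j' : ℕ))).cast (by push_cast; ring)

/-- pure linear algebra: `Vᵀ · cramer (V Vᵀ) (V b) = det (V Vᵀ) · b`. -/
lemma transpose_mulVec_cramer {n : Type*} [Fintype n] [DecidableEq n] {R : Type*} [CommRing R]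
    (V : Matrix n n R) (b : n → R) :
    V.transpose.mulVec (Matrix.cramer (V * V.transpose) (V.mulVec b)) =
      (V * V.transpose).det • b := by
  have h1 : V.transpose * V.transpose.adjugate * V.adjugate * V = (V * V.transpose).det • 1 := by
    rw [Matrix.mul_adjugate, Matrix.mul_assoc, Matrix.adjugate_mul, Matrix.det_mul,
      Matrix.det_transpose]
    simp [smul_smul]
  rw [Matrix.cramer_eq_adjugate_mulVec, Matrix.adjugate_mul_distrib, Matrix.mulVec_mulVec,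
    Matrix.mulVec_mulVec, ← Matrix.mul_assoc, h1]
  simp [Matrix.smul_mulVec]

theorem hankel_pointwise {k l : ℤ} (f : ModularForm 𝒢 k) (w : ModularForm 𝒢 l) (τ : ℍ) :
    hankelDet w (Nat.card 𝒬) τ * f τ =
      ∑ j : Fin (Nat.card 𝒬), hankelCoeff f w (Nat.card 𝒬) j τ * w τ ^ (j : ℕ) := by
  classical
  let _ := Fintype.ofFinite 𝒬
  let e : 𝒬 ≃ Fin (Nat.card 𝒬) := Finite.equivFin 𝒬
  let v : Fin (Nat.card 𝒬) → ℂ := fun j => quotientFunc w (e.symm j) τ
  let bv : Fin (Nat.card 𝒬) → ℂ := fun j => quotientFunc f (e.symm j) τ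
  let V : Matrix (Fin (Nat.card 𝒬)) (Fin (Nat.card 𝒬)) ℂ := Matrix.of fun i j => v j ^ (i : ℕ)
  let ev : (ℍ → ℂ) →+* ℂ := Pi.evalRingHom (fun _ => ℂ) τ
  have hH : ev.mapMatrix (hankelMat w (Nat.card 𝒬)) = V * V.transpose := by
    ext i j
    simp only [RingHom.mapMatrix_apply, Matrix.map_apply, hankelMat, Matrix.of_apply, psum,
      Matrix.mul_apply, Matrix.transpose_apply, V, v, ev, Pi.evalRingHom_apply,
      Finset.sum_apply, pow_add]
    exact (Equiv.sum_comp e.symm (fun q => quotientFunc w q τ ^ (i : ℕ) *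
      quotientFunc w q τ ^ (j : ℕ))).symm
  have hT : (fun i : Fin (Nat.card 𝒬) => ev (tsum f w i)) = V.mulVec bv := by
    ext i
    simp only [tsum, Matrix.mulVec, dotProduct, Matrix.of_apply, V, v, bv, ev,
      Pi.evalRingHom_apply, Finset.sum_apply, Pi.mul_apply, Pi.pow_apply]
    rw [← Equiv.sum_comp e.symm]
    exact Finset.sum_congr rfl fun j _ => mul_comm _ _
  have hD : hankelDet w (Nat.card 𝒬) τ = (V * V.transpose).det := by
    rw [← hH, ← RingHom.map_det]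
    rfl
  have hC : ∀ j, hankelCoeff f w (Nat.card 𝒬) j τ =
      Matrix.cramer (V * V.transpose) (V.mulVec bv) j := by
    intro j
    rw [Matrix.cramer_apply, ← hH, ← hT]
    show ev (Matrix.det _) = _
    rw [RingHom.map_det]
    congr 1
    ext i j'
    simp only [RingHom.mapMatrix_apply, Matrix.map_apply, Matrix.updateCol_apply]
    split_ifs <;> rfl
  have key := congrFun (transpose_mulVec_cramer V bv) (e (QuotientGroup.mk (1 : 𝒮ℒ)))
  simp only [Matrix.mulVec, dotProduct, Matrix.transpose_apply, Pi.smul_apply, smul_eq_mul,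
    Matrix.of_apply, V, v, bv, Equiv.symm_apply_apply, quotientFunc_one_coset] at key
  rw [hD, ← key]
  refine Finset.sum_congr rfl fun j _ => ?_
  rw [hC j, mul_comm]

theorem hankelDet_ne_zero {l : ℤ} (w : ModularForm 𝒢 l)
    (hw : Function.Injective (fun q : 𝒬 => quotientFunc w q)) :
    hankelDet w (Nat.card 𝒬) ≠ 0 := by
  classical
  let _ := Fintype.ofFinite 𝒬
  let e : 𝒬 ≃ Fin (Nat.card 𝒬) := Finite.equivFin 𝒬
  let a : Fin (Nat.card 𝒬) → ℍ → ℂ := fun j => quotientFunc w (e.symm j)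
  have hdet : hankelDet w (Nat.card 𝒬) = (∏ i, ∏ j ∈ Finset.Ioi i, (a j - a i)) ^ 2 := by
    rw [← Matrix.det_vandermonde, sq]
    nth_rewrite 1 [← Matrix.det_transpose (Matrix.vandermonde a)]
    rw [← Matrix.det_mul]
    unfold hankelDet
    congr 1
    ext i j : 1
    simp only [hankelMat, Matrix.of_apply, psum, Matrix.mul_apply, Matrix.transpose_apply,
      Matrix.vandermonde_apply, a, pow_add]
    exact (Equiv.sum_comp e.symm (fun q => quotientFunc w q ^ (i : ℕ) *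
      quotientFunc w q ^ (j : ℕ))).symm
  intro h0
  rw [hdet] at h0
  have h1 : (∏ i, ∏ j ∈ Finset.Ioi i, (a j - a i)) = 0 := pow_eq_zero_iff (two_ne_zero) |>.mp h0
  have hmd : ∀ j, MDiff (a j) := fun j => mdiff_quotientFunc w _
  rw [UpperHalfPlane.prod_eq_zero_iff (fun i _ => ?_)] at h1
  · obtain ⟨i, -, hi⟩ := h1
    rw [UpperHalfPlane.prod_eq_zero_iff (fun j _ => (hmd j).sub (hmd i))] at hi
    obtain ⟨j, hj, hij⟩ := hi
    have : e.symm j = e.symm i := hw (sub_eq_zero.mp hij)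
    exact (Finset.mem_Ioi.mp hj).ne' (e.symm.injective this)
  · exact MDifferentiable.prod (t := Finset.Ioi i) (f := fun j => a j - a i)
      (fun j _ => (hmd j).sub (hmd i))

/-- **Hankel/trace representation.** If the translates of `w` (a form of weight `l` for `𝒢`)
by the cosets of `𝒢` in `SL(2, ℤ)` are pairwise distinct functions, then there is a nonzero
level one form `D` (depending only on `w`) such that for every form `f` of weight `k` for `𝒢`
the product `D * f` is a polynomial in `w` of degree `< [SL(2, ℤ) : 𝒢]` whose coefficients are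
level one forms. -/
theorem hankel_rep_uniform {l : ℤ} (w : ModularForm 𝒢 l)
    (hw : Function.Injective (fun q : 𝒬 => quotientFunc w q)) :
    ∃ (m : ℤ) (D : ModularForm 𝒮ℒ m), D ≠ 0 ∧ ∀ {k : ℤ} (f : ModularForm 𝒢 k),
      ∃ c : (j : Fin (Nat.card 𝒬)) → ModularForm 𝒮ℒ (k + m - l * (j : ℤ)),
        ∀ τ, D τ * f τ = ∑ j, c j τ * w τ ^ (j : ℕ) := by
  obtain ⟨D, hD⟩ := isMF_hankelDet w (Nat.card 𝒬)
  refine ⟨hankelWeight l (Nat.card 𝒬), D, ?_, fun {k} f => ?_⟩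
  · intro h0
    apply hankelDet_ne_zero w hw
    rw [← hD, h0]
    rfl
  · choose c hc using fun j => isMF_hankelCoeff f w (Nat.card 𝒬) j
    refine ⟨c, fun τ => ?_⟩
    rw [hD, hankel_pointwise f w τ]
    exact Finset.sum_congr rfl fun j _ => by rw [hc j]

theorem hankel_rep {k l : ℤ} (f : ModularForm 𝒢 k) (w : ModularForm 𝒢 l)
    (hw : Function.Injective (fun q : 𝒬 => quotientFunc w q)) :
    ∃ (m : ℤ) (D : ModularForm 𝒮ℒ m), D ≠ 0 ∧
      ∃ c : (j : Fin (Nat.card 𝒬)) → ModularForm 𝒮ℒ (k + m - l * (j : ℤ)),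
        ∀ τ, D τ * f τ = ∑ j, c j τ * w τ ^ (j : ℕ) := by
  obtain ⟨m, D, hD, h⟩ := hankel_rep_uniform w hw
  exact ⟨m, D, hD, h f⟩

/-- cusp form version of `hankel_rep` (the function underlying a cusp form). -/
theorem hankel_rep_cusp {k l : ℤ} (f : CuspForm 𝒢 k) (w : ModularForm 𝒢 l)
    (hw : Function.Injective (fun q : 𝒬 => quotientFunc w q)) :
    ∃ (m : ℤ) (D : ModularForm 𝒮ℒ m), D ≠ 0 ∧
      ∃ c : (j : Fin (Nat.card 𝒬)) → ModularForm 𝒮ℒ (k + m - l * (j : ℤ)),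
        ∀ τ, D τ * f τ = ∑ j, c j τ * w τ ^ (j : ℕ) :=
  hankel_rep (ModularFormClass.modularForm f) w hw

end hankel

section Gamma0

open CongruenceSubgroup

/-- The instance of `hankel_rep_uniform` for `Γ₀(N)`. -/
theorem hankel_rep_Gamma0 (N : ℕ) [NeZero N] {l : ℤ} (w : ModularForm (Gamma0 N) l)
    (hw : Function.Injective
      (fun q : 𝒮ℒ ⧸ ((Gamma0 N : Subgroup (GL (Fin 2) ℝ)).subgroupOf 𝒮ℒ) => quotientFunc w q)) :
    ∃ (m : ℤ) (D : ModularForm 𝒮ℒ m), D ≠ 0 ∧ ∀ {k : ℤ} (f : ModularForm (Gamma0 N) k),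
      ∃ c : (j : Fin (Nat.card (𝒮ℒ ⧸ ((Gamma0 N : Subgroup (GL (Fin 2) ℝ)).subgroupOf 𝒮ℒ)))) →
          ModularForm 𝒮ℒ (k + m - l * (j : ℤ)),
        ∀ τ, D τ * f τ = ∑ j, c j τ * w τ ^ (j : ℕ) :=
  hankel_rep_uniform w hw

end Gamma0

end

end Fermat.Agent.S23.helper563
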