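import Mathlib

/-!
# Bounded denominators: the power-series core (helper732)

Let `intSpan` be the `ℂ`-span inside `ℂ⟦X⟧` of the power series with integer coefficients.

`bd_core`: if `F ∈ ℂ⟦X⟧` has rational coefficients, `F * E = G` with `E ≠ 0`, `E, G ∈ intSpan`,
and `F` is a root of a monic polynomial with coefficients in `intSpan`, then some nonzero
natural multiple of `F` has integer coefficients.

Proof: apply a `ℚ`-linear functional `ℂ → ℚ` coefficientwise (this is `ℚ⟦X⟧`-linear), which makes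
all data rational with bounded denominators, and then use that `ℤ⟦X⟧` is integrally closed.
-/

set_option autoImplicit false

namespace Fermat.Agent.S23.helper732

open PowerSeries

/-- The `ℂ`-span of the power series with integer coefficients. -/
def intSpan : Submodule ℂ (PowerSeries ℂ) :=
  Submodule.span ℂ (Set.range (PowerSeries.map (Int.castRingHom ℂ)))

/-- The `ℚ`-span of the power series with integer coefficients. -/
def intSpanQ : Submodule ℚ (PowerSeries ℚ) :=
  Submodule.span ℚ (Set.range (PowerSeries.map (Int.castRingHom ℚ)))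

theorem map_int_mem_intSpan (H : PowerSeries ℤ) :
    PowerSeries.map (Int.castRingHom ℂ) H ∈ intSpan :=
  Submodule.subset_span ⟨H, rfl⟩

theorem one_mem_intSpan : (1 : PowerSeries ℂ) ∈ intSpan := by
  have h := map_int_mem_intSpan 1
  rwa [map_one] at h

/-- `intSpan` is closed under multiplication. -/
theorem mul_mem_intSpan {A B : PowerSeries ℂ} (hA : A ∈ intSpan) (hB : B ∈ intSpan) :
    A * B ∈ intSpan := by
  induction hA using Submodule.span_induction with
  | mem x hx =>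
    obtain ⟨H, rfl⟩ := hx
    induction hB using Submodule.span_induction with
    | mem y hy =>
      obtain ⟨H', rfl⟩ := hy
      rw [← map_mul]
      exact map_int_mem_intSpan _
    | zero => simp
    | add y z _ _ hy hz => rw [mul_add]; exact intSpan.add_mem hy hz
    | smul a y _ hy => rw [mul_smul_comm]; exact intSpan.smul_mem a hy
  | zero => simp
  | add x y _ _ hx hy => rw [add_mul]; exact intSpan.add_mem hx hy
  | smul a x _ hx => rw [smul_mul_assoc]; exact intSpan.smul_mem a hx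

theorem pow_mem_intSpan {A : PowerSeries ℂ} (hA : A ∈ intSpan) (n : ℕ) : A ^ n ∈ intSpan := by
  induction n with
  | zero => rw [pow_zero]; exact one_mem_intSpan
  | succ n ih => rw [pow_succ]; exact mul_mem_intSpan ih hA

theorem sum_mem_intSpan {ι : Type*} (s : Finset ι) (A : ι → PowerSeries ℂ)
    (hA : ∀ i ∈ s, A i ∈ intSpan) : ∑ i ∈ s, A i ∈ intSpan :=
  intSpan.sum_mem hA

theorem prod_mem_intSpan {ι : Type*} (s : Finset ι) (A : ι → PowerSeries ℂ)
    (hA : ∀ i ∈ s, A i ∈ intSpan) : ∏ i ∈ s, A i ∈ intSpan := by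
  classical
  induction s using Finset.induction_on with
  | empty => rw [Finset.prod_empty]; exact one_mem_intSpan
  | insert a s ha ih =>
    rw [Finset.prod_insert ha]
    exact mul_mem_intSpan (hA a (Finset.mem_insert_self a s))
      (ih fun i hi => hA i (Finset.mem_insert_of_mem hi))

/-- Coefficientwise application of a `ℚ`-linear functional `ℂ → ℚ`. -/
noncomputable def pushQ (π : ℂ →ₗ[ℚ] ℚ) (G : PowerSeries ℂ) : PowerSeries ℚ :=
  PowerSeries.mk fun n => π (coeff n G)

@[simp] theorem coeff_pushQ (π : ℂ →ₗ[ℚ] ℚ) (G : PowerSeries ℂ) (n : ℕ) :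
    coeff n (pushQ π G) = π (coeff n G) := by
  simp [pushQ]

theorem pushQ_zero (π : ℂ →ₗ[ℚ] ℚ) : pushQ π 0 = 0 := by
  ext n; simp

theorem pushQ_add (π : ℂ →ₗ[ℚ] ℚ) (G H : PowerSeries ℂ) :
    pushQ π (G + H) = pushQ π G + pushQ π H := by
  ext n; simp

theorem pushQ_sum {ι : Type*} (π : ℂ →ₗ[ℚ] ℚ) (s : Finset ι) (G : ι → PowerSeries ℂ) :
    pushQ π (∑ i ∈ s, G i) = ∑ i ∈ s, pushQ π (G i) := by
  classical
  induction s using Finset.induction_on with
  | empty => simp [pushQ_zero]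
  | insert a s ha ih => rw [Finset.sum_insert ha, Finset.sum_insert ha, pushQ_add, ih]

/-- `pushQ π` is `ℚ⟦X⟧`-linear. -/
theorem pushQ_map_mul (π : ℂ →ₗ[ℚ] ℚ) (F₀ : PowerSeries ℚ) (G : PowerSeries ℂ) :
    pushQ π (PowerSeries.map (algebraMap ℚ ℂ) F₀ * G) = F₀ * pushQ π G := by
  ext n
  rw [coeff_pushQ, coeff_mul, coeff_mul, map_sum]
  refine Finset.sum_congr rfl fun p _ => ?_
  rw [coeff_map, coeff_pushQ]
  have h : (algebraMap ℚ ℂ) (coeff p.1 F₀) * coeff p.2 G = (coeff p.1 F₀) • coeff p.2 G := by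
    rw [Algebra.smul_def]
  rw [h, map_smul, smul_eq_mul]

theorem pushQ_smul_map_int (π : ℂ →ₗ[ℚ] ℚ) (a : ℂ) (H : PowerSeries ℤ) :
    pushQ π (a • PowerSeries.map (Int.castRingHom ℂ) H) =
      π a • PowerSeries.map (Int.castRingHom ℚ) H := by
  ext n
  rw [coeff_pushQ, coeff_smul, coeff_smul, coeff_map, coeff_map, smul_eq_mul, smul_eq_mul]
  have h : a * (Int.castRingHom ℂ) (coeff n H) = ((coeff n H : ℤ) : ℚ) • a := by
    rw [Algebra.smul_def, mul_comm]; simp
  rw [h, map_smul, smul_eq_mul, mul_comm]; simp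

theorem pushQ_smul_mem_intSpanQ (π : ℂ →ₗ[ℚ] ℚ) {G : PowerSeries ℂ} (hG : G ∈ intSpan) :
    ∀ a : ℂ, pushQ π (a • G) ∈ intSpanQ := by
  induction hG using Submodule.span_induction with
  | mem x hx =>
    intro a
    obtain ⟨H, rfl⟩ := hx
    rw [pushQ_smul_map_int]
    exact intSpanQ.smul_mem _ (Submodule.subset_span ⟨H, rfl⟩)
  | zero => intro a; rw [smul_zero, pushQ_zero]; exact intSpanQ.zero_mem
  | add x y _ _ hx hy => intro a; rw [smul_add, pushQ_add]; exact intSpanQ.add_mem (hx a) (hy a)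
  | smul b x _ hx => intro a; rw [smul_smul]; exact hx (a * b)

theorem pushQ_mem_intSpanQ (π : ℂ →ₗ[ℚ] ℚ) {G : PowerSeries ℂ} (hG : G ∈ intSpan) :
    pushQ π G ∈ intSpanQ := by
  have h := pushQ_smul_mem_intSpanQ π hG 1
  rwa [one_smul] at h

/-- Elements of `intSpanQ` have bounded denominators. -/
theorem exists_denom_of_mem_intSpanQ {G : PowerSeries ℚ} (hG : G ∈ intSpanQ) :
    ∃ M : ℕ, M ≠ 0 ∧ ∃ H : PowerSeries ℤ,
      (M : ℚ) • G = PowerSeries.map (Int.castRingHom ℚ) H := by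
  induction hG using Submodule.span_induction with
  | mem x hx =>
    obtain ⟨H, rfl⟩ := hx
    exact ⟨1, one_ne_zero, H, by simp⟩
  | zero => exact ⟨1, one_ne_zero, 0, by simp⟩
  | add x y _ _ hx hy =>
    obtain ⟨M₁, hM₁, H₁, h₁⟩ := hx
    obtain ⟨M₂, hM₂, H₂, h₂⟩ := hy
    refine ⟨M₁ * M₂, mul_ne_zero hM₁ hM₂,
      PowerSeries.C (M₂ : ℤ) * H₁ + PowerSeries.C (M₁ : ℤ) * H₂, ?_⟩
    ext n
    have e₁ := congrArg (coeff n) h₁
    have e₂ := congrArg (coeff n) h₂
    simp only [coeff_smul, coeff_map, smul_eq_mul, map_add, Int.coe_castRingHom, coeff_C_mul] at e₁ e₂ ⊢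
    push_cast
    rw [← e₁, ← e₂]; ring
  | smul a x _ hx =>
    obtain ⟨M, hM, H, h⟩ := hx
    refine ⟨a.den * M, mul_ne_zero a.den_nz hM, PowerSeries.C a.num * H, ?_⟩
    ext n
    have e := congrArg (coeff n) h
    simp only [coeff_smul, coeff_map, smul_eq_mul, Int.coe_castRingHom, coeff_C_mul] at e ⊢
    push_cast
    rw [← e]
    have hden := Rat.mul_den_eq_num a
    calc (a.den : ℚ) * (M : ℚ) * (a * coeff n x)
        = (a * (a.den : ℚ)) * ((M : ℚ) * coeff n x) := by ring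
      _ = (a.num : ℚ) * ((M : ℚ) * coeff n x) := by rw [hden]

/-- A finite family in `intSpanQ` has a common denominator. -/
theorem exists_common_denom {μ : ℕ} (c : Fin μ → PowerSeries ℚ) (hc : ∀ i, c i ∈ intSpanQ) :
    ∃ M : ℕ, M ≠ 0 ∧ ∀ i, ∃ H : PowerSeries ℤ,
      (M : ℚ) • c i = PowerSeries.map (Int.castRingHom ℚ) H := by
  classical
  choose m hm H hH using fun i => exists_denom_of_mem_intSpanQ (hc i)
  refine ⟨∏ i, m i, Finset.prod_ne_zero_iff.mpr fun i _ => hm i, fun i => ?_⟩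
  refine ⟨PowerSeries.C ((∏ j ∈ Finset.univ.erase i, m j : ℕ) : ℤ) * H i, ?_⟩
  have hprod : (∏ j, m j : ℕ) = (∏ j ∈ Finset.univ.erase i, m j) * m i := by
    rw [mul_comm]; exact (Finset.mul_prod_erase Finset.univ m (Finset.mem_univ i)).symm
  ext n
  have e := congrArg (coeff n) (hH i)
  simp only [coeff_smul, coeff_map, smul_eq_mul, Int.coe_castRingHom, coeff_C_mul] at e ⊢
  rw [hprod]
  push_cast
  rw [← e]; ring

/-- Integral closedness of `ℤ⟦X⟧`, in the form we need: an element `Y` of `ℚ⟦X⟧` which is a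
fraction of integral power series and a root of a monic polynomial over `ℤ⟦X⟧` is integral. -/
theorem exists_int_of_frac_of_monic (Y : PowerSeries ℚ) (E₁ G₁ : PowerSeries ℤ) (hE : E₁ ≠ 0)
    (h : Y * PowerSeries.map (Int.castRingHom ℚ) E₁ = PowerSeries.map (Int.castRingHom ℚ) G₁)
    (p : Polynomial (PowerSeries ℤ)) (hp : p.Monic)
    (hroot : Polynomial.eval₂ (PowerSeries.map (Int.castRingHom ℚ)) Y p = 0) :
    ∃ y : PowerSeries ℤ, PowerSeries.map (Int.castRingHom ℚ) y = Y := by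
  have hinj : Function.Injective (PowerSeries.map (Int.castRingHom ℚ)) :=
    PowerSeries.map_injective _ (RingHom.injective_int (Int.castRingHom ℚ))
  let K := FractionRing (PowerSeries ℤ)
  let K' := FractionRing (PowerSeries ℚ)
  let φ : K →+* K' := IsFractionRing.map hinj
  have hφ : ∀ a : PowerSeries ℤ, φ (algebraMap (PowerSeries ℤ) K a) =
      algebraMap (PowerSeries ℚ) K' (PowerSeries.map (Int.castRingHom ℚ) a) := fun a =>
    IsLocalization.map_eq _ a
  have hE' : algebraMap (PowerSeries ℤ) K E₁ ≠ 0 := by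
    intro h0
    exact hE ((IsFractionRing.injective (PowerSeries ℤ) K) (by rw [h0, map_zero]))
  have hmapE : PowerSeries.map (Int.castRingHom ℚ) E₁ ≠ 0 := by
    intro h0
    exact hE (hinj (by rw [h0, map_zero]))
  have hE'' : algebraMap (PowerSeries ℚ) K' (PowerSeries.map (Int.castRingHom ℚ) E₁) ≠ 0 := by
    intro h0
    exact hmapE ((IsFractionRing.injective (PowerSeries ℚ) K') (by rw [h0, map_zero]))
  set x : K := algebraMap (PowerSeries ℤ) K G₁ / algebraMap (PowerSeries ℤ) K E₁ with hx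
  have hφx : φ x = algebraMap (PowerSeries ℚ) K' Y := by
    rw [hx, map_div₀, hφ, hφ, ← h, map_mul, mul_div_assoc, div_self hE'', mul_one]
  have hint : IsIntegral (PowerSeries ℤ) x := by
    refine ⟨p, hp, ?_⟩
    apply φ.injective
    rw [Polynomial.hom_eval₂, map_zero, hφx]
    have hcomp : φ.comp (algebraMap (PowerSeries ℤ) K) =
        (algebraMap (PowerSeries ℚ) K').comp (PowerSeries.map (Int.castRingHom ℚ)) := by
      ext a : 1
      exact hφ a
    rw [hcomp, ← Polynomial.hom_eval₂, hroot, map_zero]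
  obtain ⟨y, hy⟩ := IsIntegrallyClosed.isIntegral_iff.mp hint
  refine ⟨y, ?_⟩
  have hyE : y * E₁ = G₁ := by
    apply IsFractionRing.injective (PowerSeries ℤ) K
    rw [map_mul, hy, hx, div_mul_cancel₀ _ hE']
  apply mul_right_cancel₀ hmapE
  rw [h, ← map_mul, hyE]

/-- **Bounded denominators, power-series core.** -/
theorem bd_core (F E G : PowerSeries ℂ) (hF : ∀ n : ℕ, ∃ r : ℚ, coeff n F = (r : ℂ))
    (hE : E ∈ intSpan) (hE0 : E ≠ 0) (hG : G ∈ intSpan) (hFE : F * E = G)
    (μ : ℕ) (c : Fin μ → PowerSeries ℂ) (hc : ∀ i, c i ∈ intSpan)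
    (hmonic : F ^ μ + ∑ i : Fin μ, c i * F ^ (i : ℕ) = 0) :
    ∃ D : ℕ, D ≠ 0 ∧ ∀ n : ℕ, ∃ m : ℤ, (D : ℂ) * coeff n F = (m : ℂ) := by
  classical
  -- the rational model of `F`
  choose r hr using hF
  set F₀ : PowerSeries ℚ := PowerSeries.mk r with hF₀
  have hFmap : PowerSeries.map (algebraMap ℚ ℂ) F₀ = F := by
    ext n; rw [coeff_map, hF₀, coeff_mk, hr n]; rfl
  -- a functional not killing `E`
  obtain ⟨n₀, hn₀⟩ : ∃ n, coeff n E ≠ 0 := by
    by_contra hcon
    push Not at hcon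
    exact hE0 (PowerSeries.ext fun n => by rw [hcon n, map_zero])
  obtain ⟨π, hπ⟩ : ∃ π : ℂ →ₗ[ℚ] ℚ, π (coeff n₀ E) ≠ 0 := by
    by_contra hcon
    push Not at hcon
    exact hn₀ ((Module.forall_dual_apply_eq_zero_iff ℚ (coeff n₀ E)).mp hcon)
  -- a functional fixing `ℚ`
  obtain ⟨π₁, hπ₁⟩ := LinearMap.exists_leftInverse_of_injective (Algebra.linearMap ℚ ℂ)
    (LinearMap.ker_eq_bot.mpr (algebraMap ℚ ℂ).injective)
  have hπ₁' : ∀ q : ℚ, π₁ (algebraMap ℚ ℂ q) = q := fun q => by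
    have := congrArg (fun f : ℚ →ₗ[ℚ] ℚ => f q) hπ₁
    simpa using this
  have hpush_map : ∀ A : PowerSeries ℚ, pushQ π₁ (PowerSeries.map (algebraMap ℚ ℂ) A) = A := by
    intro A
    ext n
    rw [coeff_pushQ, coeff_map, hπ₁']
  -- the fraction relation over `ℚ`
  have hfrac : F₀ * pushQ π E = pushQ π G := by
    rw [← pushQ_map_mul, hFmap, hFE]
  have hE'0 : pushQ π E ≠ 0 := by
    intro h0
    apply hπ
    have := congrArg (coeff n₀) h0
    simpa using this
  obtain ⟨ME, hME, E₁, hE₁⟩ := exists_denom_of_mem_intSpanQ (pushQ_mem_intSpanQ π hE)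
  obtain ⟨MG, hMG, G₁, hG₁⟩ := exists_denom_of_mem_intSpanQ (pushQ_mem_intSpanQ π hG)
  have hE₁0 : E₁ ≠ 0 := by
    rintro rfl
    rw [map_zero] at hE₁
    rcases smul_eq_zero.mp hE₁ with h | h
    · exact hME (by exact_mod_cast h)
    · exact hE'0 h
  -- the monic relation over `ℚ`
  have hmonicQ : F₀ ^ μ + ∑ i : Fin μ, pushQ π₁ (c i) * F₀ ^ (i : ℕ) = 0 := by
    have h := congrArg (pushQ π₁) hmonic
    rw [pushQ_zero, pushQ_add, pushQ_sum] at h
    have h1 : pushQ π₁ (F ^ μ) = F₀ ^ μ := by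
      rw [← hFmap, ← map_pow, hpush_map]
    have h2 : ∀ i : Fin μ, pushQ π₁ (c i * F ^ (i : ℕ)) = pushQ π₁ (c i) * F₀ ^ (i : ℕ) := by
      intro i
      rw [mul_comm (c i), ← hFmap, ← map_pow, pushQ_map_mul, mul_comm]
    rw [h1, Finset.sum_congr rfl fun i _ => h2 i] at h
    exact h
  obtain ⟨M, hM, hMc⟩ := exists_common_denom (fun i => pushQ π₁ (c i))
    (fun i => pushQ_mem_intSpanQ π₁ (hc i))
  choose Cz hCz using hMc
  -- `Y = M • F₀` is integral over `ℤ⟦X⟧` and a fraction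
  set Y : PowerSeries ℚ := (M : ℚ) • F₀ with hY
  have hMQ : (M : ℚ) ≠ 0 := by exact_mod_cast hM
  have hfracY : Y * PowerSeries.map (Int.castRingHom ℚ) (PowerSeries.C (MG : ℤ) * E₁) =
      PowerSeries.map (Int.castRingHom ℚ) (PowerSeries.C ((M * ME : ℕ) : ℤ) * G₁) := by
    ext n
    have e1 := congrArg (coeff n) hfrac
    have eG := congrArg (coeff n) hG₁
    have eE : ∀ k, (ME : ℚ) * coeff k (pushQ π E) = ((coeff k E₁ : ℤ) : ℚ) := by
      intro k
      have := congrArg (coeff k) hE₁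
      simpa only [coeff_smul, coeff_map, smul_eq_mul, Int.coe_castRingHom] using this
    simp only [coeff_smul, coeff_map, smul_eq_mul, Int.coe_castRingHom] at eG
    rw [coeff_mul] at e1
    rw [coeff_mul, coeff_map]
    simp only [hY, coeff_smul, coeff_map, smul_eq_mul, Int.coe_castRingHom, coeff_C_mul]
    push_cast
    rw [← eG, ← e1, Finset.mul_sum, Finset.mul_sum]
    refine Finset.sum_congr rfl fun p _ => ?_
    rw [← eE p.2]; ring
  have hMGE : (PowerSeries.C (MG : ℤ) * E₁) ≠ 0 := by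
    intro h0
    rcases mul_eq_zero.mp h0 with h | h
    · have h' := congrArg (coeff 0) h
      rw [coeff_zero_C, map_zero] at h'
      exact hMG (by exact_mod_cast h')
    · exact hE₁0 h
  -- the monic polynomial
  set p : Polynomial (PowerSeries ℤ) :=
    Polynomial.X ^ μ + ∑ i : Fin μ,
      Polynomial.C (PowerSeries.C ((M : ℤ) ^ (μ - 1 - (i : ℕ))) * Cz i) * Polynomial.X ^ (i : ℕ)
    with hp
  have hpm : p.Monic := Polynomial.monic_X_pow_add (Polynomial.degree_sum_fin_lt _)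
  have hroot : Polynomial.eval₂ (PowerSeries.map (Int.castRingHom ℚ)) Y p = 0 := by
    rw [hp, Polynomial.eval₂_add, Polynomial.eval₂_X_pow, Polynomial.eval₂_finsetSum]
    have hterm : ∀ i : Fin μ,
        Polynomial.eval₂ (PowerSeries.map (Int.castRingHom ℚ)) Y
          (Polynomial.C (PowerSeries.C ((M : ℤ) ^ (μ - 1 - (i : ℕ))) * Cz i) *
            Polynomial.X ^ (i : ℕ)) =
        ((M : ℚ) ^ μ) • (pushQ π₁ (c i) * F₀ ^ (i : ℕ)) := by
      intro i
      rw [Polynomial.eval₂_mul, Polynomial.eval₂_C, Polynomial.eval₂_X_pow]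
      have hi : (i : ℕ) < μ := i.2
      have hpow : (M : ℚ) ^ μ = (M : ℚ) ^ (μ - 1 - (i : ℕ)) * (M : ℚ) * (M : ℚ) ^ (i : ℕ) := by
        rw [← pow_succ, ← pow_add]
        congr 1
        omega
      ext n
      have eC : ∀ k, (M : ℚ) * coeff k (pushQ π₁ (c i)) = ((coeff k (Cz i) : ℤ) : ℚ) := by
        intro k
        have := congrArg (coeff k) (hCz i)
        simpa only [coeff_smul, coeff_map, smul_eq_mul, Int.coe_castRingHom] using this
      rw [hY, smul_pow, coeff_mul, coeff_smul, coeff_mul, smul_eq_mul, Finset.mul_sum]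
      refine Finset.sum_congr rfl fun q _ => ?_
      simp only [coeff_smul, coeff_map, smul_eq_mul, Int.coe_castRingHom, coeff_C_mul]
      push_cast
      rw [← eC q.1, hpow]; ring
    rw [Finset.sum_congr rfl fun i _ => hterm i, ← Finset.smul_sum, hY, smul_pow, ← smul_add,
      hmonicQ, smul_zero]
  obtain ⟨y, hy⟩ := exists_int_of_frac_of_monic Y _ _ hMGE hfracY p hpm hroot
  refine ⟨M, hM, fun n => ⟨coeff n y, ?_⟩⟩
  have e := congrArg (coeff n) hy
  rw [coeff_map, hY, coeff_smul, hF₀, coeff_mk, smul_eq_mul, eq_intCast] at e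
  rw [hr n]
  have : ((M : ℚ) * r n : ℚ) = ((coeff n y : ℤ) : ℚ) := e.symm
  exact_mod_cast congrArg (fun q : ℚ => (q : ℂ)) this

end Fermat.Agent.S23.helper732
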