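import Mathlib
import Fermat.Prelude.Def_CuspForm_IntegralStructure
import Fermat.Agent.S23.helper263_Spec
import Fermat.Agent.S23.helper732_BDCore

/-!
# `Stmt_BD` from a power-series structure statement (helper732)

`Stmt_Struct N k`: for every `f ∈ S_k(Γ₀(N))` the `q`-expansion `F` of `f` satisfies
`F * E = G` with `E ≠ 0`, `E, G` in the `ℂ`-span of `ℤ⟦X⟧`, and `F` is a root of a monic polynomial
with coefficients in the `ℂ`-span of `ℤ⟦X⟧`.

`stmt_BD_of_struct : Stmt_Struct N k → helper263.Stmt_BD N k`.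
-/

set_option autoImplicit false

namespace Fermat.Agent.S23.helper732

open PowerSeries UpperHalfPlane

/-- The structure statement: fraction + monic relation over the `ℂ`-span of `ℤ⟦X⟧`. -/
def Stmt_Struct (N : ℕ) (k : ℤ) : Prop :=
  ∀ f : CuspForm (CongruenceSubgroup.Gamma0 N) k,
    ∃ (E G : PowerSeries ℂ) (μ : ℕ) (c : Fin μ → PowerSeries ℂ),
      E ≠ 0 ∧ E ∈ intSpan ∧ G ∈ intSpan ∧ (∀ i, c i ∈ intSpan) ∧
      qExpansion 1 f * E = G ∧
      qExpansion 1 f ^ μ + ∑ i : Fin μ, c i * qExpansion 1 f ^ (i : ℕ) = 0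

theorem stmt_BD_of_struct (N : ℕ) (k : ℤ) (h : Stmt_Struct N k) :
    Fermat.Agent.S23.helper263.Stmt_BD N k := by
  intro f hf
  obtain ⟨E, G, μ, c, hE0, hE, hG, hc, hFE, hmonic⟩ := h f
  exact bd_core (qExpansion 1 f) E G hf hE hE0 hG hFE μ c hc hmonic

end Fermat.Agent.S23.helper732
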