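import Mathlib

set_option autoImplicit false

/-!
# Level one modular forms are spanned by forms with integral `q`-expansion

`levelOne_span_int` : for every weight `k`, the `ℂ`-span of the level one modular forms of
weight `k` whose `q`-expansion has integer coefficients is everything.

`levelOne_conj` : for every ring endomorphism `σ` of `ℂ` and every level one modular form `r`
there is a level one modular form of the same weight whose `q`-expansion is the coefficientwise
`σ`-conjugate of that of `r`.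
-/

namespace Fermat.Agent.S23.helper83

open UpperHalfPlane ModularForm
open scoped MatrixGroups ModularForm

/-- The subring of complex power series with integer coefficients. -/
noncomputable def intPS : Subring (PowerSeries ℂ) := (PowerSeries.map (Int.castRingHom ℂ)).range

lemma mem_intPS_iff (p : PowerSeries ℂ) : p ∈ intPS ↔ ∀ n : ℕ, ∃ m : ℤ, p.coeff n = (m : ℂ) := by
  constructor
  · rintro ⟨q, rfl⟩ n
    exact ⟨q.coeff n, by simp⟩
  · intro h
    choose m hm using h
    refine ⟨PowerSeries.mk m, ?_⟩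
    ext n
    simp [hm n]

/-- Every ring endomorphism of `ℂ` fixes power series with integer coefficients. -/
lemma map_eq_of_mem_intPS (σ : ℂ →+* ℂ) {p : PowerSeries ℂ} (hp : p ∈ intPS) :
    PowerSeries.map σ p = p := by
  obtain ⟨q, rfl⟩ := hp
  ext n
  simp

/-- Level one modular forms of weight `k` with integral `q`-expansion. -/
def intForms (k : ℤ) : Set (ModularForm 𝒮ℒ k) := {r | qExpansion 1 r ∈ intPS}

lemma E₄_mem_intForms : (E₄ : ModularForm 𝒮ℒ 4) ∈ intForms 4 := by
  change qExpansion 1 E₄ ∈ intPS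
  rw [mem_intPS_iff]
  intro n
  have h := EisensteinSeries.E_qExpansion_coeff (k := 4) (by norm_num) ⟨2, rfl⟩ n
  have hb : bernoulli 4 = -1 / 30 := by decide +kernel
  rcases eq_or_ne n 0 with rfl | hn
  · exact ⟨1, by simpa using h⟩
  · refine ⟨240 * (ArithmeticFunction.sigma 3 n : ℤ), ?_⟩
    rw [show (E₄ : ModularForm 𝒮ℒ 4) = E (k := 4) (by norm_num) from rfl, h, if_neg hn, hb]
    push_cast
    norm_num

lemma E₆_mem_intForms : (E₆ : ModularForm 𝒮ℒ 6) ∈ intForms 6 := by
  change qExpansion 1 E₆ ∈ intPS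
  rw [mem_intPS_iff]
  intro n
  have h := EisensteinSeries.E_qExpansion_coeff (k := 6) (by norm_num) ⟨3, rfl⟩ n
  have hb : bernoulli 6 = 1 / 42 := by decide +kernel
  rcases eq_or_ne n 0 with rfl | hn
  · exact ⟨1, by simpa using h⟩
  · refine ⟨-504 * (ArithmeticFunction.sigma 5 n : ℤ), ?_⟩
    rw [show (E₆ : ModularForm 𝒮ℒ 6) = E (k := 6) (by norm_num) from rfl, h, if_neg hn, hb]
    push_cast
    norm_num

lemma qExpansion_mcast_mul {a b c : ℤ} (h : a + b = c) (f : ModularForm 𝒮ℒ a)
    (g : ModularForm 𝒮ℒ b) :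
    qExpansion 1 (ModularForm.mcast h (f.mul g) : ModularForm 𝒮ℒ c) =
      qExpansion 1 f * qExpansion 1 g := by
  rw [ModularForm.qExpansion_mcast]
  exact ModularForm.qExpansion_mul one_pos one_mem_strictPeriods_SL f g

lemma mcast_mul_mem_intForms {a b c : ℤ} (h : a + b = c) {f : ModularForm 𝒮ℒ a}
    {g : ModularForm 𝒮ℒ b} (hf : f ∈ intForms a) (hg : g ∈ intForms b) :
    (ModularForm.mcast h (f.mul g) : ModularForm 𝒮ℒ c) ∈ intForms c := by
  change qExpansion 1 _ ∈ intPS
  rw [qExpansion_mcast_mul]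
  exact mul_mem hf hg

/-- For every even weight `≥ 4` there is an integral form with constant term `1`. -/
lemma exists_intForm_coeff_zero_eq_one (n : ℕ) :
    ∃ G : ModularForm 𝒮ℒ (2 * (n : ℤ) + 4), G ∈ intForms _ ∧ (qExpansion 1 G).coeff 0 = 1 := by
  induction n using Nat.twoStepInduction with
  | zero =>
    refine ⟨ModularForm.mcast (by norm_num) E₄, ?_, ?_⟩
    · exact E₄_mem_intForms
    · exact EisensteinSeries.E_qExpansion_coeff_zero (k := 4) (by norm_num) ⟨2, rfl⟩
  | one =>
    refine ⟨ModularForm.mcast (by norm_num) E₆, ?_, ?_⟩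
    · exact E₆_mem_intForms
    · exact EisensteinSeries.E_qExpansion_coeff_zero (k := 6) (by norm_num) ⟨3, rfl⟩
  | more n ih _ =>
    obtain ⟨G, hG, hG0⟩ := ih
    refine ⟨ModularForm.mcast (by push_cast; ring) (E₄.mul G), ?_, ?_⟩
    · exact mcast_mul_mem_intForms _ E₄_mem_intForms hG
    · rw [qExpansion_mcast_mul, PowerSeries.coeff_zero_eq_constantCoeff, map_mul,
        ← PowerSeries.coeff_zero_eq_constantCoeff, hG0,
        EisensteinSeries.E_qExpansion_coeff_zero (k := 4) (by norm_num) ⟨2, rfl⟩, mul_one]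

/-- Multiplication by the discriminant, as a linear map `M_{k-12} → M_k`. -/
noncomputable def mulDisc (k : ℤ) : ModularForm 𝒮ℒ (k - 12) →ₗ[ℂ] ModularForm 𝒮ℒ k :=
  CuspForm.toModularFormₗ.comp (CuspForm.discriminantEquiv (k := k)).symm.toLinearMap

lemma mulDisc_apply (k : ℤ) (r : ModularForm 𝒮ℒ (k - 12)) (z : ℍ) :
    mulDisc k r z = ModularForm.discriminant z * r z := rfl

lemma mulDisc_mem_span (k : ℤ) {b : ModularForm 𝒮ℒ (k - 12)} (hb : b ∈ intForms (k - 12)) :
    mulDisc k b ∈ Submodule.span ℂ (intForms k) := by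
  have h4 : (ModularForm.mcast (by norm_num) (E₄.mul E₄) : ModularForm 𝒮ℒ 8) ∈ intForms 8 :=
    mcast_mul_mem_intForms _ E₄_mem_intForms E₄_mem_intForms
  have h43 : (ModularForm.mcast (by norm_num)
      ((ModularForm.mcast (by norm_num) (E₄.mul E₄) : ModularForm 𝒮ℒ 8).mul E₄) :
        ModularForm 𝒮ℒ 12) ∈ intForms 12 :=
    mcast_mul_mem_intForms _ h4 E₄_mem_intForms
  have h62 : (ModularForm.mcast (by norm_num) (E₆.mul E₆) : ModularForm 𝒮ℒ 12) ∈ intForms 12 :=
    mcast_mul_mem_intForms _ E₆_mem_intForms E₆_mem_intForms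
  have c1 := mcast_mul_mem_intForms (c := k) (by ring) h43 hb
  have c2 := mcast_mul_mem_intForms (c := k) (by ring) h62 hb
  have key : mulDisc k b = (1 / 1728 : ℂ) •
      ((ModularForm.mcast (by ring) ((ModularForm.mcast (by norm_num)
        ((ModularForm.mcast (by norm_num) (E₄.mul E₄) : ModularForm 𝒮ℒ 8).mul E₄) :
          ModularForm 𝒮ℒ 12).mul b) : ModularForm 𝒮ℒ k) -
       (ModularForm.mcast (by ring) ((ModularForm.mcast (by norm_num) (E₆.mul E₆) :
          ModularForm 𝒮ℒ 12).mul b) : ModularForm 𝒮ℒ k)) := by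
    ext z
    rw [mulDisc_apply, ModularForm.discriminant_eq_E₄_cube_sub_E₆_sq]
    change _ = (1 / 1728 : ℂ) * (E₄ z * E₄ z * E₄ z * b z - E₆ z * E₆ z * b z)
    ring
  rw [key]
  exact Submodule.smul_mem _ _ (Submodule.sub_mem _ (Submodule.subset_span c1)
    (Submodule.subset_span c2))

/-- **Level one integral structure.** For every weight `k`, the level one modular forms of
weight `k` with integral `q`-expansion span the whole space over `ℂ`. -/
theorem levelOne_span_int (k : ℤ) : Submodule.span ℂ (intForms k) = ⊤ := by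
  induction hn : k.toNat using Nat.strong_induction_on generalizing k with
  | _ n ih =>
  rw [eq_top_iff]
  rintro r -
  rcases lt_or_ge k 0 with hk | hk
  · have hr : r = 0 := by
      ext z
      simpa using congrFun (ModularFormClass.levelOne_neg_weight_eq_zero hk r) z
    rw [hr]
    exact Submodule.zero_mem _
  rcases Int.even_or_odd k with hke | hko
  swap
  · rw [ModularForm.levelOne_odd_weight_eq_zero hko r]
    exact Submodule.zero_mem _
  rcases eq_or_ne k 0 with rfl | hk0
  · obtain ⟨c, hc⟩ := ModularFormClass.levelOne_weight_zero_const r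
    have hr : r = c • (1 : ModularForm 𝒮ℒ 0) := by
      ext z
      simp [hc]
    rw [hr]
    refine Submodule.smul_mem _ _ (Submodule.subset_span ?_)
    change qExpansion 1 (1 : ModularForm 𝒮ℒ 0) ∈ intPS
    rw [ModularForm.qExpansion_one]
    exact one_mem _
  rcases eq_or_ne k 2 with rfl | hk2
  · rw [rank_zero_iff_forall_zero.mp ModularForm.levelOne_weight_two_rank_zero r]
    exact Submodule.zero_mem _
  obtain ⟨m, rfl⟩ : ∃ m : ℕ, k = 2 * (m : ℤ) + 4 := by
    obtain ⟨j, hj⟩ := hke
    refine ⟨(j - 2).toNat, ?_⟩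
    omega
  obtain ⟨G, hG, hG0⟩ := exists_intForm_coeff_zero_eq_one m
  obtain ⟨g, hg⟩ := ModularForm.sub_smul_isCuspForm r G hG0
  have hmul : mulDisc (2 * (m : ℤ) + 4) (CuspForm.discriminantEquiv g) =
      r - (qExpansion 1 r).coeff 0 • G := by
    rw [← hg]
    simp [mulDisc]
  have hr : r = (qExpansion 1 r).coeff 0 • G +
      mulDisc (2 * (m : ℤ) + 4) (CuspForm.discriminantEquiv g) := by
    rw [hmul]
    abel
  rw [hr]
  refine Submodule.add_mem _ (Submodule.smul_mem _ _ (Submodule.subset_span hG)) ?_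
  have hIH : Submodule.span ℂ (intForms (2 * (m : ℤ) + 4 - 12)) = ⊤ :=
    ih (2 * (m : ℤ) + 4 - 12).toNat (by omega) _ rfl
  have hle : Submodule.map (mulDisc (2 * (m : ℤ) + 4))
      (Submodule.span ℂ (intForms (2 * (m : ℤ) + 4 - 12))) ≤
        Submodule.span ℂ (intForms (2 * (m : ℤ) + 4)) := by
    rw [Submodule.map_span_le]
    exact fun b hb => mulDisc_mem_span _ hb
  exact hle (Submodule.mem_map_of_mem (hIH ▸ Submodule.mem_top))

/-- **Level one forms are stable under coefficientwise conjugation.** -/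
theorem levelOne_conj (σ : ℂ →+* ℂ) (k : ℤ) (r : ModularForm 𝒮ℒ k) :
    ∃ r' : ModularForm 𝒮ℒ k, qExpansion 1 r' = PowerSeries.map σ (qExpansion 1 r) := by
  have hr : r ∈ Submodule.span ℂ (intForms k) := levelOne_span_int k ▸ Submodule.mem_top
  induction hr using Submodule.span_induction with
  | mem b hb => exact ⟨b, (map_eq_of_mem_intPS σ hb).symm⟩
  | zero => exact ⟨0, by simp [qExpansion_zero]⟩
  | add x y _ _ hx hy =>
    obtain ⟨x', hx'⟩ := hx
    obtain ⟨y', hy'⟩ := hy
    refine ⟨x' + y', ?_⟩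
    rw [FunLike.coe_add, FunLike.coe_add,
      ModularForm.qExpansion_add one_pos one_mem_strictPeriods_SL,
      ModularForm.qExpansion_add one_pos one_mem_strictPeriods_SL, map_add, hx', hy']
  | smul c x _ hx =>
    obtain ⟨x', hx'⟩ := hx
    refine ⟨σ c • x', ?_⟩
    rw [FunLike.coe_smul, FunLike.coe_smul,
      ModularForm.qExpansion_smul one_pos one_mem_strictPeriods_SL,
      ModularForm.qExpansion_smul one_pos one_mem_strictPeriods_SL, hx']
    ext n
    simp

end Fermat.Agent.S23.helper83
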