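import Fermat.Agent.S23.helper85_Esymm

/-!
Adapters for package (I): the monic relation `f^μ + ∑_{i<μ} ρ_i f^(μ-1-i) = 0` with bundled
coefficients `ρ_i = (-1)^(i+1) e_(i+1)` of weight `k * (i + 1)`.
-/

set_option autoImplicit false

open UpperHalfPlane Finset SlashInvariantForm
open scoped ModularForm Topology Filter Manifold MatrixGroups

namespace Fermat.Agent.S23.helper85

variable {𝒢 ℋ : Subgroup (GL (Fin 2) ℝ)} {F : Type*} (f : F) [FunLike F ℍ ℂ] {k : ℤ}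

local notation "𝒬" => ℋ ⧸ (𝒢.subgroupOf ℋ)

section General

variable (ℋ) [𝒢.IsFiniteRelIndex ℋ]

/-- Sign-normalised monic relation at function level, for an arbitrary root `x` of the
characteristic polynomial of the translates. -/
lemma monic_of_relation [SlashInvariantFormClass F 𝒢 k] (τ : ℍ) (x : ℂ)
    (h : ∑ j ∈ range (Nat.card 𝒬 + 1),
      (-1 : ℂ) ^ j * (esymmFun ℋ f j τ * x ^ (Nat.card 𝒬 - j)) = 0) :
    x ^ Nat.card 𝒬 + ∑ i ∈ range (Nat.card 𝒬),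
      ((-1 : ℂ) ^ (i + 1) * esymmFun ℋ f (i + 1) τ) * x ^ (Nat.card 𝒬 - 1 - i) = 0 := by
  rw [Finset.sum_range_succ'] at h
  simp only [pow_zero, esymmFun_zero, Pi.one_apply, one_mul, Nat.sub_zero] at h
  rw [add_comm] at h
  rw [← h]
  congr 1
  refine Finset.sum_congr rfl fun i _ => ?_
  rw [Nat.sub_sub, add_comm 1 i]
  ring

variable [ℋ.HasDetPlusMinusOne]

/-- `ρ_i = (-1)^(i+1) e_(i+1)` as a cusp form of weight `k * (i + 1)`. -/
noncomputable def monicCoeff [CuspFormClass F 𝒢 k] (i : ℕ) : CuspForm ℋ (k * (i + 1)) :=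
  CuspForm.mcast (a := k * ((i + 1 : ℕ) : ℤ)) (by push_cast; ring)
    (((-1 : ℝ) ^ (i + 1) • esymmCuspForm ℋ f (i + 1) (Nat.succ_ne_zero i) :
      CuspForm ℋ (k * ((i + 1 : ℕ) : ℤ))))

lemma monicCoeff_apply [CuspFormClass F 𝒢 k] (i : ℕ) (τ : ℍ) :
    monicCoeff ℋ f i τ = (-1 : ℂ) ^ (i + 1) * esymmFun ℋ f (i + 1) τ := by
  show ((-1 : ℝ) ^ (i + 1) • esymmCuspForm ℋ f (i + 1) (Nat.succ_ne_zero i)) τ = _
  rw [smul_apply, coe_esymmCuspForm, Complex.real_smul]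
  push_cast
  rfl

/-- `ρ_i = (-1)^(i+1) e_(i+1)` as a modular form of weight `k * (i + 1)`. -/
noncomputable def monicCoeffMF [ModularFormClass F 𝒢 k] (i : ℕ) : ModularForm ℋ (k * (i + 1)) :=
  ModularForm.mcast (a := k * ((i + 1 : ℕ) : ℤ)) (by push_cast; ring)
    (((-1 : ℝ) ^ (i + 1) • esymmForm ℋ f (i + 1) : ModularForm ℋ (k * ((i + 1 : ℕ) : ℤ))))

lemma monicCoeffMF_apply [ModularFormClass F 𝒢 k] (i : ℕ) (τ : ℍ) :
    monicCoeffMF ℋ f i τ = (-1 : ℂ) ^ (i + 1) * esymmFun ℋ f (i + 1) τ := by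
  show ((-1 : ℝ) ^ (i + 1) • esymmForm ℋ f (i + 1)) τ = _
  rw [smul_apply, coe_esymmForm, Complex.real_smul]
  push_cast
  rfl

/-- Monic relation for `f`, `ℕ`-indexed cusp-form coefficients. -/
theorem monic_relation_range [CuspFormClass F 𝒢 k] (τ : ℍ) :
    f τ ^ Nat.card 𝒬 + ∑ i ∈ range (Nat.card 𝒬),
      monicCoeff ℋ f i τ * f τ ^ (Nat.card 𝒬 - 1 - i) = 0 := by
  simp only [monicCoeff_apply]
  exact monic_of_relation ℋ f τ (f τ) (esymmFun_relation_self ℋ f τ)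

/-- Monic relation for `f`, `Fin μ`-indexed cusp-form coefficients. -/
theorem monic_relation_fin [CuspFormClass F 𝒢 k] (τ : ℍ) :
    f τ ^ Nat.card 𝒬 + ∑ i : Fin (Nat.card 𝒬),
      monicCoeff ℋ f i τ * f τ ^ (Nat.card 𝒬 - 1 - i) = 0 := by
  rw [Fin.sum_univ_eq_sum_range (fun i => monicCoeff ℋ f i τ * f τ ^ (Nat.card 𝒬 - 1 - i))]
  exact monic_relation_range ℋ f τ

/-- Monic relation for the translates `f ∣[k] h`, `h ∈ ℋ` (same coefficients). -/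
theorem monic_relation_slash_range [CuspFormClass F 𝒢 k] {h : GL (Fin 2) ℝ} (hh : h ∈ ℋ)
    (τ : ℍ) :
    ((f : ℍ → ℂ) ∣[k] h) τ ^ Nat.card 𝒬 + ∑ i ∈ range (Nat.card 𝒬),
      monicCoeff ℋ f i τ * ((f : ℍ → ℂ) ∣[k] h) τ ^ (Nat.card 𝒬 - 1 - i) = 0 := by
  simp only [monicCoeff_apply]
  exact monic_of_relation ℋ f τ _ (esymmFun_relation_slash ℋ f hh τ)

/-- Monic relation for `f` a modular form, `ℕ`-indexed modular-form coefficients. -/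
theorem monic_relation_range_MF [ModularFormClass F 𝒢 k] (τ : ℍ) :
    f τ ^ Nat.card 𝒬 + ∑ i ∈ range (Nat.card 𝒬),
      monicCoeffMF ℋ f i τ * f τ ^ (Nat.card 𝒬 - 1 - i) = 0 := by
  simp only [monicCoeffMF_apply]
  exact monic_of_relation ℋ f τ (f τ) (esymmFun_relation_self ℋ f τ)

/-- Monic relation for `f` a modular form, `Fin μ`-indexed modular-form coefficients. -/
theorem monic_relation_fin_MF [ModularFormClass F 𝒢 k] (τ : ℍ) :
    f τ ^ Nat.card 𝒬 + ∑ i : Fin (Nat.card 𝒬),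
      monicCoeffMF ℋ f i τ * f τ ^ (Nat.card 𝒬 - 1 - i) = 0 := by
  rw [Fin.sum_univ_eq_sum_range (fun i => monicCoeffMF ℋ f i τ * f τ ^ (Nat.card 𝒬 - 1 - i))]
  exact monic_relation_range_MF ℋ f τ

/-- Monic relation for the translates of a modular form. -/
theorem monic_relation_slash_range_MF [ModularFormClass F 𝒢 k] {h : GL (Fin 2) ℝ} (hh : h ∈ ℋ)
    (τ : ℍ) :
    ((f : ℍ → ℂ) ∣[k] h) τ ^ Nat.card 𝒬 + ∑ i ∈ range (Nat.card 𝒬),
      monicCoeffMF ℋ f i τ * ((f : ℍ → ℂ) ∣[k] h) τ ^ (Nat.card 𝒬 - 1 - i) = 0 := by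
  simp only [monicCoeffMF_apply]
  exact monic_of_relation ℋ f τ _ (esymmFun_relation_slash ℋ f hh τ)

end General

section Gamma0

variable (N : ℕ) [NeZero N] (k : ℤ)

/-- (I), bundled `Fin`-indexed shape (chat #32 `Stmt_Int`, #35 `(I)`). -/
theorem stmt_integral_fin (f : CuspForm (CongruenceSubgroup.Gamma0 N) k) :
    ∃ (n : ℕ) (e : (i : Fin n) → CuspForm 𝒮ℒ (k * (i + 1))),
      ∀ z : ℍ, f z ^ n + ∑ i : Fin n, e i z * f z ^ (n - 1 - i) = 0 :=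
  ⟨_, fun i => monicCoeff 𝒮ℒ f i, fun z => monic_relation_fin 𝒮ℒ f z⟩

/-- (I), bundled `ℕ`-indexed shape (chat #42 `Stmt_Monic`). -/
theorem stmt_integral_nat (f : CuspForm (CongruenceSubgroup.Gamma0 N) k) :
    ∃ (mu : ℕ) (e : (i : ℕ) → CuspForm 𝒮ℒ (k * (i + 1))),
      ∀ z : ℍ, f z ^ mu + ∑ i ∈ range mu, e i z * f z ^ (mu - 1 - i) = 0 :=
  ⟨_, fun i => monicCoeff 𝒮ℒ f i, fun z => monic_relation_range 𝒮ℒ f z⟩

/-- (I), function-level shape (chat #47 `Stmt_Integral`). -/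
theorem stmt_integral_fun (f : CuspForm (CongruenceSubgroup.Gamma0 N) k) :
    ∃ (n : ℕ) (ρ : Fin n → ℍ → ℂ), (∀ i : Fin n, ∃ r : CuspForm 𝒮ℒ (k * (i + 1)), ⇑r = ρ i) ∧
      ∀ z : ℍ, f z ^ n + ∑ i : Fin n, ρ i z * f z ^ (n - 1 - i) = 0 :=
  ⟨_, fun i => ⇑(monicCoeff 𝒮ℒ f i), fun i => ⟨monicCoeff 𝒮ℒ f i, rfl⟩,
    fun z => monic_relation_fin 𝒮ℒ f z⟩

/-- (I) for modular forms, bundled `Fin`-indexed shape. -/
theorem stmt_integral_fin_MF (f : ModularForm (CongruenceSubgroup.Gamma0 N) k) :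
    ∃ (n : ℕ) (e : (i : Fin n) → ModularForm 𝒮ℒ (k * (i + 1))),
      ∀ z : ℍ, f z ^ n + ∑ i : Fin n, e i z * f z ^ (n - 1 - i) = 0 :=
  ⟨_, fun i => monicCoeffMF 𝒮ℒ f i, fun z => monic_relation_fin_MF 𝒮ℒ f z⟩

/-- The same monic equation holds for every `SL(2, ℤ)`-translate `f ∣[k] γ`: this is what the
cusp estimate in Lemma H consumes. -/
theorem stmt_integral_fin_slash (f : CuspForm (CongruenceSubgroup.Gamma0 N) k) :
    ∃ (n : ℕ) (e : (i : Fin n) → CuspForm 𝒮ℒ (k * (i + 1))),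
      (∀ z : ℍ, f z ^ n + ∑ i : Fin n, e i z * f z ^ (n - 1 - i) = 0) ∧
      ∀ (γ : SL(2, ℤ)) (z : ℍ), ((f : ℍ → ℂ) ∣[k] γ) z ^ n +
        ∑ i : Fin n, e i z * ((f : ℍ → ℂ) ∣[k] γ) z ^ (n - 1 - i) = 0 := by
  refine ⟨_, fun i => monicCoeff 𝒮ℒ f i, fun z => monic_relation_fin 𝒮ℒ f z, fun γ z => ?_⟩
  rw [Fin.sum_univ_eq_sum_range
    (fun i => monicCoeff 𝒮ℒ f i z * ((f : ℍ → ℂ) ∣[k] γ) z ^ (_ - 1 - i))]
  exact monic_relation_slash_range 𝒮ℒ f (h := Matrix.SpecialLinearGroup.mapGL ℝ γ) ⟨γ, rfl⟩ z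

end Gamma0

end Fermat.Agent.S23.helper85
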