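import Mathlib
import Fermat.Prelude.Def_CuspForm_IntegralStructure
import Fermat.Prelude.Thm_CongruenceSubgroup_one_mem_strictPeriods_Gamma0
import Fermat.Agent.S23.helper263_Spec
import Fermat.Agent.S23.helper263_Assembly
import Fermat.Agent.S23.helper206_FixedField
import Fermat.Agent.S23.helper1255_Conj
import Fermat.Agent.S23.helper143_PrimElt
import Fermat.Agent.S23.helper563_Hankel
import Fermat.Agent.S23.helper85_EsymmAdapters
import Fermat.Agent.S23.helper83_LevelOne
import Fermat.Agent.S23.helper595_LemmaHMF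
import Fermat.Agent.S23.helper732_BD
import Fermat.Agent.Lib.helper1403_LevelOneConj

/-!
# S23: final wiring (captain helper23)

`stmt_conj N k : helper263.Stmt_Conj N k` and `stmt_bd N k : helper263.Stmt_BD N k` for all
levels `N ≥ 1` and all weights `k : ℤ`, obtained by plugging the landed packages
(P) `helper143`, (T) `helper563`, (I) `helper85`, (L1) `helper83`/`helper1403`,
(H) `helper595`, CONJ core `helper1255`, BD core `helper732` into each other.
Hence `hasIntegralStructure N k` for all `k`.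
-/

set_option autoImplicit false

namespace Fermat.Agent.S23.helper23

open UpperHalfPlane CongruenceSubgroup
open scoped MatrixGroups ModularForm Manifold

/-- Lemma H in the shape consumed by `helper1255.conj_of_data`. -/
theorem lemmaH_shape (N : ℕ) [NeZero N] (k : ℤ) :
    ∀ (M : ℤ) (E : ModularForm (helper1255.G0 N) M) (P : ModularForm (helper1255.G0 N) (k + M))
      (n : ℕ) (c : (i : Fin n) → CuspForm 𝒮ℒ (k * (i + 1))), E ≠ 0 →
      (∀ z, P z ^ n + ∑ i : Fin n, c i z * E z ^ (i + 1 : ℕ) * P z ^ (n - 1 - i) = 0) →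
      ∃ g : CuspForm (helper1255.G0 N) k, ∀ z, g z * E z = P z := by
  intro M E P n c hE hrel
  have hE0 : ∃ z, E z ≠ 0 := by
    by_contra h
    exact hE (DFunLike.ext _ _ fun z => by
      by_contra hz
      exact h ⟨z, hz⟩)
  refine helper595.lemmaH_fun (Γ := helper1255.G0 N) (helper1255.gamma0_le_SL N) k M n
    (E := (E : ℍ → ℂ)) (G := (P : ℍ → ℂ)) (fun i => (c i : ℍ → ℂ))
    (ModularFormClass.holo E) (ModularFormClass.holo P) hE0
    (fun γ hγ => SlashInvariantFormClass.slash_action_eq E γ hγ)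
    (fun γ hγ => SlashInvariantFormClass.slash_action_eq P γ hγ)
    (fun i => ⟨c i, rfl⟩) (fun z => ?_)
  rw [← hrel z]
  congr 1
  refine Finset.sum_congr rfl fun i _ => ?_
  ring

/-- (CONJ) for all levels and weights. -/
theorem stmt_conj (N : ℕ) [NeZero N] (k : ℤ) : helper263.Stmt_Conj N k := by
  intro f σ
  obtain ⟨m, D, hD, c, hT⟩ := helper563.hankel_rep_cusp f (helper143.wN N)
    (helper143.quotientFunc_wN_injective N)
  obtain ⟨n, e, hI⟩ := helper85.stmt_integral_fin N k f
  have hw : (qExpansion 1 (helper143.wN N)).map (σ : ℂ →+* ℂ) = qExpansion 1 (helper143.wN N) := by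
    obtain ⟨p, hp⟩ := helper143.qExpansion_wN_int N
    exact helper83.map_eq_of_mem_intPS (σ : ℂ →+* ℂ) ⟨p, hp.symm⟩
  exact helper1255.conj_of_data N k (σ : ℂ →+* ℂ)
    (fun m r => helper83.levelOne_conj (σ : ℂ →+* ℂ) m r) 4 (helper143.wN N) hw f _ m D hD c hT
    n e hI (lemmaH_shape N k)

/-- The structure statement of `helper732_BD` for all levels and weights. -/
theorem stmt_struct (N : ℕ) [NeZero N] (k : ℤ) : helper732.Stmt_Struct N k := by
  intro f
  obtain ⟨m, D, hD, c, hT⟩ := helper563.hankel_rep_cusp f (helper143.wN N)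
    (helper143.quotientFunc_wN_injective N)
  obtain ⟨n, e, hI⟩ := helper85.stmt_integral_fin N k f
  have nD : helper1255.Nice (D : ℍ → ℂ) := helper1255.nice_SL D
  have nf : helper1255.Nice (f : ℍ → ℂ) := helper1255.nice_G0 N f
  have nw : helper1255.Nice (helper143.wN N : ℍ → ℂ) := helper1255.nice_G0 N (helper143.wN N)
  have nc : ∀ j, helper1255.Nice (c j : ℍ → ℂ) := fun j => helper1255.nice_SL (c j)
  have ne : ∀ i, helper1255.Nice (e i : ℍ → ℂ) := fun i => helper1255.nice_SL (e i)
  have hwint : qExpansion 1 (helper143.wN N) ∈ helper732.intSpan := by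
    obtain ⟨p, hp⟩ := helper143.qExpansion_wN_int N
    rw [hp]
    exact helper732.map_int_mem_intSpan p
  have hDint : qExpansion 1 D ∈ helper732.intSpan :=
    Fermat.Agent.Lib.helper1403.levelOne_qExpansion_mem_intSpan m D
  have hcint : ∀ j, qExpansion 1 (c j) ∈ helper732.intSpan := fun j =>
    Fermat.Agent.Lib.helper1403.levelOne_qExpansion_mem_intSpan _ (c j)
  have heint : ∀ i, qExpansion 1 (e i) ∈ helper732.intSpan := fun i =>
    Fermat.Agent.Lib.helper1403.levelOne_cusp_qExpansion_mem_intSpan _ (e i)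
  have hqD0 : qExpansion 1 D ≠ 0 := fun h0 =>
    hD ((ModularForm.qExpansion_eq_zero_iff one_pos one_mem_strictPeriods_SL D).1 h0)
  -- the fraction identity
  have hfun : (D : ℍ → ℂ) * (f : ℍ → ℂ) =
      ∑ j, (c j : ℍ → ℂ) * (helper143.wN N : ℍ → ℂ) ^ (j : ℕ) := by
    funext z
    simp only [Pi.mul_apply, Finset.sum_apply, Pi.pow_apply]
    exact hT z
  have hq1 : qExpansion 1 D * qExpansion 1 f =
      ∑ j, qExpansion 1 (c j) * qExpansion 1 (helper143.wN N) ^ (j : ℕ) := by
    rw [← nD.qExp_mul nf, hfun, helper1255.Nice.qExp_sum _ (fun j _ => (nc j).mul (nw.pow _))]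
    refine Finset.sum_congr rfl fun j _ => ?_
    rw [(nc j).qExp_mul (nw.pow _), nw.qExp_pow]
  -- the monic relation
  have hRfun : (f : ℍ → ℂ) ^ n + ∑ i : Fin n, (e i : ℍ → ℂ) * (f : ℍ → ℂ) ^ (n - 1 - (i : ℕ)) = 0 := by
    funext z
    simp only [Pi.add_apply, Pi.pow_apply, Finset.sum_apply, Pi.mul_apply, Pi.zero_apply]
    exact hI z
  have hq2 : qExpansion 1 f ^ n +
      ∑ i : Fin n, qExpansion 1 (e i) * qExpansion 1 f ^ (n - 1 - (i : ℕ)) = 0 := by
    have h := congrArg (qExpansion 1) hRfun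
    rw [(nf.pow n).qExp_add (helper1255.Nice.sum _ fun i _ => (ne i).mul (nf.pow _)),
      helper1255.Nice.qExp_sum _ (fun i _ => (ne i).mul (nf.pow _)), nf.qExp_pow,
      UpperHalfPlane.qExpansion_zero] at h
    rw [← h]
    congr 1
    refine Finset.sum_congr rfl fun i _ => ?_
    rw [(ne i).qExp_mul (nf.pow _), nf.qExp_pow]
  refine ⟨qExpansion 1 D, qExpansion 1 D * qExpansion 1 f, n,
    fun i => qExpansion 1 (e (Fin.rev i)), hqD0, hDint, ?_, fun i => heint _, mul_comm _ _, ?_⟩
  · rw [hq1]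
    exact Submodule.sum_mem _ fun j _ =>
      helper732.mul_mem_intSpan (hcint j) (helper732.pow_mem_intSpan hwint _)
  · rw [← hq2]
    congr 1
    rw [← Equiv.sum_comp Fin.revPerm]
    refine Finset.sum_congr rfl fun i _ => ?_
    have hr : (Fin.revPerm i).rev = i := by simp
    have hi : ((Fin.revPerm i : Fin n) : ℕ) = n - 1 - (i : ℕ) := by
      simp only [Fin.revPerm_apply, Fin.val_rev]
      omega
    show qExpansion 1 (e (Fin.revPerm i).rev) * qExpansion 1 f ^ ((Fin.revPerm i : Fin n) : ℕ) = _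
    rw [hr, hi]

/-- (BD) for all levels and weights. -/
theorem stmt_bd (N : ℕ) [NeZero N] (k : ℤ) : helper263.Stmt_BD N k :=
  helper732.stmt_BD_of_struct N k (stmt_struct N k)

/-- **Integral structure** on `S_k(Γ₀(N))`, all levels `N ≥ 1`, all weights. -/
theorem hasIntegralStructure (N : ℕ) [NeZero N] (k : ℤ) : CuspForm.HasIntegralStructure N k :=
  helper263.assembly N k helper206.stmt_FF (stmt_conj N k) (stmt_bd N k)

end Fermat.Agent.S23.helper23
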