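import Mathlib
import Fermat.Prelude.Def_CuspForm_IntegralStructure
import Fermat.Agent.S23.helper263_Spec

/-!
# S23 second-level interface (helper1035)

Function-level, hypothesis-passing interface from which `Stmt_Conj N k` and `Stmt_BD N k`
(of `helper263_Spec`) are derived in `helper1035_Transport.lean`.

All level-one objects are referred to through the function-level predicates `IsLevelOne m F`
and `IsLevelOneCusp m F`, so that no dependent weight casts are ever needed.
-/

set_option autoImplicit false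

namespace Fermat.Agent.S23.helper1035

open UpperHalfPlane ModularFormClass
open scoped MatrixGroups ModularForm Manifold

local notation "Γ₀(" N ")" => CongruenceSubgroup.Gamma0 N

/-- `F` is the function underlying a level one modular form of weight `m`. -/
def IsLevelOne (m : ℤ) (F : ℍ → ℂ) : Prop := ∃ r : ModularForm 𝒮ℒ m, ⇑r = F

/-- `F` is the function underlying a level one cusp form of weight `m`. -/
def IsLevelOneCusp (m : ℤ) (F : ℍ → ℂ) : Prop := ∃ r : CuspForm 𝒮ℒ m, ⇑r = F

/-- The power series `P` has integer coefficients. -/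
def IsIntSeries (P : PowerSeries ℂ) : Prop := ∀ n : ℕ, ∃ a : ℤ, PowerSeries.coeff n P = (a : ℂ)

/-- Primitive element datum: `w` underlies a weight `4` modular form on `Γ₀(N)` whose
`q`-expansion has integer coefficients. -/
structure IsPrimElt (N : ℕ) (w : ℍ → ℂ) : Prop where
  form : ∃ W : ModularForm Γ₀(N) 4, ⇑W = w
  int : IsIntSeries (qExpansion 1 w)

/-- The `ℂ`-span of the functions `r * w ^ j`, `r` level one of weight `m - 4 * j`:
"polynomials in `w` with level one coefficients, homogeneous of weight `m`". -/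
def gradedSpan (w : ℍ → ℂ) (m : ℤ) : Submodule ℂ (ℍ → ℂ) :=
  Submodule.span ℂ {F | ∃ (j : ℕ) (r : ℍ → ℂ), IsLevelOne (m - 4 * j) r ∧ F = r * w ^ j}

/-- (L1) level one forms of every weight are spanned by forms with integral `q`-expansion.
This single statement implies both `Stmt_LevelOneConj` and `Stmt_LevelOneInt` below
(see `helper1035_Transport.lean`). -/
def Stmt_LevelOneBasis : Prop :=
  ∀ (m : ℤ) (r : ModularForm 𝒮ℒ m),
    r ∈ Submodule.span ℂ {s : ModularForm 𝒮ℒ m | IsIntSeries (qExpansion 1 s)}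

/-- (L1c) level one forms are stable under coefficientwise ring automorphisms. -/
def Stmt_LevelOneConj : Prop :=
  ∀ (σ : ℂ ≃+* ℂ) (m : ℤ) (r : ModularForm 𝒮ℒ m),
    ∃ r' : ModularForm 𝒮ℒ m, qExpansion 1 r' = PowerSeries.map (σ : ℂ →+* ℂ) (qExpansion 1 r)

/-- (L1i) the `q`-expansion of a level one form is a `ℂ`-combination of integral power series. -/
def Stmt_LevelOneInt : Prop :=
  ∀ (m : ℤ) (r : ModularForm 𝒮ℒ m),
    qExpansion 1 r ∈ Submodule.span ℂ {P : PowerSeries ℂ | IsIntSeries P}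

/-- (LAG) Lagrange interpolation: every cusp form is a quotient of two homogeneous polynomials
in `w` with level one coefficients. -/
def Stmt_Lagrange (N : ℕ) (k : ℤ) (w : ℍ → ℂ) : Prop :=
  ∀ f : CuspForm Γ₀(N) k, ∃ (m : ℤ) (E G : ℍ → ℂ),
    E ∈ gradedSpan w m ∧ G ∈ gradedSpan w (m + k) ∧ E ≠ 0 ∧ ∀ z, f z * E z = G z

/-- (INT) integrality: every cusp form is a root of a monic polynomial whose lower coefficients
are level one cusp forms (of the obvious weights). -/
def Stmt_Integral (N : ℕ) (k : ℤ) : Prop :=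
  ∀ f : CuspForm Γ₀(N) k, ∃ (n : ℕ) (ρ : Fin n → ℍ → ℂ),
    (∀ i : Fin n, IsLevelOneCusp (k * ((i : ℕ) + 1)) (ρ i)) ∧
    ∀ z, f z ^ n + ∑ i : Fin n, ρ i z * f z ^ (n - 1 - (i : ℕ)) = 0

/-- (H) the analytic core: a "quotient" `G / E` which is integral over level one cusp forms
is a cusp form. -/
def Stmt_LemmaH (N : ℕ) (k : ℤ) : Prop :=
  ∀ (m : ℤ) (n : ℕ) (E G : ℍ → ℂ) (ρ : Fin n → ℍ → ℂ),
    MDiff E → MDiff G → E ≠ 0 →
    (∀ γ ∈ (Γ₀(N) : Subgroup (GL (Fin 2) ℝ)), E ∣[m] γ = E) →
    (∀ γ ∈ (Γ₀(N) : Subgroup (GL (Fin 2) ℝ)), G ∣[m + k] γ = G) →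
    (∀ i : Fin n, IsLevelOneCusp (k * ((i : ℕ) + 1)) (ρ i)) →
    (∀ z, G z ^ n + ∑ i : Fin n, ρ i z * E z ^ ((i : ℕ) + 1) * G z ^ (n - 1 - (i : ℕ)) = 0) →
    ∃ g : CuspForm Γ₀(N) k, ∀ z, g z * E z = G z

end Fermat.Agent.S23.helper1035
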