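import Mathlib
import Fermat.Prelude.Def_CuspForm_IntegralStructure
import Fermat.Prelude.Thm_CongruenceSubgroup_one_mem_strictPeriods_Gamma0
import Fermat.Agent.S23.helper263_Spec
import Fermat.Agent.S23.helper1035_Spec2

/-!
# S23: transport lemmas (helper1035)

From the second-level interface `helper1035_Spec2` we derive `Stmt_Conj N k` and `Stmt_BD N k`
of `helper263_Spec`:

* `conj_of_parts`
* `bd_of_parts`
-/

set_option autoImplicit false

namespace Fermat.Agent.S23.helper1035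

open UpperHalfPlane ModularFormClass
open scoped MatrixGroups ModularForm Manifold

local notation "Γ₀(" N ")" => CongruenceSubgroup.Gamma0 N

/-! ### Nice functions: `1`-periodic, holomorphic, bounded at `i∞` -/

/-- A function on `ℍ` which is `1`-periodic, holomorphic and bounded at `i∞`; these are the
functions for which `qExpansion 1` is a well-behaved (injective, multiplicative) operation. -/
structure Nice (F : ℍ → ℂ) : Prop where
  per : Function.Periodic (F ∘ ofComplex) 1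
  hol : MDiff F
  bdd : IsBoundedAtImInfty F

namespace Nice

variable {F G : ℍ → ℂ}

lemma analytic (hF : Nice F) : AnalyticAt ℂ (cuspFunction 1 F) 0 :=
  analyticAt_cuspFunction_zero one_pos hF.per hF.hol hF.bdd

lemma zero : Nice (0 : ℍ → ℂ) where
  per := fun z => by simp
  hol := mdifferentiable_const
  bdd := zero_form_isBoundedAtImInfty

lemma one : Nice (1 : ℍ → ℂ) where
  per := fun z => by simp
  hol := mdifferentiable_const
  bdd := Filter.const_boundedAtFilter atImInfty (1 : ℂ)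

lemma add (hF : Nice F) (hG : Nice G) : Nice (F + G) where
  per := fun z => by
    have h1 := hF.per z
    have h2 := hG.per z
    simp only [Function.comp_apply, Pi.add_apply] at h1 h2 ⊢
    rw [h1, h2]
  hol := hF.hol.add hG.hol
  bdd := hF.bdd.add hG.bdd

lemma mul (hF : Nice F) (hG : Nice G) : Nice (F * G) where
  per := fun z => by
    have h1 := hF.per z
    have h2 := hG.per z
    simp only [Function.comp_apply, Pi.mul_apply] at h1 h2 ⊢
    rw [h1, h2]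
  hol := hF.hol.mul hG.hol
  bdd := hF.bdd.mul hG.bdd

lemma smul (c : ℂ) (hF : Nice F) : Nice (c • F) where
  per := fun z => by
    have h1 := hF.per z
    simp only [Function.comp_apply, Pi.smul_apply] at h1 ⊢
    rw [h1]
  hol := hF.hol.const_smul c
  bdd := hF.bdd.const_smul_left c

lemma pow (hF : Nice F) (n : ℕ) : Nice (F ^ n) := by
  induction n with
  | zero => simpa using Nice.one
  | succ n ih => simpa [pow_succ] using ih.mul hF

lemma sum {ι : Type*} (s : Finset ι) {F : ι → ℍ → ℂ} (hF : ∀ i ∈ s, Nice (F i)) :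
    Nice (∑ i ∈ s, F i) := by
  classical
  induction s using Finset.induction_on with
  | empty => simpa using Nice.zero
  | insert a t ha ih =>
    rw [Finset.sum_insert ha]
    exact (hF a (Finset.mem_insert_self a t)).add
      (ih fun i hi => hF i (Finset.mem_insert_of_mem hi))

lemma neg (hF : Nice F) : Nice (-F) := by
  simpa using hF.smul (-1)

lemma sub (hF : Nice F) (hG : Nice G) : Nice (F - G) := by
  simpa [sub_eq_add_neg] using hF.add hG.neg

end Nice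

/-- Abbreviation for the `q`-expansion with respect to the period `1`. -/
local notation "Q" => qExpansion (1 : ℝ)

section Qlemmas

variable {F G : ℍ → ℂ}

lemma Q_add (hF : Nice F) (hG : Nice G) : Q (F + G) = Q F + Q G :=
  qExpansion_add hF.analytic hG.analytic

lemma Q_sub (hF : Nice F) (hG : Nice G) : Q (F - G) = Q F - Q G :=
  qExpansion_sub hF.analytic hG.analytic

lemma Q_mul (hF : Nice F) (hG : Nice G) : Q (F * G) = Q F * Q G :=
  qExpansion_mul hF.analytic hG.analytic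

lemma Q_smul (c : ℂ) (hF : Nice F) : Q (c • F) = c • Q F :=
  qExpansion_smul hF.analytic c

lemma Q_pow (hF : Nice F) (n : ℕ) : Q (F ^ n) = Q F ^ n := by
  induction n with
  | zero => simpa using qExpansion_one (1 : ℝ)
  | succ n ih => rw [pow_succ, pow_succ, Q_mul (hF.pow n) hF, ih]

lemma Q_sum {ι : Type*} (s : Finset ι) {F : ι → ℍ → ℂ} (hF : ∀ i ∈ s, Nice (F i)) :
    Q (∑ i ∈ s, F i) = ∑ i ∈ s, Q (F i) := by
  classical
  induction s using Finset.induction_on with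
  | empty => simpa using qExpansion_zero (1 : ℝ)
  | insert a t ha ih =>
    rw [Finset.sum_insert ha, Finset.sum_insert ha,
      Q_add (hF a (Finset.mem_insert_self a t))
        (Nice.sum t fun i hi => hF i (Finset.mem_insert_of_mem hi)),
      ih fun i hi => hF i (Finset.mem_insert_of_mem hi)]

lemma Q_eq_zero_iff (hF : Nice F) : Q F = 0 ↔ F = 0 :=
  qExpansion_eq_zero_iff one_pos hF.per hF.hol hF.bdd

lemma Q_injective (hF : Nice F) (hG : Nice G) (h : Q F = Q G) : F = G := by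
  have h1 : Q (F - G) = 0 := by rw [Q_sub hF hG, h, sub_self]
  exact sub_eq_zero.mp ((Q_eq_zero_iff (hF.sub hG)).mp h1)

end Qlemmas

/-! ### Modular forms are nice -/

lemma nice_of_modularFormClass {Γ : Subgroup (GL (Fin 2) ℝ)} {k : ℤ} {F : Type*}
    [FunLike F ℍ ℂ] [ModularFormClass F Γ k] (hΓ : (1 : ℝ) ∈ Γ.strictPeriods) (f : F) :
    Nice (f : ℍ → ℂ) :=
  have : Fact (IsCusp OnePoint.infty Γ) := ⟨Γ.isCusp_of_mem_strictPeriods one_pos hΓ⟩
  { per := SlashInvariantFormClass.periodic_comp_ofComplex f hΓ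
    hol := ModularFormClass.holo f
    bdd := ModularFormClass.bdd_at_infty f }

lemma nice_levelOne {m : ℤ} (r : ModularForm 𝒮ℒ m) : Nice (r : ℍ → ℂ) :=
  nice_of_modularFormClass one_mem_strictPeriods_SL r

lemma nice_levelOneCusp {m : ℤ} (r : CuspForm 𝒮ℒ m) : Nice (r : ℍ → ℂ) :=
  nice_of_modularFormClass one_mem_strictPeriods_SL r

lemma nice_Gamma0 {N : ℕ} {m : ℤ} (W : ModularForm Γ₀(N) m) : Nice (W : ℍ → ℂ) :=
  nice_of_modularFormClass (CongruenceSubgroup.one_mem_strictPeriods_Gamma0 N) W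

lemma nice_Gamma0Cusp {N : ℕ} {m : ℤ} (f : CuspForm Γ₀(N) m) : Nice (f : ℍ → ℂ) :=
  nice_of_modularFormClass (CongruenceSubgroup.one_mem_strictPeriods_Gamma0 N) f

lemma IsLevelOne.nice {m : ℤ} {F : ℍ → ℂ} (h : IsLevelOne m F) : Nice F := by
  obtain ⟨r, rfl⟩ := h
  exact nice_levelOne r

lemma IsLevelOneCusp.nice {m : ℤ} {F : ℍ → ℂ} (h : IsLevelOneCusp m F) : Nice F := by
  obtain ⟨r, rfl⟩ := h
  exact nice_levelOneCusp r

lemma IsPrimElt.nice {N : ℕ} {w : ℍ → ℂ} (h : IsPrimElt N w) : Nice w := by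
  obtain ⟨W, rfl⟩ := h.form
  exact nice_Gamma0 W

/-! ### Slash invariance under `Γ₀(N)` at the level of functions -/

/-- Weight `m` slash invariance of a function under `Γ₀(N)`. -/
def InvSL (N : ℕ) (m : ℤ) (F : ℍ → ℂ) : Prop :=
  ∀ γ : SL(2, ℤ), γ ∈ Γ₀(N) → F ∣[m] γ = F

lemma InvSL.toGL {N : ℕ} {m : ℤ} {F : ℍ → ℂ} (h : InvSL N m F) :
    ∀ γ ∈ (Γ₀(N) : Subgroup (GL (Fin 2) ℝ)), F ∣[m] γ = F := by
  rintro γ ⟨γ', hγ', rfl⟩
  exact h γ' hγ'

lemma InvSL.add {N : ℕ} {m : ℤ} {F G : ℍ → ℂ} (hF : InvSL N m F) (hG : InvSL N m G) :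
    InvSL N m (F + G) := fun γ hγ => by
  rw [SlashAction.add_slash, hF γ hγ, hG γ hγ]

lemma InvSL.smul {N : ℕ} {m : ℤ} {F : ℍ → ℂ} (c : ℂ) (hF : InvSL N m F) :
    InvSL N m (c • F) := fun γ hγ => by
  rw [ModularForm.SL_smul_slash, hF γ hγ]

lemma InvSL.zero {N : ℕ} {m : ℤ} : InvSL N m (0 : ℍ → ℂ) := fun γ _ => by
  simp

lemma InvSL.mul {N : ℕ} {a b : ℤ} {F G : ℍ → ℂ} (hF : InvSL N a F) (hG : InvSL N b G) :
    InvSL N (a + b) (F * G) := fun γ hγ => by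
  rw [ModularForm.mul_slash_SL2, hF γ hγ, hG γ hγ]

lemma InvSL.one {N : ℕ} : InvSL N 0 (1 : ℍ → ℂ) := fun γ _ =>
  ModularForm.is_invariant_one γ

lemma InvSL.pow {N : ℕ} {a : ℤ} {F : ℍ → ℂ} (hF : InvSL N a F) (j : ℕ) :
    InvSL N (a * j) (F ^ j) := by
  induction j with
  | zero => simpa using InvSL.one
  | succ j ih =>
    have h := ih.mul hF
    have e : a * (j : ℤ) + a = a * ((j + 1 : ℕ) : ℤ) := by push_cast; ring
    rw [e] at h
    simpa [pow_succ] using h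

lemma invSL_of_slashInvariant {N : ℕ} {m : ℤ} {Γ : Subgroup (GL (Fin 2) ℝ)} {F : Type*}
    [FunLike F ℍ ℂ] [SlashInvariantFormClass F Γ m]
    (hΓ : (Γ₀(N) : Subgroup (GL (Fin 2) ℝ)) ≤ Γ) (f : F) : InvSL N m (f : ℍ → ℂ) :=
  fun γ hγ => SlashInvariantFormClass.slash_action_eq f _ (hΓ ⟨γ, hγ, rfl⟩)

lemma IsLevelOne.invSL {N : ℕ} {m : ℤ} {F : ℍ → ℂ} (h : IsLevelOne m F) : InvSL N m F := by
  obtain ⟨r, rfl⟩ := h
  refine invSL_of_slashInvariant (Γ := 𝒮ℒ) ?_ r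
  rintro γ ⟨γ', -, rfl⟩
  exact ⟨γ', rfl⟩

lemma IsPrimElt.invSL {N : ℕ} {w : ℍ → ℂ} (h : IsPrimElt N w) : InvSL N 4 w := by
  obtain ⟨W, rfl⟩ := h.form
  exact invSL_of_slashInvariant le_rfl W

/-! ### Elements of `gradedSpan` -/

lemma gradedSpan_nice {N : ℕ} {w : ℍ → ℂ} (hw : IsPrimElt N w) {m : ℤ} {F : ℍ → ℂ}
    (hF : F ∈ gradedSpan w m) : Nice F := by
  refine Submodule.span_induction (p := fun F _ => Nice F) ?_ Nice.zero
    (fun _ _ _ _ h1 h2 => h1.add h2) (fun c _ _ h => h.smul c) hF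
  rintro _ ⟨j, r, hr, rfl⟩
  exact hr.nice.mul (hw.nice.pow j)

lemma gradedSpan_invSL {N : ℕ} {w : ℍ → ℂ} (hw : IsPrimElt N w) {m : ℤ} {F : ℍ → ℂ}
    (hF : F ∈ gradedSpan w m) : InvSL N m F := by
  refine Submodule.span_induction (p := fun F _ => InvSL N m F) ?_ InvSL.zero
    (fun _ _ _ _ h1 h2 => h1.add h2) (fun c _ _ h => h.smul c) hF
  rintro _ ⟨j, r, hr, rfl⟩
  have h := (hr.invSL (N := N)).mul (hw.invSL.pow j)
  have e : m - 4 * (j : ℤ) + 4 * (j : ℤ) = m := by ring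
  rwa [e] at h

lemma map_eq_self_of_isIntSeries (σ : ℂ ≃+* ℂ) {P : PowerSeries ℂ} (hP : IsIntSeries P) :
    PowerSeries.map (σ : ℂ →+* ℂ) P = P := by
  ext n
  obtain ⟨a, ha⟩ := hP n
  simp [ha]

lemma gradedSpan_conj {N : ℕ} {w : ℍ → ℂ} (hw : IsPrimElt N w) (hL : Stmt_LevelOneConj)
    (σ : ℂ ≃+* ℂ) {m : ℤ} {F : ℍ → ℂ} (hF : F ∈ gradedSpan w m) :
    ∃ F' ∈ gradedSpan w m, Q F' = PowerSeries.map (σ : ℂ →+* ℂ) (Q F) := by
  refine Submodule.span_induction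
    (p := fun F _ => ∃ F' ∈ gradedSpan w m, Q F' = PowerSeries.map (σ : ℂ →+* ℂ) (Q F))
    ?_ ?_ ?_ ?_ hF
  · rintro _ ⟨j, r, ⟨r₀, rfl⟩, rfl⟩
    obtain ⟨r', hr'⟩ := hL σ _ r₀
    refine ⟨r' * w ^ j, Submodule.subset_span ⟨j, r', ⟨r', rfl⟩, rfl⟩, ?_⟩
    rw [Q_mul (nice_levelOne r') (hw.nice.pow j), Q_mul (nice_levelOne r₀) (hw.nice.pow j),
      Q_pow hw.nice, hr', map_mul, map_pow, map_eq_self_of_isIntSeries σ hw.int]
  · exact ⟨0, Submodule.zero_mem _, by simp [qExpansion_zero]⟩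
  · rintro F₁ F₂ h1 h2 ⟨F₁', hF₁', e1⟩ ⟨F₂', hF₂', e2⟩
    refine ⟨F₁' + F₂', Submodule.add_mem _ hF₁' hF₂', ?_⟩
    rw [Q_add (gradedSpan_nice hw hF₁') (gradedSpan_nice hw hF₂'),
      Q_add (gradedSpan_nice hw h1) (gradedSpan_nice hw h2), e1, e2, map_add]
  · rintro c F₁ h1 ⟨F₁', hF₁', e1⟩
    refine ⟨σ c • F₁', Submodule.smul_mem _ _ hF₁', ?_⟩
    rw [Q_smul _ (gradedSpan_nice hw hF₁'), Q_smul _ (gradedSpan_nice hw h1), e1]
    ext n
    simp

lemma levelOneCusp_conj (hL : Stmt_LevelOneConj) (σ : ℂ ≃+* ℂ) {m : ℤ} {ρ : ℍ → ℂ}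
    (hρ : IsLevelOneCusp m ρ) :
    ∃ ρ' : ℍ → ℂ, IsLevelOneCusp m ρ' ∧ Q ρ' = PowerSeries.map (σ : ℂ →+* ℂ) (Q ρ) := by
  obtain ⟨r, rfl⟩ := hρ
  obtain ⟨r', hr'⟩ := hL σ m (ModularFormClass.modularForm r)
  have h0 : (Q r').coeff 0 = 0 := by
    have hr0 : (Q (r : ℍ → ℂ)).coeff 0 = 0 :=
      CuspFormClass.qExpansion_coeff_zero r one_pos one_mem_strictPeriods_SL
    rw [hr']
    simpa using hr0
  refine ⟨ModularForm.toCuspForm r' h0, ⟨ModularForm.toCuspForm r' h0, rfl⟩, ?_⟩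
  have : (ModularForm.toCuspForm r' h0 : ℍ → ℂ) = r' := by
    ext z; simp [ModularForm.toCuspForm_apply]
  rw [this, hr']
  rfl

/-! ### The conjugation statement -/

/-- The polynomial relation between `G = f * E` and `E` deduced from the monic relation
for `f`. -/
lemma rel_of_rel {n : ℕ} (f E G : ℍ → ℂ) (ρ : Fin n → ℍ → ℂ) (hfE : ∀ z, f z * E z = G z)
    (hrel : ∀ z, f z ^ n + ∑ i : Fin n, ρ i z * f z ^ (n - 1 - (i : ℕ)) = 0) :
    G ^ n + ∑ i : Fin n, ρ i * E ^ ((i : ℕ) + 1) * G ^ (n - 1 - (i : ℕ)) = 0 := by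
  funext z
  simp only [Pi.add_apply, Pi.pow_apply, Finset.sum_apply, Pi.mul_apply, Pi.zero_apply]
  have key : G z ^ n + ∑ i : Fin n, ρ i z * E z ^ ((i : ℕ) + 1) * G z ^ (n - 1 - (i : ℕ))
      = E z ^ n * (f z ^ n + ∑ i : Fin n, ρ i z * f z ^ (n - 1 - (i : ℕ))) := by
    rw [mul_add, Finset.mul_sum, ← hfE z, mul_pow]
    congr 1
    · ring
    · refine Finset.sum_congr rfl fun i _ => ?_
      have hi : (i : ℕ) + 1 + (n - 1 - (i : ℕ)) = n := by have := i.2; omega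
      rw [mul_pow]
      calc ρ i z * E z ^ ((i : ℕ) + 1) * (f z ^ (n - 1 - (i : ℕ)) * E z ^ (n - 1 - (i : ℕ)))
          = E z ^ ((i : ℕ) + 1 + (n - 1 - (i : ℕ))) * (ρ i z * f z ^ (n - 1 - (i : ℕ))) := by
            rw [pow_add]; ring
        _ = E z ^ n * (ρ i z * f z ^ (n - 1 - (i : ℕ))) := by rw [hi]
  rw [key, hrel z, mul_zero]

theorem conj_of_parts {N : ℕ} {k : ℤ} {w : ℍ → ℂ} (hw : IsPrimElt N w)
    (hL : Stmt_LevelOneConj) (hLag : Stmt_Lagrange N k w) (hInt : Stmt_Integral N k)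
    (hH : Stmt_LemmaH N k) : helper263.Stmt_Conj N k := by
  intro f σ
  obtain ⟨m, E, G, hE, hG, hE0, hfEG⟩ := hLag f
  obtain ⟨n, ρ, hρ, hrel⟩ := hInt f
  have hNf : Nice (f : ℍ → ℂ) := nice_Gamma0Cusp f
  have hNE : Nice E := gradedSpan_nice hw hE
  have hNG : Nice G := gradedSpan_nice hw hG
  have hNρ : ∀ i, Nice (ρ i) := fun i => (hρ i).nice
  -- conjugate data
  obtain ⟨E', hE', hQE'⟩ := gradedSpan_conj hw hL σ hE
  obtain ⟨G', hG', hQG'⟩ := gradedSpan_conj hw hL σ hG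
  have hρ'ex : ∀ i : Fin n, ∃ ρ' : ℍ → ℂ, IsLevelOneCusp (k * ((i : ℕ) + 1)) ρ' ∧
      Q ρ' = PowerSeries.map (σ : ℂ →+* ℂ) (Q (ρ i)) := fun i => levelOneCusp_conj hL σ (hρ i)
  choose ρ' hρ'1 hρ'2 using hρ'ex
  have hNE' : Nice E' := gradedSpan_nice hw hE'
  have hNG' : Nice G' := gradedSpan_nice hw hG'
  have hNρ' : ∀ i, Nice (ρ' i) := fun i => (hρ'1 i).nice
  have hσinj : Function.Injective (PowerSeries.map (σ : ℂ →+* ℂ)) := by
    intro P₁ P₂ h
    ext j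
    have := congrArg (PowerSeries.coeff j) h
    simpa using this
  -- `E' ≠ 0`
  have hQE0 : Q E ≠ 0 := fun h => hE0 ((Q_eq_zero_iff hNE).mp h)
  have hQE'0 : Q E' ≠ 0 := by
    rw [hQE']
    intro h
    exact hQE0 (hσinj (by simpa using h))
  have hE'0 : E' ≠ 0 := fun h => hQE'0 (by rw [h]; exact qExpansion_zero 1)
  -- the original relation, as an identity of functions and of `q`-expansions
  have hR : G ^ n + ∑ i : Fin n, ρ i * E ^ ((i : ℕ) + 1) * G ^ (n - 1 - (i : ℕ)) = 0 :=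
    rel_of_rel f E G ρ hfEG hrel
  have hterm : ∀ i : Fin n, Nice (ρ i * E ^ ((i : ℕ) + 1) * G ^ (n - 1 - (i : ℕ))) :=
    fun i => ((hNρ i).mul (hNE.pow _)).mul (hNG.pow _)
  have hterm' : ∀ i : Fin n, Nice (ρ' i * E' ^ ((i : ℕ) + 1) * G' ^ (n - 1 - (i : ℕ))) :=
    fun i => ((hNρ' i).mul (hNE'.pow _)).mul (hNG'.pow _)
  have hQR : Q G ^ n + ∑ i : Fin n, Q (ρ i) * Q E ^ ((i : ℕ) + 1) * Q G ^ (n - 1 - (i : ℕ))
      = 0 := by
    have h := congrArg (qExpansion (1 : ℝ)) hR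
    rw [Q_add (hNG.pow n) (Nice.sum _ fun i _ => hterm i), Q_pow hNG,
      Q_sum _ (fun i _ => hterm i), qExpansion_zero] at h
    rw [← h]
    congr 1
    refine Finset.sum_congr rfl fun i _ => ?_
    rw [Q_mul ((hNρ i).mul (hNE.pow _)) (hNG.pow _), Q_mul (hNρ i) (hNE.pow _), Q_pow hNE,
      Q_pow hNG]
  -- the conjugate relation
  have hR' : G' ^ n + ∑ i : Fin n, ρ' i * E' ^ ((i : ℕ) + 1) * G' ^ (n - 1 - (i : ℕ)) = 0 := by
    refine (Q_eq_zero_iff ((hNG'.pow n).add (Nice.sum _ fun i _ => hterm' i))).mp ?_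
    rw [Q_add (hNG'.pow n) (Nice.sum _ fun i _ => hterm' i), Q_pow hNG',
      Q_sum _ (fun i _ => hterm' i)]
    have h := congrArg (PowerSeries.map (σ : ℂ →+* ℂ)) hQR
    rw [map_add, map_pow, map_sum, map_zero] at h
    rw [← h, hQG']
    congr 1
    refine Finset.sum_congr rfl fun i _ => ?_
    rw [Q_mul ((hNρ' i).mul (hNE'.pow _)) (hNG'.pow _), Q_mul (hNρ' i) (hNE'.pow _),
      Q_pow hNE', Q_pow hNG', hρ'2 i, hQE', hQG', map_mul, map_mul, map_pow, map_pow]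
  -- apply Lemma H
  obtain ⟨g, hg⟩ := hH m n E' G' ρ' hNE'.hol hNG'.hol hE'0
    (gradedSpan_invSL hw hE').toGL (gradedSpan_invSL hw hG').toGL hρ'1
    (fun z => by simpa using congrFun hR' z)
  refine ⟨g, fun j => ?_⟩
  have hNg : Nice (g : ℍ → ℂ) := nice_Gamma0Cusp g
  have h1 : Q g * Q E' = Q G' := by
    rw [← Q_mul hNg hNE']
    congr 1
    funext z
    exact hg z
  have h2 : Q f * Q E = Q G := by
    rw [← Q_mul hNf hNE]
    congr 1
    funext z
    exact hfEG z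
  have h3 : Q g * Q E' = PowerSeries.map (σ : ℂ →+* ℂ) (Q f) * Q E' := by
    rw [h1, hQG', hQE', ← h2, map_mul]
  have h4 : Q g = PowerSeries.map (σ : ℂ →+* ℂ) (Q f) := mul_right_cancel₀ hQE'0 h3
  have := congrArg (PowerSeries.coeff j) h4
  simpa [ModularFormClass.qCoeff] using this

/-! ### Level one: consequences of the integral basis statement -/

theorem levelOneConj_of_basis (hB : Stmt_LevelOneBasis) : Stmt_LevelOneConj := by
  intro σ m r
  refine Submodule.span_induction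
    (p := fun (r : ModularForm 𝒮ℒ m) _ => ∃ r' : ModularForm 𝒮ℒ m,
      Q r' = PowerSeries.map (σ : ℂ →+* ℂ) (Q r)) ?_ ?_ ?_ ?_ (hB m r)
  · intro s hs
    exact ⟨s, (map_eq_self_of_isIntSeries σ hs).symm⟩
  · exact ⟨0, by simp [qExpansion_zero]⟩
  · rintro r₁ r₂ - - ⟨r₁', e1⟩ ⟨r₂', e2⟩
    refine ⟨r₁' + r₂', ?_⟩
    rw [FunLike.coe_add, FunLike.coe_add, Q_add (nice_levelOne r₁') (nice_levelOne r₂'),
      Q_add (nice_levelOne r₁) (nice_levelOne r₂), e1, e2, map_add]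
  · rintro c r₁ - ⟨r₁', e1⟩
    refine ⟨σ c • r₁', ?_⟩
    rw [FunLike.coe_smul, FunLike.coe_smul, Q_smul _ (nice_levelOne r₁'),
      Q_smul _ (nice_levelOne r₁), e1]
    ext n
    simp

theorem levelOneInt_of_basis (hB : Stmt_LevelOneBasis) : Stmt_LevelOneInt := by
  intro m r
  refine Submodule.span_induction
    (p := fun (r : ModularForm 𝒮ℒ m) _ =>
      Q r ∈ Submodule.span ℂ {P : PowerSeries ℂ | IsIntSeries P})
    ?_ ?_ ?_ ?_ (hB m r)
  · intro s hs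
    exact Submodule.subset_span hs
  · simp [qExpansion_zero]
  · rintro r₁ r₂ - - h1 h2
    rw [FunLike.coe_add, Q_add (nice_levelOne r₁) (nice_levelOne r₂)]
    exact Submodule.add_mem _ h1 h2
  · rintro c r₁ - h1
    rw [FunLike.coe_smul, Q_smul _ (nice_levelOne r₁)]
    exact Submodule.smul_mem _ _ h1

end Fermat.Agent.S23.helper1035
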