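import Mathlib

set_option autoImplicit false

open UpperHalfPlane ModularForm Filter Topology
open scoped MatrixGroups Manifold

namespace Fermat.Agent.S23.helper1043

/-- Cauchy-type root bound for a monic polynomial relation. -/
theorem norm_le_of_monic_root {d : ℕ} (t : ℂ) (c : ℕ → ℂ)
    (h : t ^ d + ∑ i ∈ Finset.Icc 1 d, c i * t ^ (d - i) = 0) :
    ‖t‖ ≤ max 1 (∑ i ∈ Finset.Icc 1 d, ‖c i‖) := by
  rcases le_or_gt ‖t‖ 1 with h1 | h1
  · exact le_max_of_le_left h1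
  · refine le_max_of_le_right ?_
    have hd : d ≠ 0 := by
      rintro rfl
      simp at h
    have ht0 : 0 < ‖t‖ := lt_trans zero_lt_one h1
    have h2 : t ^ d = - ∑ i ∈ Finset.Icc 1 d, c i * t ^ (d - i) := eq_neg_of_add_eq_zero_left h
    have h3 : ‖t‖ ^ d ≤ (∑ i ∈ Finset.Icc 1 d, ‖c i‖) * ‖t‖ ^ (d - 1) := by
      calc ‖t‖ ^ d = ‖t ^ d‖ := (norm_pow t d).symm
        _ = ‖∑ i ∈ Finset.Icc 1 d, c i * t ^ (d - i)‖ := by rw [h2, norm_neg]
        _ ≤ ∑ i ∈ Finset.Icc 1 d, ‖c i * t ^ (d - i)‖ := norm_sum_le _ _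
        _ ≤ ∑ i ∈ Finset.Icc 1 d, ‖c i‖ * ‖t‖ ^ (d - 1) := by
            refine Finset.sum_le_sum fun i hi => ?_
            rw [norm_mul, norm_pow]
            refine mul_le_mul_of_nonneg_left ?_ (norm_nonneg _)
            exact pow_le_pow_right₀ h1.le (by have := (Finset.mem_Icc.mp hi).1; omega)
        _ = (∑ i ∈ Finset.Icc 1 d, ‖c i‖) * ‖t‖ ^ (d - 1) := by rw [Finset.sum_mul]
    have h4 : ‖t‖ ^ d = ‖t‖ * ‖t‖ ^ (d - 1) := by
      rw [← pow_succ']
      congr 1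
      omega
    rw [h4] at h3
    exact le_of_mul_le_mul_right h3 (pow_pos ht0 _)

/-- If moreover `‖t‖ ≤ 1`, then `‖t‖ ^ d` is bounded by the sum of the norms of the coefficients. -/
theorem norm_pow_le_of_monic_root {d : ℕ} (t : ℂ) (c : ℕ → ℂ)
    (h : t ^ d + ∑ i ∈ Finset.Icc 1 d, c i * t ^ (d - i) = 0) (h1 : ‖t‖ ≤ 1) :
    ‖t‖ ^ d ≤ ∑ i ∈ Finset.Icc 1 d, ‖c i‖ := by
  have h2 : t ^ d = - ∑ i ∈ Finset.Icc 1 d, c i * t ^ (d - i) := eq_neg_of_add_eq_zero_left h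
  calc ‖t‖ ^ d = ‖t ^ d‖ := (norm_pow t d).symm
    _ = ‖∑ i ∈ Finset.Icc 1 d, c i * t ^ (d - i)‖ := by rw [h2, norm_neg]
    _ ≤ ∑ i ∈ Finset.Icc 1 d, ‖c i * t ^ (d - i)‖ := norm_sum_le _ _
    _ ≤ ∑ i ∈ Finset.Icc 1 d, ‖c i‖ := by
        refine Finset.sum_le_sum fun i _ => ?_
        rw [norm_mul, norm_pow]
        exact mul_le_of_le_one_right (norm_nonneg _) (pow_le_one₀ (norm_nonneg _) h1)


/-- Analytic core (complex-domain version): if `G ^ d + ∑ c_i G ^ (d - i) E ^ i = 0` on a connected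
open set `U` with `E, G` holomorphic, `E ≢ 0` and the `c_i` continuous, then `G / E` extends to a
holomorphic function `F` on `U`, and `F` satisfies the monic relation `F ^ d + ∑ c_i F ^ (d - i) = 0`. -/
theorem exists_differentiableOn_quotient {U : Set ℂ} (hU : IsOpen U) (hUc : IsPreconnected U)
    {Ec Gc : ℂ → ℂ} (hE : DifferentiableOn ℂ Ec U) (hG : DifferentiableOn ℂ Gc U)
    (hE0 : ∃ z ∈ U, Ec z ≠ 0) (d : ℕ) (c : ℕ → ℂ → ℂ)
    (hc : ∀ i ∈ Finset.Icc 1 d, ContinuousOn (c i) U)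
    (heq : ∀ z ∈ U, Gc z ^ d + ∑ i ∈ Finset.Icc 1 d, c i z * Gc z ^ (d - i) * Ec z ^ i = 0) :
    ∃ F : ℂ → ℂ, DifferentiableOn ℂ F U ∧ (∀ z ∈ U, F z * Ec z = Gc z) ∧
      (∀ z ∈ U, F z ^ d + ∑ i ∈ Finset.Icc 1 d, c i z * F z ^ (d - i) = 0) := by
  classical
  have hd : d ≠ 0 := by
    rintro rfl
    obtain ⟨z, hz, -⟩ := hE0
    simpa using heq z hz
  set φ : ℂ → ℂ := fun z => Gc z / Ec z with hφ
  set F : ℂ → ℂ := fun z => limUnder (𝓝[≠] z) φ with hF
  -- (i) zeros of `Ec` are isolated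
  have hEan : AnalyticOnNhd ℂ Ec U := hE.analyticOnNhd hU
  have hiso : ∀ z0 ∈ U, ∀ᶠ z in 𝓝[≠] z0, Ec z ≠ 0 := by
    intro z0 hz0
    rcases (hEan z0 hz0).eventually_eq_zero_or_eventually_ne_zero with h | h
    · exfalso
      have h0 := hEan.eqOn_zero_of_preconnected_of_eventuallyEq_zero hUc hz0 h
      obtain ⟨z, hz, hne⟩ := hE0
      exact hne (h0 hz)
    · exact h
  -- (ii) `φ` is differentiable away from the zeros of `Ec`
  have hφd : ∀ z ∈ U, Ec z ≠ 0 → DifferentiableAt ℂ φ z := by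
    intro z hz hne
    exact (hG.differentiableAt (hU.mem_nhds hz)).div (hE.differentiableAt (hU.mem_nhds hz)) hne
  -- (iii) `F = φ` away from the zeros of `Ec`
  have hFφ : ∀ z ∈ U, Ec z ≠ 0 → F z = φ z := by
    intro z hz hne
    exact ((hφd z hz hne).continuousAt.tendsto.mono_left nhdsWithin_le_nhds).limUnder_eq
  -- (iv) the monic relation for `φ`
  have hφrel : ∀ z ∈ U, Ec z ≠ 0 →
      φ z ^ d + ∑ i ∈ Finset.Icc 1 d, c i z * φ z ^ (d - i) = 0 := by
    intro z hz hne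
    have h1 := heq z hz
    have h2 : φ z ^ d + ∑ i ∈ Finset.Icc 1 d, c i z * φ z ^ (d - i) =
        (Gc z ^ d + ∑ i ∈ Finset.Icc 1 d, c i z * Gc z ^ (d - i) * Ec z ^ i) / Ec z ^ d := by
      rw [add_div, Finset.sum_div]
      congr 1
      · simp only [hφ, div_pow]
      · refine Finset.sum_congr rfl fun i hi => ?_
        have hid : i ≤ d := (Finset.mem_Icc.mp hi).2
        simp only [hφ, div_pow]
        have h3 : Ec z ^ d = Ec z ^ (d - i) * Ec z ^ i := by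
          rw [← pow_add]; congr 1; omega
        rw [h3]
        field_simp
    rw [h2, h1, zero_div]
  -- (v) `F` is differentiable at every point of `U`
  have hFd : ∀ z0 ∈ U, DifferentiableAt ℂ F z0 := by
    intro z0 hz0
    set s : Set ℂ := {z | z ∈ U ∧ (z ≠ z0 → Ec z ≠ 0) ∧
      ∀ i ∈ Finset.Icc 1 d, ‖c i z‖ ≤ ‖c i z0‖ + 1} with hs
    have hs_nhds : s ∈ 𝓝 z0 := by
      have e1 : ∀ᶠ z in 𝓝 z0, z ∈ U := hU.mem_nhds hz0
      have e2 : ∀ᶠ z in 𝓝 z0, z ≠ z0 → Ec z ≠ 0 := eventually_nhdsWithin_iff.mp (hiso z0 hz0)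
      have e3 : ∀ᶠ z in 𝓝 z0, ∀ i ∈ Finset.Icc 1 d, ‖c i z‖ ≤ ‖c i z0‖ + 1 := by
        rw [Filter.eventually_all_finset]
        intro i hi
        have hcont : ContinuousAt (fun z => ‖c i z‖) z0 :=
          ((hc i hi).continuousAt (hU.mem_nhds hz0)).norm
        have := hcont.eventually (gt_mem_nhds (lt_add_one ‖c i z0‖))
        filter_upwards [this] with z hz using hz.le
      filter_upwards [e1, e2, e3] with z h1 h2 h3 using ⟨h1, h2, h3⟩
    have hsd : DifferentiableOn ℂ φ (s \ {z0}) := by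
      intro z hz
      exact (hφd z hz.1.1 (hz.1.2.1 hz.2)).differentiableWithinAt
    have hsb : BddAbove (norm ∘ φ '' (s \ {z0})) := by
      refine ⟨max 1 (∑ i ∈ Finset.Icc 1 d, (‖c i z0‖ + 1)), ?_⟩
      rintro _ ⟨z, hz, rfl⟩
      have hne : Ec z ≠ 0 := hz.1.2.1 hz.2
      have hb := norm_le_of_monic_root (φ z) (fun i => c i z) (hφrel z hz.1.1 hne)
      refine hb.trans (max_le_max le_rfl ?_)
      exact Finset.sum_le_sum fun i hi => hz.1.2.2 i hi
    have h1 := Complex.differentiableOn_update_limUnder_of_bddAbove hs_nhds hsd hsb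
    have h2 : F =ᶠ[𝓝 z0] Function.update φ z0 (limUnder (𝓝[≠] z0) φ) := by
      filter_upwards [hs_nhds] with z hz
      by_cases hzz : z = z0
      · subst hzz
        simp [hF]
      · rw [Function.update_of_ne hzz]
        exact hFφ z hz.1 (hz.2.1 hzz)
    exact (h1.differentiableAt hs_nhds).congr_of_eventuallyEq h2
  refine ⟨F, fun z hz => (hFd z hz).differentiableWithinAt, ?_, ?_⟩
  · intro z hz
    by_cases hne : Ec z = 0
    · have h1 := heq z hz
      have h2 : ∑ i ∈ Finset.Icc 1 d, c i z * Gc z ^ (d - i) * Ec z ^ i = 0 := by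
        refine Finset.sum_eq_zero fun i hi => ?_
        have hi1 : i ≠ 0 := by have := (Finset.mem_Icc.mp hi).1; omega
        rw [hne, zero_pow hi1, mul_zero]
      rw [h2, add_zero] at h1
      rw [hne, mul_zero, (pow_eq_zero_iff hd).mp h1]
    · rw [hFφ z hz hne]
      simp only [hφ]
      exact div_mul_cancel₀ _ hne
  · intro z0 hz0
    have hcontF : ContinuousAt F z0 := (hFd z0 hz0).continuousAt
    have hcont : ContinuousAt
        (fun z => F z ^ d + ∑ i ∈ Finset.Icc 1 d, c i z * F z ^ (d - i)) z0 := by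
      refine (hcontF.pow d).add ?_
      refine tendsto_finsetSum _ fun i hi => ?_
      exact ((hc i hi).continuousAt (hU.mem_nhds hz0)).mul (hcontF.pow _)
    have hev : (fun z => F z ^ d + ∑ i ∈ Finset.Icc 1 d, c i z * F z ^ (d - i))
        =ᶠ[𝓝[≠] z0] fun _ => (0 : ℂ) := by
      have e1 : ∀ᶠ z in 𝓝[≠] z0, z ∈ U := nhdsWithin_le_nhds (hU.mem_nhds hz0)
      filter_upwards [e1, hiso z0 hz0] with z hz hne
      rw [hFφ z hz hne]
      exact hφrel z hz hne
    exact tendsto_nhds_unique_of_eventuallyEq (hcont.tendsto.mono_left nhdsWithin_le_nhds)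
      tendsto_const_nhds hev


/-- Analytic core, `ℍ`-version. -/
theorem exists_mdifferentiable_quotient {E G : ℍ → ℂ} (hE : MDiff E) (hG : MDiff G) (hE0 : E ≠ 0)
    (d : ℕ) (c : ℕ → ℍ → ℂ) (hc : ∀ i ∈ Finset.Icc 1 d, MDiff (c i))
    (heq : ∀ τ, G τ ^ d + ∑ i ∈ Finset.Icc 1 d, c i τ * G τ ^ (d - i) * E τ ^ i = 0) :
    ∃ f : ℍ → ℂ, MDiff f ∧ (∀ τ, f τ * E τ = G τ) ∧
      (∀ τ, f τ ^ d + ∑ i ∈ Finset.Icc 1 d, c i τ * f τ ^ (d - i) = 0) := by
  have hU : IsOpen upperHalfPlaneSet := isOpen_upperHalfPlaneSet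
  have hUc : IsPreconnected upperHalfPlaneSet :=
    (Complex.isConnected_of_upperHalfPlane subset_rfl
      (fun z (hz : 0 < z.im) => le_of_lt hz)).isPreconnected
  have hE0' : ∃ z ∈ upperHalfPlaneSet, (E ∘ ofComplex) z ≠ 0 := by
    by_contra hcon
    apply hE0
    ext τ
    by_contra hτ
    exact hcon ⟨τ, τ.im_pos, by simpa [ofComplex_apply] using hτ⟩
  obtain ⟨F, hFd, hFE, hFrel⟩ := exists_differentiableOn_quotient hU hUc
    (UpperHalfPlane.mdifferentiable_iff.mp hE) (UpperHalfPlane.mdifferentiable_iff.mp hG) hE0' d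
    (fun i => c i ∘ ofComplex)
    (fun i hi => (UpperHalfPlane.mdifferentiable_iff.mp (hc i hi)).continuousOn)
    (by intro z hz; have := heq (ofComplex z); simpa using this)
  refine ⟨fun τ => F τ, ?_, ?_, ?_⟩
  · rw [UpperHalfPlane.mdifferentiable_iff]
    refine hFd.congr fun z hz => ?_
    simp [Function.comp, ofComplex_apply_of_im_pos hz]
  · intro τ
    have := hFE τ τ.im_pos
    simpa [ofComplex_apply] using this
  · intro τ
    have := hFrel τ τ.im_pos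
    simpa [ofComplex_apply] using this

/-- Two continuous functions on `ℍ` which agree off the zero set of a nonzero holomorphic
function are equal. -/
theorem eq_of_eq_on_ne_zero {E u v : ℍ → ℂ} (hE : MDiff E) (hE0 : E ≠ 0) (hu : Continuous u)
    (hv : Continuous v) (h : ∀ τ, E τ ≠ 0 → u τ = v τ) : u = v := by
  funext τ
  have hev : ∀ᶠ z in 𝓝[≠] τ, E z ≠ 0 := by
    by_contra hcon
    exact hE0 (eq_zero_of_frequently hE
      ((not_eventually.mp hcon).mono fun z hz => not_not.mp hz))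
  exact tendsto_nhds_unique_of_eventuallyEq
    (hu.continuousAt.tendsto.mono_left nhdsWithin_le_nhds)
    (hv.continuousAt.tendsto.mono_left nhdsWithin_le_nhds) (hev.mono fun z hz => h z hz)


section Forms

variable {Γ : Subgroup (GL (Fin 2) ℝ)} [Γ.HasDetOne] {k w : ℤ}

/-- Core of Lemma H: the holomorphic quotient `f = G / E`, its `Γ`-invariance, and the monic
relation satisfied by all its `SL(2, ℤ)`-translates. -/
theorem lemmaH_core (E : ModularForm Γ w) (G : ModularForm Γ (w + k)) (hE : E ≠ 0) (d : ℕ)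
    (c : ℕ → ℍ → ℂ) (hc : ∀ i ∈ Finset.Icc 1 d, MDiff (c i))
    (hcinv : ∀ i ∈ Finset.Icc 1 d, ∀ γ : SL(2, ℤ), c i ∣[k * i] γ = c i)
    (heq : ∀ τ, G τ ^ d + ∑ i ∈ Finset.Icc 1 d, c i τ * G τ ^ (d - i) * E τ ^ i = 0) :
    ∃ f : ℍ → ℂ, MDiff f ∧ (∀ τ, f τ * E τ = G τ) ∧ (∀ γ ∈ Γ, f ∣[k] γ = f) ∧
      (∀ (γ : SL(2, ℤ)) (τ : ℍ),
        (f ∣[k] γ) τ ^ d + ∑ i ∈ Finset.Icc 1 d, c i τ * (f ∣[k] γ) τ ^ (d - i) = 0) := by
  have hE0 : (E : ℍ → ℂ) ≠ 0 := fun h => hE (DFunLike.coe_injective h)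
  have hEh : MDiff (E : ℍ → ℂ) := ModularFormClass.holo E
  have hGh : MDiff (G : ℍ → ℂ) := ModularFormClass.holo G
  obtain ⟨f, hf, hfE, hfrel⟩ := exists_mdifferentiable_quotient hEh hGh hE0 d c hc heq
  refine ⟨f, hf, hfE, ?_, ?_⟩
  · intro γ hγ
    refine eq_of_eq_on_ne_zero hEh hE0 (hf.slash k γ).continuous hf.continuous fun τ hτ => ?_
    have h1 : f * ⇑E = ⇑G := funext hfE
    have h2 : (f * ⇑E) ∣[k + w] γ = (f ∣[k] γ) * ⇑E := by
      rw [mul_slash, Subgroup.HasDetOne.det_eq hγ,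
        SlashInvariantFormClass.slash_action_eq E γ hγ]
      simp
    have h3 : (f * ⇑E) ∣[k + w] γ = ⇑G := by
      rw [h1, add_comm k w]
      exact SlashInvariantFormClass.slash_action_eq G γ hγ
    have h4 : (f ∣[k] γ) τ * E τ = f τ * E τ := by
      have := congrFun (h2.symm.trans h3) τ
      rw [Pi.mul_apply] at this
      rw [this]
      exact (hfE τ).symm
    exact mul_right_cancel₀ hτ h4
  · intro γ τ
    set D : ℂ := denom (Matrix.SpecialLinearGroup.toGL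
      ((Matrix.SpecialLinearGroup.map (Int.castRingHom ℝ)) γ)) τ with hD
    have hg : (f ∣[k] γ) τ = f (γ • τ) * D ^ (-k) := SL_slash_apply f γ τ
    have key : (f ∣[k] γ) τ ^ d + ∑ i ∈ Finset.Icc 1 d, c i τ * (f ∣[k] γ) τ ^ (d - i) =
        (D ^ (-k)) ^ d * (f (γ • τ) ^ d +
          ∑ i ∈ Finset.Icc 1 d, c i (γ • τ) * f (γ • τ) ^ (d - i)) := by
      rw [mul_add, Finset.mul_sum]
      congr 1
      · rw [hg, mul_pow]; ring
      · refine Finset.sum_congr rfl fun i hi => ?_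
        have hci : c i τ = c i (γ • τ) * (D ^ (-k)) ^ i := by
          have h5 := congrFun (hcinv i hi γ) τ
          rw [SL_slash_apply] at h5
          rw [← h5, ← zpow_natCast (D ^ (-k)) i, ← zpow_mul]
          congr 2
          ring
        have hdi : (D ^ (-k)) ^ d = (D ^ (-k)) ^ i * (D ^ (-k)) ^ (d - i) := by
          rw [← pow_add]
          congr 1
          have := (Finset.mem_Icc.mp hi).2
          omega
        rw [hci, hdi, hg, mul_pow]
        ring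
    rw [key, hfrel, mul_zero]


/-- **Lemma H**, cusp form version.  Let `E`, `G` be modular forms for an arithmetic group `Γ`
of weights `w`, `w + k`, with `E ≠ 0`, and suppose `G ^ d + ∑_{1 ≤ i ≤ d} c_i G ^ (d - i) E ^ i = 0`
where each `c_i` is (the underlying function of) a level one cusp form of weight `k * i`.
Then `G / E` is a cusp form of weight `k` for `Γ`. -/
theorem exists_cuspForm_mul_eq [Γ.IsArithmetic] (E : ModularForm Γ w) (G : ModularForm Γ (w + k))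
    (hE : E ≠ 0) (d : ℕ) (c : ℕ → ℍ → ℂ)
    (hc : ∀ i ∈ Finset.Icc 1 d, ∃ e : CuspForm 𝒮ℒ (k * i), ⇑e = c i)
    (heq : ∀ τ, G τ ^ d + ∑ i ∈ Finset.Icc 1 d, c i τ * G τ ^ (d - i) * E τ ^ i = 0) :
    ∃ f : CuspForm Γ k, ∀ τ, f τ * E τ = G τ := by
  have hd : d ≠ 0 := by
    rintro rfl
    simpa using heq UpperHalfPlane.I
  have hcd : ∀ i ∈ Finset.Icc 1 d, MDiff (c i) := by
    intro i hi
    obtain ⟨e, he⟩ := hc i hi
    rw [← he]
    exact CuspFormClass.holo e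
  have hcinv : ∀ i ∈ Finset.Icc 1 d, ∀ γ : SL(2, ℤ), c i ∣[k * i] γ = c i := by
    intro i hi γ
    obtain ⟨e, he⟩ := hc i hi
    rw [← he]
    exact SlashInvariantFormClass.slash_action_eq e _ ⟨γ, rfl⟩
  have hczero : ∀ i ∈ Finset.Icc 1 d, IsZeroAtImInfty (c i) := by
    intro i hi
    obtain ⟨e, he⟩ := hc i hi
    rw [← he]
    exact CuspFormClass.zero_at_infty e
  obtain ⟨f, hf, hfE, hfinv, hfrel⟩ := lemmaH_core E G hE d c hcd hcinv heq
  have hzero : ∀ γ : SL(2, ℤ), IsZeroAtImInfty (f ∣[k] γ) := by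
    intro γ
    have hs : Tendsto (fun τ => ∑ i ∈ Finset.Icc 1 d, ‖c i τ‖) atImInfty (𝓝 0) := by
      have : Tendsto (fun τ => ∑ i ∈ Finset.Icc 1 d, ‖c i τ‖) atImInfty
          (𝓝 (∑ i ∈ Finset.Icc 1 d, (0 : ℝ))) :=
        tendsto_finsetSum _ fun i hi => by simpa using (hczero i hi).norm
      simpa using this
    have h1 : ∀ᶠ τ in atImInfty, ‖(f ∣[k] γ) τ‖ ≤ 1 := by
      filter_upwards [hs.eventually (gt_mem_nhds zero_lt_one)] with τ hτ
      have := norm_le_of_monic_root _ (fun i => c i τ) (hfrel γ τ)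
      exact this.trans (max_le le_rfl hτ.le)
    have h2 : ∀ᶠ τ in atImInfty, ‖(f ∣[k] γ) τ‖ ^ d ≤ ∑ i ∈ Finset.Icc 1 d, ‖c i τ‖ := by
      filter_upwards [h1] with τ hτ
      exact norm_pow_le_of_monic_root _ (fun i => c i τ) (hfrel γ τ) hτ
    have h3 : Tendsto (fun τ => ‖(f ∣[k] γ) τ‖ ^ d) atImInfty (𝓝 0) :=
      squeeze_zero' (Eventually.of_forall fun τ => by positivity) h2 hs
    have hdinv : (0 : ℝ) < (d : ℝ)⁻¹ := by
      have : (0 : ℝ) < d := by exact_mod_cast Nat.pos_of_ne_zero hd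
      positivity
    have h4 : Tendsto (fun τ => (‖(f ∣[k] γ) τ‖ ^ d) ^ ((d : ℝ)⁻¹)) atImInfty
        (𝓝 ((0 : ℝ) ^ ((d : ℝ)⁻¹))) := h3.rpow_const (Or.inr hdinv.le)
    rw [Real.zero_rpow hdinv.ne'] at h4
    have h5 : (fun τ => (‖(f ∣[k] γ) τ‖ ^ d) ^ ((d : ℝ)⁻¹)) = fun τ => ‖(f ∣[k] γ) τ‖ :=
      funext fun τ => Real.pow_rpow_inv_natCast (norm_nonneg _) hd
    rw [h5] at h4
    exact tendsto_zero_iff_norm_tendsto_zero.mpr h4
  refine ⟨{ toFun := f, slash_action_eq' := hfinv, holo' := hf, zero_at_cusps' := ?_ }, hfE⟩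
  intro c hc
  rw [Subgroup.IsArithmetic.isCusp_iff_isCusp_SL2Z] at hc
  rw [OnePoint.isZeroAt_iff_forall_SL2Z hc]
  intro γ _
  exact hzero γ

/-- **Lemma H**, modular form version: the same with level one modular forms `c_i`
(not necessarily cuspidal); the quotient `G / E` is then a modular form. -/
theorem exists_modularForm_mul_eq [Γ.IsArithmetic] (E : ModularForm Γ w)
    (G : ModularForm Γ (w + k)) (hE : E ≠ 0) (d : ℕ) (c : ℕ → ℍ → ℂ)
    (hc : ∀ i ∈ Finset.Icc 1 d, ∃ e : ModularForm 𝒮ℒ (k * i), ⇑e = c i)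
    (heq : ∀ τ, G τ ^ d + ∑ i ∈ Finset.Icc 1 d, c i τ * G τ ^ (d - i) * E τ ^ i = 0) :
    ∃ f : ModularForm Γ k, ∀ τ, f τ * E τ = G τ := by
  have hcd : ∀ i ∈ Finset.Icc 1 d, MDiff (c i) := by
    intro i hi
    obtain ⟨e, he⟩ := hc i hi
    rw [← he]
    exact ModularFormClass.holo e
  have hcinv : ∀ i ∈ Finset.Icc 1 d, ∀ γ : SL(2, ℤ), c i ∣[k * i] γ = c i := by
    intro i hi γ
    obtain ⟨e, he⟩ := hc i hi
    rw [← he]
    exact SlashInvariantFormClass.slash_action_eq e _ ⟨γ, rfl⟩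
  have hcbdd : ∀ i ∈ Finset.Icc 1 d, ∃ C : ℝ, ∀ᶠ τ in atImInfty, ‖c i τ‖ ≤ C := by
    intro i hi
    obtain ⟨e, he⟩ := hc i hi
    rw [← he]
    obtain ⟨C, hC⟩ := (ModularFormClass.bdd_at_infty e).bound
    exact ⟨C, hC.mono fun τ hτ => by simpa using hτ⟩
  obtain ⟨f, hf, hfE, hfinv, hfrel⟩ := lemmaH_core E G hE d c hcd hcinv heq
  have hbdd : ∀ γ : SL(2, ℤ), IsBoundedAtImInfty (f ∣[k] γ) := by
    intro γ
    choose! C hC using hcbdd
    have hev : ∀ᶠ τ in atImInfty, ∀ i ∈ Finset.Icc 1 d, ‖c i τ‖ ≤ C i := by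
      rw [Filter.eventually_all_finset]
      exact hC
    refine Asymptotics.IsBigO.of_bound (max 1 (∑ i ∈ Finset.Icc 1 d, C i)) ?_
    filter_upwards [hev] with τ hτ
    have := norm_le_of_monic_root _ (fun i => c i τ) (hfrel γ τ)
    simp only [Pi.one_apply, norm_one, mul_one]
    exact this.trans (max_le_max le_rfl (Finset.sum_le_sum hτ))
  refine ⟨{ toFun := f, slash_action_eq' := hfinv, holo' := hf, bdd_at_cusps' := ?_ }, hfE⟩
  intro c hc
  rw [Subgroup.IsArithmetic.isCusp_iff_isCusp_SL2Z] at hc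
  rw [OnePoint.isBoundedAt_iff_forall_SL2Z hc]
  intro γ _
  exact hbdd γ

end Forms

end Fermat.Agent.S23.helper1043
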