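/-
S23 blueprint (captain helper23): interface statements for the proof of
`CuspForm.HasIntegralStructure N k` (every weight `k`), hypothesis-passing style.
Every `Stmt_*` below is a `Prop`; workers prove implications between them in their own files.
Route: coefficientwise conjugation of cusp forms via symmetric functions of coset translates,
descent along the ring automorphisms of `ℂ`, bounded denominators via `ℤ⟦X⟧` integrally closed.
-/
import Mathlib
import Fermat.Prelude.Def_CuspForm_IntegralStructure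

set_option autoImplicit false

namespace Fermat.Agent.S23.helper23

open UpperHalfPlane ModularFormClass
open scoped MatrixGroups ModularForm Manifold

/-- `Γ₀(N)` as a subgroup of `SL(2, ℤ)`. -/
local notation "Γ0(" N ")" => CongruenceSubgroup.Gamma0 N

/-! ## Basic objects -/

/-- The coset space `SL(2,ℤ) / Γ₀(N)` exactly as used by Mathlib's `NormTrace` file
(`SlashInvariantForm.quotientFunc F q` is the translate of `F` attached to the coset `q`). -/
abbrev Cosets (N : ℕ) : Type :=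
  𝒮ℒ ⧸ ((Γ0(N) : Subgroup (GL (Fin 2) ℝ))).subgroupOf 𝒮ℒ

/-- The fixed `Fintype` instance on the coset space (use this one everywhere). -/
noncomputable instance instFintypeCosets (N : ℕ) [NeZero N] : Fintype (Cosets N) :=
  Fintype.ofFinite _

/-- The fixed `DecidableEq` instance on the coset space (use this one everywhere). -/
noncomputable instance instDecidableEqCosets (N : ℕ) : DecidableEq (Cosets N) :=
  Classical.decEq _

/-- "Nice" functions: holomorphic on `ℍ`, `1`-periodic, bounded at `i∞`.  On these,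
`qExpansion 1` is an injective ring homomorphism (Mathlib `UpperHalfPlane.qExpansion_mul`,
`qExpansion_add`, `qExpansion_eq_zero_iff`).  Every modular form on `Γ₀(N)` or `SL(2,ℤ)` is nice. -/
def IsNice (F : ℍ → ℂ) : Prop :=
  MDiff F ∧ Function.Periodic (F ∘ ofComplex) 1 ∧ IsBoundedAtImInfty F

/-- The `ℂ`-span of the power series with integer coefficients. -/
noncomputable def intSeriesSpan : Submodule ℂ (PowerSeries ℂ) :=
  Submodule.span ℂ (Set.range (PowerSeries.map (Int.castRingHom ℂ)))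

/-! ## Top level -/

/-- (FF) The fixed field of the ring automorphisms of `ℂ` is `ℚ`. -/
def Stmt_FF : Prop :=
  ∀ c : ℂ, (∀ σ : ℂ ≃+* ℂ, σ c = c) → ∃ r : ℚ, (r : ℂ) = c

/-- (Conj) Coefficientwise conjugates of cusp forms are cusp forms (same level and weight). -/
def Stmt_Conj (N : ℕ) (k : ℤ) : Prop :=
  ∀ (f : CuspForm Γ0(N) k) (σ : ℂ →+* ℂ),
    ∃ g : CuspForm Γ0(N) k, ∀ n : ℕ, qCoeff g n = σ (qCoeff f n)

/-- (BD) Bounded denominators: a cusp form with rational `q`-coefficients has a positive integer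
multiple with integer `q`-coefficients. -/
def Stmt_BD (N : ℕ) (k : ℤ) : Prop :=
  ∀ f : CuspForm Γ0(N) k, (∀ n : ℕ, ∃ r : ℚ, qCoeff f n = (r : ℂ)) →
    ∃ D : ℕ, D ≠ 0 ∧ ∀ n : ℕ, ∃ m : ℤ, (D : ℂ) * qCoeff f n = (m : ℂ)

/-- (IS) The goal, for every weight. -/
def Stmt_IS (N : ℕ) (k : ℤ) : Prop := CuspForm.HasIntegralStructure N k

/-- (ASM) Assembly: descent along `Aut ℂ` + Sturm bound + bounded denominators. -/
def Stmt_Assembly (N : ℕ) (k : ℤ) : Prop :=
  Stmt_FF → Stmt_Conj N k → Stmt_BD N k → Stmt_IS N k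

/-! ## Level one -/

/-- (L1) Level-one forms of every weight are spanned by forms with integer `q`-coefficients
(monomials `E₄^a E₆^b`; induction on the weight via `Δ = (E₄³ - E₆²)/1728`). -/
def Stmt_L1 : Prop :=
  ∀ (k : ℤ) (r : ModularForm 𝒮ℒ k),
    r ∈ Submodule.span ℂ
      {e : ModularForm 𝒮ℒ k | ∀ n : ℕ, ∃ m : ℤ, (qExpansion 1 e).coeff n = (m : ℂ)}

/-- (L1Conj) Coefficientwise conjugates of level-one modular forms. -/
def Stmt_L1Conj : Prop :=
  ∀ (k : ℤ) (r : ModularForm 𝒮ℒ k) (σ : ℂ →+* ℂ),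
    ∃ r' : ModularForm 𝒮ℒ k, qExpansion 1 r' = (qExpansion 1 r).map σ

/-- (L1ConjCusp) Coefficientwise conjugates of level-one cusp forms. -/
def Stmt_L1ConjCusp : Prop :=
  ∀ (k : ℤ) (r : CuspForm 𝒮ℒ k) (σ : ℂ →+* ℂ),
    ∃ r' : CuspForm 𝒮ℒ k, qExpansion 1 r' = (qExpansion 1 r).map σ

/-- (L1Int) `q`-expansions of level-one forms lie in the `ℂ`-span of integer power series. -/
def Stmt_L1Int : Prop :=
  ∀ (k : ℤ) (r : ModularForm 𝒮ℒ k), qExpansion 1 r ∈ intSeriesSpan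

/-! ## Symmetric functions of the coset translates (level `N` → level one) -/

/-- (Esymm) Elementary symmetric functions of the translates of a modular form on `Γ₀(N)`
are level-one modular forms. -/
def Stmt_Esymm (N : ℕ) [NeZero N] : Prop :=
  ∀ (k : ℤ) (F : ModularForm Γ0(N) k) (i : ℕ),
    ∃ e : ModularForm 𝒮ℒ (k * i), ∀ z : ℍ,
      e z = ∑ S ∈ Finset.powersetCard i (Finset.univ : Finset (Cosets N)),
        ∏ q ∈ S, SlashInvariantForm.quotientFunc F q z

/-- (EsymmCusp) Same for cusp forms, in positive degree: level-one cusp forms. -/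
def Stmt_EsymmCusp (N : ℕ) [NeZero N] : Prop :=
  ∀ (k : ℤ) (F : CuspForm Γ0(N) k) (i : ℕ), 0 < i →
    ∃ α : CuspForm 𝒮ℒ (k * i), ∀ z : ℍ,
      α z = ∑ S ∈ Finset.powersetCard i (Finset.univ : Finset (Cosets N)),
        ∏ q ∈ S, SlashInvariantForm.quotientFunc F q z

/-- (Beta) The "Lagrange numerators": `∑_q F_q · e_i(φ_{q'} : q' ≠ q)` is a level-one form. -/
def Stmt_Beta (N : ℕ) [NeZero N] : Prop :=
  ∀ (k w : ℤ) (F : CuspForm Γ0(N) k) (φ : ModularForm Γ0(N) w) (i : ℕ),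
    ∃ β : ModularForm 𝒮ℒ (k + w * i), ∀ z : ℍ,
      β z = ∑ q : Cosets N, SlashInvariantForm.quotientFunc F q z *
        ∑ S ∈ Finset.powersetCard i ((Finset.univ : Finset (Cosets N)).erase q),
          ∏ q' ∈ S, SlashInvariantForm.quotientFunc φ q' z

/-- (Prim) A primitive element: a modular form on `Γ₀(N)` with integer `q`-coefficients whose
stabiliser in `SL(2,ℤ)` (weight-`w` slash action) is exactly `Γ₀(N)`.
(E.g. `N³·E₄(N z)`, weight 4: compare limits at `i∞`.) -/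
def Stmt_Prim (N : ℕ) [NeZero N] : Prop :=
  ∃ (w : ℤ) (φ : ModularForm Γ0(N) w),
    (∀ n : ℕ, ∃ m : ℤ, (qExpansion 1 φ).coeff n = (m : ℂ)) ∧
    ∀ γ : SL(2, ℤ), (⇑φ ∣[w] γ = ⇑φ) → γ ∈ Γ0(N)

/-- (Pres) Algebraic presentation of a cusp form `f` on `Γ₀(N)` over level one:
a monic equation with level-one cusp-form coefficients, and `f·D = B` with
`D = ∑ δ_i φ^(μ-1-i) ≠ 0`, `B = ∑ β_i φ^(μ-1-i)`, `δ_i, β_i` level one, `φ` integral. -/
def Stmt_Pres (N : ℕ) [NeZero N] (k : ℤ) : Prop :=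
  ∀ f : CuspForm Γ0(N) k, ∃ (μ : ℕ) (w : ℤ) (φ : ModularForm Γ0(N) w)
      (α : (i : ℕ) → CuspForm 𝒮ℒ (k * i)) (δ : (i : ℕ) → ModularForm 𝒮ℒ (w * i))
      (β : (i : ℕ) → ModularForm 𝒮ℒ (k + w * i)),
    (∀ n : ℕ, ∃ m : ℤ, (qExpansion 1 φ).coeff n = (m : ℂ)) ∧
    (∀ z : ℍ, f z ^ μ + ∑ i ∈ Finset.range μ, α (i + 1) z * f z ^ (μ - 1 - i) = 0) ∧
    (∃ z : ℍ, ∑ i ∈ Finset.range μ, δ i z * φ z ^ (μ - 1 - i) ≠ 0) ∧
    (∀ z : ℍ, f z * ∑ i ∈ Finset.range μ, δ i z * φ z ^ (μ - 1 - i)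
        = ∑ i ∈ Finset.range μ, β i z * φ z ^ (μ - 1 - i))

/-! ## The analytic core -/

/-- (H) "Lemma H": a quotient `B / D` of holomorphic `Γ₀(N)`-invariant functions which satisfies
a monic equation with level-one cusp-form coefficients is a cusp form on `Γ₀(N)`.
(Cauchy root bound ⇒ locally bounded ⇒ removable singularities; invariance by cancelling `D`;
zero at all cusps because every `SL(2,ℤ)`-translate satisfies the same equation.) -/
def Stmt_H (N : ℕ) [NeZero N] (k : ℤ) : Prop :=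
  ∀ (μ : ℕ) (w' : ℤ) (D B : ℍ → ℂ) (c : (i : ℕ) → CuspForm 𝒮ℒ (k * i)),
    MDiff D → MDiff B → (∃ z, D z ≠ 0) →
    (∀ γ ∈ Γ0(N), D ∣[w'] γ = D) → (∀ γ ∈ Γ0(N), B ∣[k + w'] γ = B) →
    (∀ z, B z ^ μ + ∑ i ∈ Finset.range μ, c (i + 1) z * B z ^ (μ - 1 - i) * D z ^ (i + 1) = 0) →
    ∃ g : CuspForm Γ0(N) k, ∀ z, g z * D z = B z

/-! ## Bounded denominators -/

/-- (QPres) Power-series shadow of (Pres): `d·x = b`, `d ≠ 0`, and a monic equation for
`x = qExpansion 1 f`, all coefficients in the `ℂ`-span of integer power series. -/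
def Stmt_QPres (N : ℕ) [NeZero N] (k : ℤ) : Prop :=
  ∀ f : CuspForm Γ0(N) k, ∃ (μ : ℕ) (d b : PowerSeries ℂ) (a : ℕ → PowerSeries ℂ),
    d ≠ 0 ∧ d ∈ intSeriesSpan ∧ b ∈ intSeriesSpan ∧ (∀ i, a i ∈ intSeriesSpan) ∧
    d * qExpansion 1 f = b ∧
    (qExpansion 1 f) ^ μ + ∑ i ∈ Finset.range μ, a i * (qExpansion 1 f) ^ i = 0

/-- (BDAlg) Pure power-series algebra: a rational power series which is a quotient of, and
integral over, the `ℂ`-span of integer power series has bounded denominators.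
(Apply a `ℚ`-linear retraction `ℂ → ℚ` coefficientwise; then `ℤ⟦X⟧` is integrally closed.) -/
def Stmt_BDAlg : Prop :=
  ∀ (x : PowerSeries ℚ) (μ : ℕ) (d b : PowerSeries ℂ) (a : ℕ → PowerSeries ℂ),
    d ≠ 0 → d ∈ intSeriesSpan → b ∈ intSeriesSpan → (∀ i, a i ∈ intSeriesSpan) →
    d * x.map (algebraMap ℚ ℂ) = b →
    (x.map (algebraMap ℚ ℂ)) ^ μ + ∑ i ∈ Finset.range μ, a i * (x.map (algebraMap ℚ ℂ)) ^ i = 0 →
    ∃ D : ℕ, D ≠ 0 ∧ ∀ n : ℕ, ∃ m : ℤ, (D : ℚ) * x.coeff n = (m : ℚ)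

end Fermat.Agent.S23.helper23
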