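import Fermat.Agent.S23.helper1043_LemmaH
import Fermat.Agent.S23.helper23_Spec
import Fermat.Agent.S23.helper1035_Spec2

/-!
# Lemma H, function-level versions and adapters (helper1043)

* `lemmaH_core_fun`, `exists_cuspForm_mul_eq_fun`, `exists_modularForm_mul_eq_fun`:
  the same as in `helper1043_LemmaH`, but `E`, `G` are only holomorphic slash-invariant
  functions (no condition at the cusps).
* `stmt_H` : `helper23.Stmt_H N k`;  `stmt_LemmaH` : `helper1035.Stmt_LemmaH N k`.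
-/

set_option autoImplicit false

open UpperHalfPlane ModularForm Filter Topology
open scoped MatrixGroups Manifold

namespace Fermat.Agent.S23.helper1043

section FunLevel

variable {Γ : Subgroup (GL (Fin 2) ℝ)} [Γ.HasDetOne] {k w : ℤ}

/-- Core of Lemma H for holomorphic slash-invariant functions `E`, `G`. -/
theorem lemmaH_core_fun {E G : ℍ → ℂ} (hEh : MDiff E) (hGh : MDiff G) (hE0 : E ≠ 0)
    (hEinv : ∀ γ ∈ Γ, E ∣[w] γ = E) (hGinv : ∀ γ ∈ Γ, G ∣[w + k] γ = G) (d : ℕ)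
    (c : ℕ → ℍ → ℂ) (hc : ∀ i ∈ Finset.Icc 1 d, MDiff (c i))
    (hcinv : ∀ i ∈ Finset.Icc 1 d, ∀ γ : SL(2, ℤ), c i ∣[k * i] γ = c i)
    (heq : ∀ τ, G τ ^ d + ∑ i ∈ Finset.Icc 1 d, c i τ * G τ ^ (d - i) * E τ ^ i = 0) :
    ∃ f : ℍ → ℂ, MDiff f ∧ (∀ τ, f τ * E τ = G τ) ∧ (∀ γ ∈ Γ, f ∣[k] γ = f) ∧
      (∀ (γ : SL(2, ℤ)) (τ : ℍ),
        (f ∣[k] γ) τ ^ d + ∑ i ∈ Finset.Icc 1 d, c i τ * (f ∣[k] γ) τ ^ (d - i) = 0) := by
  obtain ⟨f, hf, hfE, hfrel⟩ := exists_mdifferentiable_quotient hEh hGh hE0 d c hc heq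
  refine ⟨f, hf, hfE, ?_, ?_⟩
  · intro γ hγ
    refine eq_of_eq_on_ne_zero hEh hE0 (hf.slash k γ).continuous hf.continuous fun τ hτ => ?_
    have h1 : f * E = G := funext hfE
    have h2 : (f * E) ∣[k + w] γ = (f ∣[k] γ) * E := by
      rw [mul_slash, Subgroup.HasDetOne.det_eq hγ, hEinv γ hγ]
      simp
    have h3 : (f * E) ∣[k + w] γ = G := by
      rw [h1, add_comm k w]
      exact hGinv γ hγ
    have h4 : (f ∣[k] γ) τ * E τ = f τ * E τ := by
      have := congrFun (h2.symm.trans h3) τ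
      rw [Pi.mul_apply] at this
      rw [this]
      exact (hfE τ).symm
    exact mul_right_cancel₀ hτ h4
  · intro γ τ
    set D : ℂ := denom (Matrix.SpecialLinearGroup.toGL
      ((Matrix.SpecialLinearGroup.map (Int.castRingHom ℝ)) γ)) τ with hD
    have hg : (f ∣[k] γ) τ = f (γ • τ) * D ^ (-k) := SL_slash_apply f γ τ
    have key : (f ∣[k] γ) τ ^ d + ∑ i ∈ Finset.Icc 1 d, c i τ * (f ∣[k] γ) τ ^ (d - i) =
        (D ^ (-k)) ^ d * (f (γ • τ) ^ d +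
          ∑ i ∈ Finset.Icc 1 d, c i (γ • τ) * f (γ • τ) ^ (d - i)) := by
      rw [mul_add, Finset.mul_sum]
      congr 1
      · rw [hg, mul_pow]; ring
      · refine Finset.sum_congr rfl fun i hi => ?_
        have hci : c i τ = c i (γ • τ) * (D ^ (-k)) ^ i := by
          have h5 := congrFun (hcinv i hi γ) τ
          rw [SL_slash_apply] at h5
          rw [← h5, ← zpow_natCast (D ^ (-k)) i, ← zpow_mul]
          congr 2
          ring
        have hdi : (D ^ (-k)) ^ d = (D ^ (-k)) ^ i * (D ^ (-k)) ^ (d - i) := by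
          rw [← pow_add]
          congr 1
          have := (Finset.mem_Icc.mp hi).2
          omega
        rw [hci, hdi, hg, mul_pow]
        ring
    rw [key, hfrel, mul_zero]

/-- **Lemma H**, function-level cusp form version: `E`, `G` holomorphic on `ℍ`, slash-invariant
under `Γ` of weights `w`, `w + k` (no condition at the cusps), `E ≠ 0`, and
`G ^ d + ∑_{1 ≤ i ≤ d} c_i G ^ (d - i) E ^ i = 0` with `c_i` level one cusp forms of weight
`k * i`.  Then `G / E` is a cusp form of weight `k` for `Γ`. -/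
theorem exists_cuspForm_mul_eq_fun [Γ.IsArithmetic] {E G : ℍ → ℂ} (hEh : MDiff E)
    (hGh : MDiff G) (hE0 : E ≠ 0) (hEinv : ∀ γ ∈ Γ, E ∣[w] γ = E)
    (hGinv : ∀ γ ∈ Γ, G ∣[w + k] γ = G) (d : ℕ) (c : ℕ → ℍ → ℂ)
    (hc : ∀ i ∈ Finset.Icc 1 d, ∃ e : CuspForm 𝒮ℒ (k * i), ⇑e = c i)
    (heq : ∀ τ, G τ ^ d + ∑ i ∈ Finset.Icc 1 d, c i τ * G τ ^ (d - i) * E τ ^ i = 0) :
    ∃ f : CuspForm Γ k, ∀ τ, f τ * E τ = G τ := by
  have hd : d ≠ 0 := by
    rintro rfl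
    simpa using heq UpperHalfPlane.I
  have hcd : ∀ i ∈ Finset.Icc 1 d, MDiff (c i) := by
    intro i hi
    obtain ⟨e, he⟩ := hc i hi
    rw [← he]
    exact CuspFormClass.holo e
  have hcinv : ∀ i ∈ Finset.Icc 1 d, ∀ γ : SL(2, ℤ), c i ∣[k * i] γ = c i := by
    intro i hi γ
    obtain ⟨e, he⟩ := hc i hi
    rw [← he]
    exact SlashInvariantFormClass.slash_action_eq e _ ⟨γ, rfl⟩
  have hczero : ∀ i ∈ Finset.Icc 1 d, IsZeroAtImInfty (c i) := by
    intro i hi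
    obtain ⟨e, he⟩ := hc i hi
    rw [← he]
    exact CuspFormClass.zero_at_infty e
  obtain ⟨f, hf, hfE, hfinv, hfrel⟩ :=
    lemmaH_core_fun hEh hGh hE0 hEinv hGinv d c hcd hcinv heq
  have hzero : ∀ γ : SL(2, ℤ), IsZeroAtImInfty (f ∣[k] γ) := by
    intro γ
    have hs : Tendsto (fun τ => ∑ i ∈ Finset.Icc 1 d, ‖c i τ‖) atImInfty (𝓝 0) := by
      have : Tendsto (fun τ => ∑ i ∈ Finset.Icc 1 d, ‖c i τ‖) atImInfty
          (𝓝 (∑ i ∈ Finset.Icc 1 d, (0 : ℝ))) :=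
        tendsto_finsetSum _ fun i hi => by simpa using (hczero i hi).norm
      simpa using this
    have h1 : ∀ᶠ τ in atImInfty, ‖(f ∣[k] γ) τ‖ ≤ 1 := by
      filter_upwards [hs.eventually (gt_mem_nhds zero_lt_one)] with τ hτ
      have := norm_le_of_monic_root _ (fun i => c i τ) (hfrel γ τ)
      exact this.trans (max_le le_rfl hτ.le)
    have h2 : ∀ᶠ τ in atImInfty, ‖(f ∣[k] γ) τ‖ ^ d ≤ ∑ i ∈ Finset.Icc 1 d, ‖c i τ‖ := by
      filter_upwards [h1] with τ hτ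
      exact norm_pow_le_of_monic_root _ (fun i => c i τ) (hfrel γ τ) hτ
    have h3 : Tendsto (fun τ => ‖(f ∣[k] γ) τ‖ ^ d) atImInfty (𝓝 0) :=
      squeeze_zero' (Eventually.of_forall fun τ => by positivity) h2 hs
    have hdinv : (0 : ℝ) < (d : ℝ)⁻¹ := by
      have : (0 : ℝ) < d := by exact_mod_cast Nat.pos_of_ne_zero hd
      positivity
    have h4 : Tendsto (fun τ => (‖(f ∣[k] γ) τ‖ ^ d) ^ ((d : ℝ)⁻¹)) atImInfty
        (𝓝 ((0 : ℝ) ^ ((d : ℝ)⁻¹))) := h3.rpow_const (Or.inr hdinv.le)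
    rw [Real.zero_rpow hdinv.ne'] at h4
    have h5 : (fun τ => (‖(f ∣[k] γ) τ‖ ^ d) ^ ((d : ℝ)⁻¹)) = fun τ => ‖(f ∣[k] γ) τ‖ :=
      funext fun τ => Real.pow_rpow_inv_natCast (norm_nonneg _) hd
    rw [h5] at h4
    exact tendsto_zero_iff_norm_tendsto_zero.mpr h4
  refine ⟨{ toFun := f, slash_action_eq' := hfinv, holo' := hf, zero_at_cusps' := ?_ }, hfE⟩
  intro c hc
  rw [Subgroup.IsArithmetic.isCusp_iff_isCusp_SL2Z] at hc
  rw [OnePoint.isZeroAt_iff_forall_SL2Z hc]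
  intro γ _
  exact hzero γ

/-- **Lemma H**, function-level modular form version. -/
theorem exists_modularForm_mul_eq_fun [Γ.IsArithmetic] {E G : ℍ → ℂ} (hEh : MDiff E)
    (hGh : MDiff G) (hE0 : E ≠ 0) (hEinv : ∀ γ ∈ Γ, E ∣[w] γ = E)
    (hGinv : ∀ γ ∈ Γ, G ∣[w + k] γ = G) (d : ℕ) (c : ℕ → ℍ → ℂ)
    (hc : ∀ i ∈ Finset.Icc 1 d, ∃ e : ModularForm 𝒮ℒ (k * i), ⇑e = c i)
    (heq : ∀ τ, G τ ^ d + ∑ i ∈ Finset.Icc 1 d, c i τ * G τ ^ (d - i) * E τ ^ i = 0) :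
    ∃ f : ModularForm Γ k, ∀ τ, f τ * E τ = G τ := by
  have hcd : ∀ i ∈ Finset.Icc 1 d, MDiff (c i) := by
    intro i hi
    obtain ⟨e, he⟩ := hc i hi
    rw [← he]
    exact ModularFormClass.holo e
  have hcinv : ∀ i ∈ Finset.Icc 1 d, ∀ γ : SL(2, ℤ), c i ∣[k * i] γ = c i := by
    intro i hi γ
    obtain ⟨e, he⟩ := hc i hi
    rw [← he]
    exact SlashInvariantFormClass.slash_action_eq e _ ⟨γ, rfl⟩
  have hcbdd : ∀ i ∈ Finset.Icc 1 d, ∃ C : ℝ, ∀ᶠ τ in atImInfty, ‖c i τ‖ ≤ C := by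
    intro i hi
    obtain ⟨e, he⟩ := hc i hi
    rw [← he]
    obtain ⟨C, hC⟩ := (ModularFormClass.bdd_at_infty e).bound
    exact ⟨C, hC.mono fun τ hτ => by simpa using hτ⟩
  obtain ⟨f, hf, hfE, hfinv, hfrel⟩ :=
    lemmaH_core_fun hEh hGh hE0 hEinv hGinv d c hcd hcinv heq
  have hbdd : ∀ γ : SL(2, ℤ), IsBoundedAtImInfty (f ∣[k] γ) := by
    intro γ
    choose! C hC using hcbdd
    have hev : ∀ᶠ τ in atImInfty, ∀ i ∈ Finset.Icc 1 d, ‖c i τ‖ ≤ C i := by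
      rw [Filter.eventually_all_finset]
      exact hC
    refine Asymptotics.IsBigO.of_bound (max 1 (∑ i ∈ Finset.Icc 1 d, C i)) ?_
    filter_upwards [hev] with τ hτ
    have := norm_le_of_monic_root _ (fun i => c i τ) (hfrel γ τ)
    simp only [Pi.one_apply, norm_one, mul_one]
    exact this.trans (max_le_max le_rfl (Finset.sum_le_sum hτ))
  refine ⟨{ toFun := f, slash_action_eq' := hfinv, holo' := hf, bdd_at_cusps' := ?_ }, hfE⟩
  intro c hc
  rw [Subgroup.IsArithmetic.isCusp_iff_isCusp_SL2Z] at hc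
  rw [OnePoint.isBoundedAt_iff_forall_SL2Z hc]
  intro γ _
  exact hbdd γ

end FunLevel

/-- Reindexing `Icc 1 μ` as `range μ` shifted by one. -/
theorem sum_Icc_one_eq_sum_range (μ : ℕ) (F : ℕ → ℂ) :
    ∑ i ∈ Finset.Icc 1 μ, F i = ∑ i ∈ Finset.range μ, F (i + 1) := by
  rw [Finset.range_eq_Ico, Finset.sum_Ico_add' F 0 μ 1]
  refine Finset.sum_congr ?_ fun _ _ => rfl
  ext i
  simp only [Finset.mem_Icc, Finset.mem_Ico]
  omega

/-- The captain's interface statement `helper23.Stmt_H`. -/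
theorem stmt_H (N : ℕ) [NeZero N] (k : ℤ) : Fermat.Agent.S23.helper23.Stmt_H N k := by
  intro μ w' D B c hD hB hD0 hDinv hBinv hrel
  have hD0' : D ≠ 0 := by
    obtain ⟨z, hz⟩ := hD0
    intro h
    exact hz (by rw [h]; rfl)
  refine exists_cuspForm_mul_eq_fun
    (Γ := (CongruenceSubgroup.Gamma0 N : Subgroup (GL (Fin 2) ℝ))) (w := w') (k := k)
    hD hB hD0' ?_ ?_ μ (fun i => ⇑(c i)) (fun i _ => ⟨c i, rfl⟩) ?_
  · rintro γ ⟨γ', hγ', rfl⟩
    exact hDinv γ' hγ'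
  · rintro γ ⟨γ', hγ', rfl⟩
    rw [add_comm w' k]
    exact hBinv γ' hγ'
  · intro τ
    rw [sum_Icc_one_eq_sum_range]
    have := hrel τ
    rw [← this]
    congr 1
    refine Finset.sum_congr rfl fun i _ => ?_
    rw [Nat.sub_sub, add_comm 1 i]

/-- The interface statement `helper1035.Stmt_LemmaH`. -/
theorem stmt_LemmaH (N : ℕ) [NeZero N] (k : ℤ) : Fermat.Agent.S23.helper1035.Stmt_LemmaH N k := by
  intro m n E G ρ hE hG hE0 hEinv hGinv hρ hrel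
  classical
  let c : ℕ → ℍ → ℂ := fun i => if h : 1 ≤ i ∧ i ≤ n then ρ ⟨i - 1, by omega⟩ else 0
  refine exists_cuspForm_mul_eq_fun
    (Γ := (CongruenceSubgroup.Gamma0 N : Subgroup (GL (Fin 2) ℝ))) (w := m) (k := k)
    hE hG hE0 hEinv hGinv n c ?_ ?_
  · intro i hi
    have hi' := Finset.mem_Icc.mp hi
    obtain ⟨e, he⟩ := hρ ⟨i - 1, by omega⟩
    have hcast : k * (((⟨i - 1, by omega⟩ : Fin n) : ℕ) + 1 : ℤ) = k * i := by
      congr 1
      have : (i - 1 + 1 : ℕ) = i := by omega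
      exact_mod_cast this
    refine ⟨CuspForm.mcast hcast e, ?_⟩
    simp only [c, dif_pos hi']
    exact he
  · intro τ
    rw [sum_Icc_one_eq_sum_range, Finset.sum_range]
    have := hrel τ
    rw [← this]
    congr 1
    refine Finset.sum_congr rfl fun i _ => ?_
    have hi : 1 ≤ (i : ℕ) + 1 ∧ (i : ℕ) + 1 ≤ n := ⟨by omega, by omega⟩
    simp only [c, dif_pos hi, Nat.add_sub_cancel, Fin.eta]
    rw [Nat.sub_sub, add_comm 1 (i : ℕ)]
    ring

end Fermat.Agent.S23.helper1043
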