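import Mathlib

set_option autoImplicit false

namespace Fermat.Agent.S23.helper1208

open PowerSeries

/-- The `ℂ`-span of power series with integer coefficients. -/
def intSpan : Submodule ℂ (PowerSeries ℂ) :=
  Submodule.span ℂ (Set.range (PowerSeries.map (Int.castRingHom ℂ)))

/-- A `ℚ`-linear functional on `ℂ` normalised at `1` and nonvanishing at a given point. -/
theorem exists_retraction (c : ℂ) (hc : c ≠ 0) :
    ∃ π : ℂ →ₗ[ℚ] ℚ, π 1 = 1 ∧ π c ≠ 0 := by
  obtain ⟨φ₁, h₁⟩ : ∃ φ : Module.Dual ℚ ℂ, φ 1 ≠ 0 :=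
    Module.Projective.exists_dual_ne_zero ℚ one_ne_zero
  obtain ⟨φ₂, h₂⟩ : ∃ φ : Module.Dual ℚ ℂ, φ c ≠ 0 :=
    Module.Projective.exists_dual_ne_zero ℚ hc
  set ψ : ℂ →ₗ[ℚ] ℚ := (φ₁ 1)⁻¹ • φ₁ with hψ
  have hψ1 : ψ 1 = 1 := by
    simp [hψ, h₁]
  by_cases hψc : ψ c = 0
  · refine ⟨ψ + (φ₂ - (φ₂ 1) • ψ), ?_, ?_⟩
    · simp [hψ1]
    · simp [hψc, h₂]
  · exact ⟨ψ, hψ1, hψc⟩

/-- Apply a `ℚ`-linear functional coefficientwise. -/
noncomputable def coeffwise (π : ℂ →ₗ[ℚ] ℚ) (G : PowerSeries ℂ) : PowerSeries ℚ :=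
  PowerSeries.mk fun n => π (PowerSeries.coeff n G)

@[simp] lemma coeff_coeffwise (π : ℂ →ₗ[ℚ] ℚ) (G : PowerSeries ℂ) (n : ℕ) :
    PowerSeries.coeff n (coeffwise π G) = π (PowerSeries.coeff n G) := by
  simp [coeffwise]

lemma coeffwise_zero (π : ℂ →ₗ[ℚ] ℚ) : coeffwise π 0 = 0 := by
  ext n; simp

lemma coeffwise_add (π : ℂ →ₗ[ℚ] ℚ) (G H : PowerSeries ℂ) :
    coeffwise π (G + H) = coeffwise π G + coeffwise π H := by
  ext n; simp

lemma coeffwise_sum (π : ℂ →ₗ[ℚ] ℚ) {ι : Type*} (s : Finset ι) (G : ι → PowerSeries ℂ) :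
    coeffwise π (∑ i ∈ s, G i) = ∑ i ∈ s, coeffwise π (G i) := by
  classical
  induction s using Finset.induction_on with
  | empty => simp [coeffwise_zero]
  | insert a s ha ih => rw [Finset.sum_insert ha, Finset.sum_insert ha, coeffwise_add, ih]

lemma coeffwise_one (π : ℂ →ₗ[ℚ] ℚ) (h1 : π 1 = 1) : coeffwise π 1 = 1 := by
  ext n
  simp only [coeff_coeffwise, PowerSeries.coeff_one]
  split_ifs <;> simp [h1]

lemma coeffwise_map_mul (π : ℂ →ₗ[ℚ] ℚ) (A : PowerSeries ℚ) (G : PowerSeries ℂ) :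
    coeffwise π (PowerSeries.map (algebraMap ℚ ℂ) A * G) = A * coeffwise π G := by
  ext n
  simp only [coeff_coeffwise, PowerSeries.coeff_mul, map_sum, PowerSeries.coeff_map]
  refine Finset.sum_congr rfl fun x _ => ?_
  rw [← Algebra.smul_def, map_smul, smul_eq_mul]

/-- Rational power series with bounded denominators. -/
def BddDenom (G : PowerSeries ℚ) : Prop :=
  ∃ n : ℕ, n ≠ 0 ∧ ∃ H : PowerSeries ℤ,
    PowerSeries.C (n : ℚ) * G = PowerSeries.map (Int.castRingHom ℚ) H

lemma BddDenom.zero : BddDenom 0 := ⟨1, one_ne_zero, 0, by simp⟩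

lemma BddDenom.add {G₁ G₂ : PowerSeries ℚ} (h₁ : BddDenom G₁) (h₂ : BddDenom G₂) :
    BddDenom (G₁ + G₂) := by
  obtain ⟨n₁, hn₁, H₁, e₁⟩ := h₁
  obtain ⟨n₂, hn₂, H₂, e₂⟩ := h₂
  refine ⟨n₁ * n₂, Nat.mul_ne_zero hn₁ hn₂,
    PowerSeries.C (n₂ : ℤ) * H₁ + PowerSeries.C (n₁ : ℤ) * H₂, ?_⟩
  ext k
  have c₁ := congrArg (PowerSeries.coeff k) e₁
  have c₂ := congrArg (PowerSeries.coeff k) e₂
  simp only [PowerSeries.coeff_C_mul, PowerSeries.coeff_map] at c₁ c₂
  simp only [eq_intCast] at c₁ c₂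
  simp only [PowerSeries.coeff_C_mul, PowerSeries.coeff_map, map_add]
  simp only [eq_intCast, Nat.cast_mul, Int.cast_mul, Int.cast_natCast]
  rw [← c₁, ← c₂]
  ring

lemma BddDenom.mul_left {G : PowerSeries ℚ} {n : ℕ} {H : PowerSeries ℤ}
    (e : PowerSeries.C (n : ℚ) * G = PowerSeries.map (Int.castRingHom ℚ) H) (m : ℕ) :
    PowerSeries.C ((m * n : ℕ) : ℚ) * G
      = PowerSeries.map (Int.castRingHom ℚ) (PowerSeries.C (m : ℤ) * H) := by
  ext k
  have c := congrArg (PowerSeries.coeff k) e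
  simp only [PowerSeries.coeff_C_mul, PowerSeries.coeff_map] at c
  simp only [eq_intCast] at c
  simp only [PowerSeries.coeff_C_mul, PowerSeries.coeff_map]
  simp only [eq_intCast, Nat.cast_mul, Int.cast_mul, Int.cast_natCast]
  rw [← c]
  ring

lemma bddDenom_coeffwise_of_mem (π : ℂ →ₗ[ℚ] ℚ) {G : PowerSeries ℂ} (hG : G ∈ intSpan) :
    BddDenom (coeffwise π G) := by
  suffices h : ∀ z : ℂ, BddDenom (coeffwise π (z • G)) by simpa using h 1
  unfold intSpan at hG
  induction hG using Submodule.span_induction with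
  | mem x hx =>
    obtain ⟨g, rfl⟩ := hx
    intro z
    refine ⟨(π z).den, (π z).den_nz, PowerSeries.C (π z).num * g, ?_⟩
    ext k
    simp only [PowerSeries.coeff_C_mul, PowerSeries.coeff_smul, coeff_coeffwise,
      PowerSeries.coeff_map, smul_eq_mul]
    simp only [eq_intCast, Int.cast_mul]
    have h1 : π (z * ((PowerSeries.coeff k g : ℤ) : ℂ))
        = ((PowerSeries.coeff k g : ℤ) : ℚ) * π z := by
      have : z * ((PowerSeries.coeff k g : ℤ) : ℂ) = ((PowerSeries.coeff k g : ℤ) : ℚ) • z := by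
        rw [Algebra.smul_def]
        simp [mul_comm]
      rw [this, map_smul, smul_eq_mul]
    rw [h1]
    have h2 : ((π z).den : ℚ) * π z = (π z).num := by
      rw [mul_comm]; exact Rat.mul_den_eq_num _
    calc ((π z).den : ℚ) * (((PowerSeries.coeff k g : ℤ) : ℚ) * π z)
        = ((PowerSeries.coeff k g : ℤ) : ℚ) * (((π z).den : ℚ) * π z) := by ring
      _ = ((π z).num : ℚ) * ((PowerSeries.coeff k g : ℤ) : ℚ) := by rw [h2]; ring
  | zero =>
    intro z
    simpa [coeffwise_zero] using BddDenom.zero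
  | add x y _ _ hx hy =>
    intro z
    rw [smul_add, coeffwise_add]
    exact (hx z).add (hy z)
  | smul a x _ hx =>
    intro z
    rw [smul_smul]
    exact hx (z * a)

/-- A finite family with bounded denominators has a common denominator. -/
lemma exists_common_denom {ι : Type*} [Fintype ι] (G : ι → PowerSeries ℚ)
    (hG : ∀ i, BddDenom (G i)) :
    ∃ n : ℕ, n ≠ 0 ∧ ∀ i, ∃ H : PowerSeries ℤ,
      PowerSeries.C (n : ℚ) * G i = PowerSeries.map (Int.castRingHom ℚ) H := by
  classical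
  choose n hn H hH using hG
  refine ⟨∏ i, n i, Finset.prod_ne_zero_iff.mpr fun i _ => hn i, fun i => ?_⟩
  refine ⟨PowerSeries.C ((∏ j ∈ Finset.univ.erase i, n j : ℕ) : ℤ) * H i, ?_⟩
  have := BddDenom.mul_left (hH i) (∏ j ∈ Finset.univ.erase i, n j)
  rw [← Finset.prod_erase_mul Finset.univ n (Finset.mem_univ i)]
  exact this

/-- Integrality step: a rational power series `G` which is a root of a monic polynomial with
integer-series coefficients and which is a quotient of integer series is an integer series. -/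
lemma int_of_monic_of_quot (G : PowerSeries ℚ) (D P : PowerSeries ℤ) (hD : D ≠ 0)
    (hDG : PowerSeries.map (Int.castRingHom ℚ) D * G = PowerSeries.map (Int.castRingHom ℚ) P)
    (μ : ℕ) (c : Fin μ → PowerSeries ℤ)
    (hrel : G ^ μ + ∑ i : Fin μ, PowerSeries.map (Int.castRingHom ℚ) (c i) * G ^ (i : ℕ) = 0) :
    ∃ G₀ : PowerSeries ℤ, G = PowerSeries.map (Int.castRingHom ℚ) G₀ := by
  have hinj : Function.Injective (PowerSeries.map (Int.castRingHom ℚ)) :=
    PowerSeries.map_injective _ Int.cast_injective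
  have hD' : PowerSeries.map (Int.castRingHom ℚ) D ≠ 0 := fun h => hD (hinj (by simpa using h))
  -- the integer identity
  have hint : P ^ μ + ∑ i : Fin μ, c i * D ^ (μ - (i : ℕ)) * P ^ (i : ℕ) = 0 := by
    apply hinj
    rw [map_zero, map_add, map_pow, map_sum, ← hDG]
    have hterm : ∀ i : Fin μ,
        PowerSeries.map (Int.castRingHom ℚ) (c i * D ^ (μ - (i : ℕ)) * P ^ (i : ℕ))
          = PowerSeries.map (Int.castRingHom ℚ) D ^ μ
            * (PowerSeries.map (Int.castRingHom ℚ) (c i) * G ^ (i : ℕ)) := by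
      intro i
      obtain ⟨k, hk⟩ : ∃ k, μ = k + (i : ℕ) := ⟨μ - i, by have := i.2; omega⟩
      have h1 : μ - (i : ℕ) = k := by omega
      rw [map_mul, map_mul, map_pow, map_pow, ← hDG, h1,
        (congrArg (fun t => PowerSeries.map (Int.castRingHom ℚ) D ^ t) hk :
          PowerSeries.map (Int.castRingHom ℚ) D ^ μ
            = PowerSeries.map (Int.castRingHom ℚ) D ^ (k + (i : ℕ)))]
      ring
    rw [Finset.sum_congr rfl fun i _ => hterm i, ← Finset.mul_sum, mul_pow, ← mul_add, hrel,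
      mul_zero]
  -- pass to the fraction field
  let K := FractionRing (PowerSeries ℤ)
  let a : PowerSeries ℤ →+* K := algebraMap (PowerSeries ℤ) K
  have haD : a D ≠ 0 := fun h =>
    hD ((IsFractionRing.injective (PowerSeries ℤ) K) (by simpa [a] using h))
  let g : K := a P / a D
  have hg : a D * g = a P := by
    show a D * (a P / a D) = a P
    rw [mul_div_assoc', mul_div_cancel_left₀ _ haD]
  let Q : Polynomial (PowerSeries ℤ) :=
    Polynomial.X ^ μ + ∑ i : Fin μ, Polynomial.C (c i) * Polynomial.X ^ (i : ℕ)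
  have hQ : Q.Monic := Polynomial.monic_X_pow_add (Polynomial.degree_sum_fin_lt c)
  have hroot : Polynomial.aeval g Q = 0 := by
    have hmul : a D ^ μ * Polynomial.aeval g Q = 0 := by
      simp only [Q, map_add, map_pow, Polynomial.aeval_X, map_sum, map_mul, Polynomial.aeval_C]
      have hterm : ∀ i : Fin μ, a D ^ μ * (algebraMap (PowerSeries ℤ) K (c i) * g ^ (i : ℕ))
          = a (c i * D ^ (μ - (i : ℕ)) * P ^ (i : ℕ)) := by
        intro i
        obtain ⟨k, hk⟩ : ∃ k, μ = k + (i : ℕ) := ⟨μ - i, by have := i.2; omega⟩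
        have h1 : μ - (i : ℕ) = k := by omega
        rw [map_mul, map_mul, map_pow, map_pow, ← hg, h1,
          (congrArg (fun t => a D ^ t) hk : a D ^ μ = a D ^ (k + (i : ℕ)))]
        simp only [a]
        ring
      rw [mul_add, Finset.mul_sum, Finset.sum_congr rfl fun i _ => hterm i, ← mul_pow, hg,
        ← map_pow, ← map_sum, ← map_add, hint, map_zero]
    exact (mul_eq_zero.mp hmul).resolve_left (pow_ne_zero _ haD)
  obtain ⟨G₀, hG₀⟩ := IsIntegrallyClosed.isIntegral_iff.mp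
    (⟨Q, hQ, by rwa [← Polynomial.aeval_def]⟩ : IsIntegral (PowerSeries ℤ) g)
  have hG₀D : D * G₀ = P := by
    apply IsFractionRing.injective (PowerSeries ℤ) K
    rw [map_mul, hG₀]
    exact hg
  refine ⟨G₀, ?_⟩
  have : PowerSeries.map (Int.castRingHom ℚ) D * G
      = PowerSeries.map (Int.castRingHom ℚ) D * PowerSeries.map (Int.castRingHom ℚ) G₀ := by
    rw [hDG, ← map_mul, hG₀D]
  exact mul_left_cancel₀ hD' this

/-- **Bounded denominators, abstract core.** Let `F₀` be a rational power series.  Suppose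
`d ≠ 0` and `d * F₀` lie in the `ℂ`-span of integer power series, and `F₀` is a root of a monic
polynomial whose coefficients lie in that span.  Then `F₀` has bounded denominators. -/
theorem bd_core (F₀ : PowerSeries ℚ) (d : PowerSeries ℂ) (hd0 : d ≠ 0) (hd : d ∈ intSpan)
    (hdF : d * PowerSeries.map (algebraMap ℚ ℂ) F₀ ∈ intSpan) (μ : ℕ)
    (ε : Fin μ → PowerSeries ℂ) (hε : ∀ i, ε i ∈ intSpan)
    (hrel : (PowerSeries.map (algebraMap ℚ ℂ) F₀) ^ μ
      + ∑ i : Fin μ, ε i * (PowerSeries.map (algebraMap ℚ ℂ) F₀) ^ (i : ℕ) = 0) :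
    ∃ n : ℕ, n ≠ 0 ∧ ∃ G : PowerSeries ℤ,
      PowerSeries.C (n : ℚ) * F₀ = PowerSeries.map (Int.castRingHom ℚ) G := by
  -- choose the functional
  obtain ⟨m, hm⟩ : ∃ m, PowerSeries.coeff m d ≠ 0 := by
    by_contra h
    simp only [not_exists, not_not] at h
    exact hd0 (PowerSeries.ext fun n => by simpa using h n)
  obtain ⟨π, hπ1, hπc⟩ := exists_retraction _ hm
  set d' := coeffwise π d with hd'
  have hd'0 : d' ≠ 0 := fun h => hπc (by simpa [hd'] using congrArg (PowerSeries.coeff m) h)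
  -- transported identities
  have hp : coeffwise π (d * PowerSeries.map (algebraMap ℚ ℂ) F₀) = F₀ * d' := by
    rw [mul_comm, coeffwise_map_mul]
  have hrel' : F₀ ^ μ + ∑ i : Fin μ, coeffwise π (ε i) * F₀ ^ (i : ℕ) = 0 := by
    have h := congrArg (coeffwise π) hrel
    rw [coeffwise_add, coeffwise_sum, coeffwise_zero] at h
    have e1 : coeffwise π ((PowerSeries.map (algebraMap ℚ ℂ) F₀) ^ μ) = F₀ ^ μ := by
      rw [← map_pow, ← mul_one (PowerSeries.map (algebraMap ℚ ℂ) (F₀ ^ μ)), coeffwise_map_mul,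
        coeffwise_one π hπ1, mul_one]
    have e2 : ∀ i : Fin μ, coeffwise π (ε i * (PowerSeries.map (algebraMap ℚ ℂ) F₀) ^ (i : ℕ))
        = coeffwise π (ε i) * F₀ ^ (i : ℕ) := by
      intro i
      rw [← map_pow, mul_comm, coeffwise_map_mul, mul_comm]
    rw [e1, Finset.sum_congr rfl fun i _ => e2 i] at h
    exact h
  -- bounded denominators, common denominator
  let Gfam : Option (Option (Fin μ)) → PowerSeries ℚ := fun o =>
    match o with
    | none => d'
    | some none => F₀ * d'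
    | some (some i) => coeffwise π (ε i)
  have hGfam : ∀ o, BddDenom (Gfam o) := by
    intro o
    match o with
    | none => exact bddDenom_coeffwise_of_mem π hd
    | some none =>
      show BddDenom (F₀ * d')
      rw [← hp]
      exact bddDenom_coeffwise_of_mem π hdF
    | some (some i) => exact bddDenom_coeffwise_of_mem π (hε i)
  obtain ⟨n, hn, hH⟩ := exists_common_denom Gfam hGfam
  obtain ⟨D, hD⟩ := hH none
  obtain ⟨P, hP⟩ := hH (some none)
  have hE := fun i : Fin μ => hH (some (some i))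
  choose E hE using hE
  simp only [Gfam] at hD hP hE
  have hn' : (PowerSeries.C (n : ℚ) : PowerSeries ℚ) ≠ 0 := by
    intro h
    have := congrArg (PowerSeries.coeff 0) h
    simp at this
    exact hn this
  have hD0 : D ≠ 0 := by
    rintro rfl
    rw [map_zero] at hD
    exact (mul_ne_zero hn' hd'0) hD
  -- apply the integrality lemma to `G = n F₀`
  have key := int_of_monic_of_quot (PowerSeries.C (n : ℚ) * F₀) D (PowerSeries.C (n : ℤ) * P) hD0
    (by
      rw [map_mul, PowerSeries.map_C, ← hD, ← hP]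
      simp only [eq_intCast, Int.cast_natCast]
      ring)
    μ (fun i => PowerSeries.C ((n : ℤ) ^ (μ - 1 - (i : ℕ))) * E i)
    (by
      have hterm : ∀ i : Fin μ,
          PowerSeries.map (Int.castRingHom ℚ) (PowerSeries.C ((n : ℤ) ^ (μ - 1 - (i : ℕ))) * E i)
            * (PowerSeries.C (n : ℚ) * F₀) ^ (i : ℕ)
          = PowerSeries.C (n : ℚ) ^ μ * (coeffwise π (ε i) * F₀ ^ (i : ℕ)) := by
        intro i
        obtain ⟨k, hk⟩ : ∃ k, μ = k + 1 + (i : ℕ) := ⟨μ - 1 - i, by have := i.2; omega⟩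
        have h1 : μ - 1 - (i : ℕ) = k := by omega
        rw [map_mul, PowerSeries.map_C, ← hE, h1,
          (congrArg (fun t => PowerSeries.C (n : ℚ) ^ t) hk :
            PowerSeries.C (n : ℚ) ^ μ = PowerSeries.C (n : ℚ) ^ (k + 1 + (i : ℕ)))]
        simp only [eq_intCast, Int.cast_natCast, map_pow]
        ring
      rw [Finset.sum_congr rfl fun i _ => hterm i, ← Finset.mul_sum, mul_pow, ← mul_add, hrel',
        mul_zero])
  obtain ⟨G₀, hG₀⟩ := key
  exact ⟨n, hn, G₀, hG₀⟩

end Fermat.Agent.S23.helper1208
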