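import Mathlib

/-
helper1227 (S23): BOUNDED DENOMINATORS, pure power-series algebra (Mathlib only).

Main result `Fermat.Agent.S23.helper1227.bounded_denominators`:
if `F : ℂ⟦X⟧` has rational coefficients, `F * D0 = Z0` with `D0 ≠ 0`, `D0 Z0 ∈ intSpan`
(`intSpan` = the ℂ-subalgebra generated by integer power series = their ℂ-span), and `F` is a
root of a monic polynomial with coefficients in `intSpan`, then the coefficients of `F` have a
common denominator.
-/

set_option autoImplicit false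

namespace Fermat.Agent.S23.helper1227

open PowerSeries

theorem exists_eq_of_isIntegral_of_mul_eq_aux
    {R S K L : Type*} [CommRing R] [IsDomain R] [IsIntegrallyClosed R] [CommRing S] [IsDomain S]
    [Field K] [Algebra R K] [IsFractionRing R K] [Field L] [Algebra S L] [IsFractionRing S L]
    (ι : R →+* S) (hι : Function.Injective ι) (x : S) (a b : R) (hb : b ≠ 0)
    (hab : ι b * x = ι a)
    (q : Polynomial R) (hq : q.Monic) (hroot : q.eval₂ ι x = 0) : ∃ y : R, ι y = x := by
  have hg : Function.Injective ((algebraMap S L).comp ι) := (IsFractionRing.injective S L).comp hι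
  have hbK : b ∈ nonZeroDivisors R := mem_nonZeroDivisors_of_ne_zero hb
  have hgb : (algebraMap S L) (ι b) ≠ 0 := by
    intro h
    have h' : ((algebraMap S L).comp ι) b = ((algebraMap S L).comp ι) 0 := by
      rw [map_zero]; exact h
    exact hb (hg h')
  have hφz : (IsFractionRing.lift (K := K) hg) (IsLocalization.mk' K a ⟨b, hbK⟩) = algebraMap S L x := by
    rw [IsFractionRing.lift_mk' hg a ⟨b, hbK⟩]
    show (algebraMap S L) (ι a) / (algebraMap S L) (ι b) = _
    rw [div_eq_iff hgb, ← hab, map_mul, mul_comm]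
  have hz : IsIntegral R (IsLocalization.mk' K a ⟨b, hbK⟩ : K) := by
    refine ⟨q, hq, ?_⟩
    apply (IsFractionRing.lift (K := K) hg).injective
    rw [Polynomial.hom_eval₂, map_zero]
    have hcomp : (IsFractionRing.lift (K := K) hg).comp (algebraMap R K) = (algebraMap S L).comp ι :=
      RingHom.ext fun r => IsFractionRing.lift_algebraMap hg r
    rw [hcomp, hφz, ← Polynomial.hom_eval₂, hroot, map_zero]
  obtain ⟨y, hy⟩ := IsIntegrallyClosed.isIntegral_iff.mp hz
  refine ⟨y, ?_⟩
  apply IsFractionRing.injective S L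
  have h2 : (IsFractionRing.lift (K := K) hg) (algebraMap R K y) = (algebraMap S L) (ι y) :=
    IsFractionRing.lift_algebraMap hg y
  rw [hy, hφz] at h2
  exact h2.symm

/-- Integrally closed descent inside an arbitrary domain extension: if `x : S` is a "fraction"
`a / b` of elements of an integrally closed domain `R ⊆ S` and `x` is integral over `R`,
then `x` comes from `R`. -/
theorem exists_eq_of_isIntegral_of_mul_eq
    {R S : Type*} [CommRing R] [IsDomain R] [IsIntegrallyClosed R] [CommRing S] [IsDomain S]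
    (ι : R →+* S) (hι : Function.Injective ι) (x : S) (a b : R) (hb : b ≠ 0)
    (hab : ι b * x = ι a)
    (q : Polynomial R) (hq : q.Monic) (hroot : q.eval₂ ι x = 0) : ∃ y : R, ι y = x :=
  exists_eq_of_isIntegral_of_mul_eq_aux (K := FractionRing R) (L := FractionRing S) ι hι x a b hb hab q hq hroot

/-- The inclusion `ℤ⟦X⟧ → ℚ⟦X⟧`. -/
noncomputable abbrev intToRat : PowerSeries ℤ →+* PowerSeries ℚ := PowerSeries.map (Int.castRingHom ℚ)

theorem intToRat_injective : Function.Injective intToRat :=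
  PowerSeries.map_injective _ (RingHom.injective_int _)

/-- `G : ℚ⟦X⟧` has bounded denominators. -/
def IsBdd (G : PowerSeries ℚ) : Prop :=
  ∃ M : ℕ, M ≠ 0 ∧ ∃ Y : PowerSeries ℤ, (M : PowerSeries ℚ) * G = intToRat Y

theorem IsBdd.exists_dvd {G : PowerSeries ℚ} (h : IsBdd G) :
    ∃ M : ℕ, M ≠ 0 ∧ ∀ k : ℕ, ∃ Y : PowerSeries ℤ, ((M * k : ℕ) : PowerSeries ℚ) * G = intToRat Y := by
  obtain ⟨M, hM, Y, hY⟩ := h
  refine ⟨M, hM, fun k => ⟨(k : PowerSeries ℤ) * Y, ?_⟩⟩
  rw [map_mul, ← hY, map_natCast]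
  push_cast
  ring

/-- Finitely many bounded series have a common denominator. -/
theorem exists_common_denominator {ι : Type*} (s : Finset ι) (f : ι → PowerSeries ℚ)
    (h : ∀ i ∈ s, IsBdd (f i)) :
    ∃ M : ℕ, M ≠ 0 ∧ ∀ i ∈ s, ∀ k : ℕ, ∃ Y : PowerSeries ℤ, ((M * k : ℕ) : PowerSeries ℚ) * f i = intToRat Y := by
  classical
  induction s using Finset.induction_on with
  | empty => exact ⟨1, one_ne_zero, by simp⟩
  | insert a s ha ih =>
    obtain ⟨M₁, hM₁, h₁⟩ := ih (fun i hi => h i (Finset.mem_insert_of_mem hi))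
    obtain ⟨M₂, hM₂, h₂⟩ := (h a (Finset.mem_insert_self a s)).exists_dvd
    refine ⟨M₁ * M₂, mul_ne_zero hM₁ hM₂, fun i hi k => ?_⟩
    rcases Finset.mem_insert.mp hi with rfl | hi
    · obtain ⟨Y, hY⟩ := h₂ (M₁ * k)
      exact ⟨Y, by rw [← hY]; congr 2; ring⟩
    · obtain ⟨Y, hY⟩ := h₁ i hi (M₂ * k)
      exact ⟨Y, by rw [← hY]; congr 2; ring⟩

/-- Key algebraic fact: a rational power series `F = a / b` (`a`, `b` with bounded denominators)
which is a root of a monic polynomial whose coefficients have bounded denominators itself has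
bounded denominators. Uses that `ℤ⟦X⟧` is integrally closed. -/
theorem isBdd_of_frac_of_integral (F a b : PowerSeries ℚ) (hb : b ≠ 0) (hFb : F * b = a)
    (haB : IsBdd a) (hbB : IsBdd b) (p : Polynomial (PowerSeries ℚ)) (hp : p.Monic)
    (hpc : ∀ i, IsBdd (p.coeff i)) (hroot : p.eval F = 0) : IsBdd F := by
  classical
  obtain ⟨Ma, hMa, ha⟩ := haB.exists_dvd
  obtain ⟨Mb, hMb, hb'⟩ := hbB.exists_dvd
  obtain ⟨Mp, hMp, hpM⟩ := exists_common_denominator (Finset.range (p.natDegree + 1))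
    (fun i => p.coeff i) (fun i _ => hpc i)
  set M : ℕ := Ma * Mb * Mp with hM
  have hM0 : M ≠ 0 := mul_ne_zero (mul_ne_zero hMa hMb) hMp
  have hMQ : (M : PowerSeries ℚ) ≠ 0 := by
    intro h
    have h0 := congrArg (PowerSeries.coeff 0) h
    rw [← map_natCast (PowerSeries.C (R := ℚ)) M, PowerSeries.coeff_zero_C, map_zero] at h0
    exact hM0 (by exact_mod_cast h0)
  obtain ⟨a', ha'⟩ := ha (Mb * Mp)
  obtain ⟨b', hb''⟩ := hb' (Ma * Mp)
  have ha'' : (M : PowerSeries ℚ) * a = intToRat a' := by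
    rw [← ha', hM]; congr 2; ring
  have hb''' : (M : PowerSeries ℚ) * b = intToRat b' := by
    rw [← hb'', hM]; congr 2; ring
  have hpM' : ∀ i, i ≤ p.natDegree → ∃ Y : PowerSeries ℤ, (M : PowerSeries ℚ) * p.coeff i = intToRat Y := by
    intro i hi
    obtain ⟨Y, hY⟩ := hpM i (Finset.mem_range.mpr (Nat.lt_succ_of_le hi)) (Ma * Mb)
    exact ⟨Y, by rw [← hY, hM]; congr 2; ring⟩
  -- the scaled polynomial
  have hlift : Polynomial.scaleRoots p (M : PowerSeries ℚ) ∈ Polynomial.lifts intToRat := by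
    rw [Polynomial.lifts_iff_coeff_lifts]
    intro n
    rw [Polynomial.coeff_scaleRoots]
    rcases lt_trichotomy n p.natDegree with hn | hn | hn
    · obtain ⟨Y, hY⟩ := hpM' n hn.le
      obtain ⟨d, hd⟩ : ∃ d, p.natDegree - n = d + 1 := ⟨p.natDegree - n - 1, by omega⟩
      refine ⟨Y * (M : PowerSeries ℤ) ^ d, ?_⟩
      rw [map_mul, ← hY, map_pow, map_natCast, hd, pow_succ]
      ring
    · subst hn
      refine ⟨1, ?_⟩
      rw [map_one, Nat.sub_self, pow_zero, mul_one]
      exact hp.coeff_natDegree.symm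
    · refine ⟨0, ?_⟩
      rw [map_zero, Polynomial.coeff_eq_zero_of_natDegree_lt hn, zero_mul]
  have hmonic : (Polynomial.scaleRoots p (M : PowerSeries ℚ)).Monic :=
    (Polynomial.monic_scaleRoots_iff _).mpr hp
  obtain ⟨q, hq, -, hqm⟩ := Polynomial.lifts_and_natDegree_eq_and_monic hlift hmonic
  have hrootq : q.eval₂ intToRat ((M : PowerSeries ℚ) * F) = 0 := by
    rw [← Polynomial.eval_map, hq]
    have := Polynomial.scaleRoots_eval₂_eq_zero (p := p) (RingHom.id (PowerSeries ℚ)) (r := F)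
      (s := (M : PowerSeries ℚ)) (by rw [Polynomial.eval₂_id]; exact hroot)
    rw [Polynomial.eval₂_id] at this
    exact this
  have hb'0 : b' ≠ 0 := by
    intro h
    rw [h, map_zero] at hb'''
    exact (mul_ne_zero hMQ hb) hb'''
  have hab : intToRat b' * ((M : PowerSeries ℚ) * F) = intToRat ((M : PowerSeries ℤ) * a') := by
    rw [map_mul, ← ha'', ← hb''', map_natCast, ← hFb]
    ring
  obtain ⟨y, hy⟩ := exists_eq_of_isIntegral_of_mul_eq intToRat intToRat_injective
    ((M : PowerSeries ℚ) * F) ((M : PowerSeries ℤ) * a') b' hb'0 hab q hqm hrootq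
  exact ⟨M, hM0, y, hy.symm⟩

theorem IsBdd.add {G₁ G₂ : PowerSeries ℚ} (h₁ : IsBdd G₁) (h₂ : IsBdd G₂) : IsBdd (G₁ + G₂) := by
  obtain ⟨M₁, hM₁, Y₁, hY₁⟩ := h₁
  obtain ⟨M₂, hM₂, Y₂, hY₂⟩ := h₂
  refine ⟨M₁ * M₂, mul_ne_zero hM₁ hM₂, (M₂ : PowerSeries ℤ) * Y₁ + (M₁ : PowerSeries ℤ) * Y₂, ?_⟩
  rw [map_add, map_mul, map_mul, ← hY₁, ← hY₂, map_natCast, map_natCast]
  push_cast
  ring

theorem isBdd_zero : IsBdd 0 := ⟨1, one_ne_zero, 0, by simp⟩

/-- The ℂ-subalgebra of `ℂ⟦X⟧` generated by the power series with integer coefficients. As a set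
it is the ℂ-linear span of the integer power series (`mem_intSpan_iff`). -/
noncomputable def intSpan : Subalgebra ℂ (PowerSeries ℂ) :=
  Algebra.adjoin ℂ (Set.range (PowerSeries.map (Int.castRingHom ℂ)))

theorem map_int_mem_intSpan (g : PowerSeries ℤ) :
    PowerSeries.map (Int.castRingHom ℂ) g ∈ intSpan :=
  Algebra.subset_adjoin ⟨g, rfl⟩

theorem mem_intSpan_iff (X : PowerSeries ℂ) :
    X ∈ intSpan ↔ X ∈ Submodule.span ℂ (Set.range (PowerSeries.map (Int.castRingHom ℂ))) := by
  have h : Subalgebra.toSubmodule intSpan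
      = Submodule.span ℂ (Set.range (PowerSeries.map (Int.castRingHom ℂ))) := by
    rw [intSpan, Algebra.adjoin_eq_span]
    congr 1
    have : Set.range (PowerSeries.map (Int.castRingHom ℂ))
        = ((MonoidHom.mrange ((PowerSeries.map (Int.castRingHom ℂ) : PowerSeries ℤ →+* PowerSeries ℂ) :
            PowerSeries ℤ →* PowerSeries ℂ) : Submonoid (PowerSeries ℂ)) : Set (PowerSeries ℂ)) := by
      ext x; simp
    rw [this, Submonoid.closure_eq]
  rw [← h]
  exact Iff.rfl

/-- Coefficientwise application of a `ℚ`-linear functional `ℂ → ℚ`. -/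
noncomputable def coeffMap (l : ℂ →ₗ[ℚ] ℚ) : PowerSeries ℂ →+ PowerSeries ℚ where
  toFun X := PowerSeries.mk fun n => l (PowerSeries.coeff n X)
  map_zero' := by ext n; simp
  map_add' X Y := by ext n; simp

@[simp] theorem coeff_coeffMap (l : ℂ →ₗ[ℚ] ℚ) (X : PowerSeries ℂ) (n : ℕ) :
    PowerSeries.coeff n (coeffMap l X) = l (PowerSeries.coeff n X) := by
  simp [coeffMap]

theorem coeffMap_ratMul (l : ℂ →ₗ[ℚ] ℚ) (G : PowerSeries ℚ) (X : PowerSeries ℂ) :
    coeffMap l (PowerSeries.map (algebraMap ℚ ℂ) G * X) = G * coeffMap l X := by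
  ext n
  rw [coeff_coeffMap, PowerSeries.coeff_mul, PowerSeries.coeff_mul, map_sum]
  refine Finset.sum_congr rfl fun ij _ => ?_
  rw [PowerSeries.coeff_map, coeff_coeffMap, ← Algebra.smul_def, l.map_smul, smul_eq_mul]

theorem coeffMap_one (l : ℂ →ₗ[ℚ] ℚ) (hl : l 1 = 1) : coeffMap l 1 = 1 := by
  ext n
  rw [coeff_coeffMap, PowerSeries.coeff_one, PowerSeries.coeff_one]
  split_ifs <;> simp [hl]

theorem isBdd_coeffMap (l : ℂ →ₗ[ℚ] ℚ) {X : PowerSeries ℂ} (hX : X ∈ intSpan) :
    IsBdd (coeffMap l X) := by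
  rw [mem_intSpan_iff] at hX
  have key : ∀ c : ℂ, IsBdd (coeffMap l (c • X)) := by
    induction hX using Submodule.span_induction with
    | mem x hx =>
      obtain ⟨g, rfl⟩ := hx
      intro c
      have h1 : coeffMap l (c • PowerSeries.map (Int.castRingHom ℂ) g)
          = PowerSeries.C (l c) * intToRat g := by
        ext n
        rw [coeff_coeffMap, PowerSeries.coeff_smul, PowerSeries.coeff_map, PowerSeries.coeff_C_mul,
          PowerSeries.coeff_map]
        have : c • ((Int.castRingHom ℂ) (PowerSeries.coeff n g))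
            = ((PowerSeries.coeff n g : ℤ) : ℚ) • c := by
          rw [smul_eq_mul, Algebra.smul_def]
          simp [mul_comm]
        rw [this, l.map_smul, smul_eq_mul, mul_comm]
        simp
      rw [h1]
      refine ⟨(l c).den, (l c).den_nz, PowerSeries.C (l c).num * g, ?_⟩
      rw [map_mul, ← mul_assoc]
      congr 1
      ext n
      rw [← map_natCast (PowerSeries.C (R := ℚ)), ← map_mul, PowerSeries.coeff_C, PowerSeries.coeff_map,
        PowerSeries.coeff_C]
      split_ifs
      · simp [Rat.den_mul_eq_num]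
      · simp
    | zero => intro c; simpa using isBdd_zero
    | add x y _ _ hx hy => intro c; rw [smul_add, map_add]; exact (hx c).add (hy c)
    | smul a x _ hx => intro c; rw [smul_smul]; exact hx (c * a)
  simpa using key 1

theorem exists_linear_functional (d : ℂ) (hd : d ≠ 0) :
    ∃ l : ℂ →ₗ[ℚ] ℚ, l 1 = 1 ∧ l d ≠ 0 := by
  obtain ⟨l₁, hl₁, -⟩ := Submodule.exists_dual_map_eq_bot_of_notMem (R := ℚ) (M := ℂ)
    (p := ⊥) (x := 1) (by simp) inferInstance
  set l₀ : ℂ →ₗ[ℚ] ℚ := (l₁ 1)⁻¹ • l₁ with hl₀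
  have h01 : l₀ 1 = 1 := by
    rw [hl₀, LinearMap.smul_apply, smul_eq_mul, inv_mul_cancel₀ hl₁]
  by_cases h0d : l₀ d ≠ 0
  · exact ⟨l₀, h01, h0d⟩
  · rw [not_not] at h0d
    have hmem : d ∉ Submodule.span ℚ ({1} : Set ℂ) := by
      intro hmem
      obtain ⟨r, rfl⟩ := Submodule.mem_span_singleton.mp hmem
      rw [l₀.map_smul, h01, smul_eq_mul, mul_one] at h0d
      rw [h0d, zero_smul] at hd
      exact hd rfl
    obtain ⟨l₂, hl₂, hl₂'⟩ := Submodule.exists_dual_map_eq_bot_of_notMem (R := ℚ) (M := ℂ)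
      hmem inferInstance
    have h21 : l₂ 1 = 0 := by
      have : l₂ 1 ∈ Submodule.map l₂ (Submodule.span ℚ ({1} : Set ℂ)) :=
        Submodule.mem_map_of_mem (Submodule.subset_span rfl)
      rw [hl₂'] at this
      simpa using this
    refine ⟨l₀ + l₂, ?_, ?_⟩
    · rw [LinearMap.add_apply, h01, h21, add_zero]
    · rw [LinearMap.add_apply, h0d, zero_add]
      exact hl₂

/-- **Bounded denominators, pure power-series algebra.**
Let `F ∈ ℂ⟦X⟧` have rational coefficients. Suppose `F * D0 = Z0` with `D0 ≠ 0`, where `D0`, `Z0` are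
ℂ-linear combinations of integer power series, and suppose `F` is a root of a monic polynomial
whose coefficients are ℂ-linear combinations of integer power series. Then the coefficients of
`F` have a common denominator. -/
theorem bounded_denominators (F : PowerSeries ℂ)
    (hF : ∀ n, ∃ r : ℚ, PowerSeries.coeff n F = (r : ℂ))
    (D0 Z0 : PowerSeries ℂ) (hD0 : D0 ∈ intSpan) (hZ0 : Z0 ∈ intSpan) (hD0ne : D0 ≠ 0)
    (hmul : F * D0 = Z0) (p : Polynomial (PowerSeries ℂ)) (hp : p.Monic)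
    (hpc : ∀ i, p.coeff i ∈ intSpan) (hroot : p.eval F = 0) :
    ∃ M : ℕ, M ≠ 0 ∧ ∀ n, ∃ m : ℤ, (M : ℂ) * PowerSeries.coeff n F = (m : ℂ) := by
  classical
  choose r hr using hF
  set F₀ : PowerSeries ℚ := PowerSeries.mk r with hF₀
  have hFF₀ : PowerSeries.map (algebraMap ℚ ℂ) F₀ = F := by
    ext n
    rw [PowerSeries.coeff_map, hF₀, PowerSeries.coeff_mk, hr n]
    rfl
  obtain ⟨n₀, hn₀⟩ : ∃ n₀, PowerSeries.coeff n₀ D0 ≠ 0 := by
    by_contra h
    push Not at h
    exact hD0ne (PowerSeries.ext fun n => by rw [h n, map_zero])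
  obtain ⟨l, hl1, hld⟩ := exists_linear_functional _ hn₀
  have hb : coeffMap l D0 ≠ 0 := by
    intro h
    have := congrArg (PowerSeries.coeff n₀) h
    rw [coeff_coeffMap, map_zero] at this
    exact hld this
  have hFb : F₀ * coeffMap l D0 = coeffMap l Z0 := by
    rw [← coeffMap_ratMul, hFF₀, hmul]
  -- the coefficientwise image of the polynomial
  set p₀ : Polynomial (PowerSeries ℚ) :=
    ∑ i ∈ Finset.range (p.natDegree + 1), Polynomial.monomial i (coeffMap l (p.coeff i)) with hp₀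
  have hcoeff : ∀ i, p₀.coeff i = coeffMap l (p.coeff i) := by
    intro i
    rw [hp₀, Polynomial.finsetSum_coeff]
    simp only [Polynomial.coeff_monomial]
    rw [Finset.sum_ite_eq' (Finset.range (p.natDegree + 1)) i]
    split_ifs with h
    · rfl
    · rw [Finset.mem_range, not_lt] at h
      rw [Polynomial.coeff_eq_zero_of_natDegree_lt h, map_zero]
  have hdeg : p₀.natDegree ≤ p.natDegree := by
    rw [Polynomial.natDegree_le_iff_coeff_eq_zero]
    intro n hn
    rw [hcoeff, Polynomial.coeff_eq_zero_of_natDegree_lt hn, map_zero]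
  have hmonic : p₀.Monic := by
    apply Polynomial.monic_of_natDegree_le_of_coeff_eq_one p.natDegree hdeg
    rw [hcoeff, hp.coeff_natDegree, coeffMap_one l hl1]
  have hroot₀ : p₀.eval F₀ = 0 := by
    rw [Polynomial.eval_eq_sum_range' (Nat.lt_succ_of_le hdeg)]
    have h1 : ∀ i, p₀.coeff i * F₀ ^ i = coeffMap l (p.coeff i * F ^ i) := by
      intro i
      rw [hcoeff, mul_comm (p.coeff i), ← hFF₀, ← map_pow, coeffMap_ratMul, mul_comm]
    simp_rw [h1]
    rw [← map_sum, ← Polynomial.eval_eq_sum_range' (Nat.lt_succ_self _), hroot, map_zero]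
  obtain ⟨M, hM, Y, hY⟩ := isBdd_of_frac_of_integral F₀ (coeffMap l Z0) (coeffMap l D0) hb hFb
    (isBdd_coeffMap l hZ0) (isBdd_coeffMap l hD0) p₀ hmonic
    (fun i => by rw [hcoeff]; exact isBdd_coeffMap l (hpc i)) hroot₀
  refine ⟨M, hM, fun n => ⟨PowerSeries.coeff n Y, ?_⟩⟩
  have h2 := congrArg (PowerSeries.coeff n) hY
  rw [← map_natCast (PowerSeries.C (R := ℚ)) M, PowerSeries.coeff_C_mul, PowerSeries.coeff_map,
    hF₀, PowerSeries.coeff_mk] at h2
  rw [hr n]
  have h3 : ((M : ℚ) * r n : ℚ) = ((PowerSeries.coeff n Y : ℤ) : ℚ) := by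
    simpa using h2
  have h4 := congrArg (fun x : ℚ => (x : ℂ)) h3
  simpa using h4

end Fermat.Agent.S23.helper1227
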