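import Mathlib

set_option autoImplicit false

namespace Fermat.Agent.S23.helper595

open Complex Filter Topology Set

/-- Cauchy-type root bound: a root `w` of a monic polynomial
`w ^ r + ∑ i, c i * w ^ (r - 1 - i)` satisfies `‖w‖ ≤ max 1 (∑ ‖c i‖)`. -/
theorem norm_le_of_monic_relation {r : ℕ} (c : Fin r → ℂ) (w : ℂ)
    (h : w ^ r + ∑ i : Fin r, c i * w ^ (r - 1 - (i : ℕ)) = 0) :
    ‖w‖ ≤ max 1 (∑ i : Fin r, ‖c i‖) := by
  by_contra hlt
  rw [not_le] at hlt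
  have h1 : 1 < ‖w‖ := lt_of_le_of_lt (le_max_left _ _) hlt
  have hS : ∑ i : Fin r, ‖c i‖ < ‖w‖ := lt_of_le_of_lt (le_max_right _ _) hlt
  have hw0 : 0 < ‖w‖ := lt_trans zero_lt_one h1
  rcases Nat.eq_zero_or_pos r with hr | hr
  · subst hr
    simp at h
  have hkey : ‖w‖ ^ r ≤ (∑ i : Fin r, ‖c i‖) * ‖w‖ ^ (r - 1) := by
    have : w ^ r = - ∑ i : Fin r, c i * w ^ (r - 1 - (i : ℕ)) := eq_neg_of_add_eq_zero_left h
    calc ‖w‖ ^ r = ‖w ^ r‖ := (norm_pow w r).symm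
      _ = ‖∑ i : Fin r, c i * w ^ (r - 1 - (i : ℕ))‖ := by rw [this, norm_neg]
      _ ≤ ∑ i : Fin r, ‖c i * w ^ (r - 1 - (i : ℕ))‖ := norm_sum_le _ _
      _ ≤ ∑ i : Fin r, ‖c i‖ * ‖w‖ ^ (r - 1) := by
          refine Finset.sum_le_sum fun i _ => ?_
          rw [norm_mul, norm_pow]
          refine mul_le_mul_of_nonneg_left ?_ (norm_nonneg _)
          exact pow_le_pow_right₀ h1.le (Nat.sub_le _ _)
      _ = (∑ i : Fin r, ‖c i‖) * ‖w‖ ^ (r - 1) := by rw [Finset.sum_mul]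
  have hpow : ‖w‖ ^ r = ‖w‖ * ‖w‖ ^ (r - 1) := by
    rw [← pow_succ', Nat.sub_add_cancel hr]
  rw [hpow] at hkey
  have hpos : 0 < ‖w‖ ^ (r - 1) := pow_pos hw0 _
  have := le_of_mul_le_mul_right hkey hpos
  exact absurd this (not_le.mpr hS)

/-- Second root bound: a root `w` with `‖w‖ ≤ 1` of the monic polynomial satisfies
`‖w‖ ^ r ≤ ∑ ‖c i‖`. -/
theorem norm_pow_le_of_monic_relation {r : ℕ} (c : Fin r → ℂ) (w : ℂ)
    (h : w ^ r + ∑ i : Fin r, c i * w ^ (r - 1 - (i : ℕ)) = 0) (hw : ‖w‖ ≤ 1) :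
    ‖w‖ ^ r ≤ ∑ i : Fin r, ‖c i‖ := by
  have : w ^ r = - ∑ i : Fin r, c i * w ^ (r - 1 - (i : ℕ)) := eq_neg_of_add_eq_zero_left h
  calc ‖w‖ ^ r = ‖w ^ r‖ := (norm_pow w r).symm
    _ = ‖∑ i : Fin r, c i * w ^ (r - 1 - (i : ℕ))‖ := by rw [this, norm_neg]
    _ ≤ ∑ i : Fin r, ‖c i * w ^ (r - 1 - (i : ℕ))‖ := norm_sum_le _ _
    _ ≤ ∑ i : Fin r, ‖c i‖ := by
        refine Finset.sum_le_sum fun i _ => ?_
        rw [norm_mul, norm_pow]
        exact mul_le_of_le_one_right (norm_nonneg _) (pow_le_one₀ (norm_nonneg _) hw)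

/-- General root bound (no case distinction): `‖w‖ ^ r ≤ (∑ ‖c i‖) * max 1 ‖w‖ ^ (r - 1)`,
and in particular `‖w‖ ^ r ≤ (∑ ‖c i‖) * max 1 (∑ ‖c i‖) ^ (r - 1)`. -/
theorem norm_pow_le_of_monic_relation' {r : ℕ} (c : Fin r → ℂ) (w : ℂ)
    (h : w ^ r + ∑ i : Fin r, c i * w ^ (r - 1 - (i : ℕ)) = 0) :
    ‖w‖ ^ r ≤ (∑ i : Fin r, ‖c i‖) * max 1 (∑ i : Fin r, ‖c i‖) ^ (r - 1) := by
  have hb := norm_le_of_monic_relation c w h
  have : w ^ r = - ∑ i : Fin r, c i * w ^ (r - 1 - (i : ℕ)) := eq_neg_of_add_eq_zero_left h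
  have hM : (1 : ℝ) ≤ max 1 (∑ i : Fin r, ‖c i‖) := le_max_left _ _
  calc ‖w‖ ^ r = ‖w ^ r‖ := (norm_pow w r).symm
    _ = ‖∑ i : Fin r, c i * w ^ (r - 1 - (i : ℕ))‖ := by rw [this, norm_neg]
    _ ≤ ∑ i : Fin r, ‖c i * w ^ (r - 1 - (i : ℕ))‖ := norm_sum_le _ _
    _ ≤ ∑ i : Fin r, ‖c i‖ * max 1 (∑ i : Fin r, ‖c i‖) ^ (r - 1) := by
        refine Finset.sum_le_sum fun i _ => ?_
        rw [norm_mul, norm_pow]
        refine mul_le_mul_of_nonneg_left ?_ (norm_nonneg _)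
        calc ‖w‖ ^ (r - 1 - (i : ℕ)) ≤ max 1 (∑ i : Fin r, ‖c i‖) ^ (r - 1 - (i : ℕ)) :=
              pow_le_pow_left₀ (norm_nonneg _) hb _
          _ ≤ max 1 (∑ i : Fin r, ‖c i‖) ^ (r - 1) := pow_le_pow_right₀ hM (Nat.sub_le _ _)
    _ = (∑ i : Fin r, ‖c i‖) * max 1 (∑ i : Fin r, ‖c i‖) ^ (r - 1) := by rw [Finset.sum_mul]

/-- Dividing the homogeneous monic relation by `G ^ r`. -/
theorem div_relation {r : ℕ} (c : Fin r → ℂ) (F G : ℂ) (hG : G ≠ 0)
    (h : F ^ r + ∑ i : Fin r, c i * F ^ (r - 1 - (i : ℕ)) * G ^ ((i : ℕ) + 1) = 0) :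
    (F / G) ^ r + ∑ i : Fin r, c i * (F / G) ^ (r - 1 - (i : ℕ)) = 0 := by
  have hGr : G ^ r ≠ 0 := pow_ne_zero _ hG
  have key : (F / G) ^ r + ∑ i : Fin r, c i * (F / G) ^ (r - 1 - (i : ℕ)) =
      (F ^ r + ∑ i : Fin r, c i * F ^ (r - 1 - (i : ℕ)) * G ^ ((i : ℕ) + 1)) / G ^ r := by
    rw [add_div, Finset.sum_div, div_pow]
    congr 1
    refine Finset.sum_congr rfl fun i _ => ?_
    have hi : G ^ r = G ^ (r - 1 - (i : ℕ)) * G ^ ((i : ℕ) + 1) := by
      rw [← pow_add]; congr 1; have := i.2; omega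
    have hG1 : G ^ (r - 1 - (i : ℕ)) ≠ 0 := pow_ne_zero _ hG
    have hG2 : G ^ ((i : ℕ) + 1) ≠ 0 := pow_ne_zero _ hG
    rw [div_pow, hi]
    field_simp
  rw [key, h, zero_div]

/-- **Lemma H, analytic core.** Let `U ⊆ ℂ` be open and preconnected, `F`, `G`, `C i` holomorphic
on `U`, `G` not identically zero on `U`, and suppose the homogeneous monic relation
`F ^ r + ∑ i, C i * F ^ (r - 1 - i) * G ^ (i + 1) = 0` holds on `U`. Then `F / G` extends to a
holomorphic function `φ` on `U`: `φ * G = F`, and `φ` satisfies the monic relation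
`φ ^ r + ∑ i, C i * φ ^ (r - 1 - i) = 0`. -/
theorem exists_differentiableOn_quotient {U : Set ℂ} (hU : IsOpen U) (hc : IsPreconnected U)
    {F G : ℂ → ℂ} (hF : DifferentiableOn ℂ F U) (hG : DifferentiableOn ℂ G U)
    (hG0 : ∃ z ∈ U, G z ≠ 0) (r : ℕ) (C : Fin r → ℂ → ℂ)
    (hC : ∀ i, DifferentiableOn ℂ (C i) U)
    (hrel : ∀ z ∈ U, F z ^ r + ∑ i : Fin r, C i z * F z ^ (r - 1 - (i : ℕ)) * G z ^ ((i : ℕ) + 1)
      = 0) :
    ∃ φ : ℂ → ℂ, DifferentiableOn ℂ φ U ∧ (∀ z ∈ U, φ z * G z = F z) ∧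
      ∀ z ∈ U, φ z ^ r + ∑ i : Fin r, C i z * φ z ^ (r - 1 - (i : ℕ)) = 0 := by
  classical
  -- zeros of `G` are isolated
  have hGan : AnalyticOnNhd ℂ G U := hG.analyticOnNhd hU
  have hiso : ∀ z₀ ∈ U, ∀ᶠ z in 𝓝[≠] z₀, G z ≠ 0 := by
    intro z₀ hz₀
    rcases (hGan z₀ hz₀).eventually_eq_zero_or_eventually_ne_zero with h | h
    · exfalso
      obtain ⟨z₁, hz₁, hne⟩ := hG0
      exact hne (hGan.eqOn_zero_of_preconnected_of_eventuallyEq_zero hc hz₀ h hz₁)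
    · exact h
  set ψ : ℂ → ℂ := fun z => F z / G z with hψ
  set φ : ℂ → ℂ := fun z => if G z = 0 then limUnder (𝓝[≠] z) ψ else ψ z with hφ
  -- the relation for ψ away from zeros of G
  have hrelψ : ∀ z ∈ U, G z ≠ 0 → ψ z ^ r + ∑ i : Fin r, C i z * ψ z ^ (r - 1 - (i : ℕ)) = 0 :=
    fun z hz hGz => div_relation (fun i => C i z) (F z) (G z) hGz (hrel z hz)
  -- differentiability of φ at every point of U, and local agreement with ψ off the point
  have hdiff : ∀ z₀ ∈ U, DifferentiableAt ℂ φ z₀ ∧ ∀ᶠ z in 𝓝[≠] z₀, φ z = ψ z := by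
    intro z₀ hz₀
    have hev : ∀ᶠ z in 𝓝[≠] z₀, φ z = ψ z := by
      filter_upwards [hiso z₀ hz₀] with z hz
      simp only [hφ, if_neg hz]
    refine ⟨?_, hev⟩
    by_cases hGz : G z₀ = 0
    · -- removable singularity
      -- a neighbourhood `s` of `z₀` inside `U` on which `G ≠ 0` off `z₀` and the `C i` are bounded
      have hCcont : ∀ i, ContinuousAt (C i) z₀ := fun i =>
        ((hC i).differentiableAt (hU.mem_nhds hz₀)).continuousAt
      have hCbd : ∀ i, ∀ᶠ z in 𝓝 z₀, ‖C i z‖ ≤ ‖C i z₀‖ + 1 := by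
        intro i
        have : Tendsto (fun z => ‖C i z‖) (𝓝 z₀) (𝓝 ‖C i z₀‖) := (hCcont i).norm
        exact this.eventually_le_const (by linarith)
      have hCbd' : ∀ᶠ z in 𝓝 z₀, ∀ i, ‖C i z‖ ≤ ‖C i z₀‖ + 1 := eventually_all.2 hCbd
      have hiso' : ∀ᶠ z in 𝓝 z₀, z ≠ z₀ → G z ≠ 0 := eventually_nhdsWithin_iff.1 (hiso z₀ hz₀)
      have hUev : ∀ᶠ z in 𝓝 z₀, z ∈ U := hU.mem_nhds hz₀
      obtain ⟨s, hs_sub, hs_open, hz₀s⟩ :=
        eventually_nhds_iff.1 (hCbd'.and (hiso'.and hUev))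
      have hs_nhds : s ∈ 𝓝 z₀ := hs_open.mem_nhds hz₀s
      have hψdiff : DifferentiableOn ℂ ψ (s \ {z₀}) := by
        intro z hz
        have hz' := hs_sub z hz.1
        have hGne : G z ≠ 0 := hz'.2.1 hz.2
        exact ((hF.differentiableAt (hU.mem_nhds hz'.2.2)).div
          (hG.differentiableAt (hU.mem_nhds hz'.2.2)) hGne).differentiableWithinAt
      have hψbd : BddAbove (norm ∘ ψ '' (s \ {z₀})) := by
        refine ⟨max 1 (∑ i : Fin r, (‖C i z₀‖ + 1)), ?_⟩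
        rintro _ ⟨z, hz, rfl⟩
        have hz' := hs_sub z hz.1
        have hGne : G z ≠ 0 := hz'.2.1 hz.2
        have hb := norm_le_of_monic_relation (fun i => C i z) (ψ z) (hrelψ z hz'.2.2 hGne)
        refine hb.trans (max_le_max le_rfl ?_)
        exact Finset.sum_le_sum fun i _ => hz'.1 i
      have hupd := differentiableOn_update_limUnder_of_bddAbove hs_nhds hψdiff hψbd
      have heq : ∀ z ∈ s, φ z = Function.update ψ z₀ (limUnder (𝓝[≠] z₀) ψ) z := by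
        intro z hz
        by_cases hzz : z = z₀
        · subst hzz
          simp only [hφ, if_pos hGz, Function.update_self]
        · have hGne : G z ≠ 0 := (hs_sub z hz).2.1 hzz
          simp only [hφ, if_neg hGne, Function.update_of_ne hzz]
      have : DifferentiableOn ℂ φ s := hupd.congr heq
      exact this.differentiableAt hs_nhds
    · -- `G ≠ 0` near `z₀`, so `φ = ψ` near `z₀`
      have hGcont : ContinuousAt G z₀ := (hG.differentiableAt (hU.mem_nhds hz₀)).continuousAt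
      have hne : ∀ᶠ z in 𝓝 z₀, G z ≠ 0 := hGcont.eventually_ne hGz
      have heq : φ =ᶠ[𝓝 z₀] ψ := by
        filter_upwards [hne] with z hz
        simp only [hφ, if_neg hz]
      have hψd : DifferentiableAt ℂ ψ z₀ :=
        (hF.differentiableAt (hU.mem_nhds hz₀)).div (hG.differentiableAt (hU.mem_nhds hz₀)) hGz
      exact heq.differentiableAt_iff.2 hψd
  have hφdiff : DifferentiableOn ℂ φ U := fun z hz => (hdiff z hz).1.differentiableWithinAt
  refine ⟨φ, hφdiff, ?_, ?_⟩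
  · intro z hz
    by_cases hGz : G z = 0
    · -- then `F z = 0`
      have h := hrel z hz
      have hsum : ∑ i : Fin r, C i z * F z ^ (r - 1 - (i : ℕ)) * G z ^ ((i : ℕ) + 1) = 0 := by
        refine Finset.sum_eq_zero fun i _ => ?_
        rw [hGz, zero_pow (Nat.succ_ne_zero _), mul_zero]
      rw [hsum, add_zero] at h
      have hFz : F z = 0 := by
        rcases Nat.eq_zero_or_pos r with hr | hr
        · subst hr; simp at h
        · exact (pow_eq_zero_iff hr.ne').1 h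
      rw [hGz, hFz, mul_zero]
    · simp only [hφ, if_neg hGz, hψ]
      field_simp
  · -- the relation for φ: holds off the zeros of G, extend by continuity
    intro z₀ hz₀
    by_cases hGz : G z₀ = 0
    · set R : ℂ → ℂ := fun z => φ z ^ r + ∑ i : Fin r, C i z * φ z ^ (r - 1 - (i : ℕ)) with hR
      have hRcont : ContinuousAt R z₀ := by
        have hφc : ContinuousAt φ z₀ := (hdiff z₀ hz₀).1.continuousAt
        have hCc : ∀ i, ContinuousAt (C i) z₀ := fun i =>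
          ((hC i).differentiableAt (hU.mem_nhds hz₀)).continuousAt
        exact (hφc.pow r).add (tendsto_finsetSum _ fun i _ => (hCc i).mul (hφc.pow _))
      have hR0 : ∀ᶠ z in 𝓝[≠] z₀, R z = 0 := by
        have hUev : ∀ᶠ z in 𝓝[≠] z₀, z ∈ U := nhdsWithin_le_nhds (hU.mem_nhds hz₀)
        filter_upwards [(hdiff z₀ hz₀).2, hiso z₀ hz₀, hUev] with z h1 h2 h3
        simp only [hR, h1]
        exact hrelψ z h3 h2
      have hlim : Tendsto R (𝓝[≠] z₀) (𝓝 (R z₀)) := hRcont.tendsto.mono_left nhdsWithin_le_nhds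
      have hlim0 : Tendsto R (𝓝[≠] z₀) (𝓝 0) :=
        tendsto_const_nhds.congr' (hR0.mono fun z hz => hz.symm)
      exact tendsto_nhds_unique hlim hlim0
    · have : φ z₀ = ψ z₀ := by simp only [hφ, if_neg hGz]
      rw [this]
      exact hrelψ z₀ hz₀ hGz


/-- Special case of Lemma H (r-th roots): if `F ^ r = H * G ^ r` on `U` with `H` holomorphic and
`G` not identically zero, then `F / G` extends to a holomorphic `φ` with `φ * G = F` and
`φ ^ r = H`. -/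
theorem exists_differentiableOn_quotient_of_pow_eq {U : Set ℂ} (hU : IsOpen U)
    (hc : IsPreconnected U) {F G H : ℂ → ℂ} (hF : DifferentiableOn ℂ F U)
    (hG : DifferentiableOn ℂ G U) (hH : DifferentiableOn ℂ H U)
    (hG0 : ∃ z ∈ U, G z ≠ 0) (r : ℕ) (hr : 0 < r)
    (hrel : ∀ z ∈ U, F z ^ r = H z * G z ^ r) :
    ∃ φ : ℂ → ℂ, DifferentiableOn ℂ φ U ∧ (∀ z ∈ U, φ z * G z = F z) ∧
      ∀ z ∈ U, φ z ^ r = H z := by
  classical
  set C : Fin r → ℂ → ℂ := fun i z => if (i : ℕ) = r - 1 then - H z else 0 with hCdef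
  have hCd : ∀ i, DifferentiableOn ℂ (C i) U := by
    intro i
    by_cases hi : (i : ℕ) = r - 1
    · have : C i = fun z => - H z := by funext z; simp [hCdef, hi]
      rw [this]; exact hH.neg
    · have : C i = fun _ => 0 := by funext z; simp [hCdef, hi]
      rw [this]; exact differentiableOn_const _
  have hsum : ∀ (z : ℂ) (a : Fin r → ℂ), (∀ i : Fin r, (i : ℕ) = r - 1 → a i = 1) →
      ∑ i : Fin r, C i z * a i = - H z := by
    intro z a ha
    rw [Finset.sum_eq_single (⟨r - 1, Nat.sub_lt hr Nat.one_pos⟩ : Fin r)]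
    · simp [hCdef, ha ⟨r - 1, Nat.sub_lt hr Nat.one_pos⟩ rfl]
    · intro i _ hi
      have : (i : ℕ) ≠ r - 1 := fun h => hi (Fin.ext h)
      simp [hCdef, this]
    · intro h; exact absurd (Finset.mem_univ _) h
  have hrel' : ∀ z ∈ U,
      F z ^ r + ∑ i : Fin r, C i z * F z ^ (r - 1 - (i : ℕ)) * G z ^ ((i : ℕ) + 1) = 0 := by
    intro z hz
    have h1 : ∑ i : Fin r, C i z * F z ^ (r - 1 - (i : ℕ)) * G z ^ ((i : ℕ) + 1) =
        G z ^ r * ∑ i : Fin r, C i z * (if (i : ℕ) = r - 1 then 1 else 0) := by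
      rw [Finset.mul_sum]
      refine Finset.sum_congr rfl fun i _ => ?_
      by_cases hi : (i : ℕ) = r - 1
      · have h2 : (i : ℕ) + 1 = r := by omega
        have h3 : r - 1 - (i : ℕ) = 0 := by omega
        rw [h2, h3, pow_zero, if_pos hi]; ring
      · simp [hCdef, hi]
    rw [h1, hsum z _ (fun i hi => by simp [hi]), hrel z hz]; ring
  obtain ⟨φ, hφ, hφG, hφrel⟩ := exists_differentiableOn_quotient hU hc hF hG hG0 r C hCd hrel'
  refine ⟨φ, hφ, hφG, fun z hz => ?_⟩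
  have h := hφrel z hz
  have h1 : ∑ i : Fin r, C i z * φ z ^ (r - 1 - (i : ℕ)) = - H z := by
    refine hsum z _ fun i hi => ?_
    simp [hi]
  rw [h1] at h
  exact eq_of_sub_eq_zero (by rw [sub_eq_add_neg]; exact h)

section UpperHalfPlane

open UpperHalfPlane
open scoped Manifold

/-- **Lemma H on the upper half plane.** `F`, `G`, `C i : ℍ → ℂ` holomorphic, `G ≠ 0`, and the
homogeneous monic relation `F ^ r + ∑ i, C i * F ^ (r - 1 - i) * G ^ (i + 1) = 0`. Then there is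
a holomorphic `φ : ℍ → ℂ` with `φ * G = F` and `φ ^ r + ∑ i, C i * φ ^ (r - 1 - i) = 0`. -/
theorem exists_mdifferentiable_quotient {F G : ℍ → ℂ}
    (hF : MDifferentiable 𝓘(ℂ) 𝓘(ℂ) F) (hG : MDifferentiable 𝓘(ℂ) 𝓘(ℂ) G)
    (hG0 : ∃ τ, G τ ≠ 0) (r : ℕ) (C : Fin r → ℍ → ℂ)
    (hC : ∀ i, MDifferentiable 𝓘(ℂ) 𝓘(ℂ) (C i))
    (hrel : ∀ τ, F τ ^ r + ∑ i : Fin r, C i τ * F τ ^ (r - 1 - (i : ℕ)) * G τ ^ ((i : ℕ) + 1)
      = 0) :
    ∃ φ : ℍ → ℂ, MDifferentiable 𝓘(ℂ) 𝓘(ℂ) φ ∧ (∀ τ, φ τ * G τ = F τ) ∧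
      ∀ τ, φ τ ^ r + ∑ i : Fin r, C i τ * φ τ ^ (r - 1 - (i : ℕ)) = 0 := by
  have hUopen : IsOpen {z : ℂ | 0 < z.im} := isOpen_upperHalfPlaneSet
  have hUconn : IsPreconnected {z : ℂ | 0 < z.im} := (convex_halfSpace_im_gt 0).isPreconnected
  obtain ⟨τ₀, hτ₀⟩ := hG0
  have hof : ∀ τ : ℍ, ofComplex (τ : ℂ) = τ := fun τ => ofComplex_apply τ
  obtain ⟨φ', hφ', hφG, hφrel⟩ := exists_differentiableOn_quotient hUopen hUconn
    (mdifferentiable_iff.1 hF) (mdifferentiable_iff.1 hG)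
    ⟨(τ₀ : ℂ), τ₀.im_pos, by simpa [Function.comp_apply, hof] using hτ₀⟩ r
    (fun i => C i ∘ ofComplex) (fun i => mdifferentiable_iff.1 (hC i))
    (fun z hz => by simpa [Function.comp_apply] using hrel (ofComplex z))
  refine ⟨fun τ => φ' τ, ?_, fun τ => ?_, fun τ => ?_⟩
  · rw [mdifferentiable_iff]
    refine hφ'.congr fun z hz => ?_
    simp only [Function.comp_apply, ofComplex_apply_of_im_pos hz, UpperHalfPlane.coe_mk]
  · have := hφG τ τ.im_pos
    simpa [Function.comp_apply, hof] using this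
  · have := hφrel τ τ.im_pos
    simpa [Function.comp_apply, hof] using this

/-- r-th root version on the upper half plane: `F ^ r = H * G ^ r`, `G ≠ 0` ⟹ `F = φ * G` with
`φ` holomorphic and `φ ^ r = H`. -/
theorem exists_mdifferentiable_quotient_of_pow_eq {F G H : ℍ → ℂ}
    (hF : MDifferentiable 𝓘(ℂ) 𝓘(ℂ) F) (hG : MDifferentiable 𝓘(ℂ) 𝓘(ℂ) G)
    (hH : MDifferentiable 𝓘(ℂ) 𝓘(ℂ) H) (hG0 : ∃ τ, G τ ≠ 0) (r : ℕ) (hr : 0 < r)
    (hrel : ∀ τ, F τ ^ r = H τ * G τ ^ r) :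
    ∃ φ : ℍ → ℂ, MDifferentiable 𝓘(ℂ) 𝓘(ℂ) φ ∧ (∀ τ, φ τ * G τ = F τ) ∧ ∀ τ, φ τ ^ r = H τ := by
  have hUopen : IsOpen {z : ℂ | 0 < z.im} := isOpen_upperHalfPlaneSet
  have hUconn : IsPreconnected {z : ℂ | 0 < z.im} := (convex_halfSpace_im_gt 0).isPreconnected
  obtain ⟨τ₀, hτ₀⟩ := hG0
  have hof : ∀ τ : ℍ, ofComplex (τ : ℂ) = τ := fun τ => ofComplex_apply τ
  obtain ⟨φ', hφ', hφG, hφrel⟩ := exists_differentiableOn_quotient_of_pow_eq hUopen hUconn
    (mdifferentiable_iff.1 hF) (mdifferentiable_iff.1 hG) (mdifferentiable_iff.1 hH)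
    ⟨(τ₀ : ℂ), τ₀.im_pos, by simpa [Function.comp_apply, hof] using hτ₀⟩ r hr
    (fun z hz => by simpa [Function.comp_apply] using hrel (ofComplex z))
  refine ⟨fun τ => φ' τ, ?_, fun τ => ?_, fun τ => ?_⟩
  · rw [mdifferentiable_iff]
    refine hφ'.congr fun z hz => ?_
    simp only [Function.comp_apply, ofComplex_apply_of_im_pos hz, UpperHalfPlane.coe_mk]
  · have := hφG τ τ.im_pos
    simpa [Function.comp_apply, hof] using this
  · have := hφrel τ τ.im_pos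
    simpa [Function.comp_apply, hof] using this

end UpperHalfPlane

section Growth

variable {α : Type*} {l : Filter α} {r : ℕ} {φ : α → ℂ} {C : Fin r → α → ℂ}

/-- Growth transfer, bounded version: a solution `φ` of a monic relation whose coefficients are
bounded along a filter is bounded along that filter (`=O[l] 1`, i.e. `Filter.BoundedAtFilter`). -/
theorem isBigO_one_of_monic_relation
    (hrel : ∀ᶠ a in l, φ a ^ r + ∑ i : Fin r, C i a * φ a ^ (r - 1 - (i : ℕ)) = 0)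
    (hC : ∀ i, C i =O[l] (1 : α → ℝ)) : φ =O[l] (1 : α → ℝ) := by
  have hC' : ∀ i, ∃ K : ℝ, ∀ᶠ a in l, ‖C i a‖ ≤ K := by
    intro i
    obtain ⟨K, hK⟩ := Asymptotics.isBigO_iff.1 (hC i)
    exact ⟨K, hK.mono fun a ha => by simpa using ha⟩
  choose K hK using hC'
  have hall : ∀ᶠ a in l, ∀ i, ‖C i a‖ ≤ K i := eventually_all.2 hK
  refine Asymptotics.isBigO_iff.2 ⟨max 1 (∑ i : Fin r, K i), ?_⟩
  filter_upwards [hrel, hall] with a ha hb
  have := norm_le_of_monic_relation (fun i => C i a) (φ a) ha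
  simp only [Pi.one_apply, norm_one, mul_one]
  exact this.trans (max_le_max le_rfl (Finset.sum_le_sum fun i _ => hb i))

/-- Growth transfer, vanishing version: a solution `φ` of a monic relation (of positive degree)
whose coefficients all tend to `0` along a filter tends to `0` along that filter. -/
theorem tendsto_zero_of_monic_relation (hr : 0 < r)
    (hrel : ∀ᶠ a in l, φ a ^ r + ∑ i : Fin r, C i a * φ a ^ (r - 1 - (i : ℕ)) = 0)
    (hC : ∀ i, Tendsto (C i) l (𝓝 0)) : Tendsto φ l (𝓝 0) := by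
  rw [tendsto_zero_iff_norm_tendsto_zero]
  set S : α → ℝ := fun a => ∑ i : Fin r, ‖C i a‖ with hS
  have hS0 : Tendsto S l (𝓝 0) := by
    have : Tendsto S l (𝓝 (∑ _i : Fin r, (0 : ℝ))) :=
      tendsto_finsetSum _ fun i _ => (tendsto_zero_iff_norm_tendsto_zero.1 (hC i))
    simpa using this
  have hB : Tendsto (fun a => S a * max 1 (S a) ^ (r - 1)) l (𝓝 0) := by
    have h1 : Tendsto (fun a => max 1 (S a)) l (𝓝 (max 1 0)) := tendsto_const_nhds.max hS0
    have := hS0.mul (h1.pow (r - 1))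
    simpa using this
  have hpow : Tendsto (fun a => ‖φ a‖ ^ r) l (𝓝 0) := by
    refine tendsto_of_tendsto_of_tendsto_of_le_of_le' tendsto_const_nhds hB
      (Eventually.of_forall fun a => pow_nonneg (norm_nonneg _) _) ?_
    filter_upwards [hrel] with a ha
    exact norm_pow_le_of_monic_relation' (fun i => C i a) (φ a) ha
  have hroot : Tendsto (fun a => (‖φ a‖ ^ r) ^ ((r : ℝ)⁻¹)) l (𝓝 ((0 : ℝ) ^ ((r : ℝ)⁻¹))) :=
    hpow.rpow_const (Or.inr (inv_nonneg.2 (Nat.cast_nonneg r)))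
  rw [Real.zero_rpow (inv_ne_zero (Nat.cast_ne_zero.2 hr.ne'))] at hroot
  refine hroot.congr fun a => ?_
  exact Real.pow_rpow_inv_natCast (norm_nonneg _) hr.ne'

end Growth

end Fermat.Agent.S23.helper595
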