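import Mathlib
import Fermat.Agent.S23.helper595_LemmaH

/-!
# Lemma H for modular forms (helper595)

Modular-form wrapper around the analytic core `helper595_LemmaH`:
a "quotient" `G / E` of holomorphic functions on `ℍ`, slash-invariant of weights `k + m`, `m`
under a subgroup `Γ ≤ SL(2,ℤ)`, which satisfies a monic equation whose coefficients are
level-one cusp forms of weights `k * (i + 1)`, is (the function of) a cusp form of weight `k`
on `Γ`.
-/

set_option autoImplicit false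

namespace Fermat.Agent.S23.helper595

open UpperHalfPlane ModularFormClass Filter Topology
open scoped MatrixGroups ModularForm Manifold

/-- Slashing a solution of a monic relation with level-one coefficients by an element of
`SL(2,ℤ)` gives a solution of the same relation. -/
theorem monic_relation_slash (k : ℤ) (n : ℕ) (φ : ℍ → ℂ) (ρ : Fin n → ℍ → ℂ)
    (hρ : ∀ i : Fin n, ∀ γ : SL(2, ℤ), ρ i ∣[k * (((i : ℕ) : ℤ) + 1)] γ = ρ i)
    (hrel : ∀ z, φ z ^ n + ∑ i : Fin n, ρ i z * φ z ^ (n - 1 - (i : ℕ)) = 0)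
    (γ : SL(2, ℤ)) (z : ℍ) :
    (φ ∣[k] γ) z ^ n + ∑ i : Fin n, ρ i z * (φ ∣[k] γ) z ^ (n - 1 - (i : ℕ)) = 0 := by
  set j : ℂ := denom γ z ^ (-k) with hj
  have hφ : (φ ∣[k] γ) z = φ (γ • z) * j := by
    rw [ModularForm.SL_slash_apply]
  have hρ' : ∀ i : Fin n, ρ i z = ρ i (γ • z) * j ^ ((i : ℕ) + 1) := by
    intro i
    have h := congrFun (hρ i γ) z
    rw [ModularForm.SL_slash_apply] at h
    rw [← h, hj, ← zpow_natCast, ← zpow_mul]
    congr 2
    push_cast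
    ring
  have key : (φ ∣[k] γ) z ^ n + ∑ i : Fin n, ρ i z * (φ ∣[k] γ) z ^ (n - 1 - (i : ℕ)) =
      j ^ n * (φ (γ • z) ^ n + ∑ i : Fin n, ρ i (γ • z) * φ (γ • z) ^ (n - 1 - (i : ℕ))) := by
    rw [mul_add, Finset.mul_sum, hφ, mul_pow]
    congr 1
    · ring
    · refine Finset.sum_congr rfl fun i _ => ?_
      rw [hρ' i, mul_pow]
      have hn : j ^ n = j ^ ((i : ℕ) + 1) * j ^ (n - 1 - (i : ℕ)) := by
        rw [← pow_add]; congr 1; have := i.2; omega
      rw [hn]; ring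
  rw [key, hrel, mul_zero]

/-- **Lemma H**, general function-level form.  `Γ` is any subgroup of (the image in `GL(2,ℝ)` of)
`SL(2,ℤ)`; `E`, `G` are holomorphic functions on `ℍ`, slash-invariant under `Γ` of weights `m`
and `k + m`, `E` not identically zero, and `G ^ n + ∑ ρ_i G ^ (n-1-i) E ^ (i+1) = 0` with `ρ_i`
level-one cusp forms of weight `k * (i + 1)`.  Then there is a cusp form `g` of weight `k` on `Γ`
with `g * E = G`. -/
theorem lemmaH_fun {Γ : Subgroup (GL (Fin 2) ℝ)} (hΓ : Γ ≤ 𝒮ℒ) (k m : ℤ) (n : ℕ)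
    {E G : ℍ → ℂ} (ρ : Fin n → ℍ → ℂ)
    (hE : MDiff E) (hG : MDiff G) (hE0 : ∃ z, E z ≠ 0)
    (hEinv : ∀ γ ∈ Γ, E ∣[m] γ = E) (hGinv : ∀ γ ∈ Γ, G ∣[k + m] γ = G)
    (hρ : ∀ i : Fin n, ∃ r : CuspForm 𝒮ℒ (k * (((i : ℕ) : ℤ) + 1)), ⇑r = ρ i)
    (hrel : ∀ z, G z ^ n + ∑ i : Fin n, ρ i z * G z ^ (n - 1 - (i : ℕ)) * E z ^ ((i : ℕ) + 1)
      = 0) :
    ∃ g : CuspForm Γ k, ∀ z, g z * E z = G z := by
  have hρ_holo : ∀ i, MDiff (ρ i) := fun i => by
    obtain ⟨r, hr⟩ := hρ i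
    rw [← hr]; exact CuspFormClass.holo r
  have hρ_inv : ∀ i : Fin n, ∀ γ : SL(2, ℤ), ρ i ∣[k * (((i : ℕ) : ℤ) + 1)] γ = ρ i := by
    intro i γ
    obtain ⟨r, hr⟩ := hρ i
    rw [← hr]
    exact SlashInvariantFormClass.slash_action_eq r _ ⟨γ, rfl⟩
  have hρ_zero : ∀ i : Fin n, Tendsto (ρ i) atImInfty (𝓝 0) := by
    intro i
    obtain ⟨r, hr⟩ := hρ i
    rw [← hr]
    exact CuspFormClass.zero_at_infty r
  obtain ⟨φ, hφ, hφE, hφrel⟩ := exists_mdifferentiable_quotient hG hE hE0 n ρ hρ_holo hrel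
  have hE_ne : E ≠ 0 := by
    rintro rfl; obtain ⟨z, hz⟩ := hE0; exact hz rfl
  have hφE' : φ * E = G := funext hφE
  have hn : 0 < n := by
    rcases Nat.eq_zero_or_pos n with h0 | h0
    · subst h0
      have := hφrel I
      simp at this
    · exact h0
  -- invariance
  have hinv : ∀ γ ∈ Γ, φ ∣[k] γ = φ := by
    intro γ hγ
    obtain ⟨γ', rfl⟩ := hΓ hγ
    have h1 := hEinv _ hγ
    have h2 := hGinv _ hγ
    have h3 : (φ ∣[k] γ') * E = φ * E := by
      have h4 : (φ * E) ∣[k + m] γ' = (φ ∣[k] γ') * (E ∣[m] γ') :=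
        ModularForm.mul_slash_SL2 k m γ' φ E
      have h1' : E ∣[m] γ' = E := by rw [ModularForm.SL_slash]; exact h1
      have h2' : G ∣[k + m] γ' = G := by rw [ModularForm.SL_slash]; exact h2
      rw [hφE', h2', h1'] at h4
      rw [← h4, hφE']
    have h4 : (φ ∣[k] γ' - φ) * E = 0 := by rw [sub_mul, h3, sub_self]
    rcases (UpperHalfPlane.mul_eq_zero_iff ((hφ.slash k _).sub hφ) hE).mp h4 with h | h
    · exact sub_eq_zero.mp h
    · exact absurd h hE_ne
  refine ⟨{ toFun := φ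
            slash_action_eq' := hinv
            holo' := hφ
            zero_at_cusps' := ?_ }, fun z => hφE z⟩
  intro c hc
  rw [OnePoint.isZeroAt_iff_forall_SL2Z (hc.mono hΓ)]
  intro γ _
  exact tendsto_zero_of_monic_relation hn
    (Eventually.of_forall (monic_relation_slash k n φ ρ hρ_inv hφrel γ)) hρ_zero

end Fermat.Agent.S23.helper595
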