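import Fermat.Agent.S23.helper1255_Conj
import Fermat.Agent.S23.helper263_Spec
import Fermat.Agent.S23.helper563_Hankel
import Fermat.Agent.S23.helper143_PrimElt
import Fermat.Agent.S23.helper85_EsymmAdapters
import Fermat.Agent.S23.helper83_LevelOne
import Fermat.Agent.S23.helper595_LemmaHMF

/-!
# `Stmt_Conj N k` for every level and every weight (helper1255)

Unconditional assembly of `Fermat.Agent.S23.helper263.Stmt_Conj N k` from the packages on main:

* `(CONJ core)` `helper1255.conj_of_data`;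
* `(L1)` `helper83.levelOne_conj`;
* `(P)` `helper143.wN`, `helper143.qExpansion_wN_int`, `helper143.quotientFunc_wN_injective`;
* `(T)` `helper563.hankel_rep_cusp`;
* `(I)` `helper85.stmt_integral_fin`;
* `(H)` `helper595.lemmaH_fun`.
-/

set_option autoImplicit false

open UpperHalfPlane ModularForm CongruenceSubgroup
open scoped MatrixGroups Manifold

namespace Fermat.Agent.S23.helper1255

/-- Lemma H in the shape consumed by `conj_of_data`. -/
theorem lemmaH_shape (N : ℕ) [NeZero N] (k : ℤ) :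
    ∀ (M : ℤ) (E : ModularForm (G0 N) M) (P : ModularForm (G0 N) (k + M)) (n : ℕ)
      (c : (i : Fin n) → CuspForm 𝒮ℒ (k * (i + 1))), E ≠ 0 →
      (∀ z, P z ^ n + ∑ i : Fin n, c i z * E z ^ (i + 1 : ℕ) * P z ^ (n - 1 - i) = 0) →
      ∃ g : CuspForm (G0 N) k, ∀ z, g z * E z = P z := by
  intro M E P n c hE hrel
  have hΓ : G0 N ≤ 𝒮ℒ := gamma0_le_SL N
  refine Fermat.Agent.S23.helper595.lemmaH_fun (Γ := G0 N) hΓ k M n (E := ⇑E) (G := ⇑P)
    (fun i => ⇑(c i)) (ModularFormClass.holo E) (ModularFormClass.holo P) ?_ ?_ ?_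
    (fun i => ⟨c i, rfl⟩) ?_
  · by_contra hcon
    push Not at hcon
    exact hE (DFunLike.ext _ _ fun z => by simpa using hcon z)
  · intro γ hγ
    exact SlashInvariantFormClass.slash_action_eq E γ hγ
  · intro γ hγ
    exact SlashInvariantFormClass.slash_action_eq P γ hγ
  · intro z
    rw [← hrel z]
    congr 1
    refine Finset.sum_congr rfl fun i _ => ?_
    ring

/-- **(CONJ)** for all levels `N ≥ 1` and all weights `k : ℤ`. -/
theorem stmt_Conj (N : ℕ) [NeZero N] (k : ℤ) : Fermat.Agent.S23.helper263.Stmt_Conj N k := by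
  intro f σ
  obtain ⟨p, hp⟩ := Fermat.Agent.S23.helper143.qExpansion_wN_int N
  obtain ⟨M, D, hD, c, hT⟩ := Fermat.Agent.S23.helper563.hankel_rep_cusp f
    (Fermat.Agent.S23.helper143.wN N) (Fermat.Agent.S23.helper143.quotientFunc_wN_injective N)
  obtain ⟨n, e, hI⟩ := Fermat.Agent.S23.helper85.stmt_integral_fin N k f
  have hw : (qExpansion 1 (Fermat.Agent.S23.helper143.wN N)).map (σ : ℂ →+* ℂ)
      = qExpansion 1 (Fermat.Agent.S23.helper143.wN N) := by
    rw [hp]
    ext m
    simp
  exact conj_of_data N k (σ : ℂ →+* ℂ)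
    (fun m r => Fermat.Agent.S23.helper83.levelOne_conj (σ : ℂ →+* ℂ) m r) 4
    (Fermat.Agent.S23.helper143.wN N) hw f _ M D hD c hT n e hI (lemmaH_shape N k)

end Fermat.Agent.S23.helper1255
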