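/-
S23 helper (helper127): pure algebra.
* `lag E T w ν`  : the Lagrange-interpolation bracket `∑_{j+m+n=ν} (-1)^j E_j T_m w^n`;
* `monH e A B μ` : the homogenised monic relation `∑_{j ≤ μ} (-1)^j e_j B^j A^(μ-j)`;
* for a finite family `a : Q → K` in a field, with `es a j` the elementary symmetric functions:
  `monH (es a) (a q₀) 1 (card Q) = 0`,
  `lag (es a) (fun m => ∑ q, b q * a q ^ m) (a q₀) ν = b q₀ * lag (es a) (fun m => a q₀ ^ m) (a q₀) ν`,
  `lag (es a) (fun m => a q₀ ^ m) (a q₀) ν = ∏ q ∈ univ.erase q₀, (a q₀ - a q)`   (`ν + 1 = card Q`).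
-/
import Mathlib

set_option autoImplicit false

open Finset Polynomial

namespace Fermat.Agent.S23.helper127

section ring

variable {R : Type*} [CommRing R]

/-- `∑_{j + r = ν} ∑_{m + n = r} (-1)^j * (E j * T m * w ^ n)` -/
def lag (E T : ℕ → R) (w : R) (ν : ℕ) : R :=
  ∑ p ∈ antidiagonal ν, ∑ p' ∈ antidiagonal p.2, (-1) ^ p.1 * (E p.1 * T p'.1 * w ^ p'.2)

/-- `∑_{j ≤ μ} (-1)^j * (e j * B ^ j * A ^ (μ - j))` -/
def monH (e : ℕ → R) (A B : R) (μ : ℕ) : R :=
  ∑ j ∈ range (μ + 1), (-1) ^ j * (e j * B ^ j * A ^ (μ - j))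

lemma map_lag {S : Type*} [CommRing S] (φ : R →+* S) (E T : ℕ → R) (w : R) (ν : ℕ) :
    φ (lag E T w ν) = lag (fun j => φ (E j)) (fun m => φ (T m)) (φ w) ν := by
  simp [lag, map_sum]

lemma map_monH {S : Type*} [CommRing S] (φ : R →+* S) (e : ℕ → R) (A B : R) (μ : ℕ) :
    φ (monH e A B μ) = monH (fun j => φ (e j)) (φ A) (φ B) μ := by
  simp [monH, map_sum]

lemma monH_of_mul_eq (e : ℕ → R) (f A B : R) (μ : ℕ) (h : f * B = A) :
    monH e A B μ = B ^ μ * monH e f 1 μ := by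
  unfold monH
  rw [Finset.mul_sum]
  refine Finset.sum_congr rfl fun j hj => ?_
  have hj' : j ≤ μ := Nat.lt_succ_iff.mp (Finset.mem_range.mp hj)
  have : B ^ μ = B ^ j * B ^ (μ - j) := by rw [← pow_add, Nat.add_sub_cancel' hj']
  rw [← h, this, mul_pow]
  ring

lemma lag_sum_right {ι : Type*} (s : Finset ι) (E : ℕ → R) (c : ι → R) (T : ι → ℕ → R) (w : R)
    (ν : ℕ) :
    lag E (fun m => ∑ i ∈ s, c i * T i m) w ν = ∑ i ∈ s, c i * lag E (T i) w ν := by
  unfold lag
  simp_rw [Finset.mul_sum, Finset.sum_mul, Finset.mul_sum]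
  rw [Finset.sum_comm]
  refine Finset.sum_congr rfl fun p _ => ?_
  rw [Finset.sum_comm]
  refine Finset.sum_congr rfl fun p' _ => ?_
  refine Finset.sum_congr rfl fun i _ => ?_
  ring

end ring

section field

variable {K : Type*} [Field K] {Q : Type*} [Fintype Q]

/-- elementary symmetric functions of a finite family -/
def es (a : Q → K) (j : ℕ) : K := ∑ t ∈ (univ : Finset Q).powersetCard j, ∏ q ∈ t, a q

lemma es_eq_esymm (a : Q → K) (j : ℕ) : es a j = ((univ : Finset Q).val.map a).esymm j :=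
  (Finset.esymm_map_val a univ j).symm

/-- Vieta -/
lemma prod_X_sub_C_eq (a : Q → K) :
    ∏ q, (X - C (a q)) =
      ∑ j ∈ range (Fintype.card Q + 1), (-1) ^ j * (C (es a j) * X ^ (Fintype.card Q - j)) := by
  have h := Multiset.prod_X_sub_X_eq_sum_esymm ((univ : Finset Q).val.map a)
  simp only [Multiset.map_map, Multiset.card_map, Finset.card_val, Finset.card_univ] at h
  simp only [es_eq_esymm]
  rw [← h]
  rfl

theorem mon_rel (a : Q → K) (q0 : Q) : monH (es a) (a q0) 1 (Fintype.card Q) = 0 := by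
  have h := congrArg (Polynomial.eval (a q0)) (prod_X_sub_C_eq a)
  rw [Polynomial.eval_prod, Finset.prod_eq_zero (Finset.mem_univ q0) (by simp)] at h
  rw [h, monH, Polynomial.eval_finsetSum]
  refine Finset.sum_congr rfl fun j _ => ?_
  simp

/-- the synthetic-division polynomial -/
noncomputable def lagPoly (a : Q → K) (q0 : Q) (ν : ℕ) : K[X] :=
  lag (fun j => C (es a j)) (fun m => X ^ m) (C (a q0)) ν

lemma eval_lagPoly (a : Q → K) (q0 : Q) (ν : ℕ) (x : K) :
    (lagPoly a q0 ν).eval x = lag (es a) (fun m => x ^ m) (a q0) ν := by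
  have := map_lag (Polynomial.evalRingHom x) (fun j => C (es a j)) (fun m => X ^ m) (C (a q0)) ν
  simpa [lagPoly] using this

lemma geom_antidiagonal {S : Type*} [CommRing S] (x y : S) (r : ℕ) :
    (∑ p ∈ antidiagonal r, x ^ p.1 * y ^ p.2) * (x - y) = x ^ (r + 1) - y ^ (r + 1) := by
  rw [Finset.Nat.sum_antidiagonal_eq_sum_range_succ_mk, ← geom_sum₂_mul x y (r + 1)]
  simp

lemma lagPoly_mul (a : Q → K) (q0 : Q) (ν : ℕ) (hν : ν + 1 = Fintype.card Q) :
    lagPoly a q0 ν * (X - C (a q0)) = ∏ q, (X - C (a q)) := by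
  have hroot : (∏ q, (X - C (a q))).eval (a q0) = 0 := by
    rw [Polynomial.eval_prod, Finset.prod_eq_zero (Finset.mem_univ q0) (by simp)]
  have h1 : ∏ q, (X - C (a q)) = ∏ q, (X - C (a q)) - C ((∏ q, (X - C (a q))).eval (a q0)) := by
    rw [hroot]; simp
  rw [h1, prod_X_sub_C_eq a, ← hν, Polynomial.eval_finsetSum]
  rw [map_sum, ← Finset.sum_sub_distrib, Finset.sum_range_succ]
  have hlast : (-1 : K[X]) ^ (ν + 1) * (C (es a (ν + 1)) * X ^ (ν + 1 - (ν + 1))) -
      C (Polynomial.eval (a q0) ((-1) ^ (ν + 1) * (C (es a (ν + 1)) * X ^ (ν + 1 - (ν + 1))))) = 0 := by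
    simp
  rw [hlast, add_zero, lagPoly, lag, Finset.sum_mul,
    Finset.Nat.sum_antidiagonal_eq_sum_range_succ_mk]
  refine Finset.sum_congr rfl fun j hj => ?_
  have hj' : j ≤ ν := Nat.lt_succ_iff.mp (Finset.mem_range.mp hj)
  have hsub : ν + 1 - j = (ν - j) + 1 := by omega
  have hg := geom_antidiagonal (X : K[X]) (C (a q0)) (ν - j)
  simp only [hsub]
  have : (∑ p' ∈ antidiagonal (ν - j),
        (-1 : K[X]) ^ j * (C (es a j) * X ^ p'.1 * C (a q0) ^ p'.2)) * (X - C (a q0))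
      = (-1 : K[X]) ^ j * C (es a j) * ((∑ p ∈ antidiagonal (ν - j), X ^ p.1 * C (a q0) ^ p.2)
          * (X - C (a q0))) := by
    rw [Finset.sum_mul, Finset.sum_mul, Finset.mul_sum]
    refine Finset.sum_congr rfl fun p _ => ?_
    ring
  rw [this, hg]
  simp only [Polynomial.eval_mul, Polynomial.eval_pow, Polynomial.eval_neg, Polynomial.eval_one,
    Polynomial.eval_C, Polynomial.eval_X, map_mul, map_pow, map_neg, map_one]
  ring

lemma lagPoly_eq [DecidableEq Q] (a : Q → K) (q0 : Q) (ν : ℕ) (hν : ν + 1 = Fintype.card Q) :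
    lagPoly a q0 ν = ∏ q ∈ univ.erase q0, (X - C (a q)) := by
  have h := lagPoly_mul a q0 ν hν
  rw [← Finset.mul_prod_erase univ (fun q => X - C (a q)) (Finset.mem_univ q0), mul_comm] at h
  exact mul_left_cancel₀ (Polynomial.X_sub_C_ne_zero (a q0)) h

theorem lagB_eq [DecidableEq Q] (a : Q → K) (q0 : Q) (ν : ℕ) (hν : ν + 1 = Fintype.card Q) :
    lag (es a) (fun m => a q0 ^ m) (a q0) ν = ∏ q ∈ univ.erase q0, (a q0 - a q) := by
  rw [← eval_lagPoly, lagPoly_eq a q0 ν hν, Polynomial.eval_prod]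
  simp

theorem lag_eq (a b : Q → K) (q0 : Q) (ν : ℕ) (hν : ν + 1 = Fintype.card Q) :
    lag (es a) (fun m => ∑ q, b q * a q ^ m) (a q0) ν
      = b q0 * lag (es a) (fun m => a q0 ^ m) (a q0) ν := by
  classical
  rw [lag_sum_right univ (es a) b (fun q m => a q ^ m) (a q0) ν]
  rw [Finset.sum_eq_single q0]
  · intro q _ hq
    rw [← eval_lagPoly, lagPoly_eq a q0 ν hν, Polynomial.eval_prod,
      Finset.prod_eq_zero (Finset.mem_erase.mpr ⟨hq, Finset.mem_univ q⟩) (by simp), mul_zero]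
  · intro h; exact absurd (Finset.mem_univ q0) h

end field

end Fermat.Agent.S23.helper127
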