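/-
S23 helper (helper127): function-level q-expansion calculus.

`Nice f` : `f : ℍ → ℂ` is holomorphic, `1`-periodic and bounded at `i∞`.
Nice functions form a `ℂ`-subalgebra `niceAlg` of `ℍ → ℂ`, and `qExpansion 1` is an injective
`ℂ`-algebra homomorphism `qHom : niceAlg →ₐ[ℂ] PowerSeries ℂ`.
-/
import Mathlib

set_option autoImplicit false

open UpperHalfPlane ModularForm
open scoped MatrixGroups Manifold

namespace Fermat.Agent.S23.helper127

/-- Holomorphic, `1`-periodic and bounded at `i∞`. -/
structure Nice (f : ℍ → ℂ) : Prop where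
  per : Function.Periodic (f ∘ ofComplex) 1
  hol : MDiff f
  bdd : IsBoundedAtImInfty f

namespace Nice

variable {f g : ℍ → ℂ}

lemma analytic (hf : Nice f) : AnalyticAt ℂ (cuspFunction 1 f) 0 :=
  analyticAt_cuspFunction_zero one_pos hf.per hf.hol hf.bdd

lemma const (c : ℂ) : Nice (fun _ : ℍ => c) where
  per := fun _ => rfl
  hol := mdifferentiable_const
  bdd := Filter.const_boundedAtFilter _ c

lemma one : Nice (1 : ℍ → ℂ) := const 1

lemma zero : Nice (0 : ℍ → ℂ) := const 0

lemma add (hf : Nice f) (hg : Nice g) : Nice (f + g) where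
  per := fun z => by
    have h1 := hf.per z
    have h2 := hg.per z
    simp only [Function.comp_apply, Pi.add_apply] at h1 h2 ⊢
    rw [h1, h2]
  hol := hf.hol.add hg.hol
  bdd := hf.bdd.add hg.bdd

lemma mul (hf : Nice f) (hg : Nice g) : Nice (f * g) where
  per := fun z => by
    have h1 := hf.per z
    have h2 := hg.per z
    simp only [Function.comp_apply, Pi.mul_apply] at h1 h2 ⊢
    rw [h1, h2]
  hol := hf.hol.mul hg.hol
  bdd := hf.bdd.mul hg.bdd

lemma smul (c : ℂ) (hf : Nice f) : Nice (c • f) := by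
  have : c • f = (fun _ : ℍ => c) * f := by
    ext z; simp
  rw [this]
  exact (const c).mul hf

lemma neg (hf : Nice f) : Nice (-f) := by
  have : -f = (-1 : ℂ) • f := by ext z; simp
  rw [this]
  exact hf.smul _

lemma sub (hf : Nice f) (hg : Nice g) : Nice (f - g) := by
  rw [sub_eq_add_neg]
  exact hf.add hg.neg

lemma pow (hf : Nice f) (n : ℕ) : Nice (f ^ n) := by
  induction n with
  | zero => simpa using one
  | succ n ih => rw [pow_succ]; exact ih.mul hf

lemma sum {ι : Type*} (s : Finset ι) (F : ι → ℍ → ℂ) (h : ∀ i ∈ s, Nice (F i)) :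
    Nice (∑ i ∈ s, F i) := by
  classical
  induction s using Finset.induction_on with
  | empty => simpa using zero
  | insert a s ha ih =>
    rw [Finset.sum_insert ha]
    exact (h a (Finset.mem_insert_self a s)).add
      (ih fun i hi => h i (Finset.mem_insert_of_mem hi))

lemma prod {ι : Type*} (s : Finset ι) (F : ι → ℍ → ℂ) (h : ∀ i ∈ s, Nice (F i)) :
    Nice (∏ i ∈ s, F i) := by
  classical
  induction s using Finset.induction_on with
  | empty => simpa using one
  | insert a s ha ih =>
    rw [Finset.prod_insert ha]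
    exact (h a (Finset.mem_insert_self a s)).mul
      (ih fun i hi => h i (Finset.mem_insert_of_mem hi))

/-- A modular form (of any level having strict period `1`) is nice. -/
lemma of_modularForm {F : Type*} [FunLike F ℍ ℂ] {Γ : Subgroup (GL (Fin 2) ℝ)} {k : ℤ}
    [ModularFormClass F Γ k] (hΓ : (1 : ℝ) ∈ Γ.strictPeriods) (f : F) : Nice (f : ℍ → ℂ) :=
  have : Fact (IsCusp OnePoint.infty Γ) := ⟨Γ.isCusp_of_mem_strictPeriods one_pos hΓ⟩
  { per := SlashInvariantFormClass.periodic_comp_ofComplex f hΓ
    hol := ModularFormClass.holo f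
    bdd := ModularFormClass.bdd_at_infty f }

end Nice

/-- The `ℂ`-subalgebra of nice functions. -/
def niceAlg : Subalgebra ℂ (ℍ → ℂ) where
  carrier := {f | Nice f}
  mul_mem' := fun ha hb => Nice.mul ha hb
  add_mem' := fun ha hb => Nice.add ha hb
  algebraMap_mem' := fun c => Nice.const c

lemma mem_niceAlg {f : ℍ → ℂ} : f ∈ niceAlg ↔ Nice f := Iff.rfl

/-- `qExpansion 1` as a `ℂ`-algebra homomorphism on nice functions. -/
noncomputable def qHom : niceAlg →ₐ[ℂ] PowerSeries ℂ where
  toFun f := qExpansion 1 (f : ℍ → ℂ)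
  map_one' := qExpansion_one 1
  map_mul' f g := qExpansion_mul (Nice.analytic f.2) (Nice.analytic g.2)
  map_zero' := qExpansion_zero 1
  map_add' f g := qExpansion_add (Nice.analytic f.2) (Nice.analytic g.2)
  commutes' c := by
    have h1 : ((algebraMap ℂ niceAlg c : niceAlg) : ℍ → ℂ) = c • (1 : ℍ → ℂ) := by
      ext z; simp [Algebra.algebraMap_eq_smul_one]
    show qExpansion 1 ((algebraMap ℂ niceAlg c : niceAlg) : ℍ → ℂ) = _
    rw [h1, qExpansion_smul Nice.one.analytic, qExpansion_one]
    ext n
    simp [PowerSeries.coeff_one, PowerSeries.coeff_C]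

@[simp] lemma qHom_apply (f : niceAlg) : qHom f = qExpansion 1 (f : ℍ → ℂ) := rfl

lemma qHom_injective : Function.Injective qHom := by
  rw [injective_iff_map_eq_zero]
  intro f hf
  have := (qExpansion_eq_zero_iff one_pos f.2.per f.2.hol f.2.bdd).mp hf
  exact Subtype.ext this

/-- Function-level consequences. -/
lemma qExpansion_inj {f g : ℍ → ℂ} (hf : Nice f) (hg : Nice g)
    (h : qExpansion 1 f = qExpansion 1 g) : f = g := by
  have := @qHom_injective ⟨f, hf⟩ ⟨g, hg⟩ h
  exact congrArg Subtype.val this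

lemma qExpansion_mul' {f g : ℍ → ℂ} (hf : Nice f) (hg : Nice g) :
    qExpansion 1 (f * g) = qExpansion 1 f * qExpansion 1 g :=
  qExpansion_mul hf.analytic hg.analytic

lemma qExpansion_add' {f g : ℍ → ℂ} (hf : Nice f) (hg : Nice g) :
    qExpansion 1 (f + g) = qExpansion 1 f + qExpansion 1 g :=
  qExpansion_add hf.analytic hg.analytic

lemma qExpansion_smul' {f : ℍ → ℂ} (hf : Nice f) (c : ℂ) :
    qExpansion 1 (c • f) = c • qExpansion 1 f :=
  qExpansion_smul hf.analytic c

lemma qExpansion_pow' {f : ℍ → ℂ} (hf : Nice f) (n : ℕ) :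
    qExpansion 1 (f ^ n) = qExpansion 1 f ^ n := by
  have := map_pow qHom (⟨f, hf⟩ : niceAlg) n
  simpa using this

lemma qExpansion_sum' {ι : Type*} (s : Finset ι) (F : ι → ℍ → ℂ) (h : ∀ i ∈ s, Nice (F i)) :
    qExpansion 1 (∑ i ∈ s, F i) = ∑ i ∈ s, qExpansion 1 (F i) := by
  classical
  induction s using Finset.induction_on with
  | empty => simpa using qExpansion_zero 1
  | insert a s ha ih =>
    rw [Finset.sum_insert ha, Finset.sum_insert ha,
      qExpansion_add' (h a (Finset.mem_insert_self a s))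
        (Nice.sum s F fun i hi => h i (Finset.mem_insert_of_mem hi)),
      ih fun i hi => h i (Finset.mem_insert_of_mem hi)]

end Fermat.Agent.S23.helper127
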