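/-
S23 helper (helper127): function-level slash calculus for `SL(2,ℤ)`, constructors for level-one
forms and `Γ₀(N)` cusp forms from functions, families of translates (`TFam`), their traces and
elementary symmetric functions as level-one modular forms.
-/
import Mathlib
import Fermat.Agent.S23.helper127_QExp
import Fermat.Agent.S23.helper127_Alg

set_option autoImplicit false

open UpperHalfPlane ModularForm CongruenceSubgroup Filter
open scoped MatrixGroups Manifold Topology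

namespace Fermat.Agent.S23.helper127

/-! ### Constructors -/

/-- A level-one modular form from a function. -/
noncomputable def mkLevelOne (k : ℤ) (g : ℍ → ℂ) (hol : MDiff g) (bdd : IsBoundedAtImInfty g)
    (inv : ∀ γ : SL(2, ℤ), g ∣[k] γ = g) : ModularForm 𝒮ℒ k where
  toFun := g
  slash_action_eq' A hA := by
    obtain ⟨A, rfl⟩ := hA
    exact inv A
  holo' := hol
  bdd_at_cusps' hc := by
    rw [Subgroup.IsArithmetic.isCusp_iff_isCusp_SL2Z] at hc
    rw [OnePoint.isBoundedAt_iff_forall_SL2Z hc]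
    intro γ _
    rw [inv γ]
    exact bdd

@[simp] lemma coe_mkLevelOne (k : ℤ) (g : ℍ → ℂ) (hol : MDiff g) (bdd : IsBoundedAtImInfty g)
    (inv : ∀ γ : SL(2, ℤ), g ∣[k] γ = g) : ⇑(mkLevelOne k g hol bdd inv) = g := rfl

/-- A cusp form of level `Γ₀(N)` from a function. -/
noncomputable def mkCuspGamma0 (N : ℕ) [NeZero N] (k : ℤ) (g : ℍ → ℂ) (hol : MDiff g)
    (inv : ∀ γ ∈ Gamma0 N, g ∣[k] γ = g) (zero : ∀ δ : SL(2, ℤ), IsZeroAtImInfty (g ∣[k] δ)) :
    CuspForm (Gamma0 N) k where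
  toFun := g
  slash_action_eq' A hA := by
    obtain ⟨A, hA, rfl⟩ := hA
    exact inv A hA
  holo' := hol
  zero_at_cusps' hc := by
    rw [Subgroup.IsArithmetic.isCusp_iff_isCusp_SL2Z] at hc
    rw [OnePoint.isZeroAt_iff_forall_SL2Z hc]
    intro γ _
    exact zero γ

@[simp] lemma coe_mkCuspGamma0 (N : ℕ) [NeZero N] (k : ℤ) (g : ℍ → ℂ) (hol : MDiff g)
    (inv : ∀ γ ∈ Gamma0 N, g ∣[k] γ = g) (zero : ∀ δ : SL(2, ℤ), IsZeroAtImInfty (g ∣[k] δ)) :
    ⇑(mkCuspGamma0 N k g hol inv zero) = g := rfl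

/-! ### Finite sums and products of holomorphic / bounded functions -/

lemma mdiff_one : MDiff (1 : ℍ → ℂ) := (mdifferentiable_const : MDiff (fun _ : ℍ => (1 : ℂ)))

lemma mdiff_zero : MDiff (0 : ℍ → ℂ) := (mdifferentiable_const : MDiff (fun _ : ℍ => (0 : ℂ)))

lemma bdd_one : IsBoundedAtImInfty (1 : ℍ → ℂ) := Filter.const_boundedAtFilter _ (1 : ℂ)

lemma bdd_zero : IsBoundedAtImInfty (0 : ℍ → ℂ) := Filter.const_boundedAtFilter _ (0 : ℂ)

lemma mdiff_sum {ι : Type*} (s : Finset ι) (F : ι → ℍ → ℂ) (h : ∀ i ∈ s, MDiff (F i)) :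
    MDiff (∑ i ∈ s, F i) := by
  classical
  induction s using Finset.induction_on with
  | empty => simpa using mdiff_zero
  | insert a s ha ih =>
    rw [Finset.sum_insert ha]
    exact (h a (Finset.mem_insert_self a s)).add
      (ih fun i hi => h i (Finset.mem_insert_of_mem hi))

lemma mdiff_prod {ι : Type*} (s : Finset ι) (F : ι → ℍ → ℂ) (h : ∀ i ∈ s, MDiff (F i)) :
    MDiff (∏ i ∈ s, F i) := by
  classical
  induction s using Finset.induction_on with
  | empty => simpa using mdiff_one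
  | insert a s ha ih =>
    rw [Finset.prod_insert ha]
    exact (h a (Finset.mem_insert_self a s)).mul
      (ih fun i hi => h i (Finset.mem_insert_of_mem hi))

lemma mdiff_pow {f : ℍ → ℂ} (hf : MDiff f) (n : ℕ) : MDiff (f ^ n) := by
  induction n with
  | zero => rw [pow_zero]; exact mdiff_one
  | succ n ih => rw [pow_succ]; exact ih.mul hf

lemma bdd_sum {ι : Type*} (s : Finset ι) (F : ι → ℍ → ℂ)
    (h : ∀ i ∈ s, IsBoundedAtImInfty (F i)) : IsBoundedAtImInfty (∑ i ∈ s, F i) := by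
  classical
  induction s using Finset.induction_on with
  | empty => simpa using bdd_zero
  | insert a s ha ih =>
    rw [Finset.sum_insert ha]
    exact (h a (Finset.mem_insert_self a s)).add
      (ih fun i hi => h i (Finset.mem_insert_of_mem hi))

lemma bdd_prod {ι : Type*} (s : Finset ι) (F : ι → ℍ → ℂ)
    (h : ∀ i ∈ s, IsBoundedAtImInfty (F i)) : IsBoundedAtImInfty (∏ i ∈ s, F i) := by
  classical
  induction s using Finset.induction_on with
  | empty => simpa using bdd_one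
  | insert a s ha ih =>
    rw [Finset.prod_insert ha]
    exact (h a (Finset.mem_insert_self a s)).mul
      (ih fun i hi => h i (Finset.mem_insert_of_mem hi))

lemma bdd_pow {f : ℍ → ℂ} (hf : IsBoundedAtImInfty f) (n : ℕ) : IsBoundedAtImInfty (f ^ n) := by
  induction n with
  | zero => rw [pow_zero]; exact bdd_one
  | succ n ih => rw [pow_succ]; exact ih.mul hf

lemma zero_sum {ι : Type*} (s : Finset ι) (F : ι → ℍ → ℂ)
    (h : ∀ i ∈ s, IsZeroAtImInfty (F i)) : IsZeroAtImInfty (∑ i ∈ s, F i) := by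
  have := tendsto_finsetSum s (fun i hi => (h i hi : Tendsto (F i) atImInfty (𝓝 0)))
  simp only [Finset.sum_const_zero] at this
  show Tendsto (∑ i ∈ s, F i) atImInfty (𝓝 0)
  convert this using 1
  ext τ; simp

lemma zero_prod {ι : Type*} (s : Finset ι) (hs : s.Nonempty) (F : ι → ℍ → ℂ)
    (h : ∀ i ∈ s, IsZeroAtImInfty (F i)) : IsZeroAtImInfty (∏ i ∈ s, F i) := by
  have := tendsto_finsetProd s (fun i hi => (h i hi : Tendsto (F i) atImInfty (𝓝 0)))
  obtain ⟨i0, hi0⟩ := hs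
  rw [Finset.prod_eq_zero hi0 rfl] at this
  show Tendsto (∏ i ∈ s, F i) atImInfty (𝓝 0)
  convert this using 1
  ext τ; simp

/-! ### Slash calculus for `SL(2,ℤ)` at the function level -/

/-- weight-`k` slash invariance under a subgroup of `SL(2,ℤ)` (function level). -/
def SInv (Γ : Subgroup SL(2, ℤ)) (k : ℤ) (g : ℍ → ℂ) : Prop := ∀ γ ∈ Γ, g ∣[k] γ = g

lemma pow_slash_SL2 (k : ℤ) (n : ℕ) (γ : SL(2, ℤ)) (f : ℍ → ℂ) :
    (f ^ n) ∣[k * n] γ = (f ∣[k] γ) ^ n := by
  ext τ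
  simp only [SL_slash_apply, Pi.pow_apply, mul_pow]
  congr 1
  rw [← zpow_natCast, ← zpow_mul]
  congr 1
  ring

lemma one_slash_SL2 (γ : SL(2, ℤ)) : (1 : ℍ → ℂ) ∣[(0 : ℤ)] γ = 1 := is_invariant_one γ

lemma prod_slash_SL2 {ι : Type*} (k : ℤ) (γ : SL(2, ℤ)) (s : Finset ι) (f : ι → ℍ → ℂ) :
    (∏ i ∈ s, f i) ∣[k * s.card] γ = ∏ i ∈ s, (f i ∣[k] γ) := by
  ext τ
  simp only [SL_slash_apply, Finset.prod_apply, Finset.prod_mul_distrib, Finset.prod_const]
  congr 1
  rw [← zpow_natCast, ← zpow_mul]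
  congr 1
  ring

namespace SInv

variable {Γ : Subgroup SL(2, ℤ)} {k l : ℤ} {f g : ℍ → ℂ}

lemma congr_weight (h : k = l) (hf : SInv Γ k f) : SInv Γ l f := h ▸ hf

lemma mono {Γ' : Subgroup SL(2, ℤ)} (h : Γ' ≤ Γ) (hf : SInv Γ k f) : SInv Γ' k f :=
  fun γ hγ => hf γ (h hγ)

lemma mul (hf : SInv Γ k f) (hg : SInv Γ l g) : SInv Γ (k + l) (f * g) := fun γ hγ => by
  rw [mul_slash_SL2, hf γ hγ, hg γ hγ]

lemma pow (hf : SInv Γ k f) (n : ℕ) : SInv Γ (k * n) (f ^ n) := fun γ hγ => by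
  rw [pow_slash_SL2, hf γ hγ]

lemma one : SInv Γ 0 (1 : ℍ → ℂ) := fun γ _ => one_slash_SL2 γ

lemma add (hf : SInv Γ k f) (hg : SInv Γ k g) : SInv Γ k (f + g) := fun γ hγ => by
  rw [SlashAction.add_slash, hf γ hγ, hg γ hγ]

lemma zero : SInv Γ k (0 : ℍ → ℂ) := fun _ _ => SlashAction.zero_slash _ _

lemma smul (c : ℂ) (hf : SInv Γ k f) : SInv Γ k (c • f) := fun γ hγ => by
  rw [SL_smul_slash, hf γ hγ]

lemma neg (hf : SInv Γ k f) : SInv Γ k (-f) := fun γ hγ => by
  rw [SlashAction.neg_slash, hf γ hγ]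

lemma sum {ι : Type*} (s : Finset ι) (F : ι → ℍ → ℂ) (h : ∀ i ∈ s, SInv Γ k (F i)) :
    SInv Γ k (∑ i ∈ s, F i) := fun γ hγ => by
  rw [SlashAction.sum_slash]
  exact Finset.sum_congr rfl fun i hi => h i hi γ hγ

lemma of_levelOne (F : ModularForm 𝒮ℒ k) : SInv Γ k F := fun γ _ =>
  SlashInvariantForm.slash_action_eqn F _ ⟨γ, rfl⟩

lemma of_Gamma0 {N : ℕ} {F : Type*} [FunLike F ℍ ℂ] [SlashInvariantFormClass F (Gamma0 N) k]
    (f : F) : SInv (Gamma0 N) k f := fun γ hγ =>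
  SlashInvariantForm.slash_action_eqn f _ ⟨γ, hγ, rfl⟩

end SInv

/-! ### Families of translates -/

/-- A family of holomorphic functions, bounded at `i∞`, permuted by the weight-`k` slash action
of `SL(2,ℤ)`. -/
structure TFam (Q : Type*) [MulAction SL(2, ℤ) Q] (k : ℤ) where
  /-- the members of the family -/
  u : Q → ℍ → ℂ
  hol : ∀ q, MDiff (u q)
  bdd : ∀ q, IsBoundedAtImInfty (u q)
  slash : ∀ (γ : SL(2, ℤ)) (q : Q), (u q) ∣[k] γ = u (γ⁻¹ • q)

namespace TFam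

variable {Q : Type*} [MulAction SL(2, ℤ) Q] {k l : ℤ}

/-- product of two families -/
def mul (a : TFam Q k) (b : TFam Q l) : TFam Q (k + l) where
  u q := a.u q * b.u q
  hol q := (a.hol q).mul (b.hol q)
  bdd q := (a.bdd q).mul (b.bdd q)
  slash γ q := by rw [mul_slash_SL2, a.slash, b.slash]

@[simp] lemma mul_u (a : TFam Q k) (b : TFam Q l) (q : Q) : (a.mul b).u q = a.u q * b.u q := rfl

/-- power of a family -/
def pow (a : TFam Q k) (n : ℕ) : TFam Q (k * n) where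
  u q := a.u q ^ n
  hol q := mdiff_pow (a.hol q) n
  bdd q := bdd_pow (a.bdd q) n
  slash γ q := by rw [pow_slash_SL2, a.slash]

@[simp] lemma pow_u (a : TFam Q k) (n : ℕ) (q : Q) : (a.pow n).u q = a.u q ^ n := rfl

variable [Fintype Q]

/-- the trace of a family, a level-one form -/
noncomputable def trace (a : TFam Q k) : ModularForm 𝒮ℒ k :=
  mkLevelOne k (∑ q, a.u q) (mdiff_sum _ _ fun q _ => a.hol q) (bdd_sum _ _ fun q _ => a.bdd q)
    (fun γ => by
      rw [SlashAction.sum_slash]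
      simp_rw [a.slash]
      exact Equiv.sum_comp (MulAction.toPerm (γ⁻¹ : SL(2, ℤ))) a.u)

lemma coe_trace (a : TFam Q k) : ⇑a.trace = ∑ q, a.u q := rfl

lemma trace_apply (a : TFam Q k) (τ : ℍ) : a.trace τ = ∑ q, a.u q τ := by
  rw [coe_trace, Finset.sum_apply]

/-- the elementary symmetric functions of a family, as functions -/
def esymmFun (a : TFam Q k) (j : ℕ) : ℍ → ℂ :=
  ∑ t ∈ (Finset.univ : Finset Q).powersetCard j, ∏ q ∈ t, a.u q

lemma esymmFun_slash (a : TFam Q k) (j : ℕ) (γ : SL(2, ℤ)) :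
    (a.esymmFun j) ∣[k * j] γ = a.esymmFun j := by
  unfold esymmFun
  rw [SlashAction.sum_slash]
  have h1 : ∀ t ∈ (Finset.univ : Finset Q).powersetCard j,
      (∏ q ∈ t, a.u q) ∣[k * j] γ
        = ∏ q ∈ t.map (MulAction.toPerm (γ⁻¹ : SL(2, ℤ))).toEmbedding, a.u q := by
    intro t ht
    rw [← (Finset.mem_powersetCard.mp ht).2, prod_slash_SL2, Finset.prod_map]
    refine Finset.prod_congr rfl fun q _ => ?_
    rw [a.slash]
    rfl
  rw [Finset.sum_congr rfl h1]
  have h2 := Finset.powersetCard_map (MulAction.toPerm (γ⁻¹ : SL(2, ℤ))).toEmbedding j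
    (Finset.univ : Finset Q)
  rw [Finset.map_univ_equiv] at h2
  conv_rhs => rw [h2]
  rw [Finset.sum_map]
  rfl

/-- the elementary symmetric functions of a family, level-one forms -/
noncomputable def esymm (a : TFam Q k) (j : ℕ) : ModularForm 𝒮ℒ (k * j) :=
  mkLevelOne (k * j) (a.esymmFun j)
    (mdiff_sum _ _ fun _ _ => mdiff_prod _ _ fun q _ => a.hol q)
    (bdd_sum _ _ fun _ _ => bdd_prod _ _ fun q _ => a.bdd q)
    (a.esymmFun_slash j)

lemma coe_esymm (a : TFam Q k) (j : ℕ) : ⇑(a.esymm j) = a.esymmFun j := rfl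

lemma esymm_apply (a : TFam Q k) (j : ℕ) (τ : ℍ) :
    a.esymm j τ = ∑ t ∈ (Finset.univ : Finset Q).powersetCard j, ∏ q ∈ t, a.u q τ := by
  rw [coe_esymm, esymmFun, Finset.sum_apply]
  refine Finset.sum_congr rfl fun t _ => ?_
  rw [Finset.prod_apply]

lemma esymm_zero_apply (a : TFam Q k) (τ : ℍ) : a.esymm 0 τ = 1 := by
  rw [esymm_apply]; simp

/-- if all members vanish at `i∞`, so do the elementary symmetric functions of positive degree -/
lemma esymm_isZeroAtImInfty (a : TFam Q k) (hz : ∀ q, IsZeroAtImInfty (a.u q)) {j : ℕ}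
    (hj : 1 ≤ j) : IsZeroAtImInfty (a.esymm j : ℍ → ℂ) := by
  rw [coe_esymm]
  refine zero_sum _ _ fun t ht => zero_prod _ ?_ _ fun q _ => hz q
  rw [← Finset.card_pos, (Finset.mem_powersetCard.mp ht).2]
  exact hj

/-! #### The monic relation and the Lagrange identity -/

lemma lag_apply (E T : ℕ → ℍ → ℂ) (w : ℍ → ℂ) (ν : ℕ) (τ : ℍ) :
    lag E T w ν τ = lag (fun j => E j τ) (fun m => T m τ) (w τ) ν :=
  map_lag (Pi.evalRingHom (fun _ : ℍ => ℂ) τ) E T w ν

lemma monH_apply (e : ℕ → ℍ → ℂ) (A B : ℍ → ℂ) (μ : ℕ) (τ : ℍ) :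
    monH e A B μ τ = monH (fun j => e j τ) (A τ) (B τ) μ :=
  map_monH (Pi.evalRingHom (fun _ : ℍ => ℂ) τ) e A B μ

/-- every member of the family is a root of the monic polynomial with level-one coefficients -/
lemma monic_relation (F : TFam Q k) (q0 : Q) :
    monH (fun j => (F.esymm j : ℍ → ℂ)) (F.u q0) 1 (Fintype.card Q) = 0 := by
  ext τ
  rw [monH_apply]
  have h := mon_rel (fun q => F.u q τ) q0
  have hE : (fun j => (F.esymm j : ℍ → ℂ) τ) = es (fun q => F.u q τ) := by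
    ext j; rw [esymm_apply]; rfl
  rw [hE]
  exact h

/-- Lagrange interpolation: `f · ∏_{q ≠ q₀} (w - w_q) = ∑ c_m · Tr(f w^m)` -/
lemma lagrange (W : TFam Q l) (F : TFam Q k) (q0 : Q) (ν : ℕ) (hν : ν + 1 = Fintype.card Q) :
    F.u q0 * lag (fun j => (W.esymm j : ℍ → ℂ)) (fun m => W.u q0 ^ m) (W.u q0) ν
      = lag (fun j => (W.esymm j : ℍ → ℂ))
          (fun m => ((F.mul (W.pow m)).trace : ℍ → ℂ)) (W.u q0) ν := by
  ext τ
  rw [Pi.mul_apply, lag_apply, lag_apply]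
  have h := lag_eq (fun q => W.u q τ) (fun q => F.u q τ) q0 ν hν
  have hE : (fun j => (W.esymm j : ℍ → ℂ) τ) = es (fun q => W.u q τ) := by
    ext j; rw [esymm_apply]; rfl
  have hT : (fun m => ((F.mul (W.pow m)).trace : ℍ → ℂ) τ)
      = fun m => ∑ q, F.u q τ * W.u q τ ^ m := by
    ext m; rw [trace_apply]; rfl
  rw [hE, hT, h]
  rfl

lemma lagB_apply [DecidableEq Q] (W : TFam Q l) (q0 : Q) (ν : ℕ) (hν : ν + 1 = Fintype.card Q) (τ : ℍ) :
    lag (fun j => (W.esymm j : ℍ → ℂ)) (fun m => W.u q0 ^ m) (W.u q0) ν τ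
      = ∏ q ∈ Finset.univ.erase q0, (W.u q0 τ - W.u q τ) := by
  rw [lag_apply]
  have h := lagB_eq (fun q => W.u q τ) q0 ν hν
  have hE : (fun j => (W.esymm j : ℍ → ℂ) τ) = es (fun q => W.u q τ) := by
    ext j; rw [esymm_apply]; rfl
  rw [hE, ← h]
  rfl

end TFam

/-! ### The family of translates of a `Γ`-invariant function -/

section transl

variable (Γ : Subgroup SL(2, ℤ)) (k : ℤ)

/-- the translate `f ∣[k] r⁻¹` attached to the coset `r Γ` -/
noncomputable def transl (f : ℍ → ℂ) (hf : SInv Γ k f) (q : SL(2, ℤ) ⧸ Γ) : ℍ → ℂ :=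
  Quotient.liftOn' q (fun r => f ∣[k] r⁻¹) (fun a b hab => by
    rw [QuotientGroup.leftRel_apply] at hab
    have h1 : b⁻¹ = (a⁻¹ * b)⁻¹ * a⁻¹ := by group
    show f ∣[k] a⁻¹ = f ∣[k] b⁻¹
    rw [h1, SlashAction.slash_mul, hf _ (inv_mem hab)])

lemma transl_mk (f : ℍ → ℂ) (hf : SInv Γ k f) (r : SL(2, ℤ)) :
    transl Γ k f hf (r : SL(2, ℤ) ⧸ Γ) = f ∣[k] r⁻¹ := rfl

lemma transl_one (f : ℍ → ℂ) (hf : SInv Γ k f) :
    transl Γ k f hf ((1 : SL(2, ℤ)) : SL(2, ℤ) ⧸ Γ) = f := by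
  rw [transl_mk, inv_one, SlashAction.slash_one]

/-- the family of translates of a holomorphic `Γ`-invariant function that is bounded at all
cusps -/
noncomputable def TFam.ofFun (f : ℍ → ℂ) (hf : SInv Γ k f) (hol : MDiff f)
    (bdd : ∀ γ : SL(2, ℤ), IsBoundedAtImInfty (f ∣[k] γ)) : TFam (SL(2, ℤ) ⧸ Γ) k where
  u := transl Γ k f hf
  hol q := by
    induction q using QuotientGroup.induction_on with
    | H r => exact hol.slash k _
  bdd q := by
    induction q using QuotientGroup.induction_on with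
    | H r => exact bdd r⁻¹
  slash γ q := by
    induction q using QuotientGroup.induction_on with
    | H r =>
      rw [transl_mk, ← SlashAction.slash_mul]
      show _ = transl Γ k f hf ((γ⁻¹ * r : SL(2, ℤ)) : SL(2, ℤ) ⧸ Γ)
      rw [transl_mk]
      congr 1
      group

@[simp] lemma TFam.ofFun_u (f : ℍ → ℂ) (hf : SInv Γ k f) (hol : MDiff f)
    (bdd : ∀ γ : SL(2, ℤ), IsBoundedAtImInfty (f ∣[k] γ)) (q : SL(2, ℤ) ⧸ Γ) :
    (TFam.ofFun Γ k f hf hol bdd).u q = transl Γ k f hf q := rfl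

end transl

end Fermat.Agent.S23.helper127
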