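/-
S23 helper (helper127): the analytic converse ("Lemma H").

If `A`, `B` are holomorphic on `ℍ`, `B ≠ 0`, and `A/B` satisfies a monic polynomial relation whose
coefficients are holomorphic, then `A/B` extends to a holomorphic function `g` with `g * B = A`
(removable singularities via a Cauchy root bound).  If moreover `A`, `B` are slash-invariant under
`Γ ≤ SL(2,ℤ)` of weights `k + m`, `m` and the coefficients are level-one of weights `k * j` and
vanish at `i∞`, then `g` is `Γ`-invariant of weight `k` and vanishes at all cusps.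
-/
import Mathlib
import Fermat.Agent.S23.helper127_Sym

set_option autoImplicit false

open UpperHalfPlane ModularForm CongruenceSubgroup Filter Finset
open scoped MatrixGroups Manifold Topology

namespace Fermat.Agent.S23.helper127

lemma geom_half (n : ℕ) : ∑ j ∈ range n, (1 / 2 : ℝ) ^ (j + 1) = 1 - (1 / 2) ^ n := by
  induction n with
  | zero => simp
  | succ n ih => rw [Finset.sum_range_succ, ih]; ring

/-- Cauchy-type root bound. -/
lemma root_bound (μ : ℕ) (c : ℕ → ℂ) (x : ℂ) (R : ℝ) (hR : 0 < R)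
    (hrel : x ^ μ + ∑ j ∈ range μ, c j * x ^ (μ - 1 - j) = 0)
    (hc : ∀ j < μ, ‖c j‖ ≤ (R / 2) ^ (j + 1)) : ‖x‖ ≤ R := by
  by_contra hlt
  rw [not_le] at hlt
  have ht : 0 < ‖x‖ := hR.trans hlt
  have hx : x ^ μ = -∑ j ∈ range μ, c j * x ^ (μ - 1 - j) := eq_neg_of_add_eq_zero_left hrel
  have h1 : ‖x‖ ^ μ ≤ ∑ j ∈ range μ, (‖x‖ / 2) ^ (j + 1) * ‖x‖ ^ (μ - 1 - j) := by
    calc ‖x‖ ^ μ = ‖x ^ μ‖ := (norm_pow _ _).symm
      _ = ‖∑ j ∈ range μ, c j * x ^ (μ - 1 - j)‖ := by rw [hx, norm_neg]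
      _ ≤ ∑ j ∈ range μ, ‖c j * x ^ (μ - 1 - j)‖ := norm_sum_le _ _
      _ ≤ ∑ j ∈ range μ, (‖x‖ / 2) ^ (j + 1) * ‖x‖ ^ (μ - 1 - j) := by
        refine Finset.sum_le_sum fun j hj => ?_
        rw [norm_mul, norm_pow]
        have h2 : ‖c j‖ ≤ (‖x‖ / 2) ^ (j + 1) :=
          (hc j (mem_range.mp hj)).trans
            (pow_le_pow_left₀ (by positivity) (by linarith) _)
        exact mul_le_mul_of_nonneg_right h2 (by positivity)
  have h2 : ∀ j ∈ range μ, (‖x‖ / 2) ^ (j + 1) * ‖x‖ ^ (μ - 1 - j)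
      = ‖x‖ ^ μ * (1 / 2) ^ (j + 1) := by
    intro j hj
    have hμ : μ = (j + 1) + (μ - 1 - j) := by have := mem_range.mp hj; omega
    conv_rhs => rw [hμ, pow_add]
    rw [div_pow, one_div, inv_pow]
    field_simp
  rw [Finset.sum_congr rfl h2, ← Finset.mul_sum, geom_half] at h1
  have h3 : 0 < ‖x‖ ^ μ * (1 / 2 : ℝ) ^ μ := by positivity
  nlinarith

/-- root bound in `monH` form -/
lemma root_bound_monH (e : ℕ → ℂ) (he0 : e 0 = 1) (x : ℂ) (μ : ℕ) (h : monH e x 1 μ = 0)
    (R : ℝ) (hR : 0 < R) (hc : ∀ j, 1 ≤ j → j ≤ μ → ‖e j‖ ≤ (R / 2) ^ j) : ‖x‖ ≤ R := by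
  refine root_bound μ (fun j => (-1) ^ (j + 1) * e (j + 1)) x R hR ?_ ?_
  · rw [monH, Finset.sum_range_succ'] at h
    simp only [he0, pow_zero, one_pow, mul_one, one_mul, Nat.sub_zero] at h
    rw [add_comm]
    convert h using 2
    refine Finset.sum_congr rfl fun j _ => ?_
    rw [Nat.sub_sub, add_comm 1 j]
    ring
  · intro j hj
    rw [norm_mul, norm_pow, norm_neg, norm_one, one_pow, one_mul]
    exact hc (j + 1) (by omega) (by omega)

/-- if `x * b = a`, `b ≠ 0` and the homogenised relation holds, then `x` is a root -/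
lemma monH_div (e : ℕ → ℂ) (a b x : ℂ) (μ : ℕ) (hb : b ≠ 0) (hx : x * b = a)
    (h : monH e a b μ = 0) : monH e x 1 μ = 0 := by
  rw [monH_of_mul_eq e x a b μ hx] at h
  exact (mul_eq_zero.mp h).resolve_left (pow_ne_zero _ hb)

/-- Holomorphic functions on `ℍ` form a domain (in the form we need). -/
lemma eq_zero_of_ne_zero_imp {G B : ℍ → ℂ} (hG : MDiff G) (hB : MDiff B) (hB0 : B ≠ 0)
    (h : ∀ τ, B τ ≠ 0 → G τ = 0) : G = 0 := by
  obtain ⟨τ1, hτ1⟩ : ∃ τ, B τ ≠ 0 := by
    by_contra hcon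
    rw [not_exists] at hcon
    exact hB0 (funext fun τ => not_not.mp (hcon τ))
  have hBc : Continuous B := hB.continuous
  have hev : ∀ᶠ τ in 𝓝 τ1, G τ = 0 := by
    filter_upwards [hBc.continuousAt.eventually_ne hτ1] with τ hτ using h τ hτ
  rw [mdifferentiable_iff] at hG
  have han := hG.analyticOnNhd isOpen_upperHalfPlaneSet
  ext w
  have key := han.eqOn_zero_of_preconnected_of_eventuallyEq_zero (z₀ := ↑τ1)
    (Complex.isConnected_of_upperHalfPlane subset_rfl (by grind)).isPreconnected τ1.2 (by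
      rw [← isOpenEmbedding_coe.map_nhds_eq, Filter.EventuallyEq, eventually_map]
      filter_upwards [hev] with a ha
      simpa [ofComplex_apply] using ha) w.im_pos
  simpa [ofComplex_apply] using key

/-- **Removable singularities**: a quotient of holomorphic functions on `ℍ` that satisfies a monic
relation with holomorphic coefficients is holomorphic. -/
theorem exists_quotient (A B : ℍ → ℂ) (hA : MDiff A) (hB : MDiff B) (hB0 : B ≠ 0)
    (μ : ℕ) (e : ℕ → ℍ → ℂ) (he0 : e 0 = 1) (he : ∀ j, MDiff (e j)) (hrel : monH e A B μ = 0) :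
    ∃ g : ℍ → ℂ, MDiff g ∧ g * B = A := by
  classical
  have hrelτ : ∀ τ : ℍ, monH (fun j => e j τ) (A τ) (B τ) μ = 0 := fun τ => by
    rw [← TFam.monH_apply, hrel]; rfl
  set A₀ : ℂ → ℂ := A ∘ ofComplex with hA₀def
  set B₀ : ℂ → ℂ := B ∘ ofComplex with hB₀def
  have hA₀ : DifferentiableOn ℂ A₀ {z | 0 < z.im} := mdifferentiable_iff.mp hA
  have hB₀ : DifferentiableOn ℂ B₀ {z | 0 < z.im} := mdifferentiable_iff.mp hB
  have he₀ : ∀ j, DifferentiableOn ℂ (e j ∘ ofComplex) {z | 0 < z.im} :=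
    fun j => mdifferentiable_iff.mp (he j)
  set h : ℂ → ℂ := fun z => A₀ z / B₀ z with hdef
  set g₀ : ℂ → ℂ := fun z => if B₀ z = 0 then limUnder (𝓝[≠] z) h else h z with hg₀def
  have hU : ∀ z : ℂ, 0 < z.im → {z : ℂ | 0 < z.im} ∈ 𝓝 z :=
    fun z hz => isOpen_upperHalfPlaneSet.mem_nhds hz
  -- differentiability of `g₀` on the upper half plane
  have hg₀ : ∀ z0 : ℂ, 0 < z0.im → DifferentiableAt ℂ g₀ z0 := by
    intro z0 hz0
    have hAd : DifferentiableAt ℂ A₀ z0 := (hA₀ z0 hz0).differentiableAt (hU z0 hz0)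
    have hBd : DifferentiableAt ℂ B₀ z0 := (hB₀ z0 hz0).differentiableAt (hU z0 hz0)
    by_cases hBz : B₀ z0 = 0
    · -- an isolated zero of `B₀`
      have hiso : ∀ᶠ z in 𝓝[≠] z0, B₀ z ≠ 0 := by
        have han := hB₀.analyticOnNhd isOpen_upperHalfPlaneSet
        by_contra hcon
        rw [not_eventually] at hcon
        have hfreq : ∃ᶠ z in 𝓝[≠] z0, B₀ z = 0 := hcon.mono fun z hz => not_not.mp hz
        have hz := han.eqOn_zero_of_preconnected_of_frequently_eq_zero
          (Complex.isConnected_of_upperHalfPlane subset_rfl (by grind)).isPreconnected hz0 hfreq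
        apply hB0
        ext w
        have := hz w.im_pos
        simpa [hB₀def, ofComplex_apply] using this
      -- local bound for the coefficients
      set M : ℝ := 1 + ∑ j ∈ range (μ + 1), ‖e j (ofComplex z0)‖ with hMdef
      have hM1 : 1 ≤ M := by
        have : 0 ≤ ∑ j ∈ range (μ + 1), ‖e j (ofComplex z0)‖ :=
          Finset.sum_nonneg fun j _ => norm_nonneg _
        linarith
      have hbd : ∀ᶠ z in 𝓝 z0, ∀ j ∈ range (μ + 1), ‖e j (ofComplex z)‖ ≤ M := by
        rw [Filter.eventually_all_finset]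
        intro j hj
        have hc : ContinuousAt (fun z => ‖(e j ∘ ofComplex) z‖) z0 :=
          ((he₀ j z0 hz0).differentiableAt (hU z0 hz0)).continuousAt.norm
        have hlt : ‖(e j ∘ ofComplex) z0‖ < M := by
          have : ‖e j (ofComplex z0)‖ ≤ ∑ j ∈ range (μ + 1), ‖e j (ofComplex z0)‖ :=
            Finset.single_le_sum (f := fun j => ‖e j (ofComplex z0)‖)
              (fun j _ => norm_nonneg _) hj
          simp only [Function.comp_apply]
          linarith
        filter_upwards [hc.eventually_lt continuousAt_const hlt] with z hz using hz.le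
      rw [eventually_nhdsWithin_iff] at hiso
      set s : Set ℂ := {z | 0 < z.im ∧ (z ∈ ({z0}ᶜ : Set ℂ) → B₀ z ≠ 0) ∧
        ∀ j ∈ range (μ + 1), ‖e j (ofComplex z)‖ ≤ M} with hsdef
      have hs : s ∈ 𝓝 z0 := by
        filter_upwards [hU z0 hz0, hiso, hbd] with z h1 h2 h3 using ⟨h1, h2, h3⟩
      have hd : DifferentiableOn ℂ h (s \ {z0}) := by
        intro z hz
        have hzU : 0 < z.im := hz.1.1
        have hne : B₀ z ≠ 0 := hz.1.2.1 hz.2
        exact (((hA₀ z hzU).differentiableAt (hU z hzU)).div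
          ((hB₀ z hzU).differentiableAt (hU z hzU)) hne).differentiableWithinAt
      have hb : BddAbove (norm ∘ h '' (s \ {z0})) := by
        refine ⟨2 * M, ?_⟩
        rintro _ ⟨z, hz, rfl⟩
        have hzU : 0 < z.im := hz.1.1
        have hne : B₀ z ≠ 0 := hz.1.2.1 hz.2
        have hx : h z * B (ofComplex z) = A (ofComplex z) := div_mul_cancel₀ _ hne
        have hroot := monH_div (fun j => e j (ofComplex z)) _ _ (h z) μ hne hx
          (hrelτ (ofComplex z))
        refine root_bound_monH (fun j => e j (ofComplex z)) (by simp [he0]) (h z) μ hroot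
          (2 * M) (by linarith) ?_
        intro j hj1 hjμ
        have h1 : ‖e j (ofComplex z)‖ ≤ M := hz.1.2.2 j (mem_range.mpr (by omega))
        have h2 : M ≤ M ^ j := le_self_pow₀ hM1 (by omega)
        have h3 : (2 * M / 2) ^ j = M ^ j := by congr 1; ring
        rw [h3]
        exact h1.trans h2
      have key := Complex.differentiableOn_update_limUnder_of_bddAbove hs hd hb
      have hcongr : g₀ =ᶠ[𝓝 z0] Function.update h z0 (limUnder (𝓝[≠] z0) h) := by
        filter_upwards [hs] with z hz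
        by_cases hzz : z = z0
        · subst hzz
          simp [hg₀def, hBz]
        · have hne : B₀ z ≠ 0 := hz.2.1 hzz
          simp [hg₀def, hne, Function.update_of_ne hzz]
      exact ((key z0 (mem_of_mem_nhds hs)).differentiableAt hs).congr_of_eventuallyEq hcongr
    · have hcongr : g₀ =ᶠ[𝓝 z0] h := by
        filter_upwards [hBd.continuousAt.eventually_ne hBz] with z hz
        simp [hg₀def, hz]
      exact (hAd.div hBd hBz).congr_of_eventuallyEq hcongr
  refine ⟨fun τ => g₀ τ, ?_, ?_⟩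
  · rw [mdifferentiable_iff]
    have hdo : DifferentiableOn ℂ g₀ {z | 0 < z.im} :=
      fun z hz => (hg₀ z hz).differentiableWithinAt
    refine hdo.congr fun z hz => ?_
    simp [Function.comp_apply, ofComplex_apply_of_im_pos hz]
  · ext τ
    simp only [Pi.mul_apply]
    by_cases hBτ : B τ = 0
    · have h0 := hrelτ τ
      rw [monH, Finset.sum_range_succ'] at h0
      have hA0 : A τ ^ μ = 0 := by
        have hz : ∑ j ∈ range μ, (-1 : ℂ) ^ (j + 1) * (e (j + 1) τ * B τ ^ (j + 1) * A τ ^ (μ - (j + 1)))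
            = 0 := Finset.sum_eq_zero fun j _ => by rw [hBτ]; ring
        rw [hz] at h0
        simpa [he0] using h0
      have hμ : μ ≠ 0 := by
        rintro rfl
        simp at hA0
      rw [hBτ, mul_zero, (pow_eq_zero_iff hμ).mp hA0]
    · have hB₀τ : B₀ (τ : ℂ) ≠ 0 := by simpa [hB₀def, ofComplex_apply] using hBτ
      have : g₀ (τ : ℂ) = A τ / B τ := by
        show (if B₀ (τ : ℂ) = 0 then _ else h (τ : ℂ)) = _
        rw [if_neg hB₀τ]
        simp [hdef, hA₀def, hB₀def, ofComplex_apply]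
      rw [this, div_mul_cancel₀ _ hBτ]

lemma mdiff_monH (e : ℕ → ℍ → ℂ) (A B : ℍ → ℂ) (μ : ℕ) (he : ∀ j, MDiff (e j)) (hA : MDiff A)
    (hB : MDiff B) : MDiff (monH e A B μ) := by
  unfold monH
  refine mdiff_sum _ _ fun j _ => ?_
  have h1 : MDiff ((-1 : ℍ → ℂ) ^ j) :=
    mdiff_pow (mdifferentiable_const : MDiff (fun _ : ℍ => (-1 : ℂ))) j
  exact h1.mul (((he j).mul (mdiff_pow hB j)).mul (mdiff_pow hA (μ - j)))

/-- the monic relation is preserved by slashing the root (the coefficients being level one) -/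
lemma monH_slash (k : ℤ) (e : ℕ → ℍ → ℂ) (he_inv : ∀ j : ℕ, SInv ⊤ (k * (j : ℤ)) (e j)) (g : ℍ → ℂ)
    (μ : ℕ) (hrel : monH e g 1 μ = 0) (δ : SL(2, ℤ)) : monH e (g ∣[k] δ) 1 μ = 0 := by
  ext τ
  have h0 : monH (fun j => e j (δ • τ)) (g (δ • τ)) 1 μ = 0 := by
    have := TFam.monH_apply e g 1 μ (δ • τ)
    rw [hrel] at this
    simpa using this.symm
  rw [TFam.monH_apply]
  simp only [Pi.one_apply, Pi.zero_apply]
  have hd : denom δ τ ≠ 0 := denom_ne_zero δ τ
  have key : monH (fun j => e j τ) ((g ∣[k] δ) τ) 1 μ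
      = denom δ τ ^ (-(k * μ)) * monH (fun j => e j (δ • τ)) (g (δ • τ)) 1 μ := by
    unfold monH
    rw [Finset.mul_sum]
    refine Finset.sum_congr rfl fun j hj => ?_
    have hj' : j ≤ μ := Nat.lt_succ_iff.mp (Finset.mem_range.mp hj)
    have he : e j τ = e j (δ • τ) * denom δ τ ^ (-(k * j)) := by
      have := congrFun (he_inv j δ (Subgroup.mem_top δ)) τ
      rw [SL_slash_apply] at this
      exact this.symm
    have hpow : (denom δ τ ^ (-k)) ^ (μ - j) = denom δ τ ^ (-(k * ((μ - j : ℕ) : ℤ))) := by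
      rw [← zpow_natCast, ← zpow_mul]
      congr 1
      ring
    have hexp : denom δ τ ^ (-(k * μ))
        = denom δ τ ^ (-(k * j)) * denom δ τ ^ (-(k * ((μ - j : ℕ) : ℤ))) := by
      rw [← zpow_add₀ hd]
      congr 1
      rw [Nat.cast_sub hj']
      ring
    beta_reduce
    rw [SL_slash_apply, he, mul_pow, hpow, hexp]
    ring
  rw [key, h0, mul_zero]

/-- **Lemma H** (analytic converse), function level. -/
theorem lemmaH (Γ : Subgroup SL(2, ℤ)) (k m : ℤ) (A B : ℍ → ℂ) (hA : MDiff A) (hB : MDiff B)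
    (hAΓ : SInv Γ (k + m) A) (hBΓ : SInv Γ m B) (hB0 : B ≠ 0)
    (μ : ℕ) (e : ℕ → ℍ → ℂ) (he0 : e 0 = 1) (he : ∀ j, MDiff (e j))
    (he_inv : ∀ j : ℕ, SInv ⊤ (k * (j : ℤ)) (e j))
    (he_zero : ∀ j, 1 ≤ j → j ≤ μ → IsZeroAtImInfty (e j))
    (hrel : monH e A B μ = 0) :
    ∃ g : ℍ → ℂ, MDiff g ∧ SInv Γ k g ∧ (∀ δ : SL(2, ℤ), IsZeroAtImInfty (g ∣[k] δ)) ∧
      g * B = A := by
  obtain ⟨g, hg, hgB⟩ := exists_quotient A B hA hB hB0 μ e he0 he hrel
  have hrelτ : ∀ τ : ℍ, monH (fun j => e j τ) (A τ) (B τ) μ = 0 := fun τ => by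
    rw [← TFam.monH_apply, hrel]; rfl
  -- the monic relation for `g`
  have hmon : monH e g 1 μ = 0 := by
    refine eq_zero_of_ne_zero_imp (mdiff_monH e g 1 μ he hg mdiff_one) hB hB0 fun τ hτ => ?_
    rw [TFam.monH_apply]
    simp only [Pi.one_apply]
    exact monH_div _ (A τ) (B τ) (g τ) μ hτ (congrFun hgB τ) (hrelτ τ)
  refine ⟨g, hg, ?_, ?_, hgB⟩
  · -- invariance
    intro γ hγ
    have hsub : g ∣[k] γ - g = 0 := by
      refine eq_zero_of_ne_zero_imp ((hg.slash k _).sub hg) hB hB0 fun τ hτ => ?_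
      have h1 : (g ∣[k] γ) * B = g * B := by
        calc (g ∣[k] γ) * B = (g ∣[k] γ) * (B ∣[m] γ) := by rw [hBΓ γ hγ]
          _ = (g * B) ∣[k + m] γ := (mul_slash_SL2 k m γ g B).symm
          _ = g * B := by rw [hgB, hAΓ γ hγ]
      have h2 := congrFun h1 τ
      simp only [Pi.mul_apply] at h2
      have h3 := mul_right_cancel₀ hτ h2
      simp [h3]
    exact sub_eq_zero.mp hsub
  · -- vanishing at all cusps
    intro δ
    have hmonδ := monH_slash k e he_inv g μ hmon δ
    have hmonτ : ∀ τ : ℍ, monH (fun j => e j τ) ((g ∣[k] δ) τ) 1 μ = 0 := fun τ => by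
      have := TFam.monH_apply e (g ∣[k] δ) 1 μ τ
      rw [hmonδ] at this
      simpa using this.symm
    show Tendsto (g ∣[k] δ) atImInfty (𝓝 0)
    rw [Metric.tendsto_nhds]
    intro ε hε
    have hev : ∀ᶠ τ in atImInfty, ∀ j ∈ Finset.Icc 1 μ, ‖e j τ‖ ≤ (ε / 2 / 2) ^ j := by
      rw [Filter.eventually_all_finset]
      intro j hj
      have hj' := Finset.mem_Icc.mp hj
      have hz : Tendsto (e j) atImInfty (𝓝 0) := he_zero j hj'.1 hj'.2
      have hpos : (0 : ℝ) < (ε / 2 / 2) ^ j := by positivity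
      filter_upwards [(Metric.tendsto_nhds.mp hz) _ hpos] with τ hτ
      rw [dist_zero_right] at hτ
      exact hτ.le
    filter_upwards [hev] with τ hτ
    rw [dist_zero_right]
    have := root_bound_monH (fun j => e j τ) (by simp [he0]) ((g ∣[k] δ) τ) μ (hmonτ τ)
      (ε / 2) (by positivity) (fun j h1 h2 => hτ j (Finset.mem_Icc.mpr ⟨h1, h2⟩))
    linarith

/-- **Lemma H** for `Γ₀(N)`, producing a cusp form. -/
theorem lemmaH_Gamma0 (N : ℕ) [NeZero N] (k m : ℤ) (A B : ℍ → ℂ) (hA : MDiff A) (hB : MDiff B)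
    (hAΓ : SInv (Gamma0 N) (k + m) A) (hBΓ : SInv (Gamma0 N) m B) (hB0 : B ≠ 0)
    (μ : ℕ) (e : ℕ → ℍ → ℂ) (he0 : e 0 = 1) (he : ∀ j, MDiff (e j))
    (he_inv : ∀ j : ℕ, SInv ⊤ (k * (j : ℤ)) (e j))
    (he_zero : ∀ j, 1 ≤ j → j ≤ μ → IsZeroAtImInfty (e j))
    (hrel : monH e A B μ = 0) :
    ∃ g : CuspForm (Gamma0 N) k, (g : ℍ → ℂ) * B = A := by
  obtain ⟨g, hg, hinv, hzero, hgB⟩ :=
    lemmaH (Gamma0 N) k m A B hA hB hAΓ hBΓ hB0 μ e he0 he he_inv he_zero hrel
  exact ⟨mkCuspGamma0 N k g hg hinv hzero, hgB⟩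

end Fermat.Agent.S23.helper127
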