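/-
helper143 — adapter: package (P) (`helper143_PrimElt`) in the shape of the captain's
blueprint node `helper23.Stmt_Prim`.
-/
import Fermat.Agent.S23.helper143_PrimElt
import Fermat.Agent.S23.helper23_Spec
import Fermat.Agent.S23.helper83_LevelOne

set_option autoImplicit false

open UpperHalfPlane ModularForm CongruenceSubgroup Matrix MatrixGroups

namespace Fermat.Agent.S23.helper143

/-- Integer `q`-coefficients of the primitive element, coefficientwise form. -/
theorem qExpansion_wN_coeff_int (N : ℕ) [NeZero N] (n : ℕ) :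
    ∃ m : ℤ, (qExpansion 1 (wN N)).coeff n = (m : ℂ) := by
  obtain ⟨p, hp⟩ := qExpansion_wN_int N
  exact ⟨p.coeff n, by rw [hp, PowerSeries.coeff_map]; rfl⟩

/-- Stabiliser of the primitive element, `SL(2,ℤ)`-slash form. -/
theorem mem_Gamma0_of_wN_slash_eq (N : ℕ) [NeZero N] (γ : SL(2, ℤ))
    (h : (⇑(wN N) : ℍ → ℂ) ∣[(4 : ℤ)] γ = ⇑(wN N)) : γ ∈ Gamma0 N :=
  mem_Gamma0_of_wFun_slash_eq N γ h

/-- The captain's blueprint node (P). -/
theorem stmt_Prim (N : ℕ) [NeZero N] : helper23.Stmt_Prim N :=
  ⟨4, wN N, qExpansion_wN_coeff_int N, mem_Gamma0_of_wN_slash_eq N⟩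

/-- Integer `q`-expansion of the primitive element, in `helper83.intPS` form (CONJ shape (P.b)). -/
theorem qExpansion_wN_mem_intPS (N : ℕ) [NeZero N] :
    qExpansion 1 (wN N) ∈ helper83.intPS :=
  (helper83.mem_intPS_iff _).mpr (qExpansion_wN_coeff_int N)

/-- Injectivity of the translates in the exact shape `hw` of `helper563.hankel_rep_uniform`. -/
theorem quotientFunc_wN_injective' (N : ℕ) [NeZero N] :
    Function.Injective (fun q : helper23.Cosets N ↦
      SlashInvariantForm.quotientFunc (wN N) q) :=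
  quotientFunc_wN_injective N

/-- Non-trivial translates of the primitive element differ from it (CONJ shape (P.e)). -/
theorem quotientFunc_wN_ne (N : ℕ) [NeZero N] (q : helper23.Cosets N)
    (hq : q ≠ ⟦1⟧) : SlashInvariantForm.quotientFunc (wN N) q ≠ ⇑(wN N) := by
  intro h
  apply hq
  apply quotientFunc_wN_injective N
  rw [h, SlashInvariantForm.quotientFunc_mk]
  simp

end Fermat.Agent.S23.helper143
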