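/-
S23, piece (P.b): the separating form `sepForm N = E₄ ∣[4] diag(N,1)` (`z ↦ N³ E₄(N z)`) of
`Fermat.Agent.S20.helper200` has an integral `q`-expansion.  Together with the stabiliser
statement already proved there, this gives the primitive-element package (P).
-/
import Mathlib
import Fermat.Prelude.Thm_CongruenceSubgroup_one_mem_strictPeriods_Gamma0
import Fermat.Agent.S20.helper200_Separation
import Fermat.Agent.S23.helper83_LevelOne
import Fermat.Agent.S23.helper23_Spec

set_option autoImplicit false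

namespace Fermat.Agent.S23.helper1763

open UpperHalfPlane ModularForm ModularFormClass EisensteinSeries Filter Topology Function
open scoped MatrixGroups Manifold

open Fermat.Agent.S20.helper200 in
/-- `diag(N,1) • z = N z`. -/
lemma coe_alpha_smul (N : ℕ) [NeZero N] (z : ℍ) :
    ((alpha N • z : ℍ) : ℂ) = (N : ℂ) * (z : ℂ) := by
  have hN : (0 : ℝ) < N := by exact_mod_cast Nat.pos_of_ne_zero (NeZero.ne N)
  have hdet : 0 < (alpha N).det.val := by
    rw [alpha, ut_det]; simpa using hN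
  rw [UpperHalfPlane.coe_smul_of_det_pos hdet]
  simp [UpperHalfPlane.num, UpperHalfPlane.denom, alpha, ut_val]

open Fermat.Agent.S20.helper200 in
/-- `sepFun N z = N³ · E₄ (N z)`. -/
lemma sepFun_apply (N : ℕ) [NeZero N] (z : ℍ) :
    sepFun N z = (N : ℂ) ^ 3 * E₄ (alpha N • z) := by
  have hN : (0 : ℝ) < N := by exact_mod_cast Nat.pos_of_ne_zero (NeZero.ne N)
  have h := slash_ut (⇑E₄) 4 N 0 1 hN one_pos z
  rw [sepFun, alpha, h]
  have h3 : (((N : ℝ) * 1 : ℝ) : ℂ) ^ ((4 : ℤ) - 1) = (N : ℂ) ^ 3 := by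
    rw [show ((4 : ℤ) - 1) = ((3 : ℕ) : ℤ) by norm_num, zpow_natCast]
    push_cast; ring
  rw [h3]
  simp [mul_comm]

/-- `q(N z) = q(z)^N`. -/
lemma qParam_nat_mul (N : ℕ) (z : ℂ) :
    Periodic.qParam 1 ((N : ℂ) * z) = Periodic.qParam 1 z ^ N := by
  simp only [Periodic.qParam]
  rw [← Complex.exp_nat_mul]
  congr 1
  push_cast
  ring

open Fermat.Agent.S20.helper200 in
/-- The `q`-expansion of `sepFun N`, as a convergent sum. -/
lemma hasSum_sepFun (N : ℕ) [NeZero N] (z : ℍ) :
    HasSum (fun n : ℕ ↦ (if N ∣ n then (N : ℂ) ^ 3 * (qExpansion 1 E₄).coeff (n / N) else 0) •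
        Periodic.qParam 1 z ^ n) (sepFun N z) := by
  have hN0 : N ≠ 0 := NeZero.ne N
  have hD := (ModularForm.hasSum_qExpansion (f := E₄) one_pos one_mem_strictPeriods_SL
    (alpha N • z)).mul_left ((N : ℂ) ^ 3)
  rw [coe_alpha_smul, qParam_nat_mul, ← sepFun_apply] at hD
  have hinj : Function.Injective (fun l : ℕ ↦ l * N) := mul_left_injective₀ hN0
  refine (hinj.hasSum_iff (fun m hm => ?_)).mp ?_
  · have : ¬ N ∣ m := by
      rintro ⟨l, rfl⟩
      exact hm ⟨l, by simp [mul_comm]⟩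
    simp [this]
  · have hfun : ((fun n : ℕ ↦
          (if N ∣ n then (N : ℂ) ^ 3 * (qExpansion 1 E₄).coeff (n / N) else 0) •
            Periodic.qParam 1 z ^ n) ∘ fun l : ℕ ↦ l * N)
        = fun i : ℕ => (N : ℂ) ^ 3 *
            ((qExpansion 1 E₄).coeff i * (Periodic.qParam 1 (z : ℂ) ^ N) ^ i) := by
      funext l
      simp only [comp_apply, if_pos (dvd_mul_left N l),
        Nat.mul_div_cancel _ (Nat.pos_of_ne_zero hN0), smul_eq_mul]
      rw [← pow_mul, mul_comm l N, mul_assoc]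
    rw [hfun]
    exact hD

open Fermat.Agent.S20.helper200 in
/-- Coefficient formula for the `q`-expansion of `sepForm N`. -/
theorem qExpansion_sepForm_coeff (N : ℕ) [NeZero N] (n : ℕ) :
    (qExpansion 1 (sepForm N)).coeff n
      = if N ∣ n then (N : ℂ) ^ 3 * (qExpansion 1 E₄).coeff (n / N) else 0 :=
  (ModularFormClass.qExpansion_coeff_unique (f := sepForm N) one_pos
    (CongruenceSubgroup.one_mem_strictPeriods_Gamma0 N) (fun τ => hasSum_sepFun N τ) n).symm

open Fermat.Agent.S20.helper200 in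
/-- (P.b) The `q`-expansion of `sepForm N` has integer coefficients. -/
theorem qExpansion_sepForm_int (N : ℕ) [NeZero N] (n : ℕ) :
    ∃ m : ℤ, (qExpansion 1 (sepForm N)).coeff n = (m : ℂ) := by
  rw [qExpansion_sepForm_coeff]
  split_ifs with h
  · obtain ⟨m, hm⟩ := (helper83.mem_intPS_iff _).mp helper83.E₄_mem_intForms (n / N)
    exact ⟨(N : ℤ) ^ 3 * m, by rw [hm]; push_cast; ring⟩
  · exact ⟨0, by simp⟩

open Fermat.Agent.S20.helper200 in
/-- (P.b) in `intPS` form. -/
theorem qExpansion_sepForm_mem_intPS (N : ℕ) [NeZero N] :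
    qExpansion 1 (sepForm N) ∈ helper83.intPS :=
  (helper83.mem_intPS_iff _).mpr (qExpansion_sepForm_int N)

open Fermat.Agent.S20.helper200 in
/-- (P.d) Stabiliser of `sepForm N` in `SL(2, ℤ)` (restating `helper200`). -/
theorem stabiliser_sepForm (N : ℕ) [NeZero N] (γ : SL(2, ℤ))
    (h : (⇑(sepForm N) : ℍ → ℂ) ∣[(4 : ℤ)] γ = ⇑(sepForm N)) :
    γ ∈ CongruenceSubgroup.Gamma0 N :=
  mem_Gamma0_of_sepFun_slash_eq N γ h

open Fermat.Agent.S20.helper200 in
/-- (P) in the captain's reference shape. -/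
theorem stmt_Prim (N : ℕ) [NeZero N] : helper23.Stmt_Prim N :=
  ⟨4, sepForm N, qExpansion_sepForm_int N, stabiliser_sepForm N⟩

end Fermat.Agent.S23.helper1763
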