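/-
helper1 — S23, package (CONJ): the σ-transport assembly of `Stmt_Conj` (all weights `k`),
Lagrange–Euler (derivative) variant.

With `a_q = quotientFunc w q`, `b_q = quotientFunc f q` (`q ∈ 𝒬 = 𝒮ℒ ⧸ Γ`), `P = ∏_q (X - a_q)`:
  `f * P'(w) = ∑_q b_q * (P / (X - a_q))(w)`,
and both sides are polynomials in `w` whose coefficients are level-one forms
(coefficients of `P`, traces `Tr(f w^m)`).  Conjugating the level-one data by `σ`
and applying "Lemma H" yields the conjugate cusp form.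
-/
import Mathlib
import Fermat.Prelude.Def_CuspForm_IntegralStructure
import Fermat.Prelude.Thm_CongruenceSubgroup_one_mem_strictPeriods_Gamma0

set_option autoImplicit false

namespace Fermat.Agent.S23.helper1

open UpperHalfPlane ModularForm SlashInvariantForm
open scoped MatrixGroups Manifold

/-! ## The ring of `1`-periodic holomorphic functions bounded at `i∞` and its `q`-expansion map -/

/-- `1`-periodic holomorphic functions on `ℍ` that are bounded at `i∞`. -/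
structure IsQ (F : ℍ → ℂ) : Prop where
  per : Function.Periodic (F ∘ ofComplex) (1 : ℝ)
  holo : MDiff F
  bdd : IsBoundedAtImInfty F

lemma IsQ.analyticAt {F : ℍ → ℂ} (hF : IsQ F) : AnalyticAt ℂ (cuspFunction 1 F) 0 :=
  analyticAt_cuspFunction_zero one_pos hF.per hF.holo hF.bdd

lemma IsQ.const (c : ℂ) : IsQ (fun _ : ℍ => c) where
  per := fun x => by simp
  holo := fun _ => mdifferentiableAt_const
  bdd := Filter.const_boundedAtFilter _ c

lemma IsQ.zero : IsQ (0 : ℍ → ℂ) := IsQ.const 0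

lemma IsQ.add {F G : ℍ → ℂ} (hF : IsQ F) (hG : IsQ G) : IsQ (F + G) where
  per := fun x => by
    have h1 := hF.per x
    have h2 := hG.per x
    simp only [Function.comp_apply, Pi.add_apply] at h1 h2 ⊢
    rw [h1, h2]
  holo := hF.holo.add hG.holo
  bdd := hF.bdd.add hG.bdd

lemma IsQ.mul {F G : ℍ → ℂ} (hF : IsQ F) (hG : IsQ G) : IsQ (F * G) where
  per := fun x => by
    have h1 := hF.per x
    have h2 := hG.per x
    simp only [Function.comp_apply, Pi.mul_apply] at h1 h2 ⊢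
    rw [h1, h2]
  holo := hF.holo.mul hG.holo
  bdd := hF.bdd.mul hG.bdd

/-- The subalgebra of `1`-periodic holomorphic functions on `ℍ` bounded at `i∞`. -/
def qAlg : Subalgebra ℂ (ℍ → ℂ) where
  carrier := {F | IsQ F}
  mul_mem' := fun ha hb => IsQ.mul ha hb
  add_mem' := fun ha hb => IsQ.add ha hb
  algebraMap_mem' := fun c => IsQ.const c

lemma mem_qAlg {F : ℍ → ℂ} : F ∈ qAlg ↔ IsQ F := Iff.rfl

/-- The `q`-expansion ring homomorphism on `qAlg`. -/
noncomputable def qHom : qAlg →+* PowerSeries ℂ where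
  toFun F := qExpansion 1 (F : ℍ → ℂ)
  map_one' := qExpansion_one 1
  map_mul' F G := qExpansion_mul (mem_qAlg.mp F.2).analyticAt (mem_qAlg.mp G.2).analyticAt
  map_zero' := qExpansion_zero 1
  map_add' F G := qExpansion_add (mem_qAlg.mp F.2).analyticAt (mem_qAlg.mp G.2).analyticAt

lemma qHom_apply (F : qAlg) : qHom F = qExpansion 1 (F : ℍ → ℂ) := rfl

lemma qHom_injective : Function.Injective qHom := by
  rw [injective_iff_map_eq_zero]
  intro F hF
  have h := mem_qAlg.mp F.2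
  exact Subtype.ext ((qExpansion_eq_zero_iff one_pos h.per h.holo h.bdd).mp hF)

/-! ## Pure algebra: the Lagrange–Euler identity and the transport lemma -/

section Algebra

open Polynomial Finset

variable {R : Type*} [CommRing R] {ι : Type*} [Fintype ι]

/-- The polynomial `∏ q, (X - a q)`. -/
noncomputable def charP (a : ι → R) : R[X] := ∏ q, (X - C (a q))

variable [DecidableEq ι]

/-- The polynomial `∏ r ≠ q, (X - a r)`. -/
noncomputable def charPErase (a : ι → R) (q : ι) : R[X] := ∏ r ∈ univ.erase q, (X - C (a r))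

lemma charP_eq_mul (a : ι → R) (q : ι) : charP a = (X - C (a q)) * charPErase a q := by
  unfold charP charPErase
  rw [Finset.mul_prod_erase univ (fun r => X - C (a r)) (mem_univ q)]

omit [DecidableEq ι] in
lemma charP_monic (a : ι → R) : (charP a).Monic :=
  monic_prod_of_monic _ _ fun q _ => monic_X_sub_C (a q)

omit [DecidableEq ι] in
lemma charP_natDegree [Nontrivial R] (a : ι → R) : (charP a).natDegree = Fintype.card ι := by
  unfold charP
  rw [natDegree_prod_of_monic _ _ fun q _ => monic_X_sub_C (a q)]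
  simp

lemma charP_eval_self (a : ι → R) (q : ι) : (charP a).eval (a q) = 0 := by
  rw [charP_eq_mul a q]; simp

lemma charPErase_eval_of_ne (a : ι → R) {q q₀ : ι} (h : q ≠ q₀) :
    (charPErase a q).eval (a q₀) = 0 := by
  unfold charPErase
  rw [eval_prod]
  exact Finset.prod_eq_zero (mem_erase.mpr ⟨h.symm, mem_univ q₀⟩) (by simp)

omit [DecidableEq ι] in
lemma charP_coeff (a : ι → R) {i : ℕ} (hi : i ≤ Fintype.card ι) :
    (charP a).coeff i = (-1) ^ (Fintype.card ι - i) *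
      ∑ s ∈ powersetCard (Fintype.card ι - i) (univ : Finset ι), ∏ q ∈ s, a q := by
  have h := Multiset.prod_X_sub_C_coeff ((univ : Finset ι).val.map a) (k := i) (by simpa using hi)
  simp only [Multiset.map_map, Multiset.card_map, Finset.card_val, Finset.card_univ,
    Finset.esymm_map_val] at h
  rw [← h]; rfl

/-- `E = P'(w)` written out in terms of a coefficient sequence `c` of `P`. -/
def EE (μ : ℕ) (c : ℕ → R) (w : R) : R := ∑ i ∈ range (μ + 1), (i : R) * c i * w ^ (i - 1)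

/-- `G = ∑_q b_q P_q(w)` written out in terms of a coefficient sequence `c` of `P` and the
"traces" `t m = ∑_q b_q a_q ^ m`. -/
def GG (μ : ℕ) (c t : ℕ → R) (w : R) : R :=
  ∑ n ∈ range μ, (∑ i ∈ Icc (n + 1) μ, c i * t (i - (n + 1))) * w ^ n

/-- The homogenised monic relation `G^μ + ∑_{j<μ} ε_{j+1} G^(μ-1-j) E^(j+1)`. -/
def RR (μ : ℕ) (ε : ℕ → R) (E G : R) : R :=
  G ^ μ + ∑ j ∈ range μ, ε (j + 1) * G ^ (μ - 1 - j) * E ^ (j + 1)

lemma charP_derivative_eval (a : ι → R) (q₀ : ι) :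
    (derivative (charP a)).eval (a q₀) = (charPErase a q₀).eval (a q₀) := by
  rw [charP_eq_mul a q₀, derivative_mul]
  simp

omit [DecidableEq ι] in
lemma EE_charP [Nontrivial R] (a : ι → R) (y : R) :
    EE (Fintype.card ι) (fun i => (charP a).coeff i) y = (derivative (charP a)).eval y := by
  unfold EE
  rw [derivative_apply, Polynomial.sum_over_range _ (by simp), charP_natDegree, eval_finsetSum]
  refine Finset.sum_congr rfl fun i _ => ?_
  simp only [eval_mul, eval_C, eval_pow, eval_X]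
  ring

lemma charPErase_eval [Nontrivial R] (a : ι → R) (q : ι) (y : R) :
    (charPErase a q).eval y = ∑ n ∈ range (Fintype.card ι),
      (∑ i ∈ Icc (n + 1) (Fintype.card ι), (charP a).coeff i * a q ^ (i - (n + 1))) * y ^ n := by
  have h1 : charPErase a q = charP a /ₘ (X - C (a q)) := by
    rw [charP_eq_mul a q, mul_divByMonic_cancel_left _ (monic_X_sub_C (a q))]
  have hdeg : (charPErase a q).natDegree < Fintype.card ι := by
    have hpos : 0 < Fintype.card ι := Fintype.card_pos_iff.mpr ⟨q⟩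
    rw [h1, natDegree_divByMonic _ (monic_X_sub_C (a q)), charP_natDegree, natDegree_X_sub_C]
    omega
  rw [eval_eq_sum_range' hdeg]
  refine Finset.sum_congr rfl fun n _ => ?_
  rw [h1, coeff_divByMonic_X_sub_C, charP_natDegree]
  congr 1
  exact Finset.sum_congr rfl fun i _ => mul_comm _ _

/-- **Lagrange–Euler identity**: `b_{q₀} * P'(a_{q₀}) = ∑_q b_q * (P/(X - a_q))(a_{q₀})`, with both
sides written in terms of the coefficients of `P = ∏ (X - a_q)` and the power sums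
`∑_q b_q a_q^m`. -/
theorem lagrange_euler [Nontrivial R] (a b : ι → R) (q₀ : ι) :
    b q₀ * EE (Fintype.card ι) (fun i => (charP a).coeff i) (a q₀) =
      GG (Fintype.card ι) (fun i => (charP a).coeff i) (fun m => ∑ q, b q * a q ^ m) (a q₀) := by
  rw [EE_charP, charP_derivative_eval]
  have h2 : ∑ q, b q * (charPErase a q).eval (a q₀) = b q₀ * (charPErase a q₀).eval (a q₀) := by
    refine Finset.sum_eq_single q₀ (fun q _ hq => ?_) (fun h => absurd (mem_univ q₀) h)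
    rw [charPErase_eval_of_ne a hq, mul_zero]
  rw [← h2]
  unfold GG
  simp_rw [charPErase_eval a _ (a q₀), Finset.mul_sum, Finset.sum_mul]
  rw [Finset.sum_comm]
  refine Finset.sum_congr rfl fun n _ => ?_
  simp_rw [Finset.mul_sum]
  rw [Finset.sum_comm (s := univ)]
  refine Finset.sum_congr rfl fun i _ => Finset.sum_congr rfl fun q _ => ?_
  ring

omit [DecidableEq ι] in
/-- `E = P'(a_{q₀}) = ∏_{r ≠ q₀} (a_{q₀} - a_r)`. -/
theorem EE_eq_prod [DecidableEq ι] [Nontrivial R] (a : ι → R) (q₀ : ι) :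
    EE (Fintype.card ι) (fun i => (charP a).coeff i) (a q₀) =
      ∏ r ∈ univ.erase q₀, (a q₀ - a r) := by
  rw [EE_charP, charP_derivative_eval]
  unfold charPErase
  rw [eval_prod]
  simp

/-- The monic relation satisfied by `b_{q₀}`, in "Lemma H" indexing. -/
theorem charP_relation [Nontrivial R] (b : ι → R) (q₀ : ι) :
    b q₀ ^ Fintype.card ι + ∑ j ∈ range (Fintype.card ι),
      (charP b).coeff (Fintype.card ι - (j + 1)) * b q₀ ^ (Fintype.card ι - 1 - j) = 0 := by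
  have h := charP_eval_self b q₀
  rw [eval_eq_sum_range, charP_natDegree, Finset.sum_range_succ] at h
  have hlead : (charP b).coeff (Fintype.card ι) = 1 := by
    have := (charP_monic b).coeff_natDegree
    rwa [charP_natDegree] at this
  rw [hlead, one_mul, ← Finset.sum_range_reflect] at h
  rw [add_comm, ← h]
  congr 1
  refine Finset.sum_congr rfl fun j _ => ?_
  rw [Nat.sub_sub, add_comm 1 j]

/-- If `f * E = G` and `f` satisfies the monic relation then the homogenised relation vanishes. -/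
lemma RR_eq_zero (μ : ℕ) (ε : ℕ → R) (f E G : R) (hfE : f * E = G)
    (hrel : f ^ μ + ∑ j ∈ range μ, ε (j + 1) * f ^ (μ - 1 - j) = 0) : RR μ ε E G = 0 := by
  unfold RR
  have : ∀ j ∈ range μ, ε (j + 1) * G ^ (μ - 1 - j) * E ^ (j + 1) =
      E ^ μ * (ε (j + 1) * f ^ (μ - 1 - j)) := by
    intro j hj
    have hj' : j < μ := mem_range.mp hj
    rw [← hfE, mul_pow]
    calc ε (j + 1) * (f ^ (μ - 1 - j) * E ^ (μ - 1 - j)) * E ^ (j + 1)
        = ε (j + 1) * f ^ (μ - 1 - j) * (E ^ (μ - 1 - j) * E ^ (j + 1)) := by ring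
      _ = ε (j + 1) * f ^ (μ - 1 - j) * E ^ μ := by
          rw [← pow_add]; congr 2; omega
      _ = E ^ μ * (ε (j + 1) * f ^ (μ - 1 - j)) := by ring
  rw [Finset.sum_congr rfl this, ← Finset.mul_sum, ← hfE, mul_pow, mul_comm (f ^ μ), ← mul_add,
    hrel, mul_zero]

omit [Fintype ι] [DecidableEq ι] in
lemma map_EE {S : Type*} [CommRing S] (φ : R →+* S) (μ : ℕ) (c : ℕ → R) (w : R) :
    φ (EE μ c w) = EE μ (fun i => φ (c i)) (φ w) := by
  simp [EE, map_sum, map_mul, map_pow]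

omit [Fintype ι] [DecidableEq ι] in
lemma map_GG {S : Type*} [CommRing S] (φ : R →+* S) (μ : ℕ) (c t : ℕ → R) (w : R) :
    φ (GG μ c t w) = GG μ (fun i => φ (c i)) (fun i => φ (t i)) (φ w) := by
  simp [GG, map_sum, map_mul, map_pow]

omit [Fintype ι] [DecidableEq ι] in
lemma map_RR {S : Type*} [CommRing S] (φ : R →+* S) (μ : ℕ) (ε : ℕ → R) (E G : R) :
    φ (RR μ ε E G) = RR μ (fun i => φ (ε i)) (φ E) (φ G) := by
  simp [RR, map_sum, map_mul, map_pow]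

omit [Fintype ι] [DecidableEq ι] in
lemma RR_congr (μ : ℕ) (ε ε' : ℕ → R) (E G : R) (h : ∀ j, 1 ≤ j → j ≤ μ → ε j = ε' j) :
    RR μ ε E G = RR μ ε' E G := by
  unfold RR
  congr 1
  refine Finset.sum_congr rfl fun j hj => ?_
  rw [h (j + 1) (by omega) (by have := mem_range.mp hj; omega)]

omit [Fintype ι] [DecidableEq ι] in
/-- **Transport lemma.** `φ : A → S` an injective ring hom ("`q`-expansion"), `ψ : S → S` an
injective ring endomorphism ("coefficientwise `σ`").  If the data `c', t', ε'` are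
`ψ`-conjugates of `c, t, ε` and `w` is `ψ`-fixed, then the conjugated `E', G'` satisfy the
conjugated monic relation, `E' ≠ 0`, and every solution `f'` of `f' * E' = G'` is the
`ψ`-conjugate of `f`. -/
theorem transport {A S : Type*} [CommRing A] [CommRing S] [IsDomain S] (φ : A →+* S)
    (hφ : Function.Injective φ) (ψ : S →+* S) (hψ : Function.Injective ψ) (μ : ℕ) (w f : A)
    (c t ε c' t' ε' : ℕ → A) (hw : ψ (φ w) = φ w)
    (hc : ∀ i, φ (c' i) = ψ (φ (c i))) (ht : ∀ m, φ (t' m) = ψ (φ (t m)))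
    (hε : ∀ j, 1 ≤ j → j ≤ μ → φ (ε' j) = ψ (φ (ε j)))
    (hLE : f * EE μ c w = GG μ c t w)
    (hrel : f ^ μ + ∑ j ∈ range μ, ε (j + 1) * f ^ (μ - 1 - j) = 0)
    (hE : EE μ c w ≠ 0) :
    EE μ c' w ≠ 0 ∧ RR μ ε' (EE μ c' w) (GG μ c' t' w) = 0 ∧
      ∀ f' : A, f' * EE μ c' w = GG μ c' t' w → φ f' = ψ (φ f) := by
  have hEE : φ (EE μ c' w) = ψ (φ (EE μ c w)) := by
    rw [map_EE, map_EE, map_EE, hw]
    congr 1; funext i; exact hc i
  have hGG : φ (GG μ c' t' w) = ψ (φ (GG μ c t w)) := by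
    rw [map_GG, map_GG, map_GG, hw]
    congr 1
    · funext i; exact hc i
    · funext i; exact ht i
  have hRR : φ (RR μ ε' (EE μ c' w) (GG μ c' t' w)) = ψ (φ (RR μ ε (EE μ c w) (GG μ c t w))) := by
    rw [map_RR, map_RR, map_RR, hEE, hGG]
    exact RR_congr μ _ _ _ _ hε
  have hE' : EE μ c' w ≠ 0 := by
    intro h0
    apply hE
    apply hφ
    apply hψ
    rw [← hEE, h0, map_zero, map_zero]
  refine ⟨hE', ?_, ?_⟩
  · apply hφ
    rw [hRR, RR_eq_zero μ ε f _ _ hLE hrel, map_zero, map_zero]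
  · intro f' hf'
    have h1 : φ f' * φ (EE μ c' w) = ψ (φ f) * φ (EE μ c' w) := by
      rw [← map_mul, hf', hGG, ← hLE, map_mul, map_mul, hEE]
    exact mul_right_cancel₀ (fun h0 => hE' (hφ (by rw [h0, map_zero]))) h1

end Algebra

/-! ## Function-level modular forms -/

section IsMF

variable {Γ : Subgroup (GL (Fin 2) ℝ)} {k k' : ℤ} {F G : ℍ → ℂ}

/-- `F` is (the underlying function of) a modular form of weight `k` and level `Γ`. -/
def IsMF (Γ : Subgroup (GL (Fin 2) ℝ)) (k : ℤ) (F : ℍ → ℂ) : Prop :=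
  ∃ g : ModularForm Γ k, ⇑g = F

/-- `F` is (the underlying function of) a cusp form of weight `k` and level `Γ`. -/
def IsCF (Γ : Subgroup (GL (Fin 2) ℝ)) (k : ℤ) (F : ℍ → ℂ) : Prop :=
  ∃ g : CuspForm Γ k, ⇑g = F

lemma isMF_coe (g : ModularForm Γ k) : IsMF Γ k g := ⟨g, rfl⟩

lemma isCF_coe (g : CuspForm Γ k) : IsCF Γ k g := ⟨g, rfl⟩

lemma IsCF.isMF (h : IsCF Γ k F) : IsMF Γ k F := by
  obtain ⟨g, rfl⟩ := h
  exact ⟨⟨g.toSlashInvariantForm, g.holo', fun hc γ hγ =>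
    (g.zero_at_cusps' hc γ hγ).boundedAtFilter⟩, rfl⟩

lemma IsMF.congr_weight (h : IsMF Γ k F) (hk : k = k') : IsMF Γ k' F := hk ▸ h

lemma IsCF.congr_weight (h : IsCF Γ k F) (hk : k = k') : IsCF Γ k' F := hk ▸ h

lemma IsMF.zero : IsMF Γ k (0 : ℍ → ℂ) := ⟨0, rfl⟩

lemma IsCF.zero : IsCF Γ k (0 : ℍ → ℂ) := ⟨0, rfl⟩

lemma IsMF.add (hF : IsMF Γ k F) (hG : IsMF Γ k G) : IsMF Γ k (F + G) := by
  obtain ⟨f, rfl⟩ := hF
  obtain ⟨g, rfl⟩ := hG
  exact ⟨f + g, rfl⟩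

lemma IsMF.mul [Γ.HasDetPlusMinusOne] (hF : IsMF Γ k F) (hG : IsMF Γ k' G) :
    IsMF Γ (k + k') (F * G) := by
  obtain ⟨f, rfl⟩ := hF
  obtain ⟨g, rfl⟩ := hG
  exact ⟨f.mul g, rfl⟩

lemma IsMF.smul [Γ.HasDetOne] (c : ℂ) (hF : IsMF Γ k F) : IsMF Γ k (c • F) := by
  obtain ⟨f, rfl⟩ := hF
  exact ⟨c • f, rfl⟩

lemma IsCF.smul [Γ.HasDetOne] (c : ℂ) (hF : IsCF Γ k F) : IsCF Γ k (c • F) := by
  obtain ⟨f, rfl⟩ := hF
  exact ⟨c • f, rfl⟩

lemma IsMF.natCast_mul [Γ.HasDetOne] (n : ℕ) (hF : IsMF Γ k F) :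
    IsMF Γ k ((n : ℍ → ℂ) * F) := by
  have : ((n : ℍ → ℂ) * F) = (n : ℂ) • F := by ext τ; simp
  rw [this]; exact hF.smul _

lemma IsMF.pow [Γ.HasDetPlusMinusOne] (hF : IsMF Γ k F) (n : ℕ) : IsMF Γ (n * k) (F ^ n) := by
  obtain ⟨f, rfl⟩ := hF
  exact ⟨f.pow n, by simp⟩

lemma IsMF.sum {ι : Type*} (s : Finset ι) (F : ι → ℍ → ℂ) (h : ∀ i ∈ s, IsMF Γ k (F i)) :
    IsMF Γ k (∑ i ∈ s, F i) := by
  classical
  induction s using Finset.induction_on with
  | empty => simpa using IsMF.zero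
  | insert i t hi IH =>
    rw [Finset.sum_insert hi]
    exact (h i (Finset.mem_insert_self i t)).add (IH fun j hj => h j (Finset.mem_insert_of_mem hj))

/-- Restriction of the level. -/
lemma IsMF.mono {Γ' : Subgroup (GL (Fin 2) ℝ)} (hΓ : Γ' ≤ Γ) (hF : IsMF Γ k F) : IsMF Γ' k F := by
  obtain ⟨f, rfl⟩ := hF
  exact ⟨⟨⟨f, fun γ hγ => f.slash_action_eq' γ (hΓ hγ)⟩, f.holo',
    fun hc => f.bdd_at_cusps' (hc.mono hΓ)⟩, rfl⟩

lemma IsMF.isQ (hF : IsMF Γ k F) (h1 : (1 : ℝ) ∈ Γ.strictPeriods) : IsQ F := by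
  obtain ⟨f, rfl⟩ := hF
  have : Fact (IsCusp OnePoint.infty Γ) := ⟨Γ.isCusp_of_mem_strictPeriods one_pos h1⟩
  exact ⟨SlashInvariantFormClass.periodic_comp_ofComplex f h1, f.holo',
    ModularFormClass.bdd_at_infty f⟩

lemma IsMF.isQ_SL (hF : IsMF 𝒮ℒ k F) : IsQ F := hF.isQ one_mem_strictPeriods_SL

end IsMF

/-! ## Translates, traces -/

section Data

variable {Γ : Subgroup (GL (Fin 2) ℝ)} {k l : ℤ}

lemma exists_SL_eq_inv (h : 𝒮ℒ) : ∃ γ : SL(2, ℤ), Matrix.SpecialLinearGroup.mapGL ℝ γ = h.val⁻¹ :=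
  (h⁻¹).2

lemma pow_slash_SL2 (F : ℍ → ℂ) (l : ℤ) (m : ℕ) (γ : SL(2, ℤ)) :
    (F ^ m) ∣[(m : ℤ) * l] γ = (F ∣[l] γ) ^ m := by
  induction m with
  | zero => simpa using is_invariant_one γ
  | succ m ih =>
    have : ((m + 1 : ℕ) : ℤ) * l = (m : ℤ) * l + l := by push_cast; ring
    rw [this, pow_succ, mul_slash_SL2, ih, pow_succ]

lemma quotientFunc_one (w : ModularForm Γ l) :
    quotientFunc w (QuotientGroup.mk (1 : 𝒮ℒ) : 𝒮ℒ ⧸ (Γ.subgroupOf 𝒮ℒ)) = ⇑w := by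
  change (⇑w ∣[l] ((1 : 𝒮ℒ) : GL (Fin 2) ℝ)⁻¹) = ⇑w
  simp

lemma quotientFunc_one_cusp (f : CuspForm Γ k) :
    quotientFunc f (QuotientGroup.mk (1 : 𝒮ℒ) : 𝒮ℒ ⧸ (Γ.subgroupOf 𝒮ℒ)) = ⇑f := by
  change (⇑f ∣[k] ((1 : 𝒮ℒ) : GL (Fin 2) ℝ)⁻¹) = ⇑f
  simp

lemma quotientFunc_mulModularForm_pow [Γ.HasDetPlusMinusOne] (f : CuspForm Γ k)
    (w : ModularForm Γ l) (m : ℕ) (q : 𝒮ℒ ⧸ (Γ.subgroupOf 𝒮ℒ)) :
    quotientFunc (f.mulModularForm (w.pow m)) q = quotientFunc f q * quotientFunc w q ^ m := by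
  induction q using Quotient.inductionOn with
  | h r =>
    obtain ⟨γ, hγ⟩ := exists_SL_eq_inv r
    simp only [quotientFunc_mk, ← hγ]
    rw [CuspForm.coe_mulModularForm, ModularForm.coe_pow]
    exact (mul_slash_SL2 k ((m : ℤ) * l) γ ⇑f (⇑w ^ m)).trans (by rw [pow_slash_SL2]; rfl)

lemma mdiff_quotientFunc_modularForm (w : ModularForm Γ l) (q : 𝒮ℒ ⧸ (Γ.subgroupOf 𝒮ℒ)) :
    MDiff (quotientFunc w q) := by
  induction q using Quotient.inductionOn with
  | h r => exact w.holo'.slash l _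

/-- The translates of `w` other than `w` itself differ from `w`, if the stabiliser of `w` in
`SL(2, ℤ)` is contained in `Γ`. -/
lemma quotientFunc_ne_of_stab (w : ModularForm Γ l)
    (hw : ∀ γ : SL(2, ℤ), (⇑w ∣[l] γ) = ⇑w → Matrix.SpecialLinearGroup.mapGL ℝ γ ∈ Γ)
    (q : 𝒮ℒ ⧸ (Γ.subgroupOf 𝒮ℒ)) (hq : q ≠ QuotientGroup.mk (1 : 𝒮ℒ)) :
    quotientFunc w q ≠ ⇑w := by
  induction q using Quotient.inductionOn with
  | h r =>
    intro h
    apply hq
    obtain ⟨γ, hγ⟩ := exists_SL_eq_inv r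
    have h' : (⇑w ∣[l] γ) = ⇑w := by
      have h0 : (⇑w ∣[l] γ) = quotientFunc w ⟦r⟧ := by
        rw [quotientFunc_mk, ← hγ]; rfl
      rw [h0, h]
    have hmem := hw γ h'
    rw [hγ] at hmem
    refine (QuotientGroup.eq (s := Γ.subgroupOf 𝒮ℒ)).mpr ?_
    rw [mul_one, Subgroup.mem_subgroupOf]
    simpa using hmem

end Data

/-! ## Interfaces (Prop-valued specs) and the assembly -/

section Main

open Finset

lemma coe_EE (μ : ℕ) (c : ℕ → qAlg) (w : qAlg) :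
    ((EE μ c w : qAlg) : ℍ → ℂ) = EE μ (fun i => (c i : ℍ → ℂ)) (w : ℍ → ℂ) :=
  map_EE (qAlg.val : qAlg →+* (ℍ → ℂ)) μ c w

lemma coe_GG (μ : ℕ) (c t : ℕ → qAlg) (w : qAlg) :
    ((GG μ c t w : qAlg) : ℍ → ℂ) =
      GG μ (fun i => (c i : ℍ → ℂ)) (fun i => (t i : ℍ → ℂ)) (w : ℍ → ℂ) :=
  map_GG (qAlg.val : qAlg →+* (ℍ → ℂ)) μ c t w

lemma coe_RR (μ : ℕ) (ε : ℕ → qAlg) (E G : qAlg) :
    ((RR μ ε E G : qAlg) : ℍ → ℂ) = RR μ (fun i => (ε i : ℍ → ℂ)) (E : ℍ → ℂ) (G : ℍ → ℂ) :=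
  map_RR (qAlg.val : qAlg →+* (ℍ → ℂ)) μ ε E G

variable (Γ : Subgroup (GL (Fin 2) ℝ)) [Γ.IsArithmetic]

/-- The `i`-th elementary symmetric function of the translates `quotientFunc g q`,
`q ∈ 𝒮ℒ ⧸ Γ`, of a `Γ`-invariant form `g`. -/
noncomputable def esymmFun {F : Type*} [FunLike F ℍ ℂ] {k : ℤ} [SlashInvariantFormClass F Γ k]
    (g : F) (i : ℕ) : ℍ → ℂ :=
  letI := Fintype.ofFinite (𝒮ℒ ⧸ (Γ.subgroupOf 𝒮ℒ))
  ∑ s ∈ Finset.powersetCard i (Finset.univ : Finset (𝒮ℒ ⧸ (Γ.subgroupOf 𝒮ℒ))),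
    ∏ q ∈ s, quotientFunc g q

/-- Package (I): the elementary symmetric functions of the translates of a modular form of
level `Γ` are modular forms of level one. -/
def Stmt_Esymm : Prop :=
  ∀ (l : ℤ) (g : ModularForm Γ l) (i : ℕ), IsMF 𝒮ℒ (l * i) (esymmFun Γ g i)

/-- Package (I), cuspidal part: the elementary symmetric functions `e_i`, `i ≥ 1`, of the
translates of a cusp form of level `Γ` are cusp forms of level one. -/
def Stmt_EsymmCusp : Prop :=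
  ∀ (k : ℤ) (f : CuspForm Γ k) (i : ℕ), 1 ≤ i → IsCF 𝒮ℒ (k * i) (esymmFun Γ f i)

/-- Package (L1): level-one modular forms can be conjugated by ring endomorphisms of `ℂ`. -/
def Stmt_L1 : Prop :=
  ∀ (σ : ℂ →+* ℂ) (k : ℤ) (r : ModularForm 𝒮ℒ k),
    ∃ r' : ModularForm 𝒮ℒ k, qExpansion 1 r' = PowerSeries.map σ (qExpansion 1 r)

/-- Package (P): a primitive element, i.e. a modular form of level `Γ` with rational
`q`-expansion whose stabiliser in `SL(2, ℤ)` is contained in `Γ`. -/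
def Stmt_Prim : Prop :=
  ∃ (l : ℤ) (w : ModularForm Γ l), (∀ n, ∃ r : ℚ, (qExpansion 1 w).coeff n = r) ∧
    ∀ γ : SL(2, ℤ), (⇑w ∣[l] γ) = ⇑w → Matrix.SpecialLinearGroup.mapGL ℝ γ ∈ Γ

/-- Package (H), "Lemma H": if `G ^ d + ∑_{j<d} c_{j+1} G^(d-1-j) E^(j+1) = 0` with `E ≠ 0` of
weight `a`, `G` of weight `a + k` (both of level `Γ`) and `c_i` cusp forms of level one and
weight `k * i`, then `G / E` is a cusp form of weight `k` and level `Γ`. -/
def Stmt_H (k : ℤ) : Prop :=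
  ∀ (a : ℤ) (E : ModularForm Γ a) (G : ModularForm Γ (a + k)) (d : ℕ)
    (c : (i : ℕ) → CuspForm 𝒮ℒ (k * i)), E ≠ 0 →
    (∀ τ, G τ ^ d + ∑ j ∈ Finset.range d, c (j + 1) τ * G τ ^ (d - 1 - j) * E τ ^ (j + 1) = 0) →
    ∃ f' : CuspForm Γ k, ∀ τ, f' τ * E τ = G τ

/-- Theorem C: cusp forms of level `Γ` and weight `k` can be conjugated by ring endomorphisms
of `ℂ` (coefficientwise on `q`-expansions). -/
def Stmt_Conj (k : ℤ) : Prop :=
  ∀ (f : CuspForm Γ k) (σ : ℂ →+* ℂ),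
    ∃ g : CuspForm Γ k, qExpansion 1 g = PowerSeries.map σ (qExpansion 1 f)

/-- (L1) for cusp forms of level one follows from (L1) for modular forms. -/
lemma l1_cusp (hL : Stmt_L1) (σ : ℂ →+* ℂ) (k : ℤ) (r : CuspForm 𝒮ℒ k) :
    ∃ r' : CuspForm 𝒮ℒ k, qExpansion 1 r' = PowerSeries.map σ (qExpansion 1 r) := by
  obtain ⟨g, hg⟩ := (isCF_coe r).isMF
  obtain ⟨g', hg'⟩ := hL σ k g
  have h0 : (qExpansion 1 g').coeff 0 = 0 := by
    rw [hg', hg, PowerSeries.coeff_map,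
      CuspFormClass.qExpansion_coeff_zero r one_pos one_mem_strictPeriods_SL, map_zero]
  refine ⟨ModularForm.toCuspForm g' h0, ?_⟩
  have : (⇑(ModularForm.toCuspForm g' h0) : ℍ → ℂ) = ⇑g' := by
    funext τ; exact ModularForm.toCuspForm_apply g' h0 τ
  rw [this, hg', hg]

variable {Γ}

/-- **Assembly of Theorem C** from the packages (P), (I), (L1), (H). -/
theorem stmt_conj_of [Γ.HasDetOne] (hΓ : Γ ≤ 𝒮ℒ) (h1 : (1 : ℝ) ∈ Γ.strictPeriods) (k : ℤ)
    (hP : Stmt_Prim Γ) (hI : Stmt_Esymm Γ) (hIc : Stmt_EsymmCusp Γ) (hL : Stmt_L1)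
    (hH : Stmt_H Γ k) : Stmt_Conj Γ k := by
  classical
  intro f σ
  obtain ⟨l, w, hwQ, hwstab⟩ := hP
  let _ : Fintype (𝒮ℒ ⧸ (Γ.subgroupOf 𝒮ℒ)) := Fintype.ofFinite _
  set μ := Fintype.card (𝒮ℒ ⧸ (Γ.subgroupOf 𝒮ℒ)) with hμ
  set q₀ : 𝒮ℒ ⧸ (Γ.subgroupOf 𝒮ℒ) := QuotientGroup.mk 1 with hq₀
  have hμpos : 0 < μ := Fintype.card_pos_iff.mpr ⟨q₀⟩
  set a : (𝒮ℒ ⧸ (Γ.subgroupOf 𝒮ℒ)) → ℍ → ℂ := fun q => quotientFunc w q with ha
  set b : (𝒮ℒ ⧸ (Γ.subgroupOf 𝒮ℒ)) → ℍ → ℂ := fun q => quotientFunc f q with hb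
  have ha0 : a q₀ = ⇑w := quotientFunc_one w
  have hb0 : b q₀ = ⇑f := quotientFunc_one_cusp f
  -- the level one data, as functions
  set c : ℕ → ℍ → ℂ := fun i => (charP a).coeff i with hc
  set t : ℕ → ℍ → ℂ := fun m => ∑ q, b q * a q ^ m with ht
  set ε : ℕ → ℍ → ℂ := fun j => if 1 ≤ j ∧ j ≤ μ then (charP b).coeff (μ - j) else 0 with hε
  have hLE : ⇑f * EE μ c ⇑w = GG μ c t ⇑w := by
    rw [← ha0, ← hb0]; exact lagrange_euler a b q₀
  have hrel : ⇑f ^ μ + ∑ j ∈ Finset.range μ, ε (j + 1) * ⇑f ^ (μ - 1 - j) = 0 := by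
    rw [← hb0, ← charP_relation b q₀]
    congr 1
    refine Finset.sum_congr rfl fun j hj => ?_
    have hj' := Finset.mem_range.mp hj
    rw [hε]
    simp only
    rw [if_pos ⟨by omega, by omega⟩]
  have hE0 : EE μ c ⇑w ≠ 0 := by
    rw [← ha0, hc, EE_eq_prod a q₀]
    intro h0
    rw [UpperHalfPlane.prod_eq_zero_iff (fun r _ =>
      (mdiff_quotientFunc_modularForm w q₀).sub (mdiff_quotientFunc_modularForm w r))] at h0
    obtain ⟨r, hr, hr0⟩ := h0
    refine quotientFunc_ne_of_stab w hwstab r (Finset.ne_of_mem_erase hr) ?_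
    rw [← ha0]
    exact (sub_eq_zero.mp hr0).symm
  -- modularity of the data
  have hcMF : ∀ i, i ≤ μ → IsMF 𝒮ℒ (l * ((μ - i : ℕ) : ℤ)) (c i) := by
    intro i hi
    have h2 : c i = ((-1 : ℂ) ^ (μ - i)) • esymmFun Γ w (μ - i) := by
      rw [hc]
      simp only
      rw [charP_coeff a hi]
      funext τ
      simp [esymmFun, ha]
      rfl
    rw [h2]
    exact (hI l w (μ - i)).smul _
  have hcQ : ∀ i, IsQ (c i) := by
    intro i
    by_cases hi : i ≤ μ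
    · exact (hcMF i hi).isQ_SL
    · have : c i = 0 := by
        rw [hc]
        exact Polynomial.coeff_eq_zero_of_natDegree_lt (by rw [charP_natDegree]; omega)
      rw [this]; exact IsQ.zero
  have htCF : ∀ m : ℕ, IsCF 𝒮ℒ (k + m * l) (t m) := by
    intro m
    refine ⟨CuspForm.trace 𝒮ℒ (f.mulModularForm (w.pow m)), ?_⟩
    rw [CuspForm.coe_trace]
    exact Finset.sum_congr rfl fun q _ => quotientFunc_mulModularForm_pow f w m q
  have hεCF : ∀ j, 1 ≤ j → j ≤ μ → IsCF 𝒮ℒ (k * j) (ε j) := by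
    intro j hj1 hjμ
    have h2 : ε j = ((-1 : ℂ) ^ j) • esymmFun Γ f j := by
      rw [hε]
      simp only
      rw [if_pos ⟨hj1, hjμ⟩, charP_coeff b (Nat.sub_le _ _), Nat.sub_sub_self hjμ]
      funext τ
      simp [esymmFun, hb]
    rw [h2]
    exact (hIc k f j hj1).smul _
  have hεQ : ∀ j, IsQ (ε j) := by
    intro j
    by_cases hj : 1 ≤ j ∧ j ≤ μ
    · exact (hεCF j hj.1 hj.2).isMF.isQ_SL
    · have : ε j = 0 := by rw [hε]; simp only; rw [if_neg hj]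
      rw [this]; exact IsQ.zero
  have hwQ' : IsQ ⇑w := (isMF_coe w).isQ h1
  have hfQ : IsQ ⇑f := (isCF_coe f).isMF.isQ h1
  -- the conjugate data
  have hc' : ∀ i, ∃ x : ℍ → ℂ, IsQ x ∧ (i ≤ μ → IsMF 𝒮ℒ (l * ((μ - i : ℕ) : ℤ)) x) ∧
      qExpansion 1 x = PowerSeries.map σ (qExpansion 1 (c i)) := by
    intro i
    by_cases hi : i ≤ μ
    · obtain ⟨g, hg⟩ := hcMF i hi
      obtain ⟨g', hg'⟩ := hL σ _ g
      exact ⟨g', (isMF_coe g').isQ_SL, fun _ => isMF_coe g', by rw [hg', hg]⟩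
    · refine ⟨0, IsQ.zero, fun h => absurd h hi, ?_⟩
      have : c i = 0 := by
        rw [hc]
        exact Polynomial.coeff_eq_zero_of_natDegree_lt (by rw [charP_natDegree]; omega)
      rw [this, qExpansion_zero, map_zero]
  choose c' hc'Q hc'MF hc'q using hc'
  have ht' : ∀ m : ℕ, ∃ x : ℍ → ℂ, IsQ x ∧ IsMF 𝒮ℒ (k + m * l) x ∧
      qExpansion 1 x = PowerSeries.map σ (qExpansion 1 (t m)) := by
    intro m
    obtain ⟨g, hg⟩ := (htCF m).isMF
    obtain ⟨g', hg'⟩ := hL σ _ g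
    exact ⟨g', (isMF_coe g').isQ_SL, isMF_coe g', by rw [hg', hg]⟩
  choose t' ht'Q ht'MF ht'q using ht'
  have hε' : ∀ j : ℕ, ∃ x : CuspForm 𝒮ℒ (k * j), 1 ≤ j → j ≤ μ →
      qExpansion 1 x = PowerSeries.map σ (qExpansion 1 (ε j)) := by
    intro j
    by_cases hj : 1 ≤ j ∧ j ≤ μ
    · obtain ⟨g, hg⟩ := hεCF j hj.1 hj.2
      obtain ⟨g', hg'⟩ := l1_cusp hL σ _ g
      exact ⟨g', fun _ _ => by rw [hg', hg]⟩
    · exact ⟨0, fun h1 h2 => absurd ⟨h1, h2⟩ hj⟩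
  choose ε' hε'q using hε'
  -- pass to the ring `qAlg`
  have key := transport qHom qHom_injective (PowerSeries.map σ)
    (PowerSeries.map_injective σ σ.injective) μ (⟨⇑w, hwQ'⟩ : qAlg) (⟨⇑f, hfQ⟩ : qAlg)
    (fun i => (⟨c i, hcQ i⟩ : qAlg)) (fun m => (⟨t m, (htCF m).isMF.isQ_SL⟩ : qAlg))
    (fun j => (⟨ε j, hεQ j⟩ : qAlg)) (fun i => (⟨c' i, hc'Q i⟩ : qAlg))
    (fun m => (⟨t' m, ht'Q m⟩ : qAlg))
    (fun j => (⟨⇑(ε' j), (isCF_coe (ε' j)).isMF.isQ_SL⟩ : qAlg))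
    (by
      change PowerSeries.map σ (qExpansion 1 ⇑w) = qExpansion 1 ⇑w
      ext n
      obtain ⟨r, hr⟩ := hwQ n
      rw [PowerSeries.coeff_map, hr, map_ratCast])
    (fun i => hc'q i) (fun m => ht'q m) (fun j hj1 hjμ => hε'q j hj1 hjμ)
    (Subtype.ext (by
      rw [Subalgebra.coe_mul, coe_EE, coe_GG]; exact hLE))
    (Subtype.ext (by
      rw [Subalgebra.coe_add, Subalgebra.coe_pow, AddSubmonoidClass.coe_finsetSum]
      simp only [Subalgebra.coe_mul, Subalgebra.coe_pow]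
      exact hrel))
    (fun h0 => hE0 (by
      have := congrArg (Subtype.val) h0
      rw [coe_EE] at this
      exact this))
  obtain ⟨hE', hRR', hfin⟩ := key
  -- `E'` and `G'` are modular forms of level `Γ`
  have hwMF : IsMF Γ l ⇑w := isMF_coe w
  have hE'MF : IsMF Γ (l * ((μ : ℤ) - 1)) (EE μ c' ⇑w) := by
    unfold EE
    refine IsMF.sum _ _ fun i hi => ?_
    have hi' : i ≤ μ := Nat.lt_succ_iff.mp (Finset.mem_range.mp hi)
    rcases Nat.eq_zero_or_pos i with rfl | hipos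
    · simpa using IsMF.zero
    · rw [mul_assoc]
      refine IsMF.natCast_mul i ((((hc'MF i hi').mono hΓ).mul (hwMF.pow (i - 1))).congr_weight ?_)
      rw [Nat.cast_sub hi', Nat.cast_sub hipos]
      push_cast; ring
  have hG'MF : IsMF Γ (l * ((μ : ℤ) - 1) + k) (GG μ c' t' ⇑w) := by
    unfold GG
    refine IsMF.sum _ _ fun n hn => ?_
    have hn' : n < μ := Finset.mem_range.mp hn
    rw [Finset.sum_mul]
    refine IsMF.sum _ _ fun i hi => ?_
    obtain ⟨hi1, hi2⟩ := Finset.mem_Icc.mp hi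
    refine ((((hc'MF i hi2).mono hΓ).mul ((ht'MF (i - (n + 1))).mono hΓ)).mul
      (hwMF.pow n)).congr_weight ?_
    rw [Nat.cast_sub hi2, Nat.cast_sub hi1]
    push_cast; ring
  obtain ⟨Eb, hEb⟩ := hE'MF
  obtain ⟨Gb, hGb⟩ := hG'MF
  have hEb0 : Eb ≠ 0 := by
    intro h0
    apply hE'
    apply Subtype.ext
    rw [coe_EE]
    change EE μ c' ⇑w = 0
    rw [← hEb, h0]; rfl
  have hrel' : ∀ τ, Gb τ ^ μ + ∑ j ∈ Finset.range μ,
      ε' (j + 1) τ * Gb τ ^ (μ - 1 - j) * Eb τ ^ (j + 1) = 0 := by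
    intro τ
    have h3 := congrArg Subtype.val hRR'
    rw [coe_RR, coe_EE, coe_GG] at h3
    have h4 := congrFun h3 τ
    rw [hEb, hGb]
    simpa [RR] using h4
  obtain ⟨f', hf'⟩ := hH (l * ((μ : ℤ) - 1)) Eb Gb μ ε' hEb0 hrel'
  refine ⟨f', ?_⟩
  refine hfin (⟨⇑f', (isCF_coe f').isMF.isQ h1⟩ : qAlg) (Subtype.ext ?_)
  rw [Subalgebra.coe_mul, coe_EE, coe_GG]
  funext τ
  have := hf' τ
  rw [hEb, hGb] at this
  exact this

end Main

/-! ## Specialisation to `Γ₀(N)` -/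

section Gamma0

variable (N : ℕ) [NeZero N]

/-- Theorem C for `Γ₀(N)`, all weights, from the packages (P), (I), (L1), (H). -/
theorem stmt_conj_Gamma0 (k : ℤ)
    (hP : Stmt_Prim (CongruenceSubgroup.Gamma0 N : Subgroup (GL (Fin 2) ℝ)))
    (hI : Stmt_Esymm (CongruenceSubgroup.Gamma0 N : Subgroup (GL (Fin 2) ℝ)))
    (hIc : Stmt_EsymmCusp (CongruenceSubgroup.Gamma0 N : Subgroup (GL (Fin 2) ℝ)))
    (hL : Stmt_L1)
    (hH : Stmt_H (CongruenceSubgroup.Gamma0 N : Subgroup (GL (Fin 2) ℝ)) k) :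
    Stmt_Conj (CongruenceSubgroup.Gamma0 N : Subgroup (GL (Fin 2) ℝ)) k :=
  stmt_conj_of (Subgroup.map_le_range _ _) (CongruenceSubgroup.one_mem_strictPeriods_Gamma0 N) k
    hP hI hIc hL hH

omit [NeZero N] in
/-- Theorem C for `Γ₀(N)` in `qCoeff` form (the shape of `Stmt_Conj` in the S23 top-level
interface). -/
theorem qCoeff_conj_Gamma0 (k : ℤ)
    (hC : Stmt_Conj (CongruenceSubgroup.Gamma0 N : Subgroup (GL (Fin 2) ℝ)) k)
    (f : CuspForm (CongruenceSubgroup.Gamma0 N) k) (σ : ℂ ≃+* ℂ) :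
    ∃ g : CuspForm (CongruenceSubgroup.Gamma0 N) k,
      ∀ n, ModularFormClass.qCoeff g n = σ (ModularFormClass.qCoeff f n) := by
  obtain ⟨g, hg⟩ := hC f (σ : ℂ →+* ℂ)
  refine ⟨g, fun n => ?_⟩
  unfold ModularFormClass.qCoeff
  rw [hg, PowerSeries.coeff_map]
  rfl

end Gamma0

end Fermat.Agent.S23.helper1
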