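import Mathlib

/-!
# Elementary symmetric functions of the translates of a modular form

Package (I) of the S23 plan.  For `𝒢 ℋ : Subgroup (GL (Fin 2) ℝ)` with `𝒢 ⊓ ℋ` of finite index
in `ℋ` and a form `f` of weight `k` for `𝒢`, the `i`-th elementary symmetric function of the
translates `SlashInvariantForm.quotientFunc f q`, `q : ℋ ⧸ 𝒢.subgroupOf ℋ`, is a modular form of
weight `k * i` for `ℋ` (a cusp form if `f` is one and `0 < i`), and every translate is a root of
the corresponding monic polynomial.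
-/

namespace Fermat.Agent.S23.helper246

open UpperHalfPlane ModularForm SlashInvariantForm Finset
open scoped ModularForm Topology Filter Manifold MatrixGroups

noncomputable section

variable {𝒢 ℋ : Subgroup (GL (Fin 2) ℝ)} {F : Type*} (f : F) [FunLike F ℍ ℂ] {k : ℤ}

local notation "𝒬" => ℋ ⧸ (𝒢.subgroupOf ℋ)

/-- Reindexing a sum over `powersetCard` along a permutation of the ambient fintype. -/
theorem sum_powersetCard_comp_perm {ι : Type*} [Fintype ι]
    {A : Type*} [AddCommMonoid A] (σ : Equiv.Perm ι) (i : ℕ) (Φ : Finset ι → A) :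
    ∑ s ∈ (univ : Finset ι).powersetCard i, Φ (s.map σ.toEmbedding) =
      ∑ s ∈ (univ : Finset ι).powersetCard i, Φ s := by
  have h1 : (univ : Finset ι).powersetCard i =
      ((univ : Finset ι).powersetCard i).map (mapEmbedding σ.toEmbedding).toEmbedding := by
    rw [← powersetCard_map, map_univ_equiv]
  conv_rhs => rw [h1]
  rw [sum_map]
  rfl

section SIF

variable [SlashInvariantFormClass F 𝒢 k] (ℋ) [𝒢.IsFiniteRelIndex ℋ]

/-- The `i`-th elementary symmetric function of the translates of `f`, as a function on `ℍ`. -/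
def esymmFun (i : ℕ) : ℍ → ℂ :=
  letI := Fintype.ofFinite 𝒬
  ∑ s ∈ (univ : Finset 𝒬).powersetCard i, ∏ q ∈ s, quotientFunc f q

theorem esymmFun_def [Fintype 𝒬] (i : ℕ) :
    esymmFun ℋ f i = ∑ s ∈ (univ : Finset 𝒬).powersetCard i, ∏ q ∈ s, quotientFunc f q := by
  unfold esymmFun
  congr!

theorem esymmFun_apply [Fintype 𝒬] (i : ℕ) (τ : ℍ) :
    esymmFun ℋ f i τ = ∑ s ∈ (univ : Finset 𝒬).powersetCard i, ∏ q ∈ s, quotientFunc f q τ := by
  rw [esymmFun_def]
  simp [Finset.sum_apply, Finset.prod_apply]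

theorem esymmFun_slash [ℋ.HasDetPlusMinusOne] (i : ℕ) {h : GL (Fin 2) ℝ} (hh : h ∈ ℋ) :
    esymmFun ℋ f i ∣[k * i] h = esymmFun ℋ f i := by
  let := Fintype.ofFinite 𝒬
  rw [esymmFun_def, SlashAction.sum_slash]
  have key : ∀ s ∈ (univ : Finset 𝒬).powersetCard i,
      (∏ q ∈ s, quotientFunc f q) ∣[k * i] h =
        ∏ q ∈ s.map (MulAction.toPerm (⟨h, hh⟩ : ℋ)⁻¹ : Equiv.Perm 𝒬).toEmbedding,
          quotientFunc f q := by
    intro s hs
    have hcard : #s = i := (mem_powersetCard.mp hs).2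
    have := ModularForm.prod_slash (k := k) (g := h) (f := fun q : 𝒬 => quotientFunc f q) (s := s)
    rw [hcard] at this
    rw [this, Subgroup.HasDetPlusMinusOne.abs_det hh, one_zpow, one_smul, prod_map]
    refine prod_congr rfl fun q _ => ?_
    rw [quotientFunc_smul f hh]
    rfl
  rw [sum_congr rfl key]
  exact sum_powersetCard_comp_perm _ i (fun s => ∏ q ∈ s, quotientFunc f q)

/-- The `i`-th elementary symmetric function of the translates, as a slash-invariant form. -/
def esymmSIF [ℋ.HasDetPlusMinusOne] (i : ℕ) : SlashInvariantForm ℋ (k * i) where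
  toFun := esymmFun ℋ f i
  slash_action_eq' _ hh := esymmFun_slash ℋ f i hh

end SIF

section MF

theorem mdifferentiable_quotientFunc [ModularFormClass F 𝒢 k] (q : 𝒬) :
    MDiff (quotientFunc f q) := by
  induction q using Quotient.inductionOn with
  | h r => exact (ModularForm.translate f r.val⁻¹).holo'

variable (ℋ) [𝒢.IsFiniteRelIndex ℋ]

theorem mdifferentiable_esymmFun [ModularFormClass F 𝒢 k] (i : ℕ) :
    MDiff (esymmFun ℋ f i) := by
  let := Fintype.ofFinite 𝒬
  rw [esymmFun_def]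
  exact .sum fun s _ => .prod fun q _ => mdifferentiable_quotientFunc f q

theorem isBoundedAtImInfty_quotientFunc_slash [ModularFormClass F 𝒢 k] (q : 𝒬)
    {γ : GL (Fin 2) ℝ} (hγ : IsCusp (γ • OnePoint.infty) ℋ) :
    IsBoundedAtImInfty (quotientFunc f q ∣[k] γ) := by
  induction q using Quotient.inductionOn with
  | h r =>
    obtain ⟨r, hr⟩ := r
    refine (ModularForm.translate f _).bdd_at_cusps' ?_ γ rfl
    simpa using hγ.of_isFiniteRelIndex_conj hr

theorem isZeroAtImInfty_quotientFunc_slash [CuspFormClass F 𝒢 k] (q : 𝒬)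
    {γ : GL (Fin 2) ℝ} (hγ : IsCusp (γ • OnePoint.infty) ℋ) :
    IsZeroAtImInfty (quotientFunc f q ∣[k] γ) := by
  induction q using Quotient.inductionOn with
  | h r =>
    obtain ⟨r, hr⟩ := r
    refine (CuspForm.translate f _).zero_at_cusps' ?_ γ rfl
    simpa using hγ.of_isFiniteRelIndex_conj hr

theorem esymmFun_slash_eq [SlashInvariantFormClass F 𝒢 k] [Fintype 𝒬] (i : ℕ)
    (γ : GL (Fin 2) ℝ) :
    esymmFun ℋ f i ∣[k * i] γ = ∑ s ∈ (univ : Finset 𝒬).powersetCard i,
      |γ.det.val| ^ ((i : ℤ) - 1) • ∏ q ∈ s, quotientFunc f q ∣[k] γ := by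
  rw [esymmFun_def, SlashAction.sum_slash]
  refine sum_congr rfl fun s hs => ?_
  have hcard : #s = i := (mem_powersetCard.mp hs).2
  have := ModularForm.prod_slash (k := k) (g := γ) (f := fun q : 𝒬 => quotientFunc f q) (s := s)
  rwa [hcard] at this

theorem isBoundedAtImInfty_esymmFun_slash [ModularFormClass F 𝒢 k] (i : ℕ)
    {γ : GL (Fin 2) ℝ} (hγ : IsCusp (γ • OnePoint.infty) ℋ) :
    IsBoundedAtImInfty (esymmFun ℋ f i ∣[k * i] γ) := by
  let := Fintype.ofFinite 𝒬
  rw [esymmFun_slash_eq]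
  refine Submodule.sum_mem (Filter.boundedFilterSubmodule ℂ atImInfty) fun s _ => ?_
  refine Filter.BoundedAtFilter.smul _ (Filter.BoundedAtFilter.prod _ fun q _ => ?_)
  exact isBoundedAtImInfty_quotientFunc_slash ℋ f q hγ

theorem isZeroAtImInfty_esymmFun_slash [CuspFormClass F 𝒢 k] {i : ℕ} (hi : 0 < i)
    {γ : GL (Fin 2) ℝ} (hγ : IsCusp (γ • OnePoint.infty) ℋ) :
    IsZeroAtImInfty (esymmFun ℋ f i ∣[k * i] γ) := by
  let := Fintype.ofFinite 𝒬
  classical
  rw [esymmFun_slash_eq]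
  refine Submodule.sum_mem (Filter.zeroAtFilterSubmodule ℂ atImInfty) fun s hs => ?_
  refine Filter.ZeroAtFilter.smul _ ?_
  have hcard : #s = i := (mem_powersetCard.mp hs).2
  obtain ⟨a, ha⟩ : s.Nonempty := card_pos.mp (hcard ▸ hi)
  rw [← mul_prod_erase s _ ha]
  refine Filter.ZeroAtFilter.mul_boundedAtFilter
    (isZeroAtImInfty_quotientFunc_slash ℋ f a hγ) (Filter.BoundedAtFilter.prod _ fun q _ => ?_)
  exact isBoundedAtImInfty_quotientFunc_slash ℋ f q hγ

/-- The `i`-th elementary symmetric function of the translates of a modular form `f` of weight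
`k` for `𝒢`, as a modular form of weight `k * i` for `ℋ`. -/
def esymmForm [ℋ.HasDetPlusMinusOne] [ModularFormClass F 𝒢 k] (i : ℕ) :
    ModularForm ℋ (k * i) where
  __ := esymmSIF ℋ f i
  holo' := mdifferentiable_esymmFun ℋ f i
  bdd_at_cusps' h γ := by
    rintro rfl
    exact isBoundedAtImInfty_esymmFun_slash ℋ f i h

@[simp]
theorem coe_esymmForm [ℋ.HasDetPlusMinusOne] [ModularFormClass F 𝒢 k] (i : ℕ) :
    ⇑(esymmForm ℋ f i) = esymmFun ℋ f i := rfl

/-- The `i`-th elementary symmetric function (`0 < i`) of the translates of a cusp form `f` of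
weight `k` for `𝒢`, as a cusp form of weight `k * i` for `ℋ`. -/
def esymmCuspForm [ℋ.HasDetPlusMinusOne] [CuspFormClass F 𝒢 k] {i : ℕ} (hi : 0 < i) :
    CuspForm ℋ (k * i) where
  __ := esymmSIF ℋ f i
  holo' := mdifferentiable_esymmFun ℋ f i
  zero_at_cusps' h γ := by
    rintro rfl
    exact isZeroAtImInfty_esymmFun_slash ℋ f hi h

@[simp]
theorem coe_esymmCuspForm [ℋ.HasDetPlusMinusOne] [CuspFormClass F 𝒢 k] {i : ℕ} (hi : 0 < i) :
    ⇑(esymmCuspForm ℋ f hi) = esymmFun ℋ f i := rfl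

end MF

section Algebra

/-- Vieta: `∏ (x - a q)` expanded in elementary symmetric functions, over a fintype. -/
theorem prod_sub_eq_sum_esymm {ι R : Type*} [Fintype ι] [CommRing R] (a : ι → R) (x : R) :
    ∏ q, (x - a q) = ∑ i ∈ range (Fintype.card ι + 1),
      (-1) ^ i * (∑ t ∈ (univ : Finset ι).powersetCard i, ∏ q ∈ t, a q) *
        x ^ (Fintype.card ι - i) := by
  have h := congrArg (Polynomial.eval x)
    (Multiset.prod_X_sub_X_eq_sum_esymm ((univ : Finset ι).val.map a))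
  simp only [Multiset.map_map, Polynomial.eval_multiset_prod, Multiset.card_map, card_val,
    card_univ, Polynomial.eval_finsetSum, Polynomial.eval_mul, Polynomial.eval_pow,
    Polynomial.eval_neg, Polynomial.eval_one, Polynomial.eval_C, Polynomial.eval_X,
    Finset.esymm_map_val] at h
  simp only [mul_assoc]
  rw [← h]
  change ∏ q, (x - a q) = ∏ q, (Polynomial.eval x ∘ (fun t => Polynomial.X - Polynomial.C t) ∘ a) q
  simp

/-- Every `a j` is a root of the monic polynomial built from the elementary symmetric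
functions. -/
theorem sum_esymm_mul_pow_eq_zero {ι R : Type*} [Fintype ι] [CommRing R] (a : ι → R) (j : ι) :
    ∑ i ∈ range (Fintype.card ι + 1),
      (-1) ^ i * (∑ t ∈ (univ : Finset ι).powersetCard i, ∏ q ∈ t, a q) *
        a j ^ (Fintype.card ι - i) = 0 := by
  rw [← prod_sub_eq_sum_esymm a (a j)]
  exact prod_eq_zero (mem_univ j) (sub_self _)

end Algebra

section Monic

variable [SlashInvariantFormClass F 𝒢 k]

theorem quotientFunc_one : quotientFunc f ((1 : ℋ) : 𝒬) = f := by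
  change quotientFunc f ⟦(1 : ℋ)⟧ = f
  rw [quotientFunc_mk]
  simp

variable (ℋ) [𝒢.IsFiniteRelIndex ℋ]

theorem esymmFun_zero : esymmFun ℋ f 0 = 1 := by
  let := Fintype.ofFinite 𝒬
  rw [esymmFun_def]
  simp

/-- (I.c) Every translate of `f` is a root of the monic polynomial whose coefficients are the
elementary symmetric functions of the translates. -/
theorem sum_esymmFun_mul_quotientFunc_pow (q : 𝒬) (τ : ℍ) :
    ∑ i ∈ range (Nat.card 𝒬 + 1),
      (-1) ^ i * esymmFun ℋ f i τ * quotientFunc f q τ ^ (Nat.card 𝒬 - i) = 0 := by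
  let := Fintype.ofFinite 𝒬
  rw [Nat.card_eq_fintype_card]
  simp only [esymmFun_apply]
  exact sum_esymm_mul_pow_eq_zero (fun q => quotientFunc f q τ) q

/-- (I.c) for `f` itself. -/
theorem sum_esymmFun_mul_pow (τ : ℍ) :
    ∑ i ∈ range (Nat.card 𝒬 + 1),
      (-1) ^ i * esymmFun ℋ f i τ * f τ ^ (Nat.card 𝒬 - i) = 0 := by
  have := sum_esymmFun_mul_quotientFunc_pow ℋ f ((1 : ℋ) : 𝒬) τ
  rwa [quotientFunc_one] at this

/-- (I.d) The relation with a multiplier: if `P τ = D τ * f τ` then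
`∑ i, (-1)^i e_i D^i P^(μ-i) = 0`. -/
theorem sum_esymmFun_mul_pow_of_eq_mul {P D : ℍ → ℂ} (τ : ℍ) (hP : P τ = D τ * f τ) :
    ∑ i ∈ range (Nat.card 𝒬 + 1),
      (-1) ^ i * esymmFun ℋ f i τ * D τ ^ i * P τ ^ (Nat.card 𝒬 - i) = 0 := by
  have h := congrArg (fun x => D τ ^ Nat.card 𝒬 * x) (sum_esymmFun_mul_pow ℋ f τ)
  simp only [mul_zero, mul_sum] at h
  rw [← h]
  refine sum_congr rfl fun i hi => ?_
  have hi' : i ≤ Nat.card 𝒬 := Nat.lt_succ_iff.mp (mem_range.mp hi)
  rw [hP, mul_pow]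
  conv_rhs => rw [← Nat.add_sub_cancel' hi', pow_add]
  rw [Nat.add_sub_cancel' hi']
  ring

/-- Monic shape of (I.c): `f^μ + ∑_{i<μ} (-1)^(i+1) e_{i+1} f^(μ-1-i) = 0`. -/
theorem pow_add_sum_esymmFun_mul_pow (τ : ℍ) :
    f τ ^ Nat.card 𝒬 + ∑ i ∈ range (Nat.card 𝒬),
      (-1) ^ (i + 1) * esymmFun ℋ f (i + 1) τ * f τ ^ (Nat.card 𝒬 - 1 - i) = 0 := by
  have h := sum_esymmFun_mul_pow ℋ f τ
  rw [sum_range_succ'] at h
  rw [← h, esymmFun_zero]
  simp only [pow_zero, Pi.one_apply, one_mul, Nat.sub_zero, add_comm (f τ ^ _)]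
  congr 1
  refine sum_congr rfl fun i _ => ?_
  rw [Nat.sub_sub, add_comm 1 i]

end Monic

end

end Fermat.Agent.S23.helper246
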