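import Mathlib

/-!
# Pure algebra behind package (T) of the S23 plan

Over an arbitrary commutative ring `R`, for finite families `a b : ι → R`:

* Hankel–Cramer identity: with `H i j = ∑ q, a q ^ (i + j)` and `t i = ∑ q, b q * a q ^ i`
  (`i j : Fin n`, `n = card ι`),  `det H * b q = ∑ j, cramer H t j * a q ^ j`, and
  `det H = (Vandermonde determinant)^2`.
* Lagrange identities: `b q₀ * ∏_{q ≠ q₀} (a q₀ - a q)` as a combination of the power traces
  `∑ q, b q * a q ^ m` (coefficients: polynomials in `a q₀` and the elementary symmetric functions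
  of `a`), and as a polynomial in `a q₀` whose coefficients are the mixed sums
  `∑ q, b q * esymm_i (a q' : q' ≠ q)`.
-/

namespace Fermat.Agent.S23.helper246

open Finset Matrix

section Hankel

variable {R : Type*} [CommRing R] {ι : Type*} [Fintype ι] {n : ℕ}

/-- The Hankel matrix of power sums of `a`. -/
def hankel (a : ι → R) (n : ℕ) : Matrix (Fin n) (Fin n) R :=
  fun i j => ∑ q, a q ^ ((i : ℕ) + (j : ℕ))

/-- The vector of mixed traces `∑ q, b q * a q ^ i`. -/
def mixedTrace (a b : ι → R) (n : ℕ) : Fin n → R :=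
  fun i => ∑ q, b q * a q ^ (i : ℕ)

/-- The square "Vandermonde" matrix `W i j = a (e.symm j) ^ i`. -/
def vdm (a : ι → R) (e : ι ≃ Fin n) : Matrix (Fin n) (Fin n) R :=
  fun i j => a (e.symm j) ^ (i : ℕ)

theorem hankel_eq_vdm_mul (a : ι → R) (e : ι ≃ Fin n) :
    hankel a n = vdm a e * (vdm a e)ᵀ := by
  ext i j
  simp only [hankel, vdm, Matrix.mul_apply, Matrix.transpose_apply]
  rw [← Equiv.sum_comp e.symm]
  exact sum_congr rfl fun x _ => pow_add _ _ _

theorem mixedTrace_eq_vdm_mulVec (a b : ι → R) (e : ι ≃ Fin n) :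
    mixedTrace a b n = (vdm a e).mulVec (b ∘ e.symm) := by
  ext i
  simp only [mixedTrace, vdm, Matrix.mulVec, dotProduct, Function.comp_apply]
  rw [← Equiv.sum_comp e.symm]
  exact sum_congr rfl fun x _ => mul_comm _ _

omit [Fintype ι] in
theorem vdm_eq_vandermonde_transpose (a : ι → R) (e : ι ≃ Fin n) :
    vdm a e = (Matrix.vandermonde (a ∘ e.symm))ᵀ := by
  ext i j
  simp [vdm, Matrix.vandermonde_apply]

theorem det_hankel (a : ι → R) (e : ι ≃ Fin n) :
    (hankel a n).det = (∏ i : Fin n, ∏ j ∈ Ioi i, (a (e.symm j) - a (e.symm i))) ^ 2 := by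
  rw [hankel_eq_vdm_mul a e, Matrix.det_mul, Matrix.det_transpose, vdm_eq_vandermonde_transpose,
    Matrix.det_transpose, Matrix.det_vandermonde, sq]
  rfl

/-- **Hankel–Cramer identity.** -/
theorem det_hankel_mul (a b : ι → R) (e : ι ≃ Fin n) (q : ι) :
    (hankel a n).det * b q =
      ∑ j : Fin n, (hankel a n).cramer (mixedTrace a b n) j * a q ^ (j : ℕ) := by
  classical
  have h1 : (hankel a n).cramer (mixedTrace a b n) =
      (vdm a e).det • ((vdm a e)ᵀ).adjugate.mulVec (b ∘ e.symm) := by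
    rw [Matrix.cramer_eq_adjugate_mulVec, hankel_eq_vdm_mul a e, mixedTrace_eq_vdm_mulVec a b e,
      Matrix.adjugate_mul_distrib, Matrix.mulVec_mulVec, Matrix.mul_assoc, Matrix.adjugate_mul,
      Matrix.mul_smul, Matrix.mul_one, Matrix.smul_mulVec]
  have h2 : ∑ j : Fin n, (hankel a n).cramer (mixedTrace a b n) j * a q ^ (j : ℕ) =
      ((vdm a e)ᵀ.mulVec ((hankel a n).cramer (mixedTrace a b n))) (e q) := by
    simp only [Matrix.mulVec, dotProduct, Matrix.transpose_apply, vdm, Equiv.symm_apply_apply]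
    exact sum_congr rfl fun j _ => mul_comm _ _
  rw [h2, h1, Matrix.mulVec_smul, Matrix.mulVec_mulVec, Matrix.mul_adjugate, Matrix.smul_mulVec,
    Matrix.one_mulVec, hankel_eq_vdm_mul a e, Matrix.det_mul, Matrix.det_transpose]
  simp [mul_assoc]

end Hankel

section Lagrange

variable {R : Type*} [CommRing R] {ι : Type*} [Fintype ι] [DecidableEq ι]

/-- Only the term `q = q₀` survives in `∑ q, b q * ∏_{q' ≠ q} (a q₀ - a q')`. -/
theorem sum_mul_prod_erase (a b : ι → R) (q0 : ι) :
    ∑ q, b q * ∏ q' ∈ univ.erase q, (a q0 - a q') =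
      b q0 * ∏ q' ∈ univ.erase q0, (a q0 - a q') := by
  refine sum_eq_single q0 (fun q _ hq => ?_) (fun h => absurd (mem_univ q0) h)
  rw [prod_eq_zero (i := q0) (mem_erase.mpr ⟨fun h => hq h.symm, mem_univ q0⟩) (sub_self _),
    mul_zero]

/-- Only the term `q = q₀` survives in `∑ q, b q * ∏_{q' ≠ q₀} (a q - a q')`. -/
theorem sum_mul_prod_erase' (a b : ι → R) (q0 : ι) :
    ∑ q, b q * ∏ q' ∈ univ.erase q0, (a q - a q') =
      b q0 * ∏ q' ∈ univ.erase q0, (a q0 - a q') := by
  refine sum_eq_single q0 (fun q _ hq => ?_) (fun h => absurd (mem_univ q0) h)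
  rw [prod_eq_zero (i := q) (mem_erase.mpr ⟨hq, mem_univ q⟩) (sub_self _), mul_zero]

omit [Fintype ι] [DecidableEq ι] in
/-- Vieta over a finset. -/
theorem prod_finset_sub_eq_sum_esymm (s : Finset ι) (a : ι → R) (x : R) :
    ∏ q ∈ s, (x - a q) = ∑ i ∈ range (#s + 1),
      (-1) ^ i * (∑ t ∈ s.powersetCard i, ∏ q ∈ t, a q) * x ^ (#s - i) := by
  have h := congrArg (Polynomial.eval x) (Multiset.prod_X_sub_X_eq_sum_esymm (s.val.map a))
  simp only [Multiset.map_map, Polynomial.eval_multiset_prod, Multiset.card_map, card_val,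
    Polynomial.eval_finsetSum, Polynomial.eval_mul, Polynomial.eval_pow,
    Polynomial.eval_neg, Polynomial.eval_one, Polynomial.eval_C, Polynomial.eval_X,
    Finset.esymm_map_val] at h
  simp only [mul_assoc]
  rw [← h]
  change ∏ q ∈ s, (x - a q) =
    ∏ q ∈ s, (Polynomial.eval x ∘ (fun t => Polynomial.X - Polynomial.C t) ∘ a) q
  simp

/-- **Lagrange identity, mixed-sum shape.**  `b q₀ * ∏_{q ≠ q₀} (a q₀ - a q)` is a polynomial in
`a q₀` whose coefficients are the mixed sums `∑ q, b q * esymm_i (a q' : q' ≠ q)`. -/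
theorem lagrange_mixed (a b : ι → R) (q0 : ι) :
    b q0 * ∏ q ∈ univ.erase q0, (a q0 - a q) =
      ∑ i ∈ range (Fintype.card ι),
        (-1) ^ i * (∑ q, b q * ∑ t ∈ (univ.erase q).powersetCard i, ∏ q' ∈ t, a q') *
          a q0 ^ (Fintype.card ι - 1 - i) := by
  have hpos : Fintype.card ι - 1 + 1 = Fintype.card ι :=
    Nat.sub_add_cancel (Fintype.card_pos_iff.mpr ⟨q0⟩)
  have hcard' : ∀ q : ι, #(univ.erase q) = Fintype.card ι - 1 := fun q => by
    rw [card_erase_of_mem (mem_univ q), card_univ]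
  rw [← sum_mul_prod_erase a b q0]
  simp only [prod_finset_sub_eq_sum_esymm, hcard', hpos, mul_sum, sum_mul]
  rw [sum_comm]
  refine sum_congr rfl fun i _ => sum_congr rfl fun q _ => sum_congr rfl fun t _ => ?_
  ring

/-- The derivative shape of the denominator: `∏_{q ≠ q₀} (a q₀ - a q)` as a polynomial in
`a q₀` whose coefficients are the sums `∑ q, esymm_i (a q' : q' ≠ q)`. -/
theorem prod_erase_eq_sum (a : ι → R) (q0 : ι) :
    ∏ q ∈ univ.erase q0, (a q0 - a q) =
      ∑ i ∈ range (Fintype.card ι),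
        (-1) ^ i * (∑ q, ∑ t ∈ (univ.erase q).powersetCard i, ∏ q' ∈ t, a q') *
          a q0 ^ (Fintype.card ι - 1 - i) := by
  have := lagrange_mixed a (fun _ => 1) q0
  simpa using this

/-- The coefficients of `∏_{q ≠ q₀} (X - a q)` in terms of `a q₀` and the elementary symmetric
functions of the whole family (synthetic division of `∏_q (X - a q)` by `X - a q₀`). -/
theorem coeff_prod_erase (a : ι → R) (q0 : ι) (m : ℕ) :
    (∏ q ∈ univ.erase q0, (Polynomial.X - Polynomial.C (a q))).coeff m =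
      ∑ i ∈ range (Fintype.card ι - m),
        (-1) ^ i * (∑ t ∈ (univ : Finset ι).powersetCard i, ∏ q ∈ t, a q) *
          a q0 ^ (Fintype.card ι - 1 - m - i) := by
  rcases subsingleton_or_nontrivial R with hR | hR
  · exact Subsingleton.elim _ _
  set Φ : Polynomial R := ((univ : Finset ι).val.map fun q => Polynomial.X - Polynomial.C (a q)).prod
    with hΦ
  have hΦ' : Φ = ((univ : Finset ι).val.map a |>.map fun t => Polynomial.X - Polynomial.C t).prod := by
    rw [hΦ, Multiset.map_map]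
    rfl
  have hdeg : Φ.natDegree = Fintype.card ι := by
    rw [hΦ', Polynomial.natDegree_multiset_prod_X_sub_C_eq_card]
    simp
  have hcoeff : ∀ i ≤ Fintype.card ι, Φ.coeff i = (-1) ^ (Fintype.card ι - i) *
      ∑ t ∈ (univ : Finset ι).powersetCard (Fintype.card ι - i), ∏ q ∈ t, a q := by
    intro i hi
    rw [hΦ', Multiset.prod_X_sub_C_coeff _ (by simpa using hi)]
    simp [Finset.esymm_map_val]
  have hfac : Φ = (Polynomial.X - Polynomial.C (a q0)) *
      ∏ q ∈ univ.erase q0, (Polynomial.X - Polynomial.C (a q)) := by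
    rw [hΦ]
    change ∏ q, (Polynomial.X - Polynomial.C (a q)) = _
    rw [← mul_prod_erase univ _ (mem_univ q0)]
  have hdiv : ∏ q ∈ univ.erase q0, (Polynomial.X - Polynomial.C (a q)) =
      Φ /ₘ (Polynomial.X - Polynomial.C (a q0)) := by
    rw [hfac, Polynomial.mul_divByMonic_cancel_left _ (Polynomial.monic_X_sub_C _)]
  rw [hdiv, Polynomial.coeff_divByMonic_X_sub_C, hdeg]
  refine sum_nbij' (fun i => Fintype.card ι - i) (fun j => Fintype.card ι - j) ?_ ?_ ?_ ?_ ?_
  · intro i hi
    simp only [mem_Icc, mem_range] at hi ⊢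
    omega
  · intro j hj
    simp only [mem_Icc, mem_range] at hj ⊢
    omega
  · intro i hi
    simp only [mem_Icc] at hi
    omega
  · intro j hj
    simp only [mem_range] at hj
    omega
  · intro i hi
    simp only [mem_Icc] at hi
    rw [hcoeff i hi.2]
    have : Fintype.card ι - 1 - m - (Fintype.card ι - i) = i - (m + 1) := by omega
    rw [this]
    ring

/-- **Lagrange identity, trace shape.**  `b q₀ * ∏_{q ≠ q₀} (a q₀ - a q) = ∑_{m<μ} c_m * T_m`
with `T_m = ∑ q, b q * a q ^ m` and
`c_m = ∑_{i < μ - m} (-1)^i e_i(a) (a q₀)^(μ - 1 - m - i)`. -/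
theorem lagrange_trace (a b : ι → R) (q0 : ι) :
    b q0 * ∏ q ∈ univ.erase q0, (a q0 - a q) =
      ∑ m ∈ range (Fintype.card ι),
        (∑ i ∈ range (Fintype.card ι - m),
          (-1) ^ i * (∑ t ∈ (univ : Finset ι).powersetCard i, ∏ q ∈ t, a q) *
            a q0 ^ (Fintype.card ι - 1 - m - i)) * ∑ q, b q * a q ^ m := by
  rcases subsingleton_or_nontrivial R with hR | hR
  · exact Subsingleton.elim _ _
  set G : Polynomial R := ∏ q ∈ univ.erase q0, (Polynomial.X - Polynomial.C (a q)) with hG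
  have hdeg : G.natDegree < Fintype.card ι := by
    have h1 : G.natDegree ≤ ∑ q ∈ univ.erase q0, (Polynomial.X - Polynomial.C (a q)).natDegree :=
      Polynomial.natDegree_prod_le _ _
    have h2 : ∑ q ∈ univ.erase q0, (Polynomial.X - Polynomial.C (a q)).natDegree =
        Fintype.card ι - 1 := by
      simp [card_erase_of_mem, card_univ]
    have h3 : 0 < Fintype.card ι := Fintype.card_pos_iff.mpr ⟨q0⟩
    omega
  have heval : ∀ x : R, ∏ q' ∈ univ.erase q0, (x - a q') =
      ∑ m ∈ range (Fintype.card ι), G.coeff m * x ^ m := by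
    intro x
    rw [← Polynomial.eval_eq_sum_range' hdeg x, hG, Polynomial.eval_prod]
    simp
  rw [← sum_mul_prod_erase' a b q0]
  calc ∑ q, b q * ∏ q' ∈ univ.erase q0, (a q - a q')
      = ∑ q, b q * ∑ m ∈ range (Fintype.card ι), G.coeff m * a q ^ m := by
        simp only [heval]
    _ = ∑ m ∈ range (Fintype.card ι), G.coeff m * ∑ q, b q * a q ^ m := by
        simp only [mul_sum]
        rw [sum_comm]
        exact sum_congr rfl fun m _ => sum_congr rfl fun q _ => by ring
    _ = _ := by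
        refine sum_congr rfl fun m _ => ?_
        rw [hG, coeff_prod_erase a q0 m]

end Lagrange

end Fermat.Agent.S23.helper246
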