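import Mathlib
import Fermat.Prelude.Thm_CongruenceSubgroup_one_mem_strictPeriods_Gamma0
import Fermat.Agent.S20.helper200_Separation
import Fermat.Agent.S23.helper83_LevelOne

/-!
# S23, package (P.b): the `q`-expansion of the separating form `N ^ 3 * E₄ (N z)` is integral

`Fermat.Agent.S20.helper200.sepForm N : ModularForm Γ₀(N) 4` is the form `z ↦ N ^ 3 * E₄ (N z)`,
whose `SL(2, ℤ)`-translates are pairwise distinct (`helper200.quotientFunc_sepForm_injective`).
Here we compute its `q`-expansion (period `1`):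
`coeff n = if N ∣ n then N ^ 3 * (qExpansion 1 E₄).coeff (n / N) else 0`,
and deduce that it has integer coefficients (`∈ helper83.intPS`), hence is fixed by
`PowerSeries.map σ` for every ring hom `σ : ℂ →+* ℂ`.
-/

set_option autoImplicit false

open UpperHalfPlane ModularForm EisensteinSeries Filter Topology
open scoped MatrixGroups Manifold

namespace Fermat.Agent.S23.helper286

open Fermat.Agent.S20.helper200

/-- The underlying complex number of `diag(N,1) • z` is `N * z`. -/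
lemma coe_alpha_smul (N : ℕ) [NeZero N] (z : ℍ) : ((alpha N • z : ℍ) : ℂ) = (N : ℂ) * z := by
  have hdet : 0 < (alpha N).det.val := by
    have hN : (0 : ℝ) < N := by exact_mod_cast Nat.pos_of_ne_zero (NeZero.ne N)
    rw [alpha, ut_det]
    simpa using hN
  rw [UpperHalfPlane.coe_smul_of_det_pos hdet]
  simp [alpha, num, denom, ut_val]

/-- Pointwise formula: `sepFun N z = N ^ 3 * E₄ (diag(N,1) • z)`. -/
lemma sepFun_apply (N : ℕ) [NeZero N] (z : ℍ) :
    sepFun N z = (N : ℂ) ^ 3 * E₄ (alpha N • z) := by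
  have hN : (0 : ℝ) < N := by exact_mod_cast Nat.pos_of_ne_zero (NeZero.ne N)
  have h := slash_ut (⇑E₄ : ℍ → ℂ) 4 N 0 1 hN one_pos z
  have h' : sepFun N z = (⇑E₄ : ℍ → ℂ) (alpha N • z) * (((N : ℝ) * 1 : ℝ) : ℂ) ^ ((4 : ℤ) - 1)
      * ((1 : ℝ) : ℂ) ^ (-(4 : ℤ)) := h
  rw [h']
  have e1 : ((4 : ℤ) - 1) = ((3 : ℕ) : ℤ) := by norm_num
  rw [e1, zpow_natCast]
  simp
  ring

/-- `q(N z) = q(z) ^ N` for the parameter `q = exp (2 π i z)`. -/
lemma qParam_alpha_smul (N : ℕ) [NeZero N] (z : ℍ) :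
    Function.Periodic.qParam 1 ((alpha N • z : ℍ) : ℂ) = Function.Periodic.qParam 1 (z : ℂ) ^ N := by
  rw [coe_alpha_smul]
  simp only [Function.Periodic.qParam]
  rw [← Complex.exp_nat_mul]
  congr 1
  push_cast
  ring

/-- The `q`-series of `sepFun N` converges to it on all of `ℍ`. -/
theorem hasSum_sepFun (N : ℕ) [NeZero N] (τ : ℍ) :
    HasSum (fun n : ℕ => (if N ∣ n then (N : ℂ) ^ 3 * (qExpansion 1 E₄).coeff (n / N) else 0) •
      Function.Periodic.qParam 1 (τ : ℂ) ^ n) (sepFun N τ) := by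
  have hNpos : 0 < N := Nat.pos_of_ne_zero (NeZero.ne N)
  have h1 := ModularForm.hasSum_qExpansion (h := 1) E₄ one_pos one_mem_strictPeriods_SL
    (alpha N • τ)
  rw [qParam_alpha_smul] at h1
  have h2 := h1.mul_left ((N : ℂ) ^ 3)
  rw [← sepFun_apply] at h2
  -- reindex along `m ↦ N * m`
  have hinj : Function.Injective (fun m : ℕ => N * m) := fun a b hab =>
    Nat.eq_of_mul_eq_mul_left hNpos hab
  refine (hinj.hasSum_iff (f := fun n : ℕ =>
      (if N ∣ n then (N : ℂ) ^ 3 * (qExpansion 1 E₄).coeff (n / N) else 0) •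
        Function.Periodic.qParam 1 (τ : ℂ) ^ n) (a := sepFun N τ) ?_).mp ?_
  · intro n hn
    have : ¬ N ∣ n := by
      rintro ⟨m, rfl⟩
      exact hn ⟨m, rfl⟩
    simp [this]
  · have hfun : ((fun n : ℕ =>
        (if N ∣ n then (N : ℂ) ^ 3 * (qExpansion 1 E₄).coeff (n / N) else 0) •
          Function.Periodic.qParam 1 (τ : ℂ) ^ n) ∘ fun m : ℕ => N * m)
        = fun i : ℕ => (N : ℂ) ^ 3 * ((qExpansion 1 E₄).coeff i *
            (Function.Periodic.qParam 1 (τ : ℂ) ^ N) ^ i) := by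
      funext m
      simp only [Function.comp_apply, dvd_mul_right, if_true, Nat.mul_div_cancel_left m hNpos,
        smul_eq_mul, pow_mul]
      ring
    rw [hfun]
    exact h2

/-- The `q`-expansion coefficients of `sepForm N` (`= N ^ 3 * E₄ (N z)`). -/
theorem qExpansion_sepForm_coeff (N : ℕ) [NeZero N] (n : ℕ) :
    (qExpansion 1 (sepForm N)).coeff n =
      if N ∣ n then (N : ℂ) ^ 3 * (qExpansion 1 E₄).coeff (n / N) else 0 := by
  have h := ModularFormClass.qExpansion_coeff_unique (h := 1) one_pos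
    (CongruenceSubgroup.one_mem_strictPeriods_Gamma0 N) (f := sepForm N)
    (c := fun n : ℕ => if N ∣ n then (N : ℂ) ^ 3 * (qExpansion 1 E₄).coeff (n / N) else 0)
    (fun τ => hasSum_sepFun N τ) n
  exact h.symm

/-- **(P.b)** The `q`-expansion of `sepForm N` has integer coefficients. -/
theorem qExpansion_sepForm_mem_intPS (N : ℕ) [NeZero N] :
    qExpansion 1 (sepForm N) ∈ Fermat.Agent.S23.helper83.intPS := by
  rw [Fermat.Agent.S23.helper83.mem_intPS_iff]
  intro n
  rw [qExpansion_sepForm_coeff]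
  have hE : qExpansion 1 E₄ ∈ Fermat.Agent.S23.helper83.intPS :=
    Fermat.Agent.S23.helper83.E₄_mem_intForms
  rw [Fermat.Agent.S23.helper83.mem_intPS_iff] at hE
  split_ifs with hdiv
  · obtain ⟨m, hm⟩ := hE (n / N)
    exact ⟨(N : ℤ) ^ 3 * m, by rw [hm]; push_cast; ring⟩
  · exact ⟨0, by simp⟩

/-- Coefficientwise version of **(P.b)**. -/
theorem qExpansion_sepForm_coeff_int (N : ℕ) [NeZero N] (n : ℕ) :
    ∃ m : ℤ, (qExpansion 1 (sepForm N)).coeff n = (m : ℂ) :=
  (Fermat.Agent.S23.helper83.mem_intPS_iff _).1 (qExpansion_sepForm_mem_intPS N) n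

/-- The `q`-expansion of `sepForm N` is fixed by every coefficientwise ring hom. -/
theorem map_qExpansion_sepForm (N : ℕ) [NeZero N] (σ : ℂ →+* ℂ) :
    PowerSeries.map σ (qExpansion 1 (sepForm N)) = qExpansion 1 (sepForm N) :=
  Fermat.Agent.S23.helper83.map_eq_of_mem_intPS σ (qExpansion_sepForm_mem_intPS N)

/-- Integer power series form of **(P.b)**. -/
theorem exists_int_qExpansion_sepForm (N : ℕ) [NeZero N] :
    ∃ P : PowerSeries ℤ, PowerSeries.map (Int.castRingHom ℂ) P = qExpansion 1 (sepForm N) :=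
  qExpansion_sepForm_mem_intPS N

/-- Rational-coefficient form of **(P.b)**. -/
theorem qExpansion_sepForm_coeff_rat (N : ℕ) [NeZero N] (n : ℕ) :
    ∃ r : ℚ, (qExpansion 1 (sepForm N)).coeff n = (r : ℂ) := by
  obtain ⟨m, hm⟩ := qExpansion_sepForm_coeff_int N n
  exact ⟨m, by rw [hm]; push_cast; rfl⟩

/-- **Package (P)** for `Γ₀(N)` in one statement: a weight `4` form `w` on `Γ₀(N)`
(namely `w = helper200.sepForm N`, `w z = N ^ 3 * E₄ (N z)`) with
(P.b) integral `q`-expansion, (P.d) stabiliser exactly `Γ₀(N)` and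
(P.e) pairwise distinct `SL(2, ℤ)`-translates. -/
theorem exists_primElt (N : ℕ) [NeZero N] :
    ∃ w : ModularForm (CongruenceSubgroup.Gamma0 N) 4,
      qExpansion 1 w ∈ Fermat.Agent.S23.helper83.intPS ∧
      (∀ σ : ℂ →+* ℂ, PowerSeries.map σ (qExpansion 1 w) = qExpansion 1 w) ∧
      (∀ γ : SL(2, ℤ), (⇑w ∣[(4 : ℤ)] γ) = ⇑w → γ ∈ CongruenceSubgroup.Gamma0 N) ∧
      Function.Injective
        (fun q : ↥𝒮ℒ ⧸ ((CongruenceSubgroup.Gamma0 N : Subgroup (GL (Fin 2) ℝ))).subgroupOf 𝒮ℒ =>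
          SlashInvariantForm.quotientFunc w q) :=
  ⟨sepForm N, qExpansion_sepForm_mem_intPS N, fun σ => map_qExpansion_sepForm N σ,
    fun γ h => mem_Gamma0_of_sepFun_slash_eq N γ h, quotientFunc_sepForm_injective N⟩

end Fermat.Agent.S23.helper286
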