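import Mathlib.NumberTheory.ModularForms.NormTrace
import Mathlib.RingTheory.Polynomial.Vieta

set_option autoImplicit false

noncomputable section

open UpperHalfPlane Finset

open scoped ModularForm Topology Filter Manifold MatrixGroups

namespace Fermat.Agent.S23.helper383

variable {𝒢 ℋ : Subgroup (GL (Fin 2) ℝ)} {F : Type*} (f : F) [FunLike F ℍ ℂ] {k : ℤ}

local notation "𝒬" => ℋ ⧸ (𝒢.subgroupOf ℋ)

open SlashInvariantForm

/-- Reindexing a sum over `j`-element subsets along a permutation of the ambient fintype. -/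
theorem sum_powersetCard_map_equiv {α M : Type*} [Fintype α] [AddCommMonoid M] (e : α ≃ α)
    (j : ℕ) (g : Finset α → M) :
    ∑ S ∈ (univ : Finset α).powersetCard j, g (S.map e.toEmbedding) =
      ∑ S ∈ (univ : Finset α).powersetCard j, g S := by
  have h := Finset.powersetCard_map e.toEmbedding j (univ : Finset α)
  rw [Finset.map_univ_equiv] at h
  conv_rhs => rw [h]
  rw [Finset.sum_map]
  rfl

section SIF

variable [SlashInvariantFormClass F 𝒢 k] (ℋ) [𝒢.IsFiniteRelIndex ℋ]

/-- The `j`-th elementary symmetric function of the translates of `f`, as a function. -/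
def esymmFun (j : ℕ) : ℍ → ℂ :=
  let := Fintype.ofFinite 𝒬
  ∑ S ∈ (univ : Finset 𝒬).powersetCard j, ∏ q ∈ S, quotientFunc f q

theorem esymmFun_slash [ℋ.HasDetPlusMinusOne] (j : ℕ) {h : GL (Fin 2) ℝ} (hh : h ∈ ℋ) :
    esymmFun ℋ f j ∣[k * j] h = esymmFun ℋ f j := by
  let := Fintype.ofFinite 𝒬
  unfold esymmFun
  rw [SlashAction.sum_slash]
  have key : ∀ S ∈ (univ : Finset 𝒬).powersetCard j,
      (∏ q ∈ S, quotientFunc f q) ∣[k * j] h =
        ∏ q ∈ S.map (MulAction.toPerm ((⟨h, hh⟩ : ℋ)⁻¹)).toEmbedding, quotientFunc f q := by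
    intro S hS
    have hc : #S = j := (Finset.mem_powersetCard.mp hS).2
    rw [← hc, ModularForm.prod_slash, Finset.prod_map]
    simp [quotientFunc_smul f hh, Subgroup.HasDetPlusMinusOne.abs_det hh,
      -Matrix.GeneralLinearGroup.val_det_apply]
  rw [Finset.sum_congr rfl key]
  exact sum_powersetCard_map_equiv (MulAction.toPerm ((⟨h, hh⟩ : ℋ)⁻¹)) j
    (fun S => ∏ q ∈ S, quotientFunc f q)

/-- The `j`-th elementary symmetric function of the translates of a slash-invariant form,
as a slash-invariant form of weight `k * j` for the bigger group. -/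
def esymmSIF [ℋ.HasDetPlusMinusOne] (j : ℕ) : SlashInvariantForm ℋ (k * j) where
  toFun := esymmFun ℋ f j
  slash_action_eq' _ hh := esymmFun_slash ℋ f j hh

@[simp] theorem coe_esymmSIF [ℋ.HasDetPlusMinusOne] (j : ℕ) :
    ⇑(esymmSIF ℋ f j) = esymmFun ℋ f j := rfl

end SIF

section MF

variable (ℋ) [𝒢.IsFiniteRelIndex ℋ]

theorem mdifferentiable_esymmFun [ModularFormClass F 𝒢 k] (j : ℕ) :
    MDifferentiable 𝓘(ℂ) 𝓘(ℂ) (esymmFun ℋ f j) := by
  let := Fintype.ofFinite 𝒬
  unfold esymmFun
  refine MDifferentiable.sum fun S _ => MDifferentiable.prod fun q _ => ?_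
  induction q using Quotient.inductionOn with
  | h r => exact (ModularForm.translate f r.val⁻¹).holo'

theorem isBoundedAtImInfty_slash_esymmFun [ℋ.HasDetPlusMinusOne] [ModularFormClass F 𝒢 k]
    (j : ℕ) {γ : GL (Fin 2) ℝ} (hc : IsCusp (γ • OnePoint.infty) ℋ) :
    IsBoundedAtImInfty (esymmFun ℋ f j ∣[k * j] γ) := by
  let := Fintype.ofFinite 𝒬
  unfold esymmFun
  rw [SlashAction.sum_slash]
  refine (Filter.boundedFilterSubalgebra ℂ atImInfty).sum_mem fun S hS => ?_
  have hcard : #S = j := (Finset.mem_powersetCard.mp hS).2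
  rw [← hcard, ModularForm.prod_slash]
  refine Filter.BoundedAtFilter.smul _ (Filter.BoundedAtFilter.prod S fun q _ => ?_)
  induction q using Quotient.inductionOn with
  | h r =>
    obtain ⟨r, hr⟩ := r
    refine (ModularForm.translate f _).bdd_at_cusps' ?_ γ rfl
    simpa using hc.of_isFiniteRelIndex_conj hr

/-- The `j`-th elementary symmetric function of the translates of a modular form, as a modular
form of weight `k * j` for the bigger group. -/
def esymmForm [ℋ.HasDetPlusMinusOne] [ModularFormClass F 𝒢 k] (j : ℕ) : ModularForm ℋ (k * j) where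
  __ := esymmSIF ℋ f j
  holo' := mdifferentiable_esymmFun ℋ f j
  bdd_at_cusps' hc γ := by
    rintro rfl
    exact isBoundedAtImInfty_slash_esymmFun ℋ f j hc

@[simp] theorem coe_esymmForm [ℋ.HasDetPlusMinusOne] [ModularFormClass F 𝒢 k] (j : ℕ) :
    ⇑(esymmForm ℋ f j) = esymmFun ℋ f j := rfl

theorem isZeroAtImInfty_slash_esymmFun [ℋ.HasDetPlusMinusOne] [CuspFormClass F 𝒢 k]
    {j : ℕ} (hj : j ≠ 0) {γ : GL (Fin 2) ℝ} (hc : IsCusp (γ • OnePoint.infty) ℋ) :
    IsZeroAtImInfty (esymmFun ℋ f j ∣[k * j] γ) := by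
  let := Fintype.ofFinite 𝒬
  classical
  unfold esymmFun
  rw [SlashAction.sum_slash]
  refine (Filter.zeroAtFilterSubmodule ℂ atImInfty).sum_mem fun S hS => ?_
  have hcard : #S = j := (Finset.mem_powersetCard.mp hS).2
  rw [← hcard, ModularForm.prod_slash]
  refine Filter.ZeroAtFilter.smul _ ?_
  have hne : S.Nonempty := Finset.card_pos.mp (by omega)
  obtain ⟨q₀, hq₀⟩ := hne
  rw [← Finset.mul_prod_erase S _ hq₀]
  refine Filter.ZeroAtFilter.mul_boundedAtFilter ?_ (Filter.BoundedAtFilter.prod _ fun q _ => ?_)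
  · induction q₀ using Quotient.inductionOn with
    | h r =>
      obtain ⟨r, hr⟩ := r
      refine (CuspForm.translate f _).zero_at_cusps' ?_ γ rfl
      simpa using hc.of_isFiniteRelIndex_conj hr
  · induction q using Quotient.inductionOn with
    | h r =>
      obtain ⟨r, hr⟩ := r
      refine (ModularForm.translate f _).bdd_at_cusps' ?_ γ rfl
      simpa using hc.of_isFiniteRelIndex_conj hr

/-- The `j`-th elementary symmetric function (`j ≠ 0`) of the translates of a cusp form, as a cusp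
form of weight `k * j` for the bigger group. -/
def esymmCuspForm [ℋ.HasDetPlusMinusOne] [CuspFormClass F 𝒢 k] {j : ℕ} (hj : j ≠ 0) :
    CuspForm ℋ (k * j) where
  __ := esymmSIF ℋ f j
  holo' := mdifferentiable_esymmFun ℋ f j
  zero_at_cusps' hc γ := by
    rintro rfl
    exact isZeroAtImInfty_slash_esymmFun ℋ f hj hc

@[simp] theorem coe_esymmCuspForm [ℋ.HasDetPlusMinusOne] [CuspFormClass F 𝒢 k] {j : ℕ}
    (hj : j ≠ 0) : ⇑(esymmCuspForm ℋ f hj) = esymmFun ℋ f j := rfl

end MF

section Relation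

variable [SlashInvariantFormClass F 𝒢 k] (ℋ) [𝒢.IsFiniteRelIndex ℋ]

theorem esymmFun_apply (j : ℕ) (z : ℍ) :
    esymmFun ℋ f j z =
      (((Fintype.ofFinite 𝒬).elems.val.map fun q => quotientFunc f q z)).esymm j := by
  let := Fintype.ofFinite 𝒬
  unfold esymmFun
  rw [Finset.sum_apply]
  simp_rw [Finset.prod_apply]
  exact (Finset.esymm_map_val (fun q => quotientFunc f q z) univ j).symm

/-- Every translate of `f` is a root of the monic polynomial whose coefficients are the
elementary symmetric functions of the translates. -/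
theorem sum_esymmFun_mul_quotientFunc_pow (q₀ : 𝒬) (z : ℍ) :
    ∑ j ∈ range (Nat.card 𝒬 + 1),
      (-1) ^ j * (esymmFun ℋ f j z * quotientFunc f q₀ z ^ (Nat.card 𝒬 - j)) = 0 := by
  let := Fintype.ofFinite 𝒬
  classical
  set s : Multiset ℂ := (univ : Finset 𝒬).val.map fun q => quotientFunc f q z with hs
  have hcard : Multiset.card s = Nat.card 𝒬 := by
    rw [hs, Multiset.card_map, Nat.card_eq_fintype_card]; rfl
  have h := congrArg (Polynomial.eval (quotientFunc f q₀ z)) (Multiset.prod_X_sub_X_eq_sum_esymm s)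
  rw [Polynomial.eval_finsetSum, hcard] at h
  have hzero : Polynomial.eval (quotientFunc f q₀ z)
      (s.map fun t => Polynomial.X - Polynomial.C t).prod = 0 := by
    rw [Polynomial.eval_multiset_prod]
    apply Multiset.prod_eq_zero
    rw [Multiset.mem_map]
    refine ⟨Polynomial.X - Polynomial.C (quotientFunc f q₀ z), ?_, by simp⟩
    rw [Multiset.mem_map]
    exact ⟨quotientFunc f q₀ z, Multiset.mem_map.mpr ⟨q₀, Finset.mem_univ _, rfl⟩, rfl⟩
  rw [hzero] at h
  rw [h]
  refine Finset.sum_congr rfl fun j _ => ?_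
  simp only [Polynomial.eval_mul, Polynomial.eval_pow, Polynomial.eval_neg, Polynomial.eval_one,
    Polynomial.eval_C, Polynomial.eval_X]
  rw [esymmFun_apply]
  rfl

/-- The monic relation satisfied by `f` itself. -/
theorem sum_esymmFun_mul_pow (z : ℍ) :
    ∑ j ∈ range (Nat.card 𝒬 + 1),
      (-1) ^ j * (esymmFun ℋ f j z * f z ^ (Nat.card 𝒬 - j)) = 0 := by
  have h := sum_esymmFun_mul_quotientFunc_pow ℋ f (⟦(1 : ℋ)⟧ : 𝒬) z
  simpa using h

theorem esymmFun_zero : esymmFun ℋ f 0 = 1 := by
  let := Fintype.ofFinite 𝒬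
  unfold esymmFun
  simp

end Relation

end Fermat.Agent.S23.helper383
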