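/-
S23 package (I), by helper487: elementary symmetric functions of the translates of a modular
form (generic, in the setting of Mathlib `NumberTheory/ModularForms/NormTrace`), and the monic
"characteristic polynomial" relation satisfied by the form.

Main declarations (namespace `Fermat.Agent.S23.helper487`), for subgroups `𝒢 ℋ` of `GL (Fin 2) ℝ`
with `[𝒢.IsFiniteRelIndex ℋ]`, `𝒬 = ℋ ⧸ 𝒢.subgroupOf ℋ`:
* `esymmFun ℋ f i : ℍ → ℂ`      : sum over `i`-subsets `s` of `𝒬` of `∏ q ∈ s, quotientFunc f q`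
* `esymmSIF ℋ f i`, `esymmForm ℋ f i : ModularForm ℋ (k * i)`, `cuspEsymm ℋ f i hi : CuspForm ℋ (k * i)`
* `charpoly_relation`, `charpoly_relation_monic`, `charpoly_relation_quotientFunc`
* `qExpansion_esymmForm_coeff_zero` (level one, cusp forms, `i ≠ 0`)
-/
import Mathlib.NumberTheory.ModularForms.NormTrace
import Mathlib.RingTheory.Polynomial.Vieta

set_option autoImplicit false

namespace Fermat.Agent.S23.helper487

open UpperHalfPlane SlashInvariantForm

open scoped ModularForm Topology Filter Manifold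

noncomputable section

variable {𝒢 ℋ : Subgroup (GL (Fin 2) ℝ)} {F : Type*} (f : F) [FunLike F ℍ ℂ] {k : ℤ}

local notation "𝒬" => ℋ ⧸ (𝒢.subgroupOf ℋ)

section SIF

variable [SlashInvariantFormClass F 𝒢 k]

variable (ℋ) [𝒢.IsFiniteRelIndex ℋ]

/-- The `i`-th elementary symmetric function of the translates of `f`, as a function. -/
def esymmFun (i : ℕ) : ℍ → ℂ :=
  let := Fintype.ofFinite 𝒬
  ∑ s ∈ (Finset.univ : Finset 𝒬).powersetCard i, ∏ q ∈ s, quotientFunc f q

lemma esymmFun_eq [Fintype 𝒬] (i : ℕ) :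
    esymmFun ℋ f i =
      ∑ s ∈ (Finset.univ : Finset 𝒬).powersetCard i, ∏ q ∈ s, quotientFunc f q := by
  unfold esymmFun
  rw [Subsingleton.elim (Fintype.ofFinite 𝒬) ‹Fintype 𝒬›]

lemma esymmFun_apply [Fintype 𝒬] (i : ℕ) (τ : ℍ) :
    esymmFun ℋ f i τ =
      ∑ s ∈ (Finset.univ : Finset 𝒬).powersetCard i, ∏ q ∈ s, quotientFunc f q τ := by
  rw [esymmFun_eq]
  simp [Finset.sum_apply, Finset.prod_apply]

omit [𝒢.IsFiniteRelIndex ℋ] in
/-- slash of a sub-product of translates by an element of `ℋ`. -/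
lemma prod_quotientFunc_slash [ℋ.HasDetPlusMinusOne] {h : GL (Fin 2) ℝ} (hh : h ∈ ℋ)
    (s : Finset 𝒬) :
    (∏ q ∈ s, quotientFunc f q) ∣[k * (s.card : ℤ)] h
      = ∏ q ∈ s.map (MulAction.toPerm (⟨h, hh⟩ : ℋ)⁻¹).toEmbedding, quotientFunc f q := by
  rw [ModularForm.prod_slash, Finset.prod_map]
  simp [quotientFunc_smul f hh, Subgroup.HasDetPlusMinusOne.abs_det hh,
    -Matrix.GeneralLinearGroup.val_det_apply]

/-- The `i`-th elementary symmetric function of the translates of `f`, as a slash-invariant form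
of weight `k * i`. -/
def esymmSIF [ℋ.HasDetPlusMinusOne] (i : ℕ) : SlashInvariantForm ℋ (k * i) where
  toFun := esymmFun ℋ f i
  slash_action_eq' h hh := by
    let := Fintype.ofFinite 𝒬
    rw [esymmFun_eq, SlashAction.sum_slash]
    have key : ∀ s ∈ (Finset.univ : Finset 𝒬).powersetCard i,
        (∏ q ∈ s, quotientFunc f q) ∣[k * (i : ℤ)] h
          = ∏ q ∈ s.map (MulAction.toPerm (⟨h, hh⟩ : ℋ)⁻¹).toEmbedding, quotientFunc f q := by
      intro s hs
      rw [← (Finset.mem_powersetCard.mp hs).2]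
      exact prod_quotientFunc_slash ℋ f hh s
    rw [Finset.sum_congr rfl key]
    refine Finset.sum_equiv (Equiv.finsetCongr (MulAction.toPerm (⟨h, hh⟩ : ℋ)⁻¹)) ?_ ?_
    · intro s
      simp [Finset.mem_powersetCard]
    · intro s _
      rfl

end SIF

section MF

variable (ℋ) [𝒢.IsFiniteRelIndex ℋ]

omit [𝒢.IsFiniteRelIndex ℋ] in
lemma mdifferentiable_quotientFunc [ModularFormClass F 𝒢 k] (q : 𝒬) :
    MDiff (quotientFunc f q) := by
  induction q using Quotient.inductionOn with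
  | h r => exact (ModularForm.translate f r.val⁻¹).holo'

lemma isBoundedAtImInfty_quotientFunc_slash [ModularFormClass F 𝒢 k] {c : OnePoint ℝ}
    (hc : IsCusp c ℋ) (γ : GL (Fin 2) ℝ) (hγ : γ • OnePoint.infty = c) (q : 𝒬) :
    IsBoundedAtImInfty (quotientFunc f q ∣[k] γ) := by
  induction q using Quotient.inductionOn with
  | h r =>
    obtain ⟨r, hr⟩ := r
    refine (ModularForm.translate f _).bdd_at_cusps' ?_ γ hγ
    simpa using hc.of_isFiniteRelIndex_conj hr

lemma isZeroAtImInfty_quotientFunc_slash [CuspFormClass F 𝒢 k] {c : OnePoint ℝ}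
    (hc : IsCusp c ℋ) (γ : GL (Fin 2) ℝ) (hγ : γ • OnePoint.infty = c) (q : 𝒬) :
    IsZeroAtImInfty (quotientFunc f q ∣[k] γ) := by
  induction q using Quotient.inductionOn with
  | h r =>
    obtain ⟨r, hr⟩ := r
    refine (CuspForm.translate f _).zero_at_cusps' ?_ γ hγ
    simpa using hc.of_isFiniteRelIndex_conj hr

/-- slash of the elementary symmetric function by an arbitrary matrix. -/
lemma esymmFun_slash [SlashInvariantFormClass F 𝒢 k] [Fintype 𝒬] (i : ℕ) (γ : GL (Fin 2) ℝ) :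
    esymmFun ℋ f i ∣[k * (i : ℤ)] γ
      = ∑ s ∈ (Finset.univ : Finset 𝒬).powersetCard i,
          |γ.det.val| ^ ((s.card : ℤ) - 1) • ∏ q ∈ s, quotientFunc f q ∣[k] γ := by
  rw [esymmFun_eq, SlashAction.sum_slash]
  refine Finset.sum_congr rfl fun s hs ↦ ?_
  rw [← (Finset.mem_powersetCard.mp hs).2, ModularForm.prod_slash]

/-- The `i`-th elementary symmetric function of the translates of a modular form `f` of weight
`k` for `𝒢`, as a modular form of weight `k * i` for `ℋ`. -/
def esymmForm [ℋ.HasDetPlusMinusOne] [ModularFormClass F 𝒢 k] (i : ℕ) :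
    ModularForm ℋ (k * i) where
  __ := esymmSIF ℋ f i
  holo' := by
    let := Fintype.ofFinite 𝒬
    change MDiff (esymmFun ℋ f i)
    rw [esymmFun_eq]
    exact .sum fun s _ ↦ .prod fun q _ ↦ mdifferentiable_quotientFunc ℋ f q
  bdd_at_cusps' {c} hc γ hγ := by
    let := Fintype.ofFinite 𝒬
    change IsBoundedAtImInfty (esymmFun ℋ f i ∣[k * (i : ℤ)] γ)
    rw [esymmFun_slash]
    refine (Filter.boundedFilterSubmodule ℝ atImInfty).sum_mem fun s _ ↦ ?_
    refine Filter.BoundedAtFilter.smul _ ?_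
    exact Filter.BoundedAtFilter.prod s fun q _ ↦
      isBoundedAtImInfty_quotientFunc_slash ℋ f hc γ hγ q

@[simp] lemma coe_esymmForm [ℋ.HasDetPlusMinusOne] [ModularFormClass F 𝒢 k] (i : ℕ) :
    ⇑(esymmForm ℋ f i) = esymmFun ℋ f i := rfl

/-- For a cusp form `f`, the elementary symmetric functions of positive degree of its translates
vanish at all cusps. -/
lemma isZeroAt_esymmFun [ℋ.HasDetPlusMinusOne] [CuspFormClass F 𝒢 k] {i : ℕ} (hi : i ≠ 0)
    {c : OnePoint ℝ} (hc : IsCusp c ℋ) : c.IsZeroAt (esymmFun ℋ f i) (k * (i : ℤ)) := by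
  intro γ hγ
  let := Fintype.ofFinite 𝒬
  rw [esymmFun_slash]
  refine (Filter.zeroAtFilterSubmodule ℝ atImInfty).sum_mem fun s hs ↦ ?_
  refine Filter.ZeroAtFilter.smul _ ?_
  have hcard : s.card = i := (Finset.mem_powersetCard.mp hs).2
  obtain ⟨q₀, hq₀⟩ : s.Nonempty := by
    rw [← Finset.card_pos, hcard]; exact Nat.pos_of_ne_zero hi
  classical
  rw [← Finset.mul_prod_erase s _ hq₀]
  exact Filter.ZeroAtFilter.mul_boundedAtFilter
    (isZeroAtImInfty_quotientFunc_slash ℋ f hc γ hγ q₀)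
    (Filter.BoundedAtFilter.prod _ fun q _ ↦
      isBoundedAtImInfty_quotientFunc_slash ℋ f hc γ hγ q)

/-- The `i`-th elementary symmetric function (`i ≠ 0`) of the translates of a cusp form `f` of
weight `k` for `𝒢`, as a cusp form of weight `k * i` for `ℋ`. -/
def cuspEsymm [ℋ.HasDetPlusMinusOne] [CuspFormClass F 𝒢 k] (i : ℕ) (hi : i ≠ 0) :
    CuspForm ℋ (k * i) where
  __ := esymmForm ℋ f i
  zero_at_cusps' hc := isZeroAt_esymmFun ℋ f hi hc

@[simp] lemma coe_cuspEsymm [ℋ.HasDetPlusMinusOne] [CuspFormClass F 𝒢 k] (i : ℕ) (hi : i ≠ 0) :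
    ⇑(cuspEsymm ℋ f i hi) = esymmFun ℋ f i := rfl

end MF

section Relation

variable [SlashInvariantFormClass F 𝒢 k]

variable (ℋ) [𝒢.IsFiniteRelIndex ℋ]

omit [𝒢.IsFiniteRelIndex ℋ] in
/-- The translate attached to the trivial coset is the form itself. -/
lemma quotientFunc_one : quotientFunc f (⟦(1 : ℋ)⟧ : 𝒬) = (f : ℍ → ℂ) := by
  rw [quotientFunc_mk]
  simp

/-- `esymmFun` is the elementary symmetric polynomial of the multiset of values of the
translates. -/
lemma esymmFun_eq_multiset_esymm [Fintype 𝒬] (i : ℕ) (τ : ℍ) :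
    esymmFun ℋ f i τ
      = ((Finset.univ : Finset 𝒬).val.map fun q ↦ quotientFunc f q τ).esymm i := by
  rw [Finset.esymm_map_val, esymmFun_apply]

lemma esymmFun_zero : esymmFun ℋ f 0 = 1 := by
  let := Fintype.ofFinite 𝒬
  rw [esymmFun_eq]
  simp

/-- **Characteristic polynomial relation**: every translate of `f` is a root of the monic
polynomial whose coefficients are (up to sign) the elementary symmetric functions of the
translates. -/
theorem charpoly_relation_quotientFunc (q₀ : 𝒬) (τ : ℍ) :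
    ∑ j ∈ Finset.range (Nat.card 𝒬 + 1),
      (-1 : ℂ) ^ j * (esymmFun ℋ f j τ * quotientFunc f q₀ τ ^ (Nat.card 𝒬 - j)) = 0 := by
  let := Fintype.ofFinite 𝒬
  set s : Multiset ℂ := (Finset.univ : Finset 𝒬).val.map fun q ↦ quotientFunc f q τ with hs
  have hcard : Multiset.card s = Nat.card 𝒬 := by
    rw [hs, Multiset.card_map, Nat.card_eq_fintype_card]; rfl
  have hmem : quotientFunc f q₀ τ ∈ s := by
    rw [hs, Multiset.mem_map]
    exact ⟨q₀, Finset.mem_univ _, rfl⟩
  have hroot : ((s.map fun t ↦ Polynomial.X - Polynomial.C t).prod).eval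
      (quotientFunc f q₀ τ) = 0 := by
    rw [Polynomial.eval_multiset_prod]
    apply Multiset.prod_eq_zero
    rw [Multiset.mem_map]
    refine ⟨Polynomial.X - Polynomial.C (quotientFunc f q₀ τ), ?_, by simp⟩
    rw [Multiset.mem_map]
    exact ⟨_, hmem, rfl⟩
  rw [Multiset.prod_X_sub_X_eq_sum_esymm, Polynomial.eval_finsetSum, hcard] at hroot
  rw [← hroot]
  refine Finset.sum_congr rfl fun j _ ↦ ?_
  rw [esymmFun_eq_multiset_esymm, ← hs]
  simp only [Polynomial.eval_mul, Polynomial.eval_pow, Polynomial.eval_neg, Polynomial.eval_one,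
    Polynomial.eval_C, Polynomial.eval_X]

/-- **Characteristic polynomial relation** for `f` itself. -/
theorem charpoly_relation (τ : ℍ) :
    ∑ j ∈ Finset.range (Nat.card 𝒬 + 1),
      (-1 : ℂ) ^ j * (esymmFun ℋ f j τ * f τ ^ (Nat.card 𝒬 - j)) = 0 := by
  have h := charpoly_relation_quotientFunc ℋ f (⟦(1 : ℋ)⟧ : 𝒬) τ
  rwa [quotientFunc_one] at h

/-- Monic form of the characteristic polynomial relation. -/
theorem charpoly_relation_monic (τ : ℍ) :
    f τ ^ Nat.card 𝒬 + ∑ j ∈ Finset.range (Nat.card 𝒬),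
      (-1 : ℂ) ^ (j + 1) * (esymmFun ℋ f (j + 1) τ * f τ ^ (Nat.card 𝒬 - (j + 1))) = 0 := by
  have h := charpoly_relation ℋ f τ
  rw [Finset.sum_range_succ'] at h
  rw [← h, add_comm]
  simp [esymmFun_zero]

end Relation

section LevelOne

open scoped MatrixGroups

/-- For a cusp form `f` for a subgroup `𝒢` of finite relative index in `SL(2, ℤ)`, the
elementary symmetric functions of positive degree of its `SL(2, ℤ)`-translates have vanishing
constant `q`-coefficient. -/
theorem qExpansion_esymmForm_coeff_zero [𝒢.IsFiniteRelIndex 𝒮ℒ] [CuspFormClass F 𝒢 k]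
    {i : ℕ} (hi : i ≠ 0) :
    (qExpansion 1 (esymmForm 𝒮ℒ f i)).coeff 0 = 0 := by
  have h1 : (1 : ℝ) ∈ (𝒮ℒ : Subgroup (GL (Fin 2) ℝ)).strictPeriods := by simp
  have := CuspFormClass.qExpansion_coeff_zero (cuspEsymm 𝒮ℒ f i hi) one_pos h1
  simpa using this

/-- Sanity check: the instances needed above are available for `Γ₀(N) ⊆ SL(2, ℤ)`. -/
example (N : ℕ) [NeZero N] (k : ℤ)
    (f : CuspForm (CongruenceSubgroup.Gamma0 N : Subgroup (GL (Fin 2) ℝ)) k) (i : ℕ) (hi : i ≠ 0) :
    CuspForm 𝒮ℒ (k * i) := cuspEsymm 𝒮ℒ f i hi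

end LevelOne

end

end Fermat.Agent.S23.helper487
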