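import Mathlib

/-!
# Lemma H (helper503): division of holomorphic functions under a monic relation

* `root_bound` : Cauchy-type bound for roots of a monic polynomial.
* `exists_quotient` : if `‖n‖ ≤ B * ‖d‖` on a connected open set with `B` continuous and
  `d` not identically zero, then `n / d` extends to a holomorphic function.
-/

set_option autoImplicit false

namespace Fermat.Agent.S23.helper503

open Filter Topology

/-- Root bound: if `x^m + ∑_{i<m} c_i x^(m-1-i) = 0` and `0 < t` then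
`‖x‖ ≤ max t (∑ ‖c_i‖ / t^i)`. -/
theorem root_bound {m : ℕ} (c : Fin m → ℂ) (x : ℂ)
    (h : x ^ m + ∑ i : Fin m, c i * x ^ (m - 1 - (i : ℕ)) = 0) {t : ℝ} (ht : 0 < t) :
    ‖x‖ ≤ max t (∑ i : Fin m, ‖c i‖ / t ^ (i : ℕ)) := by
  by_cases hx : ‖x‖ ≤ t
  · exact le_max_of_le_left hx
  · rw [not_le] at hx
    refine le_max_of_le_right ?_
    have hxpos : 0 < ‖x‖ := ht.trans hx
    rcases Nat.eq_zero_or_pos m with rfl | hm
    · simp at h
    have h1 : x ^ m = - ∑ i : Fin m, c i * x ^ (m - 1 - (i : ℕ)) := eq_neg_of_add_eq_zero_left h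
    have h2 : ‖x‖ ^ m ≤ ∑ i : Fin m, ‖c i‖ * ‖x‖ ^ (m - 1 - (i : ℕ)) := by
      calc ‖x‖ ^ m = ‖x ^ m‖ := (norm_pow _ _).symm
        _ = ‖∑ i : Fin m, c i * x ^ (m - 1 - (i : ℕ))‖ := by rw [h1, norm_neg]
        _ ≤ ∑ i : Fin m, ‖c i * x ^ (m - 1 - (i : ℕ))‖ := norm_sum_le _ _
        _ = ∑ i : Fin m, ‖c i‖ * ‖x‖ ^ (m - 1 - (i : ℕ)) := by
            simp [norm_pow]
    have h3 : ∀ i : Fin m, ‖c i‖ * ‖x‖ ^ (m - 1 - (i : ℕ)) ≤
        (‖c i‖ / t ^ (i : ℕ)) * ‖x‖ ^ (m - 1) := by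
      intro i
      have hi : (i : ℕ) ≤ m - 1 := by have := i.2; omega
      have : ‖x‖ ^ (m - 1) = ‖x‖ ^ (m - 1 - (i : ℕ)) * ‖x‖ ^ (i : ℕ) := by
        rw [← pow_add]; congr 1; omega
      rw [this, div_mul_eq_mul_div, le_div_iff₀ (pow_pos ht _)]
      have hti : t ^ (i : ℕ) ≤ ‖x‖ ^ (i : ℕ) := pow_le_pow_left₀ ht.le hx.le _
      calc ‖c i‖ * ‖x‖ ^ (m - 1 - (i : ℕ)) * t ^ (i : ℕ)
          ≤ ‖c i‖ * ‖x‖ ^ (m - 1 - (i : ℕ)) * ‖x‖ ^ (i : ℕ) := by
            apply mul_le_mul_of_nonneg_left hti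
            positivity
        _ = ‖c i‖ * (‖x‖ ^ (m - 1 - (i : ℕ)) * ‖x‖ ^ (i : ℕ)) := by ring
    have h4 : ‖x‖ ^ m ≤ (∑ i : Fin m, ‖c i‖ / t ^ (i : ℕ)) * ‖x‖ ^ (m - 1) := by
      rw [Finset.sum_mul]
      exact h2.trans (Finset.sum_le_sum fun i _ => h3 i)
    have h5 : ‖x‖ ^ m = ‖x‖ * ‖x‖ ^ (m - 1) := by
      rw [← pow_succ']; congr 1; omega
    rw [h5] at h4
    exact le_of_mul_le_mul_right h4 (pow_pos hxpos _)

/-- Division lemma: `‖n‖ ≤ B ‖d‖` with `B` continuous, `d ≢ 0` on a connected open set. -/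
theorem exists_quotient {U : Set ℂ} (hU : IsOpen U) (hUc : IsPreconnected U)
    {n d : ℂ → ℂ} (hn : DifferentiableOn ℂ n U) (hd : DifferentiableOn ℂ d U)
    (hd0 : ∃ z ∈ U, d z ≠ 0)
    (B : ℂ → ℝ) (hB : ContinuousOn B U) (hbound : ∀ z ∈ U, ‖n z‖ ≤ B z * ‖d z‖) :
    ∃ g : ℂ → ℂ, DifferentiableOn ℂ g U ∧ ∀ z ∈ U, g z * d z = n z := by
  classical
  let r : ℂ → ℂ := fun w => n w / d w
  let g : ℂ → ℂ := fun z => if d z ≠ 0 then n z / d z else limUnder (𝓝[≠] z) r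
  have hdan : AnalyticOnNhd ℂ d U := hd.analyticOnNhd hU
  -- zeros of `d` are isolated
  have hiso : ∀ z₀ ∈ U, ∀ᶠ z in 𝓝[≠] z₀, d z ≠ 0 := by
    intro z₀ hz₀
    rcases (hdan z₀ hz₀).eventually_eq_zero_or_eventually_ne_zero with h | h
    · exfalso
      obtain ⟨z₁, hz₁, hz₁'⟩ := hd0
      have : Set.EqOn d 0 U :=
        hdan.eqOn_zero_of_preconnected_of_eventuallyEq_zero hUc hz₀ h
      exact hz₁' (this hz₁)
    · exact h
  refine ⟨g, ?_, ?_⟩
  · intro z₀ hz₀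
    -- a small ball around z₀
    have h1 : ∀ᶠ z in 𝓝 z₀, z ∈ U := hU.mem_nhds hz₀
    have h2 : ∀ᶠ z in 𝓝 z₀, z ∈ U → B z < B z₀ + 1 := by
      have := (hB z₀ hz₀).eventually (gt_mem_nhds (show B z₀ < B z₀ + 1 by linarith))
      rw [eventually_nhdsWithin_iff] at this
      exact this
    have h3 : ∀ᶠ z in 𝓝 z₀, z ≠ z₀ → d z ≠ 0 := by
      have := hiso z₀ hz₀
      rw [eventually_nhdsWithin_iff] at this
      exact this.mono fun z hz hne => hz hne
    obtain ⟨ε, hε, hball⟩ := Metric.eventually_nhds_iff.mp (h1.and (h2.and h3))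
    set s : Set ℂ := Metric.ball z₀ ε with hs
    have hs_nhds : s ∈ 𝓝 z₀ := Metric.ball_mem_nhds z₀ hε
    have hsU : s ⊆ U := fun z hz => (hball hz).1
    have hrd : DifferentiableOn ℂ r (s \ {z₀}) := by
      intro z hz
      have hzU : z ∈ U := hsU hz.1
      have hdz : d z ≠ 0 := (hball hz.1).2.2 (by simpa using hz.2)
      exact ((hn z hzU).div (hd z hzU) hdz).mono (Set.sdiff_subset.trans hsU)
    have hrb : BddAbove (norm ∘ r '' (s \ {z₀})) := by
      refine ⟨B z₀ + 1, ?_⟩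
      rintro _ ⟨z, hz, rfl⟩
      have hzU : z ∈ U := hsU hz.1
      have hdz : d z ≠ 0 := (hball hz.1).2.2 (by simpa using hz.2)
      have hBz : B z < B z₀ + 1 := (hball hz.1).2.1 hzU
      have : ‖n z‖ ≤ B z * ‖d z‖ := hbound z hzU
      simp only [Function.comp_apply, r, norm_div]
      rw [div_le_iff₀ (norm_pos_iff.mpr hdz)]
      exact this.trans (mul_le_mul_of_nonneg_right hBz.le (norm_nonneg _))
    have hupd := Complex.differentiableOn_update_limUnder_of_bddAbove hs_nhds hrd hrb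
    -- `g` agrees with the updated function on `s`
    have hgs : Set.EqOn g (Function.update r z₀ (limUnder (𝓝[≠] z₀) r)) s := by
      intro z hz
      by_cases hzz : z = z₀
      · subst hzz
        simp only [Function.update_self, g]
        split_ifs with hdz
        · -- continuity of r at z
          have hzU : z ∈ U := hsU hz
          have hcont : ContinuousAt r z :=
            ((hn.differentiableAt (hU.mem_nhds hzU)).continuousAt).div
              ((hd.differentiableAt (hU.mem_nhds hzU)).continuousAt) hdz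
          have : Tendsto r (𝓝[≠] z) (𝓝 (r z)) := hcont.tendsto.mono_left nhdsWithin_le_nhds
          exact this.limUnder_eq.symm
        · rfl
      · have hdz : d z ≠ 0 := (hball hz).2.2 hzz
        simp [g, hdz, Function.update_of_ne hzz, r]
    have hgd : DifferentiableAt ℂ g z₀ := by
      have h := (hupd.differentiableAt hs_nhds)
      exact h.congr_of_eventuallyEq (Filter.eventuallyEq_of_mem hs_nhds hgs)
    exact hgd.differentiableWithinAt
  · intro z hz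
    by_cases hdz : d z ≠ 0
    · simp [g, hdz]
    · rw [not_not] at hdz
      have : ‖n z‖ ≤ B z * ‖d z‖ := hbound z hz
      rw [hdz, norm_zero, mul_zero] at this
      have hnz : n z = 0 := norm_le_zero_iff.mp this
      simp [hdz, hnz]


/-- Pointwise algebra: dividing the homogeneous monic relation by `E^d`. -/
theorem rel_mul {d : ℕ} (c : Fin d → ℂ) (g e : ℂ) :
    (g * e) ^ d + ∑ i : Fin d, c i * (g * e) ^ (d - 1 - (i : ℕ)) * e ^ ((i : ℕ) + 1)
      = e ^ d * (g ^ d + ∑ i : Fin d, c i * g ^ (d - 1 - (i : ℕ))) := by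
  rw [mul_add, Finset.mul_sum, mul_pow]
  congr 1
  · ring
  · refine Finset.sum_congr rfl fun i _ => ?_
    have hi : d = (d - 1 - (i : ℕ)) + ((i : ℕ) + 1) := by have := i.2; omega
    have he : e ^ d = e ^ (d - 1 - (i : ℕ)) * e ^ ((i : ℕ) + 1) := by
      rw [← pow_add, ← hi]
    rw [mul_pow, he]
    ring

theorem rel_div {d : ℕ} (c : Fin d → ℂ) (G e : ℂ) (he : e ≠ 0)
    (h : G ^ d + ∑ i : Fin d, c i * G ^ (d - 1 - (i : ℕ)) * e ^ ((i : ℕ) + 1) = 0) :
    (G / e) ^ d + ∑ i : Fin d, c i * (G / e) ^ (d - 1 - (i : ℕ)) = 0 := by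
  have h1 := rel_mul c (G / e) e
  rw [div_mul_cancel₀ G he, h] at h1
  exact (mul_eq_zero.mp h1.symm).resolve_left (pow_ne_zero _ he)


open UpperHalfPlane ModularForm
open scoped MatrixGroups Manifold ModularForm

section upper

variable {k w : ℤ} {E G : ℍ → ℂ} {d : ℕ} {c : Fin d → ℍ → ℂ}

/-- Holomorphic quotient on `ℍ` under a monic relation with holomorphic coefficients. -/
theorem exists_quotient_upper
    (hE : MDiff E) (hG : MDiff G) (hE0 : E ≠ 0) (hc : ∀ i, MDiff (c i))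
    (hrel : ∀ z, G z ^ d + ∑ i : Fin d, c i z * G z ^ (d - 1 - (i : ℕ)) * E z ^ ((i : ℕ) + 1) = 0) :
    ∃ g : ℍ → ℂ, MDiff g ∧ (∀ z, g z * E z = G z) ∧
      ∀ z, g z ^ d + ∑ i : Fin d, c i z * g z ^ (d - 1 - (i : ℕ)) = 0 := by
  have hU : IsOpen upperHalfPlaneSet := isOpen_upperHalfPlaneSet
  have hUc : IsPreconnected upperHalfPlaneSet :=
    (Complex.isConnected_of_upperHalfPlane subset_rfl (by grind)).isPreconnected
  have hn : DifferentiableOn ℂ (G ∘ ofComplex) upperHalfPlaneSet := UpperHalfPlane.mdifferentiable_iff.mp hG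
  have hd : DifferentiableOn ℂ (E ∘ ofComplex) upperHalfPlaneSet := UpperHalfPlane.mdifferentiable_iff.mp hE
  have hd0 : ∃ z ∈ upperHalfPlaneSet, (E ∘ ofComplex) z ≠ 0 := by
    by_contra hcon
    apply hE0
    ext τ
    by_contra hτ
    exact hcon ⟨τ, τ.im_pos, by simpa [ofComplex_apply] using hτ⟩
  let B : ℂ → ℝ := fun z => 1 + ∑ i : Fin d, ‖(c i ∘ ofComplex) z‖
  have hB : ContinuousOn B upperHalfPlaneSet := by
    refine continuousOn_const.add (continuousOn_finsetSum _ fun i _ => ?_)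
    exact (UpperHalfPlane.mdifferentiable_iff.mp (hc i)).continuousOn.norm
  have hbound : ∀ z ∈ upperHalfPlaneSet, ‖(G ∘ ofComplex) z‖ ≤ B z * ‖(E ∘ ofComplex) z‖ := by
    intro z hz
    set τ : ℍ := ofComplex z with hτ
    have hr := hrel τ
    simp only [Function.comp_apply, B]
    by_cases he : E τ = 0
    · rw [he, norm_zero, mul_zero]
      have : G τ ^ d = 0 := by
        have h0 : ∑ i : Fin d, c i τ * G τ ^ (d - 1 - (i : ℕ)) * E τ ^ ((i : ℕ) + 1) = 0 :=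
          Finset.sum_eq_zero fun i _ => by rw [he]; simp
        rwa [h0, add_zero] at hr
      rcases Nat.eq_zero_or_pos d with rfl | hd
      · simp at this
      · rw [pow_eq_zero_iff hd.ne'] at this
        rw [this, norm_zero]
    · have h1 := rel_div (fun i => c i τ) (G τ) (E τ) he hr
      have h2 := root_bound (fun i => c i τ) (G τ / E τ) h1 one_pos
      simp only [one_pow, div_one, norm_div] at h2
      rw [div_le_iff₀ (norm_pos_iff.mpr he)] at h2
      refine h2.trans (mul_le_mul_of_nonneg_right ?_ (norm_nonneg _))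
      refine max_le ?_ ?_
      · linarith [Finset.sum_nonneg fun (i : Fin d) (_ : i ∈ Finset.univ) => norm_nonneg (c i τ)]
      · linarith
  obtain ⟨g, hg, hgE⟩ := exists_quotient hU hUc hn hd hd0 B hB hbound
  have hgE' : ∀ z : ℍ, g (z : ℂ) * E z = G z := by
    intro z
    have := hgE z z.im_pos
    simpa [ofComplex_apply] using this
  have hgm : MDiff (fun z : ℍ => g (z : ℂ)) := by
    rw [UpperHalfPlane.mdifferentiable_iff]
    refine hg.congr fun z hz => ?_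
    simp [ofComplex_apply_of_im_pos hz]
  refine ⟨fun z : ℍ => g (z : ℂ), hgm, hgE', ?_⟩
  -- the monic relation for g, via the domain property of holomorphic functions on ℍ
  let R : ℍ → ℂ := fun z => g (z : ℂ) ^ d + ∑ i : Fin d, c i z * g (z : ℂ) ^ (d - 1 - (i : ℕ))
  have hR : MDiff R := by
    refine (hgm.pow d).add ?_
    have : (fun z : ℍ => ∑ i : Fin d, c i z * g (z : ℂ) ^ (d - 1 - (i : ℕ))) =
        ∑ i : Fin d, (c i * (fun z : ℍ => g (z : ℂ)) ^ (d - 1 - (i : ℕ))) := by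
      ext z; simp
    rw [this]
    exact MDifferentiable.sum fun i _ => (hc i).mul (hgm.pow _)
  have hER : E ^ d * R = 0 := by
    ext z
    have h1 := rel_mul (fun i => c i z) (g (z : ℂ)) (E z)
    rw [hgE' z, hrel z] at h1
    simpa [R] using h1.symm
  have hEd : E ^ d ≠ 0 := by
    intro h
    apply hE0
    ext z
    have := congrFun h z
    simp only [Pi.pow_apply, Pi.zero_apply, pow_eq_zero_iff'] at this
    exact this.1
  have hR0 : R = 0 := ((UpperHalfPlane.mul_eq_zero_iff (hE.pow d) hR).mp hER).resolve_left hEd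
  intro z
  exact congrFun hR0 z

/-- The monic relation (with level-one coefficients) is stable under slashing by `SL(2,ℤ)`. -/
theorem rel_slash (hcinv : ∀ (i : Fin d) (γ : SL(2, ℤ)), c i ∣[k * (((i : ℕ) : ℤ) + 1)] γ = c i) {g : ℍ → ℂ}
    (hg : ∀ z, g z ^ d + ∑ i : Fin d, c i z * g z ^ (d - 1 - (i : ℕ)) = 0) (γ : SL(2, ℤ)) (z : ℍ) :
    (g ∣[k] γ) z ^ d + ∑ i : Fin d, c i z * (g ∣[k] γ) z ^ (d - 1 - (i : ℕ)) = 0 := by
  have hj : denom γ z ≠ 0 := denom_ne_zero γ z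
  set u : ℂ := denom γ z ^ (-k) with hu
  have hu0 : u ≠ 0 := zpow_ne_zero _ hj
  have hgs : (g ∣[k] γ) z = g (γ • z) * u := SL_slash_apply g γ z
  have hcs : ∀ i : Fin d, c i z = c i (γ • z) * u ^ ((i : ℕ) + 1) := by
    intro i
    have h1 : (c i ∣[k * (((i : ℕ) : ℤ) + 1)] γ) z = c i (γ • z) * denom γ z ^ (-(k * (((i : ℕ) : ℤ) + 1))) :=
      SL_slash_apply (c i) γ z
    rw [hcinv i γ] at h1
    rw [h1, hu, ← zpow_natCast, ← zpow_mul]
    congr 2
    push_cast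
    ring
  have h0 := hg (γ • z)
  have key : (g (γ • z) * u) ^ d + ∑ i : Fin d, c i z * (g (γ • z) * u) ^ (d - 1 - (i : ℕ))
      = u ^ d * (g (γ • z) ^ d + ∑ i : Fin d, c i (γ • z) * g (γ • z) ^ (d - 1 - (i : ℕ))) := by
    rw [mul_add, Finset.mul_sum, mul_pow]
    congr 1
    · ring
    · refine Finset.sum_congr rfl fun i _ => ?_
      have hi : d = (d - 1 - (i : ℕ)) + ((i : ℕ) + 1) := by have := i.2; omega
      have he : u ^ d = u ^ (d - 1 - (i : ℕ)) * u ^ ((i : ℕ) + 1) := by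
        rw [← pow_add, ← hi]
      rw [hcs i, mul_pow, he]
      ring
  rw [hgs, key, h0, mul_zero]

/-- Norm bound for a root of the slashed relation. -/
theorem rel_norm_le {g : ℍ → ℂ}
    (hg : ∀ z, g z ^ d + ∑ i : Fin d, c i z * g z ^ (d - 1 - (i : ℕ)) = 0) (z : ℍ) {t : ℝ}
    (ht : 0 < t) : ‖g z‖ ≤ max t (∑ i : Fin d, ‖c i z‖ / t ^ (i : ℕ)) :=
  root_bound (fun i => c i z) (g z) (hg z) ht

theorem rel_isBoundedAtImInfty {g : ℍ → ℂ} (hcb : ∀ i, IsBoundedAtImInfty (c i))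
    (hg : ∀ z, g z ^ d + ∑ i : Fin d, c i z * g z ^ (d - 1 - (i : ℕ)) = 0) :
    IsBoundedAtImInfty g := by
  rw [isBoundedAtImInfty_iff]
  have hcb' : ∀ i, ∃ M A : ℝ, ∀ z : ℍ, A ≤ im z → ‖c i z‖ ≤ M :=
    fun i => isBoundedAtImInfty_iff.mp (hcb i)
  choose M A hMA using hcb'
  refine ⟨max 1 (∑ i : Fin d, M i), ∑ i : Fin d, |A i|, fun z hz => ?_⟩
  have h1 := rel_norm_le hg z one_pos
  simp only [one_pow, div_one] at h1
  refine h1.trans (max_le_max le_rfl (Finset.sum_le_sum fun i _ => hMA i z ?_))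
  refine le_trans ?_ hz
  calc A i ≤ |A i| := le_abs_self _
    _ ≤ ∑ i : Fin d, |A i| :=
        Finset.single_le_sum (f := fun i => |A i|) (fun j _ => abs_nonneg (A j)) (Finset.mem_univ i)

theorem rel_isZeroAtImInfty {g : ℍ → ℂ} (hcz : ∀ i, IsZeroAtImInfty (c i))
    (hg : ∀ z, g z ^ d + ∑ i : Fin d, c i z * g z ^ (d - 1 - (i : ℕ)) = 0) :
    IsZeroAtImInfty g := by
  rw [isZeroAtImInfty_iff]
  intro ε hε
  have ht : Filter.Tendsto (fun z : ℍ => ∑ i : Fin d, ‖c i z‖ / ε ^ (i : ℕ)) atImInfty (𝓝 0) := by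
    have : ∀ i : Fin d, Filter.Tendsto (fun z : ℍ => ‖c i z‖ / ε ^ (i : ℕ)) atImInfty (𝓝 0) := by
      intro i
      have h1 : Filter.Tendsto (c i) atImInfty (𝓝 0) := hcz i
      have h2 := h1.norm.div_const (ε ^ (i : ℕ))
      simpa using h2
    simpa using tendsto_finsetSum Finset.univ fun i _ => this i
  have hev : ∀ᶠ z in atImInfty, ∑ i : Fin d, ‖c i z‖ / ε ^ (i : ℕ) < ε :=
    (tendsto_order.1 ht).2 ε hε
  obtain ⟨A, hA⟩ := (atImInfty_mem _).mp hev
  refine ⟨A, fun z hz => ?_⟩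
  have h1 := rel_norm_le hg z hε
  exact h1.trans (max_le le_rfl (hA z hz).le)

/-- **Lemma H**, function form, cusp version. -/
theorem lemmaH_cusp {Γ : Subgroup (GL (Fin 2) ℝ)} [Γ.IsArithmetic]
    (hE : MDiff E) (hG : MDiff G) (hE0 : E ≠ 0)
    (hEinv : ∀ γ ∈ Γ, E ∣[w] γ = E) (hGinv : ∀ γ ∈ Γ, G ∣[w + k] γ = G)
    (hc : ∀ i, MDiff (c i))
    (hcinv : ∀ (i : Fin d) (γ : SL(2, ℤ)), c i ∣[k * (((i : ℕ) : ℤ) + 1)] γ = c i)
    (hcz : ∀ i, IsZeroAtImInfty (c i))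
    (hrel : ∀ z, G z ^ d + ∑ i : Fin d, c i z * G z ^ (d - 1 - (i : ℕ)) * E z ^ ((i : ℕ) + 1) = 0) :
    ∃ g : CuspForm Γ k, ∀ z, g z * E z = G z := by
  obtain ⟨g, hgm, hgE, hgrel⟩ := exists_quotient_upper hE hG hE0 hc hrel
  have hgEf : g * E = G := funext hgE
  have hinv : ∀ γ ∈ Γ, g ∣[k] γ = g := by
    intro γ hγ
    have h1 : (g * E) ∣[k + w] γ = |(γ.det : ℝ)| • (g ∣[k] γ * E ∣[w] γ) := mul_slash k w γ g E
    have hdet : |(γ.det : ℝ)| = 1 := Subgroup.HasDetPlusMinusOne.abs_det hγ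
    rw [hgEf, add_comm k w, hGinv γ hγ, hEinv γ hγ, hdet, one_smul] at h1
    have h2 : (g ∣[k] γ - g) * E = 0 := by
      rw [sub_mul, ← h1, hgEf, sub_self]
    have h3 := (UpperHalfPlane.mul_eq_zero_iff ((hgm.slash k γ).sub hgm) hE).mp h2
    exact sub_eq_zero.mp (h3.resolve_right hE0)
  refine ⟨{ toFun := g, slash_action_eq' := hinv, holo' := hgm, zero_at_cusps' := ?_ }, hgE⟩
  intro c₀ hc₀
  rw [Subgroup.IsArithmetic.isCusp_iff_isCusp_SL2Z] at hc₀
  rw [OnePoint.isZeroAt_iff_forall_SL2Z hc₀]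
  intro γ _
  exact rel_isZeroAtImInfty hcz (rel_slash hcinv hgrel γ)

/-- **Lemma H**, function form, modular form version. -/
theorem lemmaH_modular {Γ : Subgroup (GL (Fin 2) ℝ)} [Γ.IsArithmetic]
    (hE : MDiff E) (hG : MDiff G) (hE0 : E ≠ 0)
    (hEinv : ∀ γ ∈ Γ, E ∣[w] γ = E) (hGinv : ∀ γ ∈ Γ, G ∣[w + k] γ = G)
    (hc : ∀ i, MDiff (c i))
    (hcinv : ∀ (i : Fin d) (γ : SL(2, ℤ)), c i ∣[k * (((i : ℕ) : ℤ) + 1)] γ = c i)
    (hcb : ∀ i, IsBoundedAtImInfty (c i))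
    (hrel : ∀ z, G z ^ d + ∑ i : Fin d, c i z * G z ^ (d - 1 - (i : ℕ)) * E z ^ ((i : ℕ) + 1) = 0) :
    ∃ g : ModularForm Γ k, ∀ z, g z * E z = G z := by
  obtain ⟨g, hgm, hgE, hgrel⟩ := exists_quotient_upper hE hG hE0 hc hrel
  have hgEf : g * E = G := funext hgE
  have hinv : ∀ γ ∈ Γ, g ∣[k] γ = g := by
    intro γ hγ
    have h1 : (g * E) ∣[k + w] γ = |(γ.det : ℝ)| • (g ∣[k] γ * E ∣[w] γ) := mul_slash k w γ g E
    have hdet : |(γ.det : ℝ)| = 1 := Subgroup.HasDetPlusMinusOne.abs_det hγ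
    rw [hgEf, add_comm k w, hGinv γ hγ, hEinv γ hγ, hdet, one_smul] at h1
    have h2 : (g ∣[k] γ - g) * E = 0 := by
      rw [sub_mul, ← h1, hgEf, sub_self]
    have h3 := (UpperHalfPlane.mul_eq_zero_iff ((hgm.slash k γ).sub hgm) hE).mp h2
    exact sub_eq_zero.mp (h3.resolve_right hE0)
  refine ⟨{ toFun := g, slash_action_eq' := hinv, holo' := hgm, bdd_at_cusps' := ?_ }, hgE⟩
  intro c₀ hc₀
  rw [Subgroup.IsArithmetic.isCusp_iff_isCusp_SL2Z] at hc₀
  rw [OnePoint.isBoundedAt_iff_forall_SL2Z hc₀]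
  intro γ _
  exact rel_isBoundedAtImInfty hcb (rel_slash hcinv hgrel γ)

end upper

end Fermat.Agent.S23.helper503
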