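import Mathlib

/-!
# Bounded denominators: the pure power-series core (helper919)

`Zs` is the `ℂ`-span of the power series with integer coefficients inside `ℂ⟦X⟧`
(it is closed under multiplication, see `mul_mem_Zs`).

Main result `bdd_denominators`: if `F : ℂ⟦X⟧` has rational coefficients, `F * D ∈ Zs` for some
nonzero `D ∈ Zs`, and `F` is a root of a monic polynomial with coefficients in `Zs`, then a
nonzero integer multiple of `F` has integer coefficients.

Proof: apply a `ℚ`-linear functional `π : ℂ → ℚ` with `π 1 = 1` coefficientwise (this is linear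
over `ℚ⟦X⟧`), clear denominators, and use that `ℤ⟦X⟧` is integrally closed.
-/

set_option autoImplicit false

namespace Fermat.Agent.S23.helper919

open PowerSeries

/-- The `ℂ`-span of the power series with integer coefficients. -/
def Zs : Submodule ℂ (PowerSeries ℂ) :=
  Submodule.span ℂ (Set.range (PowerSeries.map (Int.castRingHom ℂ)))

theorem map_int_mem_Zs (z : PowerSeries ℤ) : PowerSeries.map (Int.castRingHom ℂ) z ∈ Zs :=
  Submodule.subset_span ⟨z, rfl⟩

theorem one_mem_Zs : (1 : PowerSeries ℂ) ∈ Zs := by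
  have := map_int_mem_Zs 1
  simpa using this

theorem mul_mem_Zs {A B : PowerSeries ℂ} (hA : A ∈ Zs) (hB : B ∈ Zs) : A * B ∈ Zs := by
  unfold Zs at *
  induction hA using Submodule.span_induction with
  | mem a ha =>
    obtain ⟨a', rfl⟩ := ha
    induction hB using Submodule.span_induction with
    | mem b hb =>
      obtain ⟨b', rfl⟩ := hb
      rw [← map_mul]
      exact Submodule.subset_span ⟨_, rfl⟩
    | zero => simp
    | add x y _ _ hx hy => rw [mul_add]; exact Submodule.add_mem _ hx hy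
    | smul c x _ hx => rw [mul_smul_comm]; exact Submodule.smul_mem _ c hx
  | zero => simp
  | add x y _ _ hx hy => rw [add_mul]; exact Submodule.add_mem _ hx hy
  | smul c x _ hx => rw [smul_mul_assoc]; exact Submodule.smul_mem _ c hx

theorem pow_mem_Zs {A : PowerSeries ℂ} (hA : A ∈ Zs) (n : ℕ) : A ^ n ∈ Zs := by
  induction n with
  | zero => simpa using one_mem_Zs
  | succ n ih => rw [pow_succ]; exact mul_mem_Zs ih hA

/-- `Zs` as a subalgebra of `ℂ⟦X⟧`. -/
def ZsAlg : Subalgebra ℂ (PowerSeries ℂ) where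
  carrier := Zs
  mul_mem' := mul_mem_Zs
  add_mem' := Zs.add_mem
  algebraMap_mem' c := by
    have : algebraMap ℂ (PowerSeries ℂ) c = c • (1 : PowerSeries ℂ) := by
      rw [Algebra.smul_def, mul_one]
    rw [this]
    exact Zs.smul_mem c one_mem_Zs

theorem mem_ZsAlg {A : PowerSeries ℂ} : A ∈ ZsAlg ↔ A ∈ Zs := Iff.rfl

theorem C_mem_Zs (c : ℂ) : PowerSeries.C c ∈ Zs :=
  mem_ZsAlg.mp (ZsAlg.algebraMap_mem c)

theorem sum_mem_Zs {ι : Type*} (s : Finset ι) (A : ι → PowerSeries ℂ) (h : ∀ i ∈ s, A i ∈ Zs) :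
    ∑ i ∈ s, A i ∈ Zs :=
  Zs.sum_mem h

theorem prod_mem_Zs {ι : Type*} (s : Finset ι) (A : ι → PowerSeries ℂ) (h : ∀ i ∈ s, A i ∈ Zs) :
    ∏ i ∈ s, A i ∈ Zs :=
  mem_ZsAlg.mp (ZsAlg.prod_mem h)

theorem neg_mem_Zs {A : PowerSeries ℂ} (hA : A ∈ Zs) : -A ∈ Zs := Zs.neg_mem hA

theorem sub_mem_Zs {A B : PowerSeries ℂ} (hA : A ∈ Zs) (hB : B ∈ Zs) : A - B ∈ Zs :=
  Zs.sub_mem hA hB

/-- Determinants of matrices with entries in `Zs` lie in `Zs`. -/
theorem det_mem_Zs {n : Type*} [Fintype n] [DecidableEq n] (M : Matrix n n (PowerSeries ℂ))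
    (hM : ∀ i j, M i j ∈ Zs) : M.det ∈ Zs := by
  rw [Matrix.det_apply]
  refine Zs.sum_mem fun σ _ => ?_
  have h1 : ∏ i, M (σ i) i ∈ Zs := prod_mem_Zs _ _ fun i _ => hM _ _
  rcases Int.units_eq_one_or (Equiv.Perm.sign σ) with h | h
  · rw [h, one_smul]; exact h1
  · rw [h, Units.neg_smul, one_smul]; exact Zs.neg_mem h1

/-- Entries of the adjugate of a matrix with entries in `Zs` lie in `Zs`. -/
theorem adjugate_mem_Zs {n : Type*} [Fintype n] [DecidableEq n] (M : Matrix n n (PowerSeries ℂ))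
    (hM : ∀ i j, M i j ∈ Zs) (i j : n) : M.adjugate i j ∈ Zs := by
  rw [Matrix.adjugate_apply]
  refine det_mem_Zs _ fun a b => ?_
  rw [Matrix.updateRow_apply]
  split_ifs
  · by_cases h : b = i
    · simp only [Pi.single_apply, h, if_true]; exact one_mem_Zs
    · simp only [Pi.single_apply, h, if_false]; exact Zs.zero_mem
  · exact hM _ _

/-! ### Coefficientwise application of a `ℚ`-linear functional -/

/-- Apply a `ℚ`-linear functional `ℂ → ℚ` to every coefficient. -/
noncomputable def coeffwise (ψ : ℂ →ₗ[ℚ] ℚ) (A : PowerSeries ℂ) : PowerSeries ℚ :=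
  PowerSeries.mk fun n => ψ (PowerSeries.coeff n A)

@[simp] theorem coeff_coeffwise (ψ : ℂ →ₗ[ℚ] ℚ) (A : PowerSeries ℂ) (n : ℕ) :
    PowerSeries.coeff n (coeffwise ψ A) = ψ (PowerSeries.coeff n A) := by
  simp [coeffwise]

theorem coeffwise_add (ψ : ℂ →ₗ[ℚ] ℚ) (A B : PowerSeries ℂ) :
    coeffwise ψ (A + B) = coeffwise ψ A + coeffwise ψ B := by
  ext n; simp

theorem coeffwise_zero (ψ : ℂ →ₗ[ℚ] ℚ) : coeffwise ψ 0 = 0 := by
  ext n; simp

theorem coeffwise_sum (ψ : ℂ →ₗ[ℚ] ℚ) {ι : Type*} (s : Finset ι) (A : ι → PowerSeries ℂ) :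
    coeffwise ψ (∑ i ∈ s, A i) = ∑ i ∈ s, coeffwise ψ (A i) := by
  ext n; simp

/-- `coeffwise ψ` is linear over power series with rational coefficients. -/
theorem coeffwise_map_mul (ψ : ℂ →ₗ[ℚ] ℚ) (A : PowerSeries ℚ) (B : PowerSeries ℂ) :
    coeffwise ψ (PowerSeries.map (algebraMap ℚ ℂ) A * B) = A * coeffwise ψ B := by
  ext n
  simp only [coeff_coeffwise, PowerSeries.coeff_mul, PowerSeries.coeff_map, map_sum]
  refine Finset.sum_congr rfl fun p _ => ?_
  rw [← Algebra.smul_def, map_smul, smul_eq_mul]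

theorem coeffwise_one (ψ : ℂ →ₗ[ℚ] ℚ) (h1 : ψ 1 = 1) : coeffwise ψ 1 = 1 := by
  ext n
  simp only [coeff_coeffwise, PowerSeries.coeff_one]
  split_ifs <;> simp [h1]

/-- Coefficientwise functionals send `Zs` to power series with bounded denominators. -/
theorem coeffwise_mem_Zs {Z : PowerSeries ℂ} (hZ : Z ∈ Zs) :
    ∀ ψ : ℂ →ₗ[ℚ] ℚ, ∃ n : ℕ, n ≠ 0 ∧ ∃ z : PowerSeries ℤ,
      (n : ℚ) • coeffwise ψ Z = PowerSeries.map (Int.castRingHom ℚ) z := by
  unfold Zs at hZ
  induction hZ using Submodule.span_induction with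
  | mem a ha =>
    obtain ⟨a', rfl⟩ := ha
    intro ψ
    refine ⟨(ψ 1).den, (ψ 1).den_ne_zero, PowerSeries.C (ψ 1).num * a', ?_⟩
    ext m
    have h1 : ∀ t : ℤ, ψ (t : ℂ) = (t : ℚ) * ψ 1 := by
      intro t
      have : (t : ℂ) = (t : ℚ) • (1 : ℂ) := by
        rw [Algebra.smul_def, mul_one]; simp
      rw [this, map_smul, smul_eq_mul]
    have h2 : ((ψ 1).den : ℚ) * ψ 1 = (ψ 1).num := Rat.den_mul_eq_num (ψ 1)
    rw [PowerSeries.coeff_smul, PowerSeries.coeff_map, PowerSeries.coeff_C_mul, coeff_coeffwise,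
      PowerSeries.coeff_map]
    simp only [smul_eq_mul, eq_intCast, Int.cast_mul, h1]
    rw [← h2]; ring
  | zero =>
    intro ψ
    exact ⟨1, one_ne_zero, 0, by simp [coeffwise_zero]⟩
  | add x y _ _ hx hy =>
    intro ψ
    obtain ⟨n1, hn1, z1, h1⟩ := hx ψ
    obtain ⟨n2, hn2, z2, h2⟩ := hy ψ
    refine ⟨n1 * n2, mul_ne_zero hn1 hn2,
      PowerSeries.C (n2 : ℤ) * z1 + PowerSeries.C (n1 : ℤ) * z2, ?_⟩
    rw [coeffwise_add, map_add]
    ext m
    have e1 := congrArg (PowerSeries.coeff m) h1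
    have e2 := congrArg (PowerSeries.coeff m) h2
    simp only [PowerSeries.coeff_smul, coeff_coeffwise, PowerSeries.coeff_map, smul_eq_mul,
      eq_intCast] at e1 e2
    rw [PowerSeries.coeff_smul, map_add, map_add, PowerSeries.coeff_map, PowerSeries.coeff_map,
      PowerSeries.coeff_C_mul, PowerSeries.coeff_C_mul, coeff_coeffwise, coeff_coeffwise]
    simp only [smul_eq_mul, eq_intCast, Nat.cast_mul, Int.cast_mul, Int.cast_natCast, ← e1, ← e2]
    ring
  | smul c x _ hx =>
    intro ψ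
    let ψ' : ℂ →ₗ[ℚ] ℚ := ψ.comp ((LinearMap.mulLeft ℂ c).restrictScalars ℚ)
    obtain ⟨n, hn, z, h⟩ := hx ψ'
    refine ⟨n, hn, z, ?_⟩
    rw [← h]
    ext m
    simp [ψ']

/-! ### The functional -/

/-- A `ℚ`-linear functional `π : ℂ → ℚ` with `π 1 = 1` and `π d ≠ 0`. -/
theorem exists_functional (d : ℂ) (hd : d ≠ 0) : ∃ π : ℂ →ₗ[ℚ] ℚ, π 1 = 1 ∧ π d ≠ 0 := by
  obtain ⟨π₀, h₀⟩ := LinearMap.exists_leftInverse_of_injective (Algebra.linearMap ℚ ℂ)
    (LinearMap.ker_eq_bot.mpr (algebraMap ℚ ℂ).injective)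
  have h01 : π₀ 1 = 1 := by
    have := congrArg (fun f : ℚ →ₗ[ℚ] ℚ => f 1) h₀
    simpa using this
  obtain ⟨φ, hφ⟩ := LinearMap.exists_leftInverse_of_injective (LinearMap.toSpanSingleton ℚ ℂ d)
    (LinearMap.ker_eq_bot.mpr (by
      intro a b hab
      simp only [LinearMap.toSpanSingleton_apply] at hab
      exact smul_left_injective ℚ hd hab))
  have hφd : φ d = 1 := by
    have := congrArg (fun f : ℚ →ₗ[ℚ] ℚ => f 1) hφ
    simpa using this
  by_cases h : π₀ d = 0
  · refine ⟨π₀ + φ - (φ 1) • π₀, ?_, ?_⟩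
    · simp [h01]
    · simp [h, hφd]
  · exact ⟨π₀, h01, h⟩

/-! ### Integrally closed domains -/

/-- If `R` is an integrally closed domain, `φ : R → L` an injective ring hom into a domain, and
`x : L` is both a fraction of elements of `R` and integral over `R`, then `x` comes from `R`. -/
theorem mem_range_of_isIntegral_of_frac {R L : Type*} [CommRing R] [IsDomain R]
    [IsIntegrallyClosed R] [CommRing L] [IsDomain L] (φ : R →+* L) (hφ : Function.Injective φ)
    (x : L) (a b : R) (hb : b ≠ 0) (hab : φ b * x = φ a) (p : Polynomial R) (hp : p.Monic)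
    (hpx : p.eval₂ φ x = 0) : ∃ c : R, φ c = x := by
  let K := FractionRing R
  let M := FractionRing L
  let ψ : R →+* M := (algebraMap L M).comp φ
  have hLM : Function.Injective (algebraMap L M) := IsFractionRing.injective L M
  have hψ : Function.Injective ψ := hLM.comp hφ
  let θ : K →+* M := IsFractionRing.lift hψ
  have hθ : ∀ r : R, θ (algebraMap R K r) = ψ r := fun r => IsFractionRing.lift_algebraMap hψ r
  have hθc : θ.comp (algebraMap R K) = ψ := RingHom.ext hθ
  let y : K := algebraMap R K a / algebraMap R K b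
  have hψb : ψ b ≠ 0 := by
    intro h
    exact hb (hψ (by rw [h, map_zero]))
  have hθy : θ y = algebraMap L M x := by
    simp only [y, map_div₀, hθ]
    rw [div_eq_iff hψb]
    simp only [ψ, RingHom.comp_apply]
    rw [← map_mul, mul_comm, hab]
  have hy : Polynomial.aeval y p = 0 := by
    apply θ.injective
    rw [map_zero, Polynomial.aeval_def, Polynomial.hom_eval₂, hθc, hθy]
    have : p.eval₂ ψ (algebraMap L M x) = algebraMap L M (p.eval₂ φ x) := by
      rw [Polynomial.hom_eval₂]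
    rw [this, hpx, map_zero]
  have hint : IsIntegral R y := ⟨p, hp, hy⟩
  obtain ⟨c, hc⟩ := IsIntegrallyClosed.isIntegral_iff.mp hint
  refine ⟨c, hLM ?_⟩
  have : θ (algebraMap R K c) = θ y := by rw [hc]
  rw [hθ, hθy] at this
  exact this

/-! ### Bounded denominators -/

theorem natCast_smul_eq (n : ℕ) (A : PowerSeries ℚ) : (n : ℚ) • A = (n : PowerSeries ℚ) * A := by
  rw [Algebra.smul_def, map_natCast]

theorem natCast_ne_zero_Q {n : ℕ} (hn : n ≠ 0) : (n : PowerSeries ℚ) ≠ 0 := by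
  intro h
  have := congrArg (PowerSeries.constantCoeff (R := ℚ)) h
  rw [map_natCast, map_zero] at this
  exact hn (by exact_mod_cast this)

theorem natCast_ne_zero_Z {n : ℕ} (hn : n ≠ 0) : (n : PowerSeries ℤ) ≠ 0 := by
  intro h
  have := congrArg (PowerSeries.constantCoeff (R := ℤ)) h
  rw [map_natCast, map_zero] at this
  exact hn (by exact_mod_cast this)

theorem map_int_injective :
    Function.Injective (PowerSeries.map (Int.castRingHom ℚ)) := by
  intro a b hab
  ext n
  have := congrArg (PowerSeries.coeff n) hab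
  simpa using this

/-- Common denominators for finitely many power series with bounded denominators. -/
theorem exists_common_den (C : ℕ → PowerSeries ℚ) (μ : ℕ)
    (h : ∀ i < μ, ∃ n : ℕ, n ≠ 0 ∧ ∃ z : PowerSeries ℤ,
      (n : PowerSeries ℚ) * C i = PowerSeries.map (Int.castRingHom ℚ) z) :
    ∃ n : ℕ, n ≠ 0 ∧ ∀ i < μ, ∃ z : PowerSeries ℤ,
      (n : PowerSeries ℚ) * C i = PowerSeries.map (Int.castRingHom ℚ) z := by
  induction μ with
  | zero => exact ⟨1, one_ne_zero, fun i hi => absurd hi (Nat.not_lt_zero _)⟩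
  | succ μ ih =>
    obtain ⟨n, hn, hz⟩ := ih fun i hi => h i (Nat.lt_succ_of_lt hi)
    obtain ⟨n', hn', z', hz'⟩ := h μ (Nat.lt_succ_self μ)
    refine ⟨n * n', mul_ne_zero hn hn', fun i hi => ?_⟩
    rcases Nat.lt_succ_iff_lt_or_eq.mp hi with hi | rfl
    · obtain ⟨z, hz⟩ := hz i hi
      refine ⟨(n' : PowerSeries ℤ) * z, ?_⟩
      rw [map_mul, map_natCast, ← hz]
      push_cast; ring
    · refine ⟨(n : PowerSeries ℤ) * z', ?_⟩
      rw [map_mul, map_natCast, ← hz']
      push_cast; ring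

/-- **Bounded denominators (pure power-series core).** Let `F : ℂ⟦X⟧` have rational
coefficients. Assume `F * D ∈ Zs` for some nonzero `D ∈ Zs` (so `F` is a "fraction" of
`ℂ`-combinations of integral power series), and that `F` is a root of a monic polynomial with
coefficients in `Zs`. Then some nonzero integer multiple of `F` has integer coefficients. -/
theorem bdd_denominators (F D : PowerSeries ℂ)
    (hF : ∀ n, ∃ r : ℚ, PowerSeries.coeff n F = (r : ℂ))
    (hD0 : D ≠ 0) (hD : D ∈ Zs) (hFD : F * D ∈ Zs) (μ : ℕ) (c : ℕ → PowerSeries ℂ)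
    (hc : ∀ i < μ, c i ∈ Zs)
    (hrel : F ^ μ + ∑ i ∈ Finset.range μ, c i * F ^ i = 0) :
    ∃ n : ℕ, n ≠ 0 ∧ ∀ m, ∃ z : ℤ, (n : ℂ) * PowerSeries.coeff m F = (z : ℂ) := by
  classical
  choose r hr using hF
  set F₀ : PowerSeries ℚ := PowerSeries.mk r with hF₀
  have hFmap : PowerSeries.map (algebraMap ℚ ℂ) F₀ = F := by
    ext n; simp [F₀, hr]
  obtain ⟨k, hk⟩ : ∃ k, PowerSeries.coeff k D ≠ 0 := by
    by_contra h
    push Not at h
    exact hD0 (PowerSeries.ext fun n => by simpa using h n)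
  obtain ⟨π, hπ1, hπd⟩ := exists_functional _ hk
  set D' := coeffwise π D with hD'
  have hD'0 : D' ≠ 0 := by
    intro h
    apply hπd
    have := congrArg (PowerSeries.coeff k) h
    simpa [D'] using this
  have h1 : F₀ * D' = coeffwise π (F * D) := by
    rw [← hFmap, coeffwise_map_mul]
  obtain ⟨n1, hn1, b, hb⟩ := coeffwise_mem_Zs hD π
  obtain ⟨n2, hn2, a, ha⟩ := coeffwise_mem_Zs hFD π
  rw [natCast_smul_eq] at hb ha
  have h2 : F₀ ^ μ + ∑ i ∈ Finset.range μ, coeffwise π (c i) * F₀ ^ i = 0 := by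
    have := congrArg (coeffwise π) hrel
    rw [coeffwise_add, coeffwise_sum, coeffwise_zero] at this
    have e1 : coeffwise π (F ^ μ) = F₀ ^ μ := by
      have : F ^ μ = PowerSeries.map (algebraMap ℚ ℂ) (F₀ ^ μ) * 1 := by
        rw [map_pow, hFmap, mul_one]
      rw [this, coeffwise_map_mul, coeffwise_one π hπ1, mul_one]
    have e2 : ∀ i, coeffwise π (c i * F ^ i) = coeffwise π (c i) * F₀ ^ i := by
      intro i
      have : c i * F ^ i = PowerSeries.map (algebraMap ℚ ℂ) (F₀ ^ i) * c i := by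
        rw [map_pow, hFmap, mul_comm]
      rw [this, coeffwise_map_mul, mul_comm]
    simpa [e1, e2] using this
  obtain ⟨n, hn, hz⟩ := exists_common_den (fun i => coeffwise π (c i)) μ (fun i hi => by
    obtain ⟨n, hn, z, hz⟩ := coeffwise_mem_Zs (hc i hi) π
    exact ⟨n, hn, z, by rw [← natCast_smul_eq]; exact hz⟩)
  choose! z hz using hz
  set φ : PowerSeries ℤ →+* PowerSeries ℚ := PowerSeries.map (Int.castRingHom ℚ) with hφdef
  have hφ : Function.Injective φ := map_int_injective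
  set x : PowerSeries ℚ := (n : PowerSeries ℚ) * F₀ with hx
  let q : Polynomial (PowerSeries ℤ) :=
    ∑ i ∈ Finset.range μ, Polynomial.C ((n : PowerSeries ℤ) ^ (μ - 1 - i) * z i) * Polynomial.X ^ i
  let p : Polynomial (PowerSeries ℤ) := Polynomial.X ^ μ + q
  have hq : q.degree < μ := by
    refine lt_of_le_of_lt (Polynomial.degree_sum_le _ _) ?_
    refine (Finset.sup_lt_iff (WithBot.bot_lt_coe μ)).mpr ?_
    intro i hi
    refine lt_of_le_of_lt (Polynomial.degree_C_mul_X_pow_le _ _) ?_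
    exact WithBot.coe_lt_coe.mpr (Finset.mem_range.mp hi)
  have hp : p.Monic := Polynomial.monic_X_pow_add hq
  have hpx : p.eval₂ φ x = 0 := by
    have e : ∀ i ∈ Finset.range μ,
        φ ((n : PowerSeries ℤ) ^ (μ - 1 - i) * z i) * x ^ i
          = (n : PowerSeries ℚ) ^ μ * (coeffwise π (c i) * F₀ ^ i) := by
      intro i hi
      have hi' : i < μ := Finset.mem_range.mp hi
      have hμ : μ = (μ - 1 - i) + 1 + i := by omega
      rw [map_mul, map_pow, map_natCast, ← hz i hi', hx, mul_pow]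
      conv_rhs => rw [hμ, pow_add, pow_add, pow_one]
      ring
    simp only [p, q, Polynomial.eval₂_add, Polynomial.eval₂_pow, Polynomial.eval₂_X,
      Polynomial.eval₂_finsetSum, Polynomial.eval₂_mul, Polynomial.eval₂_C]
    rw [Finset.sum_congr rfl e, ← Finset.mul_sum, hx, mul_pow, ← mul_add, h2, mul_zero]
  have hb0 : b ≠ 0 := by
    intro h
    rw [h, map_zero] at hb
    exact (mul_ne_zero (natCast_ne_zero_Q hn1) hD'0) hb
  have hfrac : φ ((n2 : PowerSeries ℤ) * b) * x = φ ((n * n1 : ℕ) * a) := by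
    rw [map_mul, map_mul, map_natCast, map_natCast, hφdef, ← hb, ← ha, ← h1, hx]
    push_cast; ring
  obtain ⟨cc, hcc⟩ := mem_range_of_isIntegral_of_frac φ hφ x ((n * n1 : ℕ) * a)
    ((n2 : PowerSeries ℤ) * b) (mul_ne_zero (natCast_ne_zero_Z hn2) hb0) hfrac p hp hpx
  refine ⟨n, hn, fun m => ⟨PowerSeries.coeff m cc, ?_⟩⟩
  have e1 := congrArg (PowerSeries.coeff m) hcc
  rw [hx, hφdef, PowerSeries.coeff_map] at e1
  have e2 : PowerSeries.coeff m ((n : PowerSeries ℚ) * F₀) = (n : ℚ) * r m := by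
    rw [← natCast_smul_eq, PowerSeries.coeff_smul, smul_eq_mul]
    simp [F₀]
  rw [e2] at e1
  rw [hr m]
  have := congrArg (fun t : ℚ => (t : ℂ)) e1
  simp only [eq_intCast, Rat.cast_intCast, Rat.cast_mul, Rat.cast_natCast] at this
  exact this.symm

end Fermat.Agent.S23.helper919
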