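import Mathlib
import Fermat.Prelude.Def_CuspForm_IntegralStructure
import Fermat.Prelude.Thm_CongruenceSubgroup_one_mem_strictPeriods_Gamma0
import Fermat.Agent.S23.helper263_Spec
import Fermat.Agent.S23.helper919_BDCore
import Fermat.Agent.S23.helper83_LevelOne
import Fermat.Agent.S23.helper487_Esymm

/-!
# Bounded denominators: assembly of `Stmt_BD` (helper535)

`QInt : Subalgebra ℂ (ℍ → ℂ)` is the algebra of *nice* functions (holomorphic, `1`-periodic,
bounded at `i∞`) whose `q`-expansion lies in the `ℂ`-span `helper919.Zs` of the power series with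
integer coefficients.  It contains

* every level one modular form of every weight (`levelOne_mem_QInt`, from `helper83`'s
  `levelOne_span_int`), and
* every nice function with integer `q`-coefficients (`mem_QInt_of_int`), e.g. every modular form
  on `Γ₀(N)` with integer `q`-coefficients (`gamma0_mem_QInt_of_int`),

and, being a subalgebra, all sums, products, powers, determinants, ... of such functions.

Main results:

* `bd_of_mem_QInt` : a nice `F` with rational `q`-coefficients such that `F * D = P` with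
  `D, P ∈ QInt`, `D ≠ 0`, and which satisfies a monic polynomial relation with coefficients in
  `QInt`, has bounded denominators.
* `monic_relation_QInt` : every cusp form on `Γ₀(N)` satisfies such a monic relation
  (from `helper487`'s characteristic polynomial relation).
* `stmt_BD_of_frac : Stmt_Frac N k → helper263.Stmt_BD N k`, where `Stmt_Frac N k` only asks
  that every `f ∈ S_k(Γ₀(N))` is a quotient `P / D` of elements of `QInt`.
-/

set_option autoImplicit false

open UpperHalfPlane Function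
open scoped MatrixGroups Manifold ModularForm

namespace Fermat.Agent.S23.helper535

/-- A function on the upper half plane is *nice* if it is `1`-periodic, holomorphic and bounded
at `i∞`. -/
def Nice (F : ℍ → ℂ) : Prop :=
  Periodic (F ∘ ofComplex) ((1 : ℝ) : ℂ) ∧ MDiff F ∧ IsBoundedAtImInfty F

namespace Nice

variable {F G : ℍ → ℂ}

lemma analyticAt (hF : Nice F) : AnalyticAt ℂ (cuspFunction 1 F) 0 :=
  UpperHalfPlane.analyticAt_cuspFunction_zero one_pos hF.1 hF.2.1 hF.2.2

lemma add (hF : Nice F) (hG : Nice G) : Nice (F + G) :=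
  ⟨hF.1.add hG.1, hF.2.1.add hG.2.1, hF.2.2.add hG.2.2⟩

lemma mul (hF : Nice F) (hG : Nice G) : Nice (F * G) :=
  ⟨hF.1.mul hG.1, hF.2.1.mul hG.2.1, hF.2.2.mul hG.2.2⟩

lemma const (c : ℂ) : Nice (fun _ => c) :=
  ⟨fun _ => rfl, mdifferentiable_const, Filter.const_boundedAtFilter _ c⟩

lemma one : Nice (1 : ℍ → ℂ) := const 1

lemma zero : Nice (0 : ℍ → ℂ) := const 0

lemma pow (hF : Nice F) (n : ℕ) : Nice (F ^ n) := by
  induction n with
  | zero => simpa using one
  | succ n ih => rw [pow_succ]; exact ih.mul hF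

lemma sum {ι : Type*} (s : Finset ι) {F : ι → ℍ → ℂ} (hF : ∀ i ∈ s, Nice (F i)) :
    Nice (∑ i ∈ s, F i) := by
  classical
  induction s using Finset.induction_on with
  | empty => simpa using zero
  | insert a s ha ih =>
    rw [Finset.sum_insert ha]
    exact (hF a (Finset.mem_insert_self a s)).add
      (ih fun i hi => hF i (Finset.mem_insert_of_mem hi))

lemma qExp_add (hF : Nice F) (hG : Nice G) :
    qExpansion 1 (F + G) = qExpansion 1 F + qExpansion 1 G :=
  UpperHalfPlane.qExpansion_add hF.analyticAt hG.analyticAt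

lemma qExp_mul (hF : Nice F) (hG : Nice G) :
    qExpansion 1 (F * G) = qExpansion 1 F * qExpansion 1 G :=
  UpperHalfPlane.qExpansion_mul hF.analyticAt hG.analyticAt

lemma qExp_smul (hF : Nice F) (c : ℂ) : qExpansion 1 (c • F) = c • qExpansion 1 F :=
  UpperHalfPlane.qExpansion_smul hF.analyticAt c

lemma qExp_pow (hF : Nice F) (n : ℕ) : qExpansion 1 (F ^ n) = qExpansion 1 F ^ n := by
  induction n with
  | zero => simpa using UpperHalfPlane.qExpansion_one 1
  | succ n ih => rw [pow_succ, (hF.pow n).qExp_mul hF, ih, pow_succ]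

lemma qExp_sum {ι : Type*} (s : Finset ι) {F : ι → ℍ → ℂ} (hF : ∀ i ∈ s, Nice (F i)) :
    qExpansion 1 (∑ i ∈ s, F i) = ∑ i ∈ s, qExpansion 1 (F i) := by
  classical
  induction s using Finset.induction_on with
  | empty => simpa using UpperHalfPlane.qExpansion_zero 1
  | insert a s ha ih =>
    rw [Finset.sum_insert ha, Finset.sum_insert ha,
      (hF a (Finset.mem_insert_self a s)).qExp_add
        (sum s fun i hi => hF i (Finset.mem_insert_of_mem hi)),
      ih fun i hi => hF i (Finset.mem_insert_of_mem hi)]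

/-- A nice function is determined by its `q`-expansion. -/
lemma eq_zero_of_qExp_eq_zero (hF : Nice F) (h : qExpansion 1 F = 0) : F = 0 :=
  (UpperHalfPlane.qExpansion_eq_zero_iff one_pos hF.1 hF.2.1 hF.2.2).1 h

end Nice

/-- Modular forms (of any weight) for a subgroup having `1` as a strict period are nice. -/
lemma nice_of_modularFormClass {Γ : Subgroup (GL (Fin 2) ℝ)} {k : ℤ} {F : Type*} [FunLike F ℍ ℂ]
    [ModularFormClass F Γ k] (hΓ : (1 : ℝ) ∈ Γ.strictPeriods) (f : F) : Nice (f : ℍ → ℂ) := by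
  have : Fact (IsCusp OnePoint.infty Γ) := ⟨Γ.isCusp_of_mem_strictPeriods one_pos hΓ⟩
  exact ⟨SlashInvariantFormClass.periodic_comp_ofComplex f hΓ, ModularFormClass.holo f,
    ModularFormClass.bdd_at_infty f⟩

/-- Modular forms on `Γ₀(N)` are nice. -/
lemma nice_gamma0 (N : ℕ) {k : ℤ} {F : Type*} [FunLike F ℍ ℂ]
    [ModularFormClass F ((CongruenceSubgroup.Gamma0 N : Subgroup SL(2, ℤ)) :
      Subgroup (GL (Fin 2) ℝ)) k] (f : F) : Nice (f : ℍ → ℂ) :=
  nice_of_modularFormClass (CongruenceSubgroup.one_mem_strictPeriods_Gamma0 N) f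

/-- Level one modular forms are nice. -/
lemma nice_levelOne {k : ℤ} {F : Type*} [FunLike F ℍ ℂ] [ModularFormClass F 𝒮ℒ k] (f : F) :
    Nice (f : ℍ → ℂ) :=
  nice_of_modularFormClass one_mem_strictPeriods_SL f

/-- The algebra of nice functions whose `q`-expansion lies in the `ℂ`-span of the power series
with integer coefficients. -/
def QInt : Subalgebra ℂ (ℍ → ℂ) where
  carrier := {F | Nice F ∧ qExpansion 1 F ∈ helper919.Zs}
  mul_mem' := by
    rintro F G ⟨hF, hF'⟩ ⟨hG, hG'⟩
    exact ⟨hF.mul hG, by rw [hF.qExp_mul hG]; exact helper919.mul_mem_Zs hF' hG'⟩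
  add_mem' := by
    rintro F G ⟨hF, hF'⟩ ⟨hG, hG'⟩
    exact ⟨hF.add hG, by rw [hF.qExp_add hG]; exact helper919.Zs.add_mem hF' hG'⟩
  algebraMap_mem' c := by
    have h : algebraMap ℂ (ℍ → ℂ) c = c • (1 : ℍ → ℂ) := by
      rw [Algebra.algebraMap_eq_smul_one]
    refine ⟨Nice.const c, ?_⟩
    rw [h, Nice.one.qExp_smul, UpperHalfPlane.qExpansion_one]
    exact helper919.Zs.smul_mem c helper919.one_mem_Zs

lemma mem_QInt {F : ℍ → ℂ} : F ∈ QInt ↔ Nice F ∧ qExpansion 1 F ∈ helper919.Zs := Iff.rfl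

lemma nice_of_mem_QInt {F : ℍ → ℂ} (hF : F ∈ QInt) : Nice F := hF.1

/-- A nice function with integer `q`-coefficients lies in `QInt`. -/
theorem mem_QInt_of_int {w : ℍ → ℂ} (hw : Nice w)
    (hint : ∀ n : ℕ, ∃ m : ℤ, (qExpansion 1 w).coeff n = (m : ℂ)) : w ∈ QInt := by
  refine ⟨hw, ?_⟩
  choose m hm using hint
  have : qExpansion 1 w = PowerSeries.map (Int.castRingHom ℂ) (PowerSeries.mk m) := by
    ext n
    simp [hm n]
  rw [this]
  exact helper919.map_int_mem_Zs _

/-- A modular form on `Γ₀(N)` with integer `q`-coefficients lies in `QInt`. -/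
theorem gamma0_mem_QInt_of_int (N : ℕ) {l : ℤ}
    (w : ModularForm (CongruenceSubgroup.Gamma0 N) l)
    (hint : ∀ n : ℕ, ∃ m : ℤ, (qExpansion 1 w).coeff n = (m : ℂ)) : (w : ℍ → ℂ) ∈ QInt :=
  mem_QInt_of_int (nice_gamma0 N w) hint

/-- Every level one modular form lies in `QInt`. -/
theorem levelOne_mem_QInt {m : ℤ} (r : ModularForm 𝒮ℒ m) : (r : ℍ → ℂ) ∈ QInt := by
  have hr : r ∈ Submodule.span ℂ (helper83.intForms m) :=
    helper83.levelOne_span_int m ▸ Submodule.mem_top
  induction hr using Submodule.span_induction with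
  | mem b hb =>
    refine mem_QInt_of_int (nice_levelOne b) ?_
    exact (helper83.mem_intPS_iff _).mp hb
  | zero => exact QInt.zero_mem
  | add x y _ _ hx hy => exact QInt.add_mem hx hy
  | smul c x _ hx => exact QInt.smul_mem hx c

/-- Every level one cusp form lies in `QInt`. -/
theorem levelOneCusp_mem_QInt {m : ℤ} (r : CuspForm 𝒮ℒ m) : (r : ℍ → ℂ) ∈ QInt :=
  levelOne_mem_QInt (r : ModularForm 𝒮ℒ m)

/-- A nonzero element of `QInt` has nonzero `q`-expansion. -/
lemma qExp_ne_zero_of_mem_QInt {D : ℍ → ℂ} (hD : D ∈ QInt) (hD0 : D ≠ 0) :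
    qExpansion 1 D ≠ 0 :=
  fun h => hD0 (hD.1.eq_zero_of_qExp_eq_zero h)

/-- **Bounded denominators, function level.**  Let `F` be a nice function with rational
`q`-coefficients.  If `F * D = P` with `D, P ∈ QInt`, `D ≠ 0`, and `F` is a root of a monic
polynomial with coefficients in `QInt`, then a nonzero integer multiple of `F` has integer
`q`-coefficients. -/
theorem bd_of_mem_QInt (F : ℍ → ℂ) (hF : Nice F)
    (hrat : ∀ n : ℕ, ∃ r : ℚ, (qExpansion 1 F).coeff n = (r : ℂ))
    (D P : ℍ → ℂ) (hD : D ∈ QInt) (hD0 : D ≠ 0) (hP : P ∈ QInt) (hFD : F * D = P)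
    (μ : ℕ) (e : ℕ → ℍ → ℂ) (he : ∀ i < μ, e i ∈ QInt)
    (hrel : F ^ μ + ∑ i ∈ Finset.range μ, e i * F ^ i = 0) :
    ∃ n : ℕ, n ≠ 0 ∧ ∀ m : ℕ, ∃ z : ℤ, (n : ℂ) * (qExpansion 1 F).coeff m = (z : ℂ) := by
  refine helper919.bdd_denominators (qExpansion 1 F) (qExpansion 1 D) hrat
    (qExp_ne_zero_of_mem_QInt hD hD0) hD.2 ?_ μ (fun i => qExpansion 1 (e i))
    (fun i hi => (he i hi).2) ?_
  · rw [← hF.qExp_mul hD.1, hFD]
    exact hP.2
  · have hterm : ∀ i ∈ Finset.range μ, Nice (e i * F ^ i) := fun i hi =>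
      (he i (Finset.mem_range.mp hi)).1.mul (hF.pow i)
    have h := congrArg (qExpansion 1) hrel
    rw [(hF.pow μ).qExp_add (Nice.sum _ hterm), hF.qExp_pow, Nice.qExp_sum _ hterm,
      UpperHalfPlane.qExpansion_zero] at h
    rw [← h]
    congr 1
    refine Finset.sum_congr rfl fun i hi => ?_
    rw [((he i (Finset.mem_range.mp hi)).1).qExp_mul (hF.pow i), hF.qExp_pow]

/-- **Package (I) in `QInt` form.**  Every cusp form on `Γ₀(N)` is a root of a monic polynomial
whose lower coefficients are (functions underlying) level one modular forms, hence in `QInt`. -/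
theorem monic_relation_QInt (N : ℕ) [NeZero N] (k : ℤ)
    (f : CuspForm (CongruenceSubgroup.Gamma0 N) k) :
    ∃ (μ : ℕ) (e : ℕ → ℍ → ℂ), (∀ i < μ, e i ∈ QInt) ∧
      (f : ℍ → ℂ) ^ μ + ∑ i ∈ Finset.range μ, e i * (f : ℍ → ℂ) ^ i = 0 := by
  classical
  set μ : ℕ := Nat.card (𝒮ℒ ⧸ (((CongruenceSubgroup.Gamma0 N : Subgroup SL(2, ℤ)) :
    Subgroup (GL (Fin 2) ℝ))).subgroupOf 𝒮ℒ) with hμ
  refine ⟨μ, fun i => (-1 : ℂ) ^ (μ - i) • (helper487.esymmFun 𝒮ℒ f (μ - i)), ?_, ?_⟩
  · intro i _
    refine QInt.smul_mem ?_ _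
    rw [← helper487.coe_esymmForm]
    exact levelOne_mem_QInt _
  · funext τ
    have h := helper487.charpoly_relation_monic 𝒮ℒ f τ
    rw [← hμ] at h
    simp only [Pi.add_apply, Pi.pow_apply, Finset.sum_apply, Pi.mul_apply, Pi.smul_apply,
      smul_eq_mul, Pi.zero_apply]
    rw [← h]
    congr 1
    rw [← Finset.sum_range_reflect]
    refine Finset.sum_congr rfl fun j hj => ?_
    have hj' : j < μ := Finset.mem_range.mp hj
    have h1 : μ - (μ - 1 - j) = j + 1 := by omega
    have h2 : μ - 1 - j = μ - (j + 1) := by omega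
    rw [h1, h2]
    ring

/-- The remaining input for bounded denominators: every cusp form on `Γ₀(N)` of weight `k` is a
quotient of two elements of the algebra `QInt`. -/
def Stmt_Frac (N : ℕ) (k : ℤ) : Prop :=
  ∀ f : CuspForm (CongruenceSubgroup.Gamma0 N) k,
    ∃ D P : ℍ → ℂ, D ∈ QInt ∧ D ≠ 0 ∧ P ∈ QInt ∧ ∀ z, f z * D z = P z

/-- **Bounded denominators from the fraction statement.** -/
theorem stmt_BD_of_frac (N : ℕ) [NeZero N] (k : ℤ) (h : Stmt_Frac N k) :
    Fermat.Agent.S23.helper263.Stmt_BD N k := by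
  intro f hf
  obtain ⟨D, P, hD, hD0, hP, hfD⟩ := h f
  obtain ⟨μ, e, he, hrel⟩ := monic_relation_QInt N k f
  exact bd_of_mem_QInt (f : ℍ → ℂ) (nice_gamma0 N f) hf D P hD hD0 hP (funext hfD) μ e he hrel

end Fermat.Agent.S23.helper535
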