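import Mathlib

set_option autoImplicit false

/-!
# The Hankel / trace identity

Pure algebra: for a finite family of pairs `(a q, b q)` in a commutative ring, with power sums
`p m = ∑ q, a q ^ m`, twisted power sums `t i = ∑ q, b q * a q ^ i` and Hankel matrix
`H = (p (i + j))`, one has `det H * b q = ∑ j, cramer H t j * a q ^ j` for every `q`, and
`det H` is the square of the Vandermonde determinant of the `a q`.

Application: for modular forms `f`, `w` on a finite index subgroup, the translates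
`a q = quotientFunc w q`, `b q = quotientFunc f q` give a level one form `D` (the Hankel
determinant of the traces of `w ^ m`) and level one forms `c j` with `D * f = ∑ j, c j * w ^ j`.
-/

namespace Fermat.Agent.S23.helper83

open Matrix Finset

section PureAlgebra

variable {R : Type*} [CommRing R] {ι : Type*} [Fintype ι] (a b : ι → R)

/-- Power sums `∑ q, a q ^ m`. -/
def psum (m : ℕ) : R := ∑ q, a q ^ m

/-- Twisted power sums `∑ q, b q * a q ^ i`. -/
def tsum (i : ℕ) : R := ∑ q, b q * a q ^ i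

/-- The Hankel matrix `(p (i + j))` of the power sums. -/
def hankel (n : ℕ) : Matrix (Fin n) (Fin n) R := fun i j => psum a ((i : ℕ) + (j : ℕ))

/-- The vector of twisted power sums. -/
def tvec (n : ℕ) : Fin n → R := fun i => tsum a b (i : ℕ)

/-- The (transposed) Vandermonde matrix after enumerating the index type. -/
def vdm {n : ℕ} (e : ι ≃ Fin n) : Matrix (Fin n) (Fin n) R := fun i j => a (e.symm j) ^ (i : ℕ)

lemma hankel_eq_vdm_mul {n : ℕ} (e : ι ≃ Fin n) : hankel a n = vdm a e * (vdm a e)ᵀ := by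
  ext i j
  simp only [hankel, psum, vdm, Matrix.mul_apply, Matrix.transpose_apply]
  rw [← Equiv.sum_comp e.symm]
  exact Finset.sum_congr rfl fun x _ => pow_add _ _ _

lemma tvec_eq_vdm_mulVec {n : ℕ} (e : ι ≃ Fin n) : tvec a b n = vdm a e *ᵥ (b ∘ e.symm) := by
  ext i
  simp only [tvec, tsum, vdm, Matrix.mulVec, dotProduct, Function.comp_apply]
  rw [← Equiv.sum_comp e.symm]
  exact Finset.sum_congr rfl fun x _ => mul_comm _ _

lemma det_hankel_eq {n : ℕ} (e : ι ≃ Fin n) :
    (hankel a n).det = (vdm a e).det * (vdm a e).det := by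
  rw [hankel_eq_vdm_mul a e, Matrix.det_mul, Matrix.det_transpose]

/-- **Hankel–Cramer identity.** -/
theorem hankel_cramer {n : ℕ} (e : ι ≃ Fin n) (q : ι) :
    (hankel a n).det * b q =
      ∑ j : Fin n, (hankel a n).cramer (tvec a b n) j * a q ^ (j : ℕ) := by
  set W := vdm a e with hW
  have key : Wᵀ * (hankel a n).adjugate * W = ((hankel a n).det) • (1 : Matrix (Fin n) (Fin n) R) := by
    rw [det_hankel_eq a e, hankel_eq_vdm_mul a e, Matrix.adjugate_mul_distrib,
      ← Matrix.mul_assoc, Matrix.mul_assoc, Matrix.mul_assoc, Matrix.adjugate_mul,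
      ← Matrix.mul_assoc, Matrix.mul_adjugate, Matrix.det_transpose, ← hW]
    simp [smul_smul]
  have h1 : (Wᵀ *ᵥ ((hankel a n).adjugate *ᵥ (W *ᵥ (b ∘ e.symm)))) (e q) =
      (hankel a n).det * b q := by
    rw [Matrix.mulVec_mulVec, Matrix.mulVec_mulVec, key]
    simp [Matrix.smul_mulVec]
  rw [← h1, Matrix.cramer_eq_adjugate_mulVec, tvec_eq_vdm_mulVec a b e]
  simp only [Matrix.mulVec, dotProduct, Matrix.transpose_apply]
  refine Finset.sum_congr rfl fun j _ => ?_
  rw [hW]
  simp only [vdm, Equiv.symm_apply_apply]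
  ring

/-- The Hankel determinant is the square of the Vandermonde determinant. -/
theorem det_hankel {n : ℕ} (e : ι ≃ Fin n) :
    (hankel a n).det =
      (∏ i : Fin n, ∏ j ∈ Finset.Ioi i, (a (e.symm j) - a (e.symm i))) ^ 2 := by
  have hv : vdm a e = (Matrix.vandermonde (a ∘ e.symm))ᵀ := by
    ext i j
    simp [vdm, Matrix.vandermonde_apply]
  rw [det_hankel_eq a e, hv, Matrix.det_transpose, Matrix.det_vandermonde, sq]
  rfl

end PureAlgebra

section LevelOnePredicate

open UpperHalfPlane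
open scoped ModularForm MatrixGroups Manifold

/-- `F` is (the underlying function of) a level one modular form of weight `m`. -/
def IsL1 (m : ℤ) (F : ℍ → ℂ) : Prop := ∃ r : ModularForm 𝒮ℒ m, ⇑r = F

lemma IsL1.cast {m n : ℤ} {F : ℍ → ℂ} (h : IsL1 m F) (hmn : m = n) : IsL1 n F := hmn ▸ h

lemma IsL1.zero (m : ℤ) : IsL1 m 0 := ⟨0, rfl⟩

lemma IsL1.one : IsL1 0 1 := ⟨1, rfl⟩

lemma IsL1.add {m : ℤ} {F G : ℍ → ℂ} (hF : IsL1 m F) (hG : IsL1 m G) : IsL1 m (F + G) := by
  obtain ⟨r, rfl⟩ := hF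
  obtain ⟨s, rfl⟩ := hG
  exact ⟨r + s, rfl⟩

lemma IsL1.neg {m : ℤ} {F : ℍ → ℂ} (hF : IsL1 m F) : IsL1 m (-F) := by
  obtain ⟨r, rfl⟩ := hF
  exact ⟨-r, rfl⟩

lemma IsL1.mul {m n : ℤ} {F G : ℍ → ℂ} (hF : IsL1 m F) (hG : IsL1 n G) :
    IsL1 (m + n) (F * G) := by
  obtain ⟨r, rfl⟩ := hF
  obtain ⟨s, rfl⟩ := hG
  exact ⟨r.mul s, rfl⟩

lemma IsL1.units_smul {m : ℤ} {F : ℍ → ℂ} (u : ℤˣ) (hF : IsL1 m F) : IsL1 m (u • F) := by
  rcases Int.units_eq_one_or u with rfl | rfl
  · simpa using hF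
  · simpa using hF.neg

lemma IsL1.sum {α : Type*} {m : ℤ} (s : Finset α) {F : α → ℍ → ℂ}
    (hF : ∀ i ∈ s, IsL1 m (F i)) : IsL1 m (∑ i ∈ s, F i) := by
  classical
  induction s using Finset.induction_on with
  | empty => simpa using IsL1.zero m
  | insert a s ha ih =>
    rw [Finset.sum_insert ha]
    exact (hF a (Finset.mem_insert_self a s)).add
      (ih fun i hi => hF i (Finset.mem_insert_of_mem hi))

lemma IsL1.prod {α : Type*} (s : Finset α) {wt : α → ℤ} {F : α → ℍ → ℂ}
    (hF : ∀ i ∈ s, IsL1 (wt i) (F i)) : IsL1 (∑ i ∈ s, wt i) (∏ i ∈ s, F i) := by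
  classical
  induction s using Finset.induction_on with
  | empty => simpa using IsL1.one
  | insert a s ha ih =>
    rw [Finset.sum_insert ha, Finset.prod_insert ha]
    exact (hF a (Finset.mem_insert_self a s)).mul
      (ih fun i hi => hF i (Finset.mem_insert_of_mem hi))

/-- The determinant of a matrix of level one forms whose `(i, j)` entry has weight
`α i + β j` is a level one form of weight `∑ α + ∑ β`. -/
lemma IsL1.det {n : ℕ} {α β : Fin n → ℤ} {A : Matrix (Fin n) (Fin n) (ℍ → ℂ)}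
    (hA : ∀ i j, IsL1 (α i + β j) (A i j)) : IsL1 (∑ i, α i + ∑ j, β j) A.det := by
  rw [Matrix.det_apply]
  refine IsL1.sum _ fun σ _ => IsL1.units_smul _ ?_
  have h := IsL1.prod (Finset.univ : Finset (Fin n)) (wt := fun i => α (σ i) + β i)
    (F := fun i => A (σ i) i) fun i _ => hA (σ i) i
  refine h.cast ?_
  rw [Finset.sum_add_distrib, Equiv.sum_comp σ α]

end LevelOnePredicate

section Translates

open UpperHalfPlane SlashInvariantForm
open scoped ModularForm MatrixGroups Manifold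

variable {𝒢 : Subgroup (GL (Fin 2) ℝ)}

local notation "𝒬" => 𝒮ℒ ⧸ (𝒢.subgroupOf 𝒮ℒ)

lemma abs_det_inv_eq_one (r : 𝒮ℒ) : |((r : GL (Fin 2) ℝ)⁻¹).det.val| = 1 :=
  Subgroup.HasDetPlusMinusOne.abs_det (inv_mem r.2)

lemma quotientFunc_mul [𝒢.HasDetPlusMinusOne] {k₁ k₂ : ℤ} (f : ModularForm 𝒢 k₁)
    (g : ModularForm 𝒢 k₂) (q : 𝒬) :
    quotientFunc (f.mul g) q = quotientFunc f q * quotientFunc g q := by
  induction q using Quotient.inductionOn with
  | h r =>
    simp only [quotientFunc_mk]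
    rw [ModularForm.coe_mul, ModularForm.mul_slash, abs_det_inv_eq_one, one_smul]

lemma pow_slash_of_abs_det {l : ℤ} (F : ℍ → ℂ) (m : ℕ) {g : GL (Fin 2) ℝ}
    (hg : |g.det.val| = 1) : (F ^ m) ∣[(m : ℤ) * l] g = (F ∣[l] g) ^ m := by
  have h := ModularForm.prod_slash (k := l) (g := g) (f := fun _ : ℕ => F) (s := Finset.range m)
  simp only [Finset.prod_const, Finset.card_range, hg, _root_.one_zpow, one_smul] at h
  rw [mul_comm]
  exact h

lemma quotientFunc_pow [𝒢.HasDetPlusMinusOne] {l : ℤ} (w : ModularForm 𝒢 l) (m : ℕ) (q : 𝒬) :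
    quotientFunc (w.pow m) q = quotientFunc w q ^ m := by
  induction q using Quotient.inductionOn with
  | h r =>
    simp only [quotientFunc_mk]
    rw [ModularForm.coe_pow, pow_slash_of_abs_det _ _ (abs_det_inv_eq_one r)]

variable [𝒢.IsFiniteRelIndex 𝒮ℒ]

lemma coe_trace_eq_sum [Fintype 𝒬] {k : ℤ} (f : ModularForm 𝒢 k) :
    ⇑(ModularForm.trace 𝒮ℒ f) = ∑ q : 𝒬, quotientFunc f q := by
  rw [ModularForm.coe_trace]
  convert rfl

variable [𝒢.HasDetPlusMinusOne]

/-- The power sums of the translates of `w` are level one forms. -/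
lemma isL1_psum [Fintype 𝒬] {l : ℤ} (w : ModularForm 𝒢 l) (m : ℕ) :
    IsL1 ((m : ℤ) * l) (psum (fun q : 𝒬 => quotientFunc w q) m) := by
  refine ⟨ModularForm.trace 𝒮ℒ (w.pow m), ?_⟩
  rw [coe_trace_eq_sum, psum]
  exact Finset.sum_congr rfl fun q _ => quotientFunc_pow w m q

/-- The twisted power sums of the translates of `f`, `w` are level one forms. -/
lemma isL1_tsum [Fintype 𝒬] {k l : ℤ} (f : ModularForm 𝒢 k) (w : ModularForm 𝒢 l) (i : ℕ) :
    IsL1 (k + (i : ℤ) * l)
      (tsum (fun q : 𝒬 => quotientFunc w q) (fun q : 𝒬 => quotientFunc f q) i) := by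
  refine ⟨ModularForm.trace 𝒮ℒ (f.mul (w.pow i)), ?_⟩
  rw [coe_trace_eq_sum, tsum]
  refine Finset.sum_congr rfl fun q _ => ?_
  rw [quotientFunc_mul, quotientFunc_pow]

end Translates

section Nonvanishing

open UpperHalfPlane
open scoped Manifold

/-- The product of two nonzero holomorphic functions on the upper half-plane is nonzero. -/
lemma mul_ne_zero_of_mdiff {F G : ℍ → ℂ} (hF : MDiff F) (hG : MDiff G) (hF0 : F ≠ 0)
    (hG0 : G ≠ 0) : F * G ≠ 0 := by
  intro h
  have hU : IsOpen {z : ℂ | 0 < z.im} := isOpen_lt continuous_const Complex.continuous_im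
  have hconn : IsPreconnected {z : ℂ | 0 < z.im} := (convex_halfSpace_im_gt 0).isPreconnected
  have hF' := (UpperHalfPlane.mdifferentiable_iff.mp hF).analyticOnNhd hU
  have hG' := (UpperHalfPlane.mdifferentiable_iff.mp hG).analyticOnNhd hU
  have hFG : ∀ z ∈ {z : ℂ | 0 < z.im}, (F ∘ ofComplex) z * (G ∘ ofComplex) z = 0 := by
    intro z _
    exact congrFun h (ofComplex z)
  rcases hF'.eq_zero_or_eq_zero_of_mul_eq_zero hG' hFG hconn with h1 | h1
  · apply hF0
    ext τ
    simpa using h1 τ τ.2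
  · apply hG0
    ext τ
    simpa using h1 τ τ.2

/-- A finite product of nonzero holomorphic functions on the upper half-plane is nonzero. -/
lemma prod_ne_zero_of_mdiff {α : Type*} (s : Finset α) {g : α → ℍ → ℂ}
    (hg : ∀ i ∈ s, MDiff (g i)) (h0 : ∀ i ∈ s, g i ≠ 0) :
    MDiff (∏ i ∈ s, g i) ∧ ∏ i ∈ s, g i ≠ 0 := by
  classical
  induction s using Finset.induction_on with
  | empty =>
    refine ⟨?_, ?_⟩
    · rw [Finset.prod_empty]
      exact (mdifferentiable_const : MDiff (fun _ : ℍ => (1 : ℂ)))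
    · simp only [Finset.prod_empty]
      intro h
      simpa using congrFun h UpperHalfPlane.I
  | insert a s ha ih =>
    obtain ⟨h1, h2⟩ := ih (fun i hi => hg i (Finset.mem_insert_of_mem hi))
      (fun i hi => h0 i (Finset.mem_insert_of_mem hi))
    rw [Finset.prod_insert ha]
    exact ⟨(hg a (Finset.mem_insert_self a s)).mul h1,
      mul_ne_zero_of_mdiff (hg a (Finset.mem_insert_self a s)) h1
        (h0 a (Finset.mem_insert_self a s)) h2⟩

end Nonvanishing

section Main

open UpperHalfPlane SlashInvariantForm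
open scoped ModularForm MatrixGroups Manifold

variable {𝒢 : Subgroup (GL (Fin 2) ℝ)}

local notation "𝒬" => 𝒮ℒ ⧸ (𝒢.subgroupOf 𝒮ℒ)

lemma quotientFunc_one_eq {k : ℤ} (f : ModularForm 𝒢 k) :
    quotientFunc f ((1 : 𝒮ℒ) : 𝒬) = ⇑f := by
  show quotientFunc f ⟦(1 : 𝒮ℒ)⟧ = _
  rw [quotientFunc_mk]
  simp

lemma mdiff_quotientFunc' {k : ℤ} (f : ModularForm 𝒢 k) (q : 𝒬) : MDiff (quotientFunc f q) :=
  Quotient.inductionOn q fun r => (ModularForm.translate f r.val⁻¹).holo'

/-- The weight of the Hankel determinant. -/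
def hankelWeight (l : ℤ) (n : ℕ) : ℤ :=
  ∑ i : Fin n, ((i : ℕ) : ℤ) * l + ∑ j : Fin n, ((j : ℕ) : ℤ) * l

variable [𝒢.IsFiniteRelIndex 𝒮ℒ] [𝒢.HasDetPlusMinusOne]

lemma isL1_det_hankel [Fintype 𝒬] {l : ℤ} (w : ModularForm 𝒢 l) (n : ℕ) :
    IsL1 (hankelWeight l n) (hankel (fun q : 𝒬 => quotientFunc w q) n).det := by
  refine IsL1.det (α := fun i => ((i : ℕ) : ℤ) * l) (β := fun j => ((j : ℕ) : ℤ) * l)
    fun i j => ?_
  exact (isL1_psum w ((i : ℕ) + (j : ℕ))).cast (by push_cast; ring)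

lemma isL1_cramer_hankel [Fintype 𝒬] {k l : ℤ} (f : ModularForm 𝒢 k) (w : ModularForm 𝒢 l)
    (n : ℕ) (j : Fin n) :
    IsL1 (k + hankelWeight l n - l * ((j : ℕ) : ℤ))
      ((hankel (fun q : 𝒬 => quotientFunc w q) n).cramer
        (tvec (fun q : 𝒬 => quotientFunc w q) (fun q : 𝒬 => quotientFunc f q) n) j) := by
  rw [Matrix.cramer_apply]
  have h := IsL1.det (α := fun i : Fin n => ((i : ℕ) : ℤ) * l)
    (β := Function.update (fun j' : Fin n => ((j' : ℕ) : ℤ) * l) j k)
    (A := (hankel (fun q : 𝒬 => quotientFunc w q) n).updateCol j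
      (tvec (fun q : 𝒬 => quotientFunc w q) (fun q : 𝒬 => quotientFunc f q) n)) ?_
  · refine h.cast ?_
    have h2 := Finset.add_sum_erase Finset.univ (fun j' : Fin n => ((j' : ℕ) : ℤ) * l)
      (Finset.mem_univ j)
    rw [hankelWeight, Finset.sum_update_of_mem (Finset.mem_univ j), ← h2,
      Finset.sdiff_singleton_eq_erase]
    ring
  · intro i j'
    by_cases hj : j' = j
    · subst hj
      rw [Matrix.updateCol_self, Function.update_self]
      exact (isL1_tsum f w (i : ℕ)).cast (by ring)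
    · rw [Matrix.updateCol_ne hj, Function.update_of_ne hj]
      exact (isL1_psum w ((i : ℕ) + (j' : ℕ))).cast (by push_cast; ring)

/-- **Hankel representation.** Let `f`, `w` be modular forms of weights `k`, `l` on a subgroup
`𝒢` of finite index in `SL(2, ℤ)`, such that the translates of `w` under `SL(2, ℤ) / 𝒢` are
pairwise distinct.  Then there are a nonzero level one form `D` and level one forms `c j` with
`D * f = ∑ j, c j * w ^ j`. -/
theorem hankel_rep {k l : ℤ} (f : ModularForm 𝒢 k) (w : ModularForm 𝒢 l)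
    (hw : Function.Injective (fun q : 𝒬 => quotientFunc w q)) :
    ∃ (M : ℤ) (D : ModularForm 𝒮ℒ M), D ≠ 0 ∧
      ∃ c : (j : Fin (Nat.card 𝒬)) → ModularForm 𝒮ℒ (k + M - l * ((j : ℕ) : ℤ)),
        ∀ τ, D τ * f τ = ∑ j, c j τ * w τ ^ (j : ℕ) := by
  classical
  let _ : Fintype 𝒬 := Fintype.ofFinite 𝒬
  set n := Nat.card 𝒬 with hn
  let e : 𝒬 ≃ Fin n := Finite.equivFin 𝒬
  set a : 𝒬 → ℍ → ℂ := fun q => quotientFunc w q with ha
  set b : 𝒬 → ℍ → ℂ := fun q => quotientFunc f q with hb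
  obtain ⟨D, hD⟩ := isL1_det_hankel w n
  choose c hc using fun j : Fin n => isL1_cramer_hankel f w n j
  refine ⟨hankelWeight l n, D, ?_, c, ?_⟩
  · -- nonvanishing
    intro hD0
    have hdet := det_hankel a e
    have hprod := prod_ne_zero_of_mdiff (Finset.univ : Finset (Fin n))
      (g := fun i => ∏ j ∈ Finset.Ioi i, (a (e.symm j) - a (e.symm i)))
      (fun i _ => (prod_ne_zero_of_mdiff (Finset.Ioi i)
        (g := fun j => a (e.symm j) - a (e.symm i))
        (fun j _ => (mdiff_quotientFunc' w _).sub (mdiff_quotientFunc' w _))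
        (fun j hj => sub_ne_zero.mpr fun h =>
          (Finset.mem_Ioi.mp hj).ne' (e.symm.injective (hw h)))).1)
      (fun i _ => (prod_ne_zero_of_mdiff (Finset.Ioi i)
        (g := fun j => a (e.symm j) - a (e.symm i))
        (fun j _ => (mdiff_quotientFunc' w _).sub (mdiff_quotientFunc' w _))
        (fun j hj => sub_ne_zero.mpr fun h =>
          (Finset.mem_Ioi.mp hj).ne' (e.symm.injective (hw h)))).2)
    have h0 : (hankel a n).det = 0 := by
      rw [← hD, hD0]
      rfl
    rw [hdet] at h0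
    apply hprod.2
    ext τ
    have h1 := congrFun h0 τ
    simpa using h1
  · intro τ
    have h := congrFun (hankel_cramer a b e ((1 : 𝒮ℒ) : 𝒬)) τ
    simp only [Pi.mul_apply, Finset.sum_apply, Pi.pow_apply] at h
    rw [ha, hb] at h
    simp only [quotientFunc_one_eq] at h
    rw [hD, h]
    exact Finset.sum_congr rfl fun j _ => by rw [hc j]

end Main

end Fermat.Agent.S23.helper83
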