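import Mathlib
import Fermat.Agent.S23.helper535_BDAsm
import Fermat.Agent.S23.helper83_Hankel
import Fermat.Agent.S23.helper143_PrimElt

/-!
# Bounded denominators: `Stmt_BD N k` for every level `N ≠ 0` and every weight `k` (helper535)

`stmt_Frac N k` : every cusp form on `Γ₀(N)` is a quotient of two elements of the algebra `QInt`
(Hankel representation `helper83.hankel_rep` applied to the primitive element `helper143.wN N`).

`stmt_BD N k : helper263.Stmt_BD N k`, unconditionally.
-/

set_option autoImplicit false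

open UpperHalfPlane
open scoped MatrixGroups Manifold ModularForm

namespace Fermat.Agent.S23.helper535

/-- The primitive element `wN N` lies in `QInt`. -/
theorem wN_mem_QInt (N : ℕ) [NeZero N] : (helper143.wN N : ℍ → ℂ) ∈ QInt := by
  refine gamma0_mem_QInt_of_int N (helper143.wN N) fun n => ?_
  obtain ⟨p, hp⟩ := helper143.qExpansion_wN_int N
  exact ⟨p.coeff n, by rw [hp]; simp⟩

/-- Every cusp form on `Γ₀(N)` is a quotient of two elements of `QInt`. -/
theorem stmt_Frac (N : ℕ) [NeZero N] (k : ℤ) : Stmt_Frac N k := by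
  intro f
  obtain ⟨M, D, hD0, c, hc⟩ := helper83.hankel_rep
    (f : ModularForm (CongruenceSubgroup.Gamma0 N) k) (helper143.wN N)
    (helper143.quotientFunc_wN_injective N)
  refine ⟨D, ∑ j, (c j : ℍ → ℂ) * (helper143.wN N : ℍ → ℂ) ^ (j : ℕ),
    levelOne_mem_QInt D, ?_, ?_, ?_⟩
  · intro h
    exact hD0 (DFunLike.coe_injective h)
  · exact QInt.sum_mem fun j _ =>
      QInt.mul_mem (levelOne_mem_QInt _) (QInt.pow_mem (wN_mem_QInt N) _)
  · intro z
    have h := hc z
    simp only [Finset.sum_apply, Pi.mul_apply, Pi.pow_apply]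
    rw [mul_comm]
    exact h

/-- **Bounded denominators** for cusp forms on `Γ₀(N)`, every weight. -/
theorem stmt_BD (N : ℕ) [NeZero N] (k : ℤ) : Fermat.Agent.S23.helper263.Stmt_BD N k :=
  stmt_BD_of_frac N k (stmt_Frac N k)

end Fermat.Agent.S23.helper535
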