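import Fermat.Agent.S23.helper645_Trace

/-!
# S23 helper (helper645): conjugation of cusp forms by ring homomorphisms of `ℂ`

`conj_of`: for an arithmetic `Γ ≤ 𝒮ℒ` with `1 ∈ Γ.strictPeriods`, a ring hom `σ : ℂ →+* ℂ`, given
* `LevelOneConj σ` (every level-one form has a `σ`-conjugate),
* `LemmaH Γ` (a quotient `G / D` of forms satisfying a monic equation with level-one cuspidal
  coefficients is a cusp form),
* a primitive element `w` for `Γ` with `σ`-fixed `q`-expansion,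
every cusp form `f` on `Γ` has a `σ`-conjugate cusp form on `Γ`.
-/

set_option autoImplicit false

namespace Fermat.Agent.S23.helper645

open UpperHalfPlane ModularForm SlashInvariantForm
open scoped MatrixGroups Manifold

/-! ### The Hankel expressions in a commutative ring -/

section algebra

variable {R S : Type*} [CommRing R] [CommRing S]

/-- Hankel determinant `det (P (i + j))`. -/
noncomputable def hDet (μ : ℕ) (P : ℕ → R) : R :=
  (Matrix.of fun i j : Fin μ => P ((i : ℕ) + (j : ℕ))).det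

/-- Hankel numerator `∑ j, cramer (P (i + j)) T j * w ^ j`. -/
noncomputable def hNum (μ : ℕ) (P T : ℕ → R) (w : R) : R :=
  ∑ j : Fin μ, Matrix.cramer (Matrix.of fun i j : Fin μ => P ((i : ℕ) + (j : ℕ)))
    (fun i : Fin μ => T i) j * w ^ (j : ℕ)

/-- The monic expression `G ^ ν + ∑ i < ν, E (i+1) * G ^ (ν - (i+1)) * D ^ (i+1)`. -/
noncomputable def monicExpr (ν : ℕ) (E : ℕ → R) (G D : R) : R :=
  G ^ ν + ∑ i ∈ Finset.range ν, E (i + 1) * G ^ (ν - (i + 1)) * D ^ (i + 1)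

theorem map_hDet (φ : R →+* S) (μ : ℕ) (P : ℕ → R) :
    φ (hDet μ P) = hDet μ (fun m => φ (P m)) := by
  unfold hDet
  rw [RingHom.map_det]
  rfl

theorem map_hNum (φ : R →+* S) (μ : ℕ) (P T : ℕ → R) (w : R) :
    φ (hNum μ P T w) = hNum μ (fun m => φ (P m)) (fun m => φ (T m)) (φ w) := by
  unfold hNum
  rw [map_sum]
  refine Finset.sum_congr rfl fun j _ => ?_
  rw [map_mul, map_pow, Matrix.cramer_apply, Matrix.cramer_apply, RingHom.map_det]
  congr 2
  ext i j'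
  simp only [RingHom.mapMatrix_apply, Matrix.map_apply, Matrix.updateCol_apply, Matrix.of_apply]
  split_ifs <;> rfl

theorem map_monicExpr (φ : R →+* S) (ν : ℕ) (E : ℕ → R) (G D : R) :
    φ (monicExpr ν E G D) = monicExpr ν (fun m => φ (E m)) (φ G) (φ D) := by
  unfold monicExpr
  simp only [map_add, map_pow, map_sum, map_mul]

theorem monicExpr_eq_zero (ν : ℕ) (E : ℕ → R) (f G D : R) (hG : D * f = G)
    (hf : f ^ ν + ∑ i ∈ Finset.range ν, E (i + 1) * f ^ (ν - (i + 1)) = 0) :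
    monicExpr ν E G D = 0 := by
  unfold monicExpr
  have : G ^ ν + ∑ i ∈ Finset.range ν, E (i + 1) * G ^ (ν - (i + 1)) * D ^ (i + 1) =
      D ^ ν * (f ^ ν + ∑ i ∈ Finset.range ν, E (i + 1) * f ^ (ν - (i + 1))) := by
    rw [mul_add, Finset.mul_sum, ← hG, mul_pow]
    congr 1
    refine Finset.sum_congr rfl fun i hi => ?_
    rw [Finset.mem_range] at hi
    have hν : ν = (ν - (i + 1)) + (i + 1) := by omega
    rw [mul_pow]
    nth_rw 3 [hν]
    rw [pow_add]
    ring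
  rw [this, hf, mul_zero]

end algebra

/-! ### Weights of the Hankel expressions -/

/-- The weight of the Hankel determinant. -/
def wD (μ : ℕ) (l : ℤ) : ℤ := ∑ i : Fin μ, ((i : ℕ) : ℤ) * l + ∑ i : Fin μ, ((i : ℕ) : ℤ) * l

theorem isMF_hDet {Γ : Subgroup (GL (Fin 2) ℝ)} [Γ.HasDetPlusMinusOne] (μ : ℕ) {l : ℤ}
    {P : ℕ → ℍ → ℂ} (hP : ∀ m : ℕ, IsMF Γ ((m : ℤ) * l) (P m)) : IsMF Γ (wD μ l) (hDet μ P) := by
  unfold hDet wD
  refine IsMF.det (fun i : Fin μ => ((i : ℕ) : ℤ) * l) (fun i : Fin μ => ((i : ℕ) : ℤ) * l) _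
    fun i j => ?_
  refine (hP ((i : ℕ) + (j : ℕ))).cast ?_
  push_cast; ring

theorem isMF_hNum {Γ : Subgroup (GL (Fin 2) ℝ)} [Γ.HasDetPlusMinusOne] (μ : ℕ) {k l : ℤ}
    {P T : ℕ → ℍ → ℂ} {w : ℍ → ℂ} (hP : ∀ m : ℕ, IsMF Γ ((m : ℤ) * l) (P m))
    (hT : ∀ i : ℕ, IsMF Γ (k + (i : ℤ) * l) (T i)) (hw : IsMF Γ l w) :
    IsMF Γ (wD μ l + k) (hNum μ P T w) := by
  unfold hNum
  refine IsMF.sum _ fun j _ => ?_
  rw [Matrix.cramer_apply]
  have h1 : IsMF Γ (∑ i : Fin μ, ((i : ℕ) : ℤ) * l +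
      ∑ j' : Fin μ, (if j' = j then k else ((j' : ℕ) : ℤ) * l))
      ((Matrix.of fun i j : Fin μ => P ((i : ℕ) + (j : ℕ))).updateCol j
        (fun i : Fin μ => T i)).det := by
    refine IsMF.det (fun i : Fin μ => ((i : ℕ) : ℤ) * l)
      (fun j' : Fin μ => if j' = j then k else ((j' : ℕ) : ℤ) * l) _ fun i j' => ?_
    rw [Matrix.updateCol_apply]
    split_ifs with h
    · exact (hT i).cast (by ring)
    · rw [Matrix.of_apply]
      refine (hP ((i : ℕ) + (j' : ℕ))).cast ?_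
      push_cast; ring
  have h2 : ∑ j' : Fin μ, (if j' = j then k else ((j' : ℕ) : ℤ) * l) =
      ∑ j' : Fin μ, ((j' : ℕ) : ℤ) * l + (k - ((j : ℕ) : ℤ) * l) := by
    have : ∀ j' : Fin μ, (if j' = j then k else ((j' : ℕ) : ℤ) * l) =
        ((j' : ℕ) : ℤ) * l + (if j' = j then (k - ((j : ℕ) : ℤ) * l) else 0) := by
      intro j'
      split_ifs with h
      · rw [h]; ring
      · ring
    rw [Finset.sum_congr rfl fun j' _ => this j', Finset.sum_add_distrib,
      Finset.sum_ite_eq' Finset.univ j]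
    simp
  refine (h1.mul (hw.pow (j : ℕ))).cast ?_
  rw [h2]
  unfold wD
  ring

/-! ### The conjugation theorem -/

/-- (L1) Every level-one modular form has a `σ`-conjugate. -/
def LevelOneConj (σ : ℂ →+* ℂ) : Prop :=
  ∀ (K : ℤ) (g : ModularForm 𝒮ℒ K),
    ∃ g' : ModularForm 𝒮ℒ K, qExpansion 1 g' = (qExpansion 1 g).map σ

/-- (H) A "quotient" `G / D` of modular forms on `Γ` which satisfies a monic equation with
level-one coefficients vanishing at infinity is a cusp form on `Γ`. -/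
def LemmaH (Γ : Subgroup (GL (Fin 2) ℝ)) : Prop :=
  ∀ (a k : ℤ) (D G : ℍ → ℂ) (ν : ℕ) (ε : ℕ → ℍ → ℂ),
    IsMF Γ a D → IsMF Γ (a + k) G → D ≠ 0 →
    (∀ i : ℕ, IsMF 𝒮ℒ (k * (i : ℤ)) (ε i)) → (∀ i : ℕ, 1 ≤ i → IsZeroAtImInfty (ε i)) →
    monicExpr ν ε G D = 0 →
    ∃ φ : CuspForm Γ k, (⇑φ : ℍ → ℂ) * D = G

theorem powerSeries_map_injective (σ : ℂ →+* ℂ) :
    Function.Injective (PowerSeries.map σ) := by
  intro p q h
  ext n
  have := congrArg (PowerSeries.coeff n) h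
  simp only [PowerSeries.coeff_map] at this
  exact σ.injective this

/-- **Conjugation of cusp forms.** -/
theorem conj_of {Γ : Subgroup (GL (Fin 2) ℝ)} [Γ.IsArithmetic]
    (hΓ1 : (1 : ℝ) ∈ Γ.strictPeriods) (hΓle : Γ ≤ 𝒮ℒ) (σ : ℂ →+* ℂ) (hL1 : LevelOneConj σ)
    (hH : LemmaH Γ) {k l : ℤ} (w : ModularForm Γ l)
    (hwσ : (qExpansion 1 w).map σ = qExpansion 1 w)
    (hw : ∀ q q' : 𝒮ℒ ⧸ (Γ.subgroupOf 𝒮ℒ), quotientFunc w q = quotientFunc w q' → q = q')
    (f : CuspForm Γ k) :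
    ∃ g : CuspForm Γ k, qExpansion 1 g = (qExpansion 1 f).map σ := by
  classical
  set fM : ModularForm Γ k := ModularFormClass.modularForm f with hfM
  have hfcusp : ∀ γ : SL(2, ℤ), IsZeroAtImInfty (⇑fM ∣[k] γ) :=
    fun γ => CuspFormClass.zero_at_infty_slash f γ
  obtain ⟨μ, P, T, hP, hT, hHank, hdet⟩ := exists_hankel_data fM w hw
  obtain ⟨ν, E, hE, hmonic, hEcusp⟩ := exists_monic_data fM
  have hEcusp' := hEcusp hfcusp
  -- conjugates of the level-one data
  have hconj : ∀ (K : ℤ) (F : ℍ → ℂ), IsMF 𝒮ℒ K F →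
      ∃ F' : ℍ → ℂ, IsMF 𝒮ℒ K F' ∧ qExpansion 1 F' = (qExpansion 1 F).map σ := by
    rintro K F ⟨g, rfl⟩
    obtain ⟨g', hg'⟩ := hL1 K g
    exact ⟨g', ⟨g', rfl⟩, hg'⟩
  choose P' hP' hP'q using fun m : ℕ => hconj _ _ (hP m)
  choose T' hT' hT'q using fun i : ℕ => hconj _ _ (hT i)
  choose E' hE' hE'q using fun i : ℕ => hconj _ _ (hE i)
  have h1SL : (1 : ℝ) ∈ (𝒮ℒ).strictPeriods := one_mem_strictPeriods_SL
  -- everything as elements of the ring `Nice`
  let Pn : ℕ → Nice := fun m => ⟨P m, (hP m).nice h1SL⟩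
  let Pn' : ℕ → Nice := fun m => ⟨P' m, (hP' m).nice h1SL⟩
  let Tn : ℕ → Nice := fun m => ⟨T m, (hT m).nice h1SL⟩
  let Tn' : ℕ → Nice := fun m => ⟨T' m, (hT' m).nice h1SL⟩
  let En : ℕ → Nice := fun m => ⟨E m, (hE m).nice h1SL⟩
  let En' : ℕ → Nice := fun m => ⟨E' m, (hE' m).nice h1SL⟩
  let wn : Nice := ⟨w, (isMF_coe w).nice hΓ1⟩
  let fn : Nice := ⟨fM, (isMF_coe fM).nice hΓ1⟩
  let ι : Nice →+* (ℍ → ℂ) := Nice.subtype
  have hι : Function.Injective ι := Subtype.val_injective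
  let φ₁ : Nice →+* PowerSeries ℂ := (PowerSeries.map σ).comp qExpHom
  -- the identities in `Nice`
  have hHankN : hDet μ Pn * fn = hNum μ Pn Tn wn := by
    apply hι
    rw [map_mul, map_hDet, map_hNum]
    exact hHank
  have hmonicN : fn ^ ν + ∑ i ∈ Finset.range ν, En (i + 1) * fn ^ (ν - (i + 1)) = 0 := by
    apply hι
    simp only [map_add, map_pow, map_sum, map_mul, map_zero]
    exact hmonic
  have hexprN : monicExpr ν En (hNum μ Pn Tn wn) (hDet μ Pn) = 0 :=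
    monicExpr_eq_zero ν En fn _ _ hHankN hmonicN
  -- compare `q`-expansions
  have hQP : ∀ m, qExpHom (Pn' m) = φ₁ (Pn m) := fun m => hP'q m
  have hQT : ∀ m, qExpHom (Tn' m) = φ₁ (Tn m) := fun m => hT'q m
  have hQE : ∀ m, qExpHom (En' m) = φ₁ (En m) := fun m => hE'q m
  have hQw : qExpHom wn = φ₁ wn := hwσ.symm
  have hQD : qExpHom (hDet μ Pn') = φ₁ (hDet μ Pn) := by
    rw [map_hDet, map_hDet]
    congr 1
    funext m
    exact hQP m
  have hQG : qExpHom (hNum μ Pn' Tn' wn) = φ₁ (hNum μ Pn Tn wn) := by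
    rw [map_hNum, map_hNum, hQw]
    congr 1
    · funext m; exact hQP m
    · funext m; exact hQT m
  have hQM : qExpHom (monicExpr ν En' (hNum μ Pn' Tn' wn) (hDet μ Pn')) = 0 := by
    rw [map_monicExpr, hQD, hQG, show (fun m => qExpHom (En' m)) = fun m => φ₁ (En m) from
      funext hQE, ← map_monicExpr, hexprN, map_zero]
  have hexprN' : monicExpr ν En' (hNum μ Pn' Tn' wn) (hDet μ Pn') = 0 :=
    qExpHom_injective (by rw [hQM, map_zero])
  have hexpr' : monicExpr ν E' (hNum μ P' T' ⇑w) (hDet μ P') = 0 := by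
    have := congrArg ι hexprN'
    rw [map_monicExpr, map_hNum, map_hDet, map_zero] at this
    exact this
  -- the denominator is nonzero
  have hDn : hDet μ Pn ≠ 0 := by
    intro h0
    apply hdet
    have := congrArg ι h0
    rw [map_hDet, map_zero] at this
    exact this
  have hDn' : hDet μ Pn' ≠ 0 := by
    intro h0
    apply hDn
    apply qExpHom_injective
    apply powerSeries_map_injective σ
    have := congrArg qExpHom h0
    rw [hQD, map_zero] at this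
    rw [map_zero, map_zero]
    exact this
  have hD' : hDet μ P' ≠ 0 := by
    intro h0
    apply hDn'
    apply hι
    rw [map_hDet, map_zero]
    exact h0
  -- modularity of the conjugate data
  have hPΓ' : ∀ m : ℕ, IsMF Γ ((m : ℤ) * l) (P' m) := fun m => (hP' m).mono hΓle
  have hTΓ' : ∀ i : ℕ, IsMF Γ (k + (i : ℤ) * l) (T' i) := fun i => (hT' i).mono hΓle
  have hEz : ∀ i : ℕ, 1 ≤ i → IsZeroAtImInfty (E' i) := by
    intro i hi
    obtain ⟨g, hg⟩ := hE' i
    obtain ⟨g0, hg0⟩ := hE i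
    have hc : (qExpansion 1 g).coeff 0 = 0 := by
      rw [hg, hE'q i, PowerSeries.coeff_map, ← hg0,
        qExpansion_coeff_zero one_pos
          (ModularFormClass.analyticAt_cuspFunction_zero g0 one_pos h1SL)
          (SlashInvariantFormClass.periodic_comp_ofComplex g0 h1SL)]
      rw [hg0, (hEcusp' i hi).valueAtInfty_eq_zero, map_zero]
    rw [← hg]
    exact CuspFormClass.zero_at_infty (ModularForm.toCuspForm g hc)
  obtain ⟨φ, hφ⟩ := hH (wD μ l) k (hDet μ P') (hNum μ P' T' ⇑w) ν E' (isMF_hDet μ hPΓ')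
    (isMF_hNum μ hPΓ' hTΓ' (isMF_coe w)) hD' hE' hEz hexpr'
  refine ⟨φ, ?_⟩
  let φn : Nice := ⟨φ, (isMF_coe (ModularFormClass.modularForm φ)).nice hΓ1⟩
  have hφN : φn * hDet μ Pn' = hNum μ Pn' Tn' wn := by
    apply hι
    rw [map_mul, map_hDet, map_hNum]
    exact hφ
  have h2 := congrArg qExpHom hφN
  rw [map_mul, hQG, ← hHankN, map_mul, ← hQD] at h2
  have h3 : qExpHom (hDet μ Pn') ≠ 0 := fun h0 =>
    hDn' (qExpHom_injective (by rw [h0, map_zero]))
  have h4 : qExpHom φn = φ₁ fn := by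
    apply mul_right_cancel₀ h3
    rw [h2, mul_comm]
  exact h4

end Fermat.Agent.S23.helper645
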