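import Mathlib
import Fermat.Prelude.Thm_CongruenceSubgroup_one_mem_strictPeriods_Gamma0

/-!
# S23 helper (helper645): the ring of "nice" functions and function-level modular forms

* `Nice`: the subring of `ℍ → ℂ` of `1`-periodic, holomorphic functions bounded at `i∞`;
  `qExpHom : Nice →+* PowerSeries ℂ` is the (injective) `q`-expansion ring homomorphism.
* `IsMF Γ K F`: the function `F` is the coercion of a modular form of weight `K` and level `Γ`;
  closure under sums, products, powers and determinants (weights `r i + c j`).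
-/

set_option autoImplicit false

namespace Fermat.Agent.S23.helper645

open UpperHalfPlane ModularForm
open scoped MatrixGroups Manifold

/-- Nice functions: `1`-periodic, holomorphic, bounded at `i∞`. -/
def Nice : Subring (ℍ → ℂ) where
  carrier := {F | Function.Periodic (F ∘ ofComplex) 1 ∧ MDiff F ∧ IsBoundedAtImInfty F}
  mul_mem' := by
    rintro F G ⟨hF1, hF2, hF3⟩ ⟨hG1, hG2, hG3⟩
    refine ⟨?_, hF2.mul hG2, hF3.mul hG3⟩
    intro x
    have := hF1 x
    have := hG1 x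
    simp_all
  one_mem' := by
    refine ⟨fun x => rfl, mdifferentiable_const, ?_⟩
    exact Filter.const_boundedAtFilter _ _
  add_mem' := by
    rintro F G ⟨hF1, hF2, hF3⟩ ⟨hG1, hG2, hG3⟩
    refine ⟨?_, hF2.add hG2, hF3.add hG3⟩
    intro x
    have := hF1 x
    have := hG1 x
    simp_all
  zero_mem' := by
    refine ⟨fun x => rfl, mdifferentiable_const, ?_⟩
    exact Filter.const_boundedAtFilter _ _
  neg_mem' := by
    rintro F ⟨hF1, hF2, hF3⟩
    refine ⟨?_, hF2.neg, hF3.neg⟩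
    intro x
    have := hF1 x
    simp_all

theorem mem_Nice_iff {F : ℍ → ℂ} :
    F ∈ Nice ↔ Function.Periodic (F ∘ ofComplex) 1 ∧ MDiff F ∧ IsBoundedAtImInfty F := Iff.rfl

theorem Nice.analyticAt {F : ℍ → ℂ} (hF : F ∈ Nice) : AnalyticAt ℂ (cuspFunction 1 F) 0 :=
  analyticAt_cuspFunction_zero one_pos hF.1 hF.2.1 hF.2.2

/-- The `q`-expansion ring homomorphism on nice functions. -/
noncomputable def qExpHom : Nice →+* PowerSeries ℂ where
  toFun F := qExpansion 1 (F : ℍ → ℂ)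
  map_one' := qExpansion_one 1
  map_mul' F G := qExpansion_mul (Nice.analyticAt F.2) (Nice.analyticAt G.2)
  map_zero' := qExpansion_zero 1
  map_add' F G := qExpansion_add (Nice.analyticAt F.2) (Nice.analyticAt G.2)

@[simp] theorem qExpHom_apply (F : Nice) : qExpHom F = qExpansion 1 (F : ℍ → ℂ) := rfl

theorem qExpHom_injective : Function.Injective qExpHom := by
  rw [injective_iff_map_eq_zero]
  intro F hF
  have := (qExpansion_eq_zero_iff one_pos F.2.1 F.2.2.1 F.2.2.2).mp hF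
  exact Subtype.ext this

/-- `F` is (the coercion of) a modular form of weight `K` and level `Γ`. -/
def IsMF (Γ : Subgroup (GL (Fin 2) ℝ)) (K : ℤ) (F : ℍ → ℂ) : Prop :=
  ∃ g : ModularForm Γ K, ⇑g = F

theorem isMF_coe {Γ : Subgroup (GL (Fin 2) ℝ)} {K : ℤ} (g : ModularForm Γ K) : IsMF Γ K ⇑g :=
  ⟨g, rfl⟩

theorem IsMF.cast {Γ : Subgroup (GL (Fin 2) ℝ)} {K K' : ℤ} {F : ℍ → ℂ} (h : IsMF Γ K F)
    (hK : K = K') : IsMF Γ K' F := hK ▸ h

theorem IsMF.nice {Γ : Subgroup (GL (Fin 2) ℝ)} (hΓ : (1 : ℝ) ∈ Γ.strictPeriods) {K : ℤ}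
    {F : ℍ → ℂ} (h : IsMF Γ K F) : F ∈ Nice := by
  obtain ⟨g, rfl⟩ := h
  have : Fact (IsCusp OnePoint.infty Γ) := ⟨Γ.isCusp_of_mem_strictPeriods one_pos hΓ⟩
  exact ⟨SlashInvariantFormClass.periodic_comp_ofComplex g hΓ, ModularFormClass.holo g,
    ModularFormClass.bdd_at_infty g⟩

section closure

variable {Γ : Subgroup (GL (Fin 2) ℝ)}

theorem IsMF.zero (K : ℤ) : IsMF Γ K 0 := ⟨0, rfl⟩

theorem IsMF.add {K : ℤ} {F G : ℍ → ℂ} (hF : IsMF Γ K F) (hG : IsMF Γ K G) :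
    IsMF Γ K (F + G) := by
  obtain ⟨f, rfl⟩ := hF
  obtain ⟨g, rfl⟩ := hG
  exact ⟨f + g, rfl⟩

theorem IsMF.neg {K : ℤ} {F : ℍ → ℂ} (hF : IsMF Γ K F) : IsMF Γ K (-F) := by
  obtain ⟨f, rfl⟩ := hF
  exact ⟨-f, rfl⟩

theorem IsMF.sum {ι : Type*} (s : Finset ι) {K : ℤ} {F : ι → ℍ → ℂ}
    (hF : ∀ i ∈ s, IsMF Γ K (F i)) : IsMF Γ K (∑ i ∈ s, F i) := by
  classical
  induction s using Finset.induction_on with
  | empty => simpa using IsMF.zero K
  | insert i t hi IH =>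
    rw [Finset.sum_insert hi]
    exact (hF i (Finset.mem_insert_self i t)).add
      (IH fun j hj => hF j (Finset.mem_insert_of_mem hj))

variable [Γ.HasDetPlusMinusOne]

theorem IsMF.one : IsMF Γ 0 1 := ⟨1, rfl⟩

theorem IsMF.mul {K₁ K₂ : ℤ} {F G : ℍ → ℂ} (hF : IsMF Γ K₁ F) (hG : IsMF Γ K₂ G) :
    IsMF Γ (K₁ + K₂) (F * G) := by
  obtain ⟨f, rfl⟩ := hF
  obtain ⟨g, rfl⟩ := hG
  exact ⟨f.mul g, rfl⟩

theorem IsMF.pow {K : ℤ} {F : ℍ → ℂ} (hF : IsMF Γ K F) (n : ℕ) : IsMF Γ (n * K) (F ^ n) := by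
  obtain ⟨f, rfl⟩ := hF
  exact ⟨f.pow n, by simp⟩

theorem IsMF.prod {ι : Type*} (s : Finset ι) {K : ι → ℤ} {F : ι → ℍ → ℂ}
    (hF : ∀ i ∈ s, IsMF Γ (K i) (F i)) : IsMF Γ (∑ i ∈ s, K i) (∏ i ∈ s, F i) := by
  classical
  induction s using Finset.induction_on with
  | empty => simpa using IsMF.one (Γ := Γ)
  | insert i t hi IH =>
    rw [Finset.sum_insert hi, Finset.prod_insert hi]
    exact (hF i (Finset.mem_insert_self i t)).mul
      (IH fun j hj => hF j (Finset.mem_insert_of_mem hj))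

/-- Determinant of a matrix of modular forms whose `(i, j)` entry has weight `r i + c j`. -/
theorem IsMF.det {n : Type*} [Fintype n] [DecidableEq n] (r c : n → ℤ)
    (M : Matrix n n (ℍ → ℂ)) (hM : ∀ i j, IsMF Γ (r i + c j) (M i j)) :
    IsMF Γ (∑ i, r i + ∑ i, c i) M.det := by
  rw [Matrix.det_apply]
  refine IsMF.sum _ fun π _ => ?_
  have h1 : IsMF Γ (∑ i, r i + ∑ i, c i) (∏ i, M (π i) i) := by
    refine (IsMF.prod Finset.univ fun i _ => hM (π i) i).cast ?_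
    rw [Finset.sum_add_distrib, Equiv.sum_comp π r]
  rcases Int.units_eq_one_or (Equiv.Perm.sign π) with h | h
  · rw [h, one_smul]; exact h1
  · rw [h, Units.neg_smul, one_smul]; exact h1.neg

end closure

/-- Restriction of the level. -/
theorem IsMF.mono {Γ Γ' : Subgroup (GL (Fin 2) ℝ)} (h : Γ' ≤ Γ) {K : ℤ} {F : ℍ → ℂ}
    (hF : IsMF Γ K F) : IsMF Γ' K F := by
  obtain ⟨f, rfl⟩ := hF
  exact ⟨{ toFun := f
           slash_action_eq' := fun γ hγ => f.slash_action_eq' γ (h hγ)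
           holo' := f.holo'
           bdd_at_cusps' := fun hc => f.bdd_at_cusps' (hc.mono h) }, rfl⟩

end Fermat.Agent.S23.helper645
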