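import Fermat.Agent.S23.helper645_Nice

/-!
# S23 helper (helper645): coset translates, traces, the Hankel identity and integrality

For an arithmetic `Γ`, a modular form `f` of weight `k` and a "primitive element" `w` of weight `l`
(a modular form whose `𝒮ℒ`-translates are pairwise distinct), we produce level-one forms
`P m` (power sums of the translates of `w`), `T i` (mixed traces) and `E i` (signed elementary
symmetric functions of the translates of `f`) such that, in the ring `ℍ → ℂ`,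
* `det (P (i+j)) * f = ∑ j, cramer (P (i+j)) T j * w ^ j` with `det (P (i+j)) ≠ 0`;
* `f ^ μ + ∑ i < μ, E (i+1) * f ^ (μ - (i+1)) = 0`.
-/

set_option autoImplicit false

namespace Fermat.Agent.S23.helper645

open UpperHalfPlane ModularForm SlashInvariantForm
open scoped MatrixGroups Manifold

/-! ### Pure algebra: the Hankel identity -/

/-- **Hankel / trace identity** over a commutative ring. -/
theorem hankel_identity {R : Type*} [CommRing R] {μ : ℕ} (a b : Fin μ → R) (q : Fin μ) :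
    (Matrix.of fun i j : Fin μ => ∑ x, a x ^ ((i : ℕ) + (j : ℕ))).det * b q =
      ∑ j : Fin μ, Matrix.cramer (Matrix.of fun i j : Fin μ => ∑ x, a x ^ ((i : ℕ) + (j : ℕ)))
        (fun i => ∑ x, b x * a x ^ (i : ℕ)) j * a q ^ (j : ℕ) := by
  set V : Matrix (Fin μ) (Fin μ) R := Matrix.vandermonde a with hV
  set H : Matrix (Fin μ) (Fin μ) R := Matrix.of fun i j : Fin μ => ∑ x, a x ^ ((i : ℕ) + (j : ℕ))
    with hH
  have hH' : H = V.transpose * V := by
    ext i j
    simp [hH, hV, Matrix.mul_apply, Matrix.vandermonde_apply, pow_add]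
  have ht : (fun i : Fin μ => ∑ x, b x * a x ^ (i : ℕ)) = V.transpose.mulVec b := by
    ext i
    simp [hV, Matrix.mulVec, dotProduct, Matrix.vandermonde_apply, mul_comm]
  have key : V.mulVec (Matrix.cramer H (V.transpose.mulVec b)) = H.det • b := by
    have h1 : Matrix.cramer H (V.transpose.mulVec b) = V.adjugate.mulVec (V.transpose.det • b) := by
      rw [Matrix.cramer_eq_adjugate_mulVec, hH', Matrix.adjugate_mul_distrib,
        ← Matrix.mulVec_mulVec, Matrix.mulVec_mulVec (v := b), Matrix.adjugate_mul,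
        Matrix.smul_mulVec, Matrix.one_mulVec]
    rw [h1, Matrix.mulVec_mulVec, Matrix.mul_adjugate, Matrix.smul_mulVec, Matrix.one_mulVec,
      smul_smul, hH', Matrix.det_mul, mul_comm]
  have := congrFun key q
  rw [ht]
  simp only [Matrix.mulVec, dotProduct, Pi.smul_apply, smul_eq_mul, hV,
    Matrix.vandermonde_apply] at this
  rw [← this]
  exact Finset.sum_congr rfl fun j _ => mul_comm _ _

theorem hankel_det_eq {R : Type*} [CommRing R] {μ : ℕ} (a : Fin μ → R) :
    (Matrix.of fun i j : Fin μ => ∑ x, a x ^ ((i : ℕ) + (j : ℕ))).det =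
      (∏ i : Fin μ, ∏ j ∈ Finset.Ioi i, (a j - a i)) ^ 2 := by
  have hH' : (Matrix.of fun i j : Fin μ => ∑ x, a x ^ ((i : ℕ) + (j : ℕ))) =
      (Matrix.vandermonde a).transpose * Matrix.vandermonde a := by
    ext i j
    simp [Matrix.mul_apply, Matrix.vandermonde_apply, pow_add]
  rw [hH', Matrix.det_mul, Matrix.det_transpose, Matrix.det_vandermonde, sq]

/-- Vieta: every element of a finite family is a root of the polynomial with elementary symmetric
coefficients. -/
theorem vieta_root {R : Type*} [CommRing R] {ι : Type*} [Fintype ι] (a : ι → R) (q : ι) :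
    ∑ j ∈ Finset.range (Fintype.card ι + 1),
      (-1) ^ j * ((Finset.univ.val.map a).esymm j * a q ^ (Fintype.card ι - j)) = 0 := by
  classical
  have h := congrArg (Polynomial.eval (a q))
    (Multiset.prod_X_sub_X_eq_sum_esymm (Finset.univ.val.map a))
  have hcard : Multiset.card (Finset.univ.val.map a) = Fintype.card ι := by
    simp [Finset.card_univ]
  rw [hcard] at h
  simp only [Polynomial.eval_finsetSum, Polynomial.eval_mul, Polynomial.eval_pow,
    Polynomial.eval_neg, Polynomial.eval_one, Polynomial.eval_C, Polynomial.eval_X] at h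
  rw [← h, Multiset.map_map, Polynomial.eval_multiset_prod, Multiset.map_map]
  apply Multiset.prod_eq_zero
  rw [Multiset.mem_map]
  exact ⟨q, Finset.mem_univ_val q, by simp⟩

/-! ### Slash action and translates -/

theorem slash_pow_SL (F : ℍ → ℂ) (k : ℤ) (γ : SL(2, ℤ)) (m : ℕ) :
    (F ^ m) ∣[(m : ℤ) * k] γ = (F ∣[k] γ) ^ m := by
  induction m with
  | zero => simpa using is_invariant_one γ
  | succ m ih =>
    rw [pow_succ, pow_succ, ← ih, show ((m + 1 : ℕ) : ℤ) * k = (m : ℤ) * k + k by push_cast; ring]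
    exact mul_slash_SL2 _ _ γ _ _

theorem IsMF.smul {Γ : Subgroup (GL (Fin 2) ℝ)} [Γ.HasDetOne] {K : ℤ} {F : ℍ → ℂ}
    (hF : IsMF Γ K F) (c : ℂ) : IsMF Γ K (c • F) := by
  obtain ⟨f, rfl⟩ := hF
  exact ⟨c • f, rfl⟩

section

variable {Γ : Subgroup (GL (Fin 2) ℝ)}

local notation "𝒬" => 𝒮ℒ ⧸ (Γ.subgroupOf 𝒮ℒ)

theorem quotientFunc_one {k : ℤ} (f : ModularForm Γ k) :
    quotientFunc f ((1 : 𝒮ℒ) : 𝒬) = f := by
  show quotientFunc f ⟦(1 : 𝒮ℒ)⟧ = f
  rw [quotientFunc_mk]
  simp

theorem exists_SL_of_mem (r : 𝒮ℒ) : ∃ γ : SL(2, ℤ), (r.val⁻¹ : GL (Fin 2) ℝ) = γ := by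
  obtain ⟨γ, hγ⟩ := r.2
  exact ⟨γ⁻¹, by rw [← hγ, ← map_inv]; rfl⟩

theorem quotientFunc_mul {a b : ℤ} [Γ.HasDetPlusMinusOne] (f : ModularForm Γ a)
    (g : ModularForm Γ b) (q : 𝒬) :
    quotientFunc (f.mul g) q = quotientFunc f q * quotientFunc g q := by
  induction q using Quotient.inductionOn with
  | h r =>
    obtain ⟨γ, hγ⟩ := exists_SL_of_mem r
    simp only [quotientFunc_mk, hγ]
    exact mul_slash_SL2 a b γ f g

theorem quotientFunc_pow {a : ℤ} [Γ.HasDetPlusMinusOne] (f : ModularForm Γ a) (m : ℕ) (q : 𝒬) :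
    quotientFunc (f.pow m) q = quotientFunc f q ^ m := by
  induction q using Quotient.inductionOn with
  | h r =>
    obtain ⟨γ, hγ⟩ := exists_SL_of_mem r
    simp only [quotientFunc_mk, hγ, ModularForm.coe_pow]
    exact slash_pow_SL f a γ m

theorem mdifferentiable_quotientFunc {a : ℤ} (f : ModularForm Γ a) (q : 𝒬) :
    MDiff (quotientFunc f q) := by
  induction q using Quotient.inductionOn with
  | h r =>
    rw [quotientFunc_mk]
    exact f.holo'.slash a _

theorem isZeroAtImInfty_quotientFunc {a : ℤ} (f : ModularForm Γ a)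
    (hf : ∀ γ : SL(2, ℤ), IsZeroAtImInfty (⇑f ∣[a] γ)) (q : 𝒬) :
    IsZeroAtImInfty (quotientFunc f q) := by
  induction q using Quotient.inductionOn with
  | h r =>
    obtain ⟨γ, hγ⟩ := exists_SL_of_mem r
    rw [quotientFunc_mk, hγ]
    exact hf γ

variable [Γ.IsArithmetic]

/-- Power sums of the translates are level-one forms. -/
theorem isMF_powerSum {l : ℤ} (w : ModularForm Γ l) (m : ℕ) :
    letI := Fintype.ofFinite 𝒬
    IsMF 𝒮ℒ (m * l) (∑ q : 𝒬, quotientFunc w q ^ m) := by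
  let := Fintype.ofFinite 𝒬
  refine ⟨ModularForm.trace 𝒮ℒ (w.pow m), ?_⟩
  rw [ModularForm.coe_trace]
  exact Finset.sum_congr rfl fun q _ => quotientFunc_pow w m q

/-- Mixed traces are level-one forms. -/
theorem isMF_mixedTrace {k l : ℤ} (f : ModularForm Γ k) (w : ModularForm Γ l) (i : ℕ) :
    letI := Fintype.ofFinite 𝒬
    IsMF 𝒮ℒ (k + i * l) (∑ q : 𝒬, quotientFunc f q * quotientFunc w q ^ i) := by
  let := Fintype.ofFinite 𝒬
  refine ⟨ModularForm.trace 𝒮ℒ (f.mul (w.pow i)), ?_⟩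
  rw [ModularForm.coe_trace]
  refine Finset.sum_congr rfl fun q _ => ?_
  rw [quotientFunc_mul, quotientFunc_pow]

/-- Elementary symmetric functions of the translates are level-one forms (Newton's identities). -/
theorem isMF_esymm {k : ℤ} (f : ModularForm Γ k) (i : ℕ) :
    letI := Fintype.ofFinite 𝒬
    IsMF 𝒮ℒ (k * i) ((Finset.univ.val.map fun q : 𝒬 => quotientFunc f q).esymm i) := by
  let := Fintype.ofFinite 𝒬
  induction i using Nat.strong_induction_on with
  | _ i ih =>
    rcases Nat.eq_zero_or_pos i with rfl | hi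
    · simpa [Multiset.esymm] using (IsMF.one (Γ := 𝒮ℒ))
    · set a : 𝒬 → (ℍ → ℂ) := fun q => quotientFunc f q with ha
      have hN := congrArg (MvPolynomial.aeval (R := ℂ) a) (MvPolynomial.mul_esymm_eq_sum 𝒬 ℂ i)
      simp only [map_mul, map_natCast, map_pow, map_neg, map_one, map_sum,
        MvPolynomial.aeval_esymm_eq_multiset_esymm, MvPolynomial.psum, MvPolynomial.aeval_X] at hN
      have hR : IsMF 𝒮ℒ (k * i) ((-1 : ℍ → ℂ) ^ (i + 1) *
          ∑ x ∈ Finset.HasAntidiagonal.antidiagonal i with x.1 < i,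
            (-1) ^ x.1 * (Finset.univ.val.map a).esymm x.1 * ∑ q : 𝒬, a q ^ x.2) := by
        have hsum : IsMF 𝒮ℒ (k * i) (∑ x ∈ Finset.HasAntidiagonal.antidiagonal i with x.1 < i,
            (-1 : ℍ → ℂ) ^ x.1 * (Finset.univ.val.map a).esymm x.1 * ∑ q : 𝒬, a q ^ x.2) := by
          refine IsMF.sum _ fun x hx => ?_
          rw [Finset.mem_filter, Finset.HasAntidiagonal.mem_antidiagonal] at hx
          have h1 := ih x.1 hx.2
          have h2 := isMF_powerSum f x.2
          have h3 : IsMF 𝒮ℒ (k * i) ((Finset.univ.val.map a).esymm x.1 * ∑ q : 𝒬, a q ^ x.2) := by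
            refine (h1.mul h2).cast ?_
            rw [← hx.1]; push_cast; ring
          rcases neg_one_pow_eq_or (ℍ → ℂ) x.1 with h | h
          · rw [h, one_mul]; exact h3
          · rw [h, mul_assoc, neg_one_mul]; exact h3.neg
        rcases neg_one_pow_eq_or (ℍ → ℂ) (i + 1) with h | h
        · rw [h, one_mul]; exact hsum
        · rw [h, neg_one_mul]; exact hsum.neg
      rw [← hN] at hR
      have hi0 : (i : ℂ) ≠ 0 := Nat.cast_ne_zero.mpr hi.ne'
      have := hR.smul ((i : ℂ)⁻¹)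
      convert this using 1
      ext z
      simp only [Pi.smul_apply, Pi.mul_apply, smul_eq_mul]
      have : ((i : ℍ → ℂ) z) = (i : ℂ) := rfl
      rw [this]
      field_simp

/-- The monic relation satisfied by `f`. -/
theorem esymm_relation {k : ℤ} (f : ModularForm Γ k) :
    letI := Fintype.ofFinite 𝒬
    ∑ j ∈ Finset.range (Nat.card 𝒬 + 1),
      (-1) ^ j * ((Finset.univ.val.map fun q : 𝒬 => quotientFunc f q).esymm j *
        (⇑f : ℍ → ℂ) ^ (Nat.card 𝒬 - j)) = 0 := by
  let := Fintype.ofFinite 𝒬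
  have := vieta_root (fun q : 𝒬 => quotientFunc f q) ((1 : 𝒮ℒ) : 𝒬)
  rw [quotientFunc_one] at this
  rwa [Nat.card_eq_fintype_card]

/-- Elementary symmetric functions of the translates of a cusp form vanish at infinity. -/
theorem isZeroAtImInfty_esymm {k : ℤ} (f : ModularForm Γ k)
    (hf : ∀ γ : SL(2, ℤ), IsZeroAtImInfty (⇑f ∣[k] γ)) {i : ℕ} (hi : 1 ≤ i) :
    letI := Fintype.ofFinite 𝒬
    IsZeroAtImInfty ((Finset.univ.val.map fun q : 𝒬 => quotientFunc f q).esymm i) := by
  let := Fintype.ofFinite 𝒬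
  rw [Finset.esymm_map_val]
  unfold IsZeroAtImInfty Filter.ZeroAtFilter
  have h0 : (0 : ℂ) = ∑ t ∈ Finset.powersetCard i (Finset.univ : Finset 𝒬), (0 : ℂ) := by simp
  rw [h0]
  have : (∑ t ∈ Finset.powersetCard i (Finset.univ : Finset 𝒬),
      t.prod fun q => quotientFunc f q) = fun z => ∑ t ∈ Finset.powersetCard i
        (Finset.univ : Finset 𝒬), ∏ q ∈ t, quotientFunc f q z := by
    ext z; simp [Finset.sum_apply, Finset.prod_apply]
  rw [this]
  refine tendsto_finsetSum _ fun t ht => ?_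
  rw [Finset.mem_powersetCard] at ht
  obtain ⟨q0, hq0⟩ : t.Nonempty := Finset.card_pos.mp (by omega)
  have h1 : (0 : ℂ) = ∏ q ∈ t, (0 : ℂ) := (Finset.prod_eq_zero hq0 rfl).symm
  rw [h1]
  exact tendsto_finsetProd _ fun q _ => isZeroAtImInfty_quotientFunc f hf q

/-- **Hankel data**: the form `f` is recovered from level-one traces and powers of a primitive
element `w`, with a non-vanishing level-one denominator. -/
theorem exists_hankel_data {k l : ℤ} (f : ModularForm Γ k) (w : ModularForm Γ l)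
    (hw : ∀ q q' : 𝒬, quotientFunc w q = quotientFunc w q' → q = q') :
    ∃ (μ : ℕ) (P T : ℕ → ℍ → ℂ),
      (∀ m : ℕ, IsMF 𝒮ℒ ((m : ℤ) * l) (P m)) ∧ (∀ i : ℕ, IsMF 𝒮ℒ (k + (i : ℤ) * l) (T i)) ∧
      (Matrix.of fun i j : Fin μ => P ((i : ℕ) + (j : ℕ))).det * ⇑f =
        ∑ j : Fin μ, Matrix.cramer (Matrix.of fun i j : Fin μ => P ((i : ℕ) + (j : ℕ)))
          (fun i : Fin μ => T i) j * (⇑w : ℍ → ℂ) ^ (j : ℕ) ∧
      (Matrix.of fun i j : Fin μ => P ((i : ℕ) + (j : ℕ))).det ≠ 0 := by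
  let := Fintype.ofFinite 𝒬
  set μ := Fintype.card 𝒬 with hμ
  let e : Fin μ ≃ 𝒬 := (Fintype.equivFin 𝒬).symm
  set a : Fin μ → (ℍ → ℂ) := fun x => quotientFunc w (e x) with ha
  set b : Fin μ → (ℍ → ℂ) := fun x => quotientFunc f (e x) with hb
  set q0 : Fin μ := e.symm ((1 : 𝒮ℒ) : 𝒬) with hq0
  have haq : a q0 = w := by simp [ha, hq0]
  have hbq : b q0 = f := by simp [hb, hq0]
  have hP : ∀ m : ℕ, ∑ x, a x ^ m = ∑ q : 𝒬, quotientFunc w q ^ m := fun m =>
    Equiv.sum_comp e fun q => quotientFunc w q ^ m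
  have hT : ∀ i : ℕ, ∑ x, b x * a x ^ i = ∑ q : 𝒬, quotientFunc f q * quotientFunc w q ^ i :=
    fun i => Equiv.sum_comp e fun q => quotientFunc f q * quotientFunc w q ^ i
  refine ⟨μ, fun m => ∑ q : 𝒬, quotientFunc w q ^ m,
    fun i => ∑ q : 𝒬, quotientFunc f q * quotientFunc w q ^ i,
    fun m => isMF_powerSum w m, fun i => isMF_mixedTrace f w i, ?_, ?_⟩
  · have := hankel_identity a b q0
    simp only [hP, hT, haq, hbq] at this
    exact this
  · have hdet := hankel_det_eq a
    simp only [hP] at hdet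
    rw [hdet]
    intro h0
    have h1 : (∏ i : Fin μ, ∏ j ∈ Finset.Ioi i, (a j - a i)) = 0 := by
      ext z
      have := congrFun h0 z
      simpa using this
    have hdiff : ∀ x, MDiff (a x) := fun x => mdifferentiable_quotientFunc w (e x)
    rw [UpperHalfPlane.prod_eq_zero_iff
      (fun i _ => MDifferentiable.prod fun j _ => (hdiff j).sub (hdiff i))] at h1
    obtain ⟨i, -, hi⟩ := h1
    rw [UpperHalfPlane.prod_eq_zero_iff (fun j _ => (hdiff j).sub (hdiff i))] at hi
    obtain ⟨j, hj, hji⟩ := hi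
    have := hw _ _ (sub_eq_zero.mp hji)
    rw [Finset.mem_Ioi] at hj
    exact hj.ne' (e.injective this)

/-- **Integrality data**: the form `f` is a root of a monic polynomial whose coefficients are
level-one forms, vanishing at infinity when `f` is cuspidal. -/
theorem exists_monic_data {k : ℤ} (f : ModularForm Γ k) :
    ∃ (μ : ℕ) (E : ℕ → ℍ → ℂ), (∀ i : ℕ, IsMF 𝒮ℒ (k * (i : ℤ)) (E i)) ∧
      ((⇑f : ℍ → ℂ) ^ μ + ∑ i ∈ Finset.range μ, E (i + 1) * (⇑f : ℍ → ℂ) ^ (μ - (i + 1)) = 0) ∧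
      ((∀ γ : SL(2, ℤ), IsZeroAtImInfty (⇑f ∣[k] γ)) → ∀ i : ℕ, 1 ≤ i → IsZeroAtImInfty (E i)) := by
  let := Fintype.ofFinite 𝒬
  set es : ℕ → (ℍ → ℂ) := fun j => (Finset.univ.val.map fun q : 𝒬 => quotientFunc f q).esymm j
    with hes
  refine ⟨Nat.card 𝒬, fun j => ((-1 : ℂ) ^ j) • es j, fun i => (isMF_esymm f i).smul _, ?_, ?_⟩
  · have h := esymm_relation f
    rw [Finset.sum_range_succ'] at h
    rw [← h, add_comm]
    congr 1
    · refine Finset.sum_congr rfl fun i _ => ?_
      ext z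
      simp [hes, mul_assoc]
    · simp [Multiset.esymm]
  · intro hf i hi
    have := isZeroAtImInfty_esymm f hf hi
    unfold IsZeroAtImInfty Filter.ZeroAtFilter at this ⊢
    have h2 : ((-1 : ℂ) ^ i • es i) = fun x => (-1 : ℂ) ^ i * es i x := by ext; simp
    show Filter.Tendsto ((-1 : ℂ) ^ i • es i) atImInfty (nhds 0)
    rw [h2]
    simpa using this.const_mul ((-1 : ℂ) ^ i)

end

end Fermat.Agent.S23.helper645
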