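import Mathlib

/-!
# S23, package (T): the Hankel / trace identity (helper761)

For subgroups `𝒢, ℋ` of `GL(2, ℝ)` as in Mathlib's `NormTrace` file, a form `w` of weight `l` and a
form `f` of weight `k` on `𝒢`, the traces `Tr (w ^ m)` and `Tr (f * w ^ i)` are forms on `ℋ`.
With `H = (Tr (w ^ (i + j)))` (a Hankel matrix, `i, j < μ`, `μ` the index) we get level-`ℋ` forms
`D = det H` and `c j` (Cramer determinants) such that `D * f = ∑ j, c j * w ^ j`, and `D ≠ 0` as
soon as the translates of `w` are pairwise distinct.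
-/

set_option autoImplicit false

namespace Fermat.Agent.S23.helper761

open Matrix Finset

section Algebra

variable {R : Type*} [CommRing R] {n : ℕ}

/-- Vandermonde-type matrix with rows indexed by exponents. -/
def vmat (v : Fin n → R) : Matrix (Fin n) (Fin n) R := fun i j => v j ^ (i : ℕ)

/-- Hankel matrix of power sums. -/
def hankelMat (v : Fin n → R) : Matrix (Fin n) (Fin n) R :=
  fun i j => ∑ q, v q ^ ((i : ℕ) + (j : ℕ))

/-- Vector of twisted power sums. -/
def hankelVec (v u : Fin n → R) : Fin n → R := fun i => ∑ q, u q * v q ^ (i : ℕ)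

lemma hankelMat_eq (v : Fin n → R) : hankelMat v = vmat v * (vmat v)ᵀ := by
  ext i j
  simp [hankelMat, vmat, Matrix.mul_apply, pow_add]

lemma hankelVec_eq (v u : Fin n → R) : hankelVec v u = vmat v *ᵥ u := by
  ext i
  simp [hankelVec, vmat, Matrix.mulVec, dotProduct, mul_comm]

lemma det_vmat (v : Fin n → R) : (vmat v).det = ∏ i : Fin n, ∏ j ∈ Ioi i, (v j - v i) := by
  have : vmat v = (vandermonde v)ᵀ := by ext i j; simp [vmat, vandermonde_apply]
  rw [this, det_transpose, det_vandermonde]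

lemma det_hankelMat (v : Fin n → R) :
    (hankelMat v).det = (∏ i : Fin n, ∏ j ∈ Ioi i, (v j - v i)) ^ 2 := by
  rw [hankelMat_eq, det_mul, det_transpose, det_vmat, sq]

theorem hankel_cramer (v u : Fin n → R) (q : Fin n) :
    (hankelMat v).det * u q
      = ∑ j : Fin n, (hankelMat v).cramer (hankelVec v u) j * v q ^ (j : ℕ) := by
  have h1 : (hankelMat v).cramer (hankelVec v u)
      = (vmat v).det • ((vmat v)ᵀ.adjugate *ᵥ u) := by
    rw [cramer_eq_adjugate_mulVec, hankelMat_eq, hankelVec_eq, adjugate_mul_distrib,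
      ← mulVec_mulVec, mulVec_mulVec _ (adjugate (vmat v)) (vmat v), adjugate_mul,
      smul_mulVec, one_mulVec, mulVec_smul]
  have h2 : ∑ j : Fin n, (hankelMat v).cramer (hankelVec v u) j * v q ^ (j : ℕ)
      = ((vmat v)ᵀ *ᵥ (hankelMat v).cramer (hankelVec v u)) q := by
    simp [Matrix.mulVec, dotProduct, vmat, mul_comm]
  rw [h2, h1, mulVec_smul, mulVec_mulVec, mul_adjugate, smul_mulVec, one_mulVec,
    hankelMat_eq, det_mul, det_transpose]
  simp [mul_assoc]

end Algebra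

section IsMF

open UpperHalfPlane ModularForm
open scoped ModularForm MatrixGroups Manifold

variable {ℋ : Subgroup (GL (Fin 2) ℝ)}

/-- `F` is (the underlying function of) a modular form of weight `K` on `ℋ`. -/
def IsMF (ℋ : Subgroup (GL (Fin 2) ℝ)) (K : ℤ) (F : ℍ → ℂ) : Prop :=
  ∃ g : ModularForm ℋ K, ⇑g = F

lemma isMF_coe {K : ℤ} (g : ModularForm ℋ K) : IsMF ℋ K ⇑g := ⟨g, rfl⟩

lemma IsMF.congr_weight {K K' : ℤ} {F : ℍ → ℂ} (h : IsMF ℋ K F) (hK : K = K') :
    IsMF ℋ K' F := hK ▸ h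

lemma IsMF.add {K : ℤ} {F G : ℍ → ℂ} (hF : IsMF ℋ K F) (hG : IsMF ℋ K G) :
    IsMF ℋ K (F + G) := by
  obtain ⟨f, rfl⟩ := hF
  obtain ⟨g, rfl⟩ := hG
  exact ⟨f + g, FunLike.coe_add f g⟩

lemma IsMF.neg {K : ℤ} {F : ℍ → ℂ} (hF : IsMF ℋ K F) : IsMF ℋ K (-F) := by
  obtain ⟨f, rfl⟩ := hF
  exact ⟨-f, FunLike.coe_neg f⟩

lemma isMF_zero (K : ℤ) : IsMF ℋ K 0 := ⟨0, FunLike.coe_zero⟩

lemma IsMF.sum {ι : Type*} {K : ℤ} (s : Finset ι) {F : ι → ℍ → ℂ}
    (h : ∀ i ∈ s, IsMF ℋ K (F i)) : IsMF ℋ K (∑ i ∈ s, F i) := by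
  classical
  induction s using Finset.induction_on with
  | empty => simpa using isMF_zero K
  | insert a s ha ih =>
    rw [Finset.sum_insert ha]
    exact (h a (Finset.mem_insert_self a s)).add
      (ih fun i hi => h i (Finset.mem_insert_of_mem hi))

lemma IsMF.mul [ℋ.HasDetPlusMinusOne] {K₁ K₂ : ℤ} {F G : ℍ → ℂ} (hF : IsMF ℋ K₁ F)
    (hG : IsMF ℋ K₂ G) : IsMF ℋ (K₁ + K₂) (F * G) := by
  obtain ⟨f, rfl⟩ := hF
  obtain ⟨g, rfl⟩ := hG
  exact ⟨f.mul g, ModularForm.coe_mul f g⟩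

lemma isMF_one [ℋ.HasDetPlusMinusOne] : IsMF ℋ 0 1 :=
  ⟨1, ModularForm.one_coe_eq_one⟩

lemma IsMF.prod [ℋ.HasDetPlusMinusOne] {ι : Type*} (s : Finset ι) {K : ι → ℤ}
    {F : ι → ℍ → ℂ} (h : ∀ i ∈ s, IsMF ℋ (K i) (F i)) :
    IsMF ℋ (∑ i ∈ s, K i) (∏ i ∈ s, F i) := by
  classical
  induction s using Finset.induction_on with
  | empty => simpa using isMF_one (ℋ := ℋ)
  | insert a s ha ih =>
    rw [Finset.sum_insert ha, Finset.prod_insert ha]
    exact (h a (Finset.mem_insert_self a s)).mul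
      (ih fun i hi => h i (Finset.mem_insert_of_mem hi))

/-- The determinant of a matrix of modular forms with entry `(i, j)` of weight `r i + s j` is a
modular form of weight `∑ r + ∑ s`. -/
lemma IsMF.det [ℋ.HasDetPlusMinusOne] {n : ℕ} {M : Matrix (Fin n) (Fin n) (ℍ → ℂ)}
    {r s : Fin n → ℤ} (hM : ∀ i j, IsMF ℋ (r i + s j) (M i j)) :
    IsMF ℋ (∑ i, r i + ∑ j, s j) M.det := by
  rw [Matrix.det_apply]
  refine IsMF.sum _ fun σ _ => ?_
  have h1 : IsMF ℋ (∑ i, r i + ∑ j, s j) (∏ i, M (σ i) i) := by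
    refine (IsMF.prod Finset.univ fun i _ => hM (σ i) i).congr_weight ?_
    rw [Finset.sum_add_distrib, Equiv.sum_comp σ r]
  rcases Int.units_eq_one_or (Equiv.Perm.sign σ) with h | h
  · rw [h, one_smul]; exact h1
  · rw [h, Units.neg_smul, one_smul]; exact h1.neg

end IsMF

section Main

open UpperHalfPlane ModularForm SlashInvariantForm
open scoped ModularForm MatrixGroups Manifold

variable {𝒢 ℋ : Subgroup (GL (Fin 2) ℝ)} {k l : ℤ}

local notation "𝒬" => ℋ ⧸ (𝒢.subgroupOf ℋ)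

lemma pow_slash_of_abs_det {g : GL (Fin 2) ℝ} (hg : |(g.det : ℝ)| = 1) (F : ℍ → ℂ) (l : ℤ)
    (m : ℕ) : (F ^ m) ∣[(m : ℤ) * l] g = (F ∣[l] g) ^ m := by
  have := ModularForm.prod_slash (k := l) (g := g) (f := fun _ : ℕ => F) (s := Finset.range m)
  simpa [hg, mul_comm, -Matrix.GeneralLinearGroup.val_det_apply] using this

lemma quotientFunc_mul_eq [ℋ.HasDetPlusMinusOne] [𝒢.HasDetPlusMinusOne] (f : ModularForm 𝒢 k)
    (g : ModularForm 𝒢 l) (q : 𝒬) :
    quotientFunc (f.mul g) q = quotientFunc f q * quotientFunc g q := by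
  induction q using Quotient.inductionOn with
  | h r =>
    have hr : |((r.val⁻¹ : GL (Fin 2) ℝ).det : ℝ)| = 1 :=
      Subgroup.HasDetPlusMinusOne.abs_det (ℋ.inv_mem r.2)
    rw [quotientFunc_mk, quotientFunc_mk, quotientFunc_mk, ModularForm.coe_mul, mul_slash, hr,
      one_smul]

lemma quotientFunc_pow_eq [ℋ.HasDetPlusMinusOne] [𝒢.HasDetPlusMinusOne] (w : ModularForm 𝒢 l)
    (m : ℕ) (q : 𝒬) : quotientFunc (w.pow m) q = quotientFunc w q ^ m := by
  induction q using Quotient.inductionOn with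
  | h r =>
    have hr : |((r.val⁻¹ : GL (Fin 2) ℝ).det : ℝ)| = 1 :=
      Subgroup.HasDetPlusMinusOne.abs_det (ℋ.inv_mem r.2)
    rw [quotientFunc_mk, quotientFunc_mk, ModularForm.coe_pow, pow_slash_of_abs_det hr]

lemma mdifferentiable_quotientFunc (w : ModularForm 𝒢 l) (q : 𝒬) :
    MDiff (quotientFunc w q) := by
  induction q using Quotient.inductionOn with
  | h r => exact (ModularForm.translate w r.val⁻¹).holo'

/-- **Hankel / trace identity.** For `w` of weight `l` and `f` of weight `k` on `𝒢`, there are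
forms on `ℋ`: `D` of weight `m` and `c j` of weight `k + m - l * j` (`j < μ`, `μ` the index), with
`D * f = ∑ j, c j * w ^ j`; moreover `D ≠ 0` if the `ℋ`-translates of `w` are pairwise distinct. -/
theorem exists_hankel [𝒢.IsFiniteRelIndex ℋ] [ℋ.HasDetPlusMinusOne] [𝒢.HasDetPlusMinusOne]
    (w : ModularForm 𝒢 l) (f : ModularForm 𝒢 k)
    (hinj : Function.Injective (fun q : 𝒬 => quotientFunc w q)) :
    ∃ (m : ℤ) (D : ModularForm ℋ m)
      (c : (j : Fin (Nat.card 𝒬)) → ModularForm ℋ (k + m - l * (j : ℕ))),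
      D ≠ 0 ∧ ∀ z : ℍ, D z * f z = ∑ j, c j z * w z ^ (j : ℕ) := by
  classical
  let _ : Fintype 𝒬 := Fintype.ofFinite 𝒬
  set μ : ℕ := Nat.card 𝒬 with hμ
  let e : 𝒬 ≃ Fin μ := Finite.equivFin 𝒬
  let v : Fin μ → ℍ → ℂ := fun j => quotientFunc w (e.symm j)
  let u : Fin μ → ℍ → ℂ := fun j => quotientFunc f (e.symm j)
  -- the entries of the Hankel matrix are traces
  have hM : ∀ i j : Fin μ, hankelMat v i j = ⇑(ModularForm.trace ℋ (w.pow ((i : ℕ) + (j : ℕ)))) := by
    intro i j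
    rw [ModularForm.coe_trace]
    simp only [hankelMat, v]
    rw [Equiv.sum_comp e.symm (fun q => quotientFunc w q ^ ((i : ℕ) + (j : ℕ)))]
    exact Finset.sum_congr rfl fun q _ => (quotientFunc_pow_eq w _ q).symm
  have hV : ∀ i : Fin μ, hankelVec v u i = ⇑(ModularForm.trace ℋ (f.mul (w.pow (i : ℕ)))) := by
    intro i
    rw [ModularForm.coe_trace]
    simp only [hankelVec, v, u]
    rw [Equiv.sum_comp e.symm (fun q => quotientFunc f q * quotientFunc w q ^ (i : ℕ))]
    refine Finset.sum_congr rfl fun q _ => ?_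
    rw [quotientFunc_mul_eq, quotientFunc_pow_eq]
  set m : ℤ := ∑ i : Fin μ, ((i : ℕ) : ℤ) * l + ∑ j : Fin μ, ((j : ℕ) : ℤ) * l with hm
  -- the determinant
  have hD : IsMF ℋ m (hankelMat v).det := by
    refine IsMF.det (r := fun i => ((i : ℕ) : ℤ) * l) (s := fun j => ((j : ℕ) : ℤ) * l) ?_
    intro i j
    rw [hM]
    exact (isMF_coe _).congr_weight (by push_cast; ring)
  -- the Cramer determinants
  have hC : ∀ j : Fin μ, IsMF ℋ (k + m - l * (j : ℕ))
      ((hankelMat v).cramer (hankelVec v u) j) := by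
    intro j
    rw [Matrix.cramer_apply]
    have := IsMF.det (ℋ := ℋ) (M := (hankelMat v).updateCol j (hankelVec v u))
      (r := fun i => ((i : ℕ) : ℤ) * l)
      (s := fun j' => ((j' : ℕ) : ℤ) * l + if j' = j then k - ((j : ℕ) : ℤ) * l else 0) ?_
    · refine this.congr_weight ?_
      rw [Finset.sum_add_distrib, Finset.sum_ite_eq' Finset.univ j]
      simp only [Finset.mem_univ, if_true, hm]
      ring
    · intro i j'
      rw [Matrix.updateCol_apply]
      split_ifs with h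
      · rw [hV]
        exact (isMF_coe _).congr_weight (by subst h; ring)
      · rw [hM]
        exact (isMF_coe _).congr_weight (by push_cast; ring)
  obtain ⟨D, hDcoe⟩ := hD
  choose c hc using hC
  refine ⟨m, D, c, ?_, ?_⟩
  · -- non-vanishing
    intro hD0
    have h0 : (hankelMat v).det = 0 := by rw [← hDcoe, hD0]; exact FunLike.coe_zero
    rw [det_hankelMat] at h0
    have h1 : (∏ i : Fin μ, ∏ j ∈ Finset.Ioi i, (v j - v i)) = 0 := by
      funext z
      have := congrFun h0 z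
      simpa using this
    have hdiff : ∀ i j : Fin μ, MDiff (v j - v i) := fun i j =>
      (mdifferentiable_quotientFunc w _).sub (mdifferentiable_quotientFunc w _)
    rw [UpperHalfPlane.prod_eq_zero_iff
      (fun i _ => MDifferentiable.prod fun j _ => hdiff i j)] at h1
    obtain ⟨i, -, hi⟩ := h1
    rw [UpperHalfPlane.prod_eq_zero_iff (fun j _ => hdiff i j)] at hi
    obtain ⟨j, hj, hij⟩ := hi
    have : e.symm j = e.symm i := hinj (sub_eq_zero.mp hij)
    have hji : j = i := e.symm.injective this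
    rw [hji] at hj
    exact (Finset.mem_Ioi.mp hj).false
  · intro z
    have key := hankel_cramer v u (e (QuotientGroup.mk (1 : ℋ)))
    have hu : u (e (QuotientGroup.mk (1 : ℋ))) = ⇑f := by
      simp only [u, Equiv.symm_apply_apply]
      exact (quotientFunc_mk f (1 : ℋ)).trans (by simp)
    have hv : v (e (QuotientGroup.mk (1 : ℋ))) = ⇑w := by
      simp only [v, Equiv.symm_apply_apply]
      exact (quotientFunc_mk w (1 : ℋ)).trans (by simp)
    rw [hu, hv] at key
    have key2 := congrFun key z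
    simp only [Pi.mul_apply, Finset.sum_apply, Pi.pow_apply] at key2
    rw [← hDcoe] at key2
    rw [key2]
    exact Finset.sum_congr rfl fun j _ => by rw [hc j]

/-- Version of `exists_hankel` for `f` in any `ModularFormClass` (for instance a cusp form). -/
theorem exists_hankel_class [𝒢.IsFiniteRelIndex ℋ] [ℋ.HasDetPlusMinusOne]
    [𝒢.HasDetPlusMinusOne] {F : Type*} [FunLike F ℍ ℂ] [ModularFormClass F 𝒢 k]
    (w : ModularForm 𝒢 l) (f : F)
    (hinj : Function.Injective (fun q : 𝒬 => quotientFunc w q)) :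
    ∃ (m : ℤ) (D : ModularForm ℋ m)
      (c : (j : Fin (Nat.card 𝒬)) → ModularForm ℋ (k + m - l * (j : ℕ))),
      D ≠ 0 ∧ ∀ z : ℍ, D z * f z = ∑ j, c j z * w z ^ (j : ℕ) :=
  exists_hankel w (ModularFormClass.modularForm f) hinj

/-- The case used for S23: level `Γ₀(N)` over level one, `f` a cusp form. -/
theorem exists_hankel_Gamma0 (N : ℕ) [NeZero N]
    (w : ModularForm (CongruenceSubgroup.Gamma0 N) l) (f : CuspForm (CongruenceSubgroup.Gamma0 N) k)
    (hinj : Function.Injective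
      (fun q : 𝒮ℒ ⧸ ((CongruenceSubgroup.Gamma0 N : Subgroup (GL (Fin 2) ℝ)).subgroupOf 𝒮ℒ) =>
        quotientFunc w q)) :
    ∃ (m : ℤ) (D : ModularForm 𝒮ℒ m)
      (c : (j : Fin (Nat.card
          (𝒮ℒ ⧸ ((CongruenceSubgroup.Gamma0 N : Subgroup (GL (Fin 2) ℝ)).subgroupOf 𝒮ℒ)))) →
        ModularForm 𝒮ℒ (k + m - l * (j : ℕ))),
      D ≠ 0 ∧ ∀ z : ℍ, D z * f z = ∑ j, c j z * w z ^ (j : ℕ) :=
  exists_hankel_class w f hinj

end Main

end Fermat.Agent.S23.helper761
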