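import Mathlib
import Fermat.Prelude.Thm_CongruenceSubgroup_one_mem_strictPeriods_Gamma0

set_option autoImplicit false

namespace Fermat.Agent.S23.helper78

open UpperHalfPlane ModularForm EisensteinSeries MatrixGroups CongruenceSubgroup Filter Topology
open Matrix.SpecialLinearGroup
open scoped ModularForm Pointwise

/-- The upper-triangular real matrix `[a b; 0 d]` with `a, d > 0`, as an element of `GL₂(ℝ)`. -/
noncomputable def upperGL (a b d : ℝ) (ha : 0 < a) (hd : 0 < d) : GL (Fin 2) ℝ :=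
  Matrix.GeneralLinearGroup.mkOfDetNeZero !![a, b; 0, d]
    (by simp [Matrix.det_fin_two, ha.ne', hd.ne'])

lemma upperGL_val (a b d : ℝ) (ha : 0 < a) (hd : 0 < d) :
    (upperGL a b d ha hd : Matrix (Fin 2) (Fin 2) ℝ) = !![a, b; 0, d] := rfl

lemma upperGL_det (a b d : ℝ) (ha : 0 < a) (hd : 0 < d) :
    (upperGL a b d ha hd).det.val = a * d := by
  simp [upperGL, Matrix.det_fin_two]

lemma slash_upperGL_apply (f : ℍ → ℂ) (k : ℤ) (a b d : ℝ) (ha : 0 < a) (hd : 0 < d) (τ : ℍ) :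
    (f ∣[k] upperGL a b d ha hd) τ =
      f (upperGL a b d ha hd • τ) * ((a * d : ℝ) : ℂ) ^ (k - 1) * (d : ℂ) ^ (-k) := by
  have hdet : 0 < (upperGL a b d ha hd).det.val := by
    rw [upperGL_det]; positivity
  rw [ModularForm.slash_apply]
  have h1 : σ (upperGL a b d ha hd) = ContinuousAlgEquiv.refl ℝ ℂ := by
    simp only [σ, if_pos hdet]
  have h2 : denom (upperGL a b d ha hd) τ = d := by
    simp [denom, upperGL_val]
  rw [h1, h2, abs_of_pos hdet, upperGL_det]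
  simp

/-- Limit at `i∞` of the slash of a function having a limit at `i∞` by an upper triangular
matrix. -/
lemma tendsto_slash_upperGL {f : ℍ → ℂ} {c : ℂ} (hf : Tendsto f atImInfty (𝓝 c)) (k : ℤ)
    (a b d : ℝ) (ha : 0 < a) (hd : 0 < d) :
    Tendsto (f ∣[k] upperGL a b d ha hd) atImInfty
      (𝓝 (c * ((a * d : ℝ) : ℂ) ^ (k - 1) * (d : ℂ) ^ (-k))) := by
  have h1 : Tendsto (fun τ : ℍ => upperGL a b d ha hd • τ) atImInfty atImInfty :=
    tendsto_smul_atImInfty (by simp [upperGL_val])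
  have h2 := (hf.comp h1).mul_const (((a * d : ℝ) : ℂ) ^ (k - 1))
  have h3 := h2.mul_const ((d : ℂ) ^ (-k))
  refine h3.congr fun τ => ?_
  rw [slash_upperGL_apply]
  rfl

/-- A modular form with period `1` tends at `i∞` to the constant term of its `q`-expansion. -/
lemma tendsto_atImInfty_coeff_zero {Γ : Subgroup (GL (Fin 2) ℝ)} {k : ℤ} (f : ModularForm Γ k)
    (h1 : (1 : ℝ) ∈ Γ.strictPeriods) :
    Tendsto f atImInfty (𝓝 ((qExpansion 1 f).coeff 0)) := by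
  have ha := ModularFormClass.analyticAt_cuspFunction_zero f one_pos h1
  have hper := SlashInvariantFormClass.periodic_comp_ofComplex f h1
  have hcomp : (cuspFunction 1 f ∘ fun τ : ℍ ↦ Function.Periodic.qParam 1 τ) = f := by
    funext τ
    simpa using eq_cuspFunction τ one_ne_zero hper
  have ht := ha.continuousAt.tendsto.comp (qParam_tendsto_atImInfty one_pos)
  rw [hcomp] at ht
  simpa [qExpansion_coeff] using ht

lemma tendsto_E₄ : Tendsto (⇑E₄) atImInfty (𝓝 1) := by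
  have h := tendsto_atImInfty_coeff_zero E₄ one_mem_strictPeriods_SL
  rwa [E_qExpansion_coeff_zero (k := 4) (by norm_num) ⟨2, rfl⟩] at h

lemma natCast_pos_of_neZero (N : ℕ) [NeZero N] : 0 < (N : ℝ) := by
  exact_mod_cast Nat.pos_of_ne_zero (NeZero.ne N)

lemma mapGL_apply (γ : SL(2, ℤ)) (i j : Fin 2) :
    (mapGL ℝ γ : Matrix (Fin 2) (Fin 2) ℝ) i j = ((γ i j : ℤ) : ℝ) := rfl

/-- `diag(N, 1)` as an element of `GL₂(ℝ)`. -/
noncomputable def dN (N : ℕ) [NeZero N] : GL (Fin 2) ℝ :=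
  upperGL N 0 1 (natCast_pos_of_neZero N) one_pos

/-- The polynomial identity behind the Hermite normal form. -/
lemma hermite_matrix_identity (a b c d c' u v g D N : ℝ)
    (e1 : D * a * u + v * c' = 1) (e2 : a * d - b * c = 1) (e3 : c = g * c') (e4 : N = g * D) :
    !![N, 0; 0, 1] * !![a, b; c, d] = !![D * a, -v; c', u] * !![g, u * N * b + v * d; 0, D] := by
  ext i j
  fin_cases i <;> fin_cases j
  · simp [Matrix.mul_apply, Fin.sum_univ_two]
    linear_combination a * e4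
  · simp [Matrix.mul_apply, Fin.sum_univ_two]
    linear_combination (-N * b) * e1 + (v * b * c') * e4 - (D * v * b) * e3 - (D * v) * e2
  · simp [Matrix.mul_apply, Fin.sum_univ_two]
    linear_combination e3
  · simp [Matrix.mul_apply, Fin.sum_univ_two]
    linear_combination (-d) * e1 + (u * D) * e2 + (u * D * b) * e3 - (c' * u * b) * e4

/-- Hermite normal form of `diag(N,1) * γ` for `γ ∈ SL₂(ℤ)`. -/
lemma exists_hermite (N : ℕ) [NeZero N] (γ : SL(2, ℤ)) :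
    ∃ (δ : SL(2, ℤ)) (g D : ℕ) (B : ℤ) (hg : 0 < (g : ℝ)) (hD : 0 < (D : ℝ)),
      g * D = N ∧ (D = 1 → (N : ℤ) ∣ γ 1 0) ∧
      dN N * mapGL ℝ γ = mapGL ℝ δ * upperGL g B D hg hD := by
  obtain ⟨a, b, c, d, ha, hb, hc, hd⟩ : ∃ a b c d : ℤ, a = γ 0 0 ∧ b = γ 0 1 ∧ c = γ 1 0 ∧ d = γ 1 1 :=
    ⟨_, _, _, _, rfl, rfl, rfl, rfl⟩
  have hdet : a * d - b * c = 1 := by
    have := γ.det_coe
    rw [Matrix.det_fin_two] at this
    rw [ha, hb, hc, hd]
    exact this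
  have hN0 : (N : ℤ) ≠ 0 := by exact_mod_cast NeZero.ne N
  obtain ⟨g, hg⟩ : ∃ g : ℕ, g = Int.gcd c N := ⟨_, rfl⟩
  have hg0 : 0 < g := hg ▸ Int.gcd_pos_of_ne_zero_right _ hN0
  obtain ⟨c', hc'⟩ : (g : ℤ) ∣ c := hg ▸ Int.gcd_dvd_left _ _
  obtain ⟨D, hD⟩ : g ∣ N := Int.natCast_dvd_natCast.mp (hg ▸ Int.gcd_dvd_right c N)
  have hDpos : 0 < D := Nat.pos_of_ne_zero (by rintro rfl; exact NeZero.ne N (by simpa using hD))
  obtain ⟨s, t, hbez⟩ : ∃ s t : ℤ, (g : ℤ) = c * s + N * t := ⟨_, _, hg ▸ Int.gcd_eq_gcd_ab c N⟩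
  have hND : (N : ℤ) = g * D := by exact_mod_cast hD
  have hcop1 : c' * s + D * t = 1 := by
    have h : (g : ℤ) * (c' * s + D * t) = g * 1 := by
      rw [hc', hND] at hbez
      linear_combination hbez.symm
    exact mul_left_cancel₀ (by exact_mod_cast hg0.ne') h
  have h1 : IsCoprime (D : ℤ) c' := ⟨t, s, by linarith⟩
  have h2 : IsCoprime a c' := ⟨d, -b * g, by rw [hc'] at hdet; linarith⟩
  obtain ⟨u, v, huv⟩ := h1.mul_left h2
  have hgR : 0 < (g : ℝ) := by exact_mod_cast hg0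
  have hDR : 0 < (D : ℝ) := by exact_mod_cast hDpos
  obtain ⟨δ, hδ⟩ : ∃ δ : SL(2, ℤ), (δ : Matrix (Fin 2) (Fin 2) ℤ) = !![D * a, -v; c', u] :=
    ⟨⟨!![D * a, -v; c', u], by rw [Matrix.det_fin_two_of]; linarith⟩, rfl⟩
  refine ⟨δ, g, D, u * N * b + v * d, hgR, hDR, hD.symm, ?_, ?_⟩
  · intro hD1
    subst hD1
    rw [← hc, hc', hND]
    simp
  · have e1 : ((D : ℝ) * a * u + v * c' : ℝ) = 1 := by
      exact_mod_cast (by linarith : (D : ℤ) * a * u + v * c' = 1)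
    have e2 : ((a : ℝ) * d - b * c : ℝ) = 1 := by exact_mod_cast hdet
    have e3 : (c : ℝ) = g * c' := by exact_mod_cast hc'
    have e4 : (N : ℝ) = g * D := by exact_mod_cast hND
    have key := hermite_matrix_identity a b c d c' u v g D N e1 e2 e3 e4
    have hγ : ((mapGL ℝ γ : GL (Fin 2) ℝ) : Matrix (Fin 2) (Fin 2) ℝ) = !![(a : ℝ), b; c, d] := by
      ext i j
      fin_cases i <;> fin_cases j <;> simp [mapGL_apply, ha, hb, hc, hd]
    have hδ' : ((mapGL ℝ δ : GL (Fin 2) ℝ) : Matrix (Fin 2) (Fin 2) ℝ) =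
        !![(D : ℝ) * a, -v; c', u] := by
      ext i j
      fin_cases i <;> fin_cases j <;> simp [mapGL_apply, hδ]
    apply Units.ext
    rw [Units.val_mul, Units.val_mul, hγ, hδ', dN, upperGL_val, upperGL_val, key]
    simp


/-- `Γ₀(N) ⊆ diag(N,1)⁻¹ SL₂(ℤ) diag(N,1)`. -/
lemma Gamma0_le_conj (N : ℕ) [NeZero N] :
    ((Gamma0 N : Subgroup SL(2, ℤ)) : Subgroup (GL (Fin 2) ℝ)) ≤
      ConjAct.toConjAct (dN N)⁻¹ • 𝒮ℒ := by
  rintro _ ⟨γ, hγ, rfl⟩
  rw [Subgroup.mem_pointwise_smul_iff_inv_smul_mem, ← map_inv, inv_inv, ConjAct.smul_def,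
    ConjAct.ofConjAct_toConjAct]
  obtain ⟨c', hc'⟩ : (N : ℤ) ∣ γ 1 0 :=
    (ZMod.intCast_zmod_eq_zero_iff_dvd _ _).mp (Gamma0_mem.mp hγ)
  have hdet : γ 0 0 * γ 1 1 - γ 0 1 * γ 1 0 = 1 := by
    have := γ.det_coe
    rw [Matrix.det_fin_two] at this
    exact this
  obtain ⟨δ, hδ⟩ : ∃ δ : SL(2, ℤ),
      (δ : Matrix (Fin 2) (Fin 2) ℤ) = !![γ 0 0, N * γ 0 1; c', γ 1 1] :=
    ⟨⟨!![γ 0 0, N * γ 0 1; c', γ 1 1], by
      rw [Matrix.det_fin_two_of]; rw [hc'] at hdet; linarith⟩, rfl⟩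
  refine ⟨δ, ?_⟩
  rw [eq_mul_inv_iff_mul_eq]
  have e3 : ((γ 1 0 : ℤ) : ℝ) = N * c' := by exact_mod_cast hc'
  apply Units.ext
  ext i j
  fin_cases i <;> fin_cases j <;>
    simp [dN, upperGL_val, Matrix.mul_apply, Fin.sum_univ_two, hδ, e3, mul_comm]

/-- The primitive element: `w_N = E₄ ∣[4] diag(N,1)`, i.e. `τ ↦ N³ E₄(Nτ)`, as a modular form of
weight `4` and level `Γ₀(N)`. -/
noncomputable def wN (N : ℕ) [NeZero N] : ModularForm (Gamma0 N) 4 where
  toFun := ⇑E₄ ∣[(4 : ℤ)] dN N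
  slash_action_eq' γ hγ :=
    (ModularForm.translate E₄ (dN N)).slash_action_eq' γ (Gamma0_le_conj N hγ)
  holo' := (ModularForm.translate E₄ (dN N)).holo'
  bdd_at_cusps' hc := (ModularForm.translate E₄ (dN N)).bdd_at_cusps' (hc.mono (Gamma0_le_conj N))

lemma coe_wN (N : ℕ) [NeZero N] : ⇑(wN N) = ⇑E₄ ∣[(4 : ℤ)] dN N := rfl

/-- **Stabiliser of the primitive element**: an element of `SL₂(ℤ)` fixing `w_N` under the
weight `4` slash action lies in `Γ₀(N)`. -/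
theorem mem_Gamma0_of_slash_eq (N : ℕ) [NeZero N] (γ : SL(2, ℤ))
    (h : (⇑(wN N)) ∣[(4 : ℤ)] (mapGL ℝ γ) = ⇑(wN N)) : γ ∈ Gamma0 N := by
  obtain ⟨δ, g, D, B, hg, hD, hgD, hdvd, hfac⟩ := exists_hermite N γ
  have h1 : (⇑(wN N)) ∣[(4 : ℤ)] (mapGL ℝ γ) = ⇑E₄ ∣[(4 : ℤ)] upperGL g B D hg hD := by
    rw [coe_wN, ← SlashAction.slash_mul, hfac, SlashAction.slash_mul]
    congr 1
    exact SlashInvariantFormClass.slash_action_eq E₄ _ ⟨δ, rfl⟩
  have t1 := tendsto_slash_upperGL tendsto_E₄ 4 g B D hg hD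
  have t2 := tendsto_slash_upperGL tendsto_E₄ 4 N 0 1 (natCast_pos_of_neZero N) one_pos
  rw [← h1, h] at t1
  have huniq := tendsto_nhds_unique t1 t2
  have hN0 : (N : ℂ) ≠ 0 := by exact_mod_cast NeZero.ne N
  have hD0 : (D : ℂ) ≠ 0 := by exact_mod_cast hD.ne'
  have hgDc : ((g : ℂ) * D) = N := by exact_mod_cast hgD
  have hD4 : (D : ℂ) ^ 4 = 1 := by
    have h3 : (N : ℂ) ^ 3 * ((D : ℂ) ^ 4)⁻¹ = (N : ℂ) ^ 3 := by
      have := huniq
      simp only [one_mul, mul_one, Complex.ofReal_mul, Complex.ofReal_natCast, hgDc,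
        Complex.ofReal_one, one_zpow] at this
      norm_num at this
      convert this using 2
    have h4 : ((D : ℂ) ^ 4)⁻¹ = 1 := by
      have := mul_left_cancel₀ (pow_ne_zero 3 hN0) (h3.trans (mul_one _).symm)
      exact this
    exact inv_eq_one.mp h4
  have hD1 : D = 1 := by
    have : D ^ 4 = 1 := by exact_mod_cast hD4
    exact (Nat.pow_eq_one.mp this).resolve_right (by norm_num)
  exact Gamma0_mem.mpr ((ZMod.intCast_zmod_eq_zero_iff_dvd _ _).mpr (hdvd hD1))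


local notation "Γ₀ℝ(" N ")" => ((Gamma0 N : Subgroup SL(2, ℤ)) : Subgroup (GL (Fin 2) ℝ))

/-- **(P.e)** The `SL₂(ℤ)`-translates of the primitive element `w_N`, indexed by the cosets
`SL₂(ℤ) / Γ₀(N)` (in the form used by Mathlib's `SlashInvariantForm.quotientFunc`), are pairwise
distinct functions. -/
theorem quotientFunc_wN_injective (N : ℕ) [NeZero N] :
    Function.Injective (fun q : 𝒮ℒ ⧸ (Γ₀ℝ(N)).subgroupOf 𝒮ℒ =>
      SlashInvariantForm.quotientFunc (wN N) q) := by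
  intro q q' hqq
  induction q using Quotient.inductionOn with
  | h r =>
  induction q' using Quotient.inductionOn with
  | h r' =>
  simp only [SlashInvariantForm.quotientFunc_mk] at hqq
  have h2 : (⇑(wN N) ∣[(4 : ℤ)] (r.val⁻¹ * r'.val)) = ⇑(wN N) := by
    rw [SlashAction.slash_mul, hqq, ← SlashAction.slash_mul, inv_mul_cancel,
      SlashAction.slash_one]
  obtain ⟨γ, hγ⟩ : r.val⁻¹ * r'.val ∈ 𝒮ℒ := (r⁻¹ * r').2
  have hmem : γ ∈ Gamma0 N := mem_Gamma0_of_slash_eq N γ (by rw [hγ]; exact h2)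
  apply Quotient.sound
  refine QuotientGroup.leftRel_apply.mpr ?_
  rw [Subgroup.mem_subgroupOf]
  exact ⟨γ, hmem, hγ⟩

/-- The translates of `w_N` other than `w_N` itself differ from `w_N`. -/
theorem quotientFunc_wN_ne (N : ℕ) [NeZero N] (q : 𝒮ℒ ⧸ (Γ₀ℝ(N)).subgroupOf 𝒮ℒ)
    (hq : q ≠ ⟦1⟧) : SlashInvariantForm.quotientFunc (wN N) q ≠ ⇑(wN N) := by
  intro h
  apply hq
  apply quotientFunc_wN_injective N
  simp only [SlashInvariantForm.quotientFunc_mk]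
  simpa using h

end Fermat.Agent.S23.helper78
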