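import Mathlib

set_option autoImplicit false

open UpperHalfPlane Finset SlashInvariantForm
open scoped ModularForm Topology Filter Manifold MatrixGroups

namespace Fermat.Agent.S23.helper85

variable {𝒢 ℋ : Subgroup (GL (Fin 2) ℝ)} {F : Type*} (f : F) [FunLike F ℍ ℂ] {k : ℤ}

local notation "𝒬" => ℋ ⧸ (𝒢.subgroupOf ℋ)

section SIF

variable [SlashInvariantFormClass F 𝒢 k]
variable (ℋ) [𝒢.IsFiniteRelIndex ℋ]

/-- The `i`-th elementary symmetric function of the `ℋ`-translates of `f`, as a function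
on the upper half-plane. -/
noncomputable def esymmFun (i : ℕ) : ℍ → ℂ :=
  let := Fintype.ofFinite 𝒬
  ∑ s ∈ powersetCard i (univ : Finset 𝒬), ∏ q ∈ s, quotientFunc f q

lemma esymmFun_eq [Fintype 𝒬] (i : ℕ) :
    esymmFun ℋ f i = ∑ s ∈ powersetCard i (univ : Finset 𝒬), ∏ q ∈ s, quotientFunc f q := by
  unfold esymmFun
  convert rfl

lemma esymmFun_slash [ℋ.HasDetPlusMinusOne] {h : GL (Fin 2) ℝ} (hh : h ∈ ℋ) (i : ℕ) :
    esymmFun ℋ f i ∣[k * i] h = esymmFun ℋ f i := by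
  let := Fintype.ofFinite 𝒬
  rw [esymmFun_eq, SlashAction.sum_slash]
  have key : ∀ s ∈ powersetCard i (univ : Finset 𝒬),
      (∏ q ∈ s, quotientFunc f q) ∣[k * i] h =
        ∏ q ∈ s.map (MulAction.toPerm ((⟨h, hh⟩ : ℋ)⁻¹)).toEmbedding, quotientFunc f q := by
    intro s hs
    rw [← (mem_powersetCard.mp hs).2, ModularForm.prod_slash]
    simp [quotientFunc_smul f hh, Subgroup.HasDetPlusMinusOne.abs_det hh, Finset.prod_map,
      -Matrix.GeneralLinearGroup.val_det_apply]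
  rw [Finset.sum_congr rfl key]
  refine Finset.sum_equiv (Equiv.finsetCongr (MulAction.toPerm ((⟨h, hh⟩ : ℋ)⁻¹))) ?_ ?_
  · intro s
    simp [mem_powersetCard]
  · intro s hs
    rfl

/-- The slash of the elementary symmetric function by an arbitrary element of `GL(2, ℝ)`. -/
lemma esymmFun_slash_eq [Fintype 𝒬] (γ : GL (Fin 2) ℝ) (i : ℕ) :
    esymmFun ℋ f i ∣[k * i] γ =
      ∑ s ∈ powersetCard i (univ : Finset 𝒬),
        |γ.det.val| ^ ((i : ℤ) - 1) • ∏ q ∈ s, (quotientFunc f q ∣[k] γ) := by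
  rw [esymmFun_eq, SlashAction.sum_slash]
  refine Finset.sum_congr rfl fun s hs => ?_
  rw [← (mem_powersetCard.mp hs).2, ModularForm.prod_slash]

/-- Pointwise, `esymmFun` is the elementary symmetric function of the values of the translates. -/
lemma esymmFun_apply [Fintype 𝒬] (i : ℕ) (τ : ℍ) :
    esymmFun ℋ f i τ =
      ((univ : Finset 𝒬).val.map fun q => quotientFunc f q τ).esymm i := by
  rw [esymmFun_eq, Finset.esymm_map_val, Finset.sum_apply]
  refine Finset.sum_congr rfl fun s _ => ?_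
  rw [Finset.prod_apply]

@[simp] lemma esymmFun_zero : esymmFun ℋ f 0 = 1 := by
  let := Fintype.ofFinite 𝒬
  rw [esymmFun_eq]
  simp

/-- **Monic relation**: every translate of `f` (in particular `f` itself, see
`esymmFun_relation_self`) is a root of the polynomial
`∑ j, (-1)^j e_j X^(μ - j)`, where `e_j` are the elementary symmetric functions of the
translates and `μ` is the index. -/
theorem esymmFun_relation (q : 𝒬) (τ : ℍ) :
    ∑ j ∈ range (Nat.card 𝒬 + 1),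
      (-1 : ℂ) ^ j * (esymmFun ℋ f j τ * quotientFunc f q τ ^ (Nat.card 𝒬 - j)) = 0 := by
  let := Fintype.ofFinite 𝒬
  set m : Multiset ℂ := (univ : Finset 𝒬).val.map fun q => quotientFunc f q τ with hm
  have hcard : Multiset.card m = Nat.card 𝒬 := by
    simp [hm, Nat.card_eq_fintype_card]
  have h1 := congrArg (Polynomial.eval (quotientFunc f q τ)) (Multiset.prod_X_sub_X_eq_sum_esymm m)
  have h0 : Polynomial.eval (quotientFunc f q τ) (m.map fun t => Polynomial.X - Polynomial.C t).prod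
      = 0 := by
    rw [Polynomial.eval_multiset_prod]
    apply Multiset.prod_eq_zero
    simp only [Multiset.map_map, Multiset.mem_map, Function.comp_apply, Polynomial.eval_sub,
      Polynomial.eval_X, Polynomial.eval_C]
    exact ⟨quotientFunc f q τ, by simp [hm], by simp⟩
  rw [h0, Polynomial.eval_finsetSum, hcard] at h1
  rw [h1]
  refine Finset.sum_congr rfl fun j _ => ?_
  simp [esymmFun_apply, hm]

omit [𝒢.IsFiniteRelIndex ℋ] in
/-- `quotientFunc f ⟦1⟧ = f`. -/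
lemma quotientFunc_one : quotientFunc f ((1 : ℋ) : 𝒬) = (f : ℍ → ℂ) := by
  show quotientFunc f ⟦(1 : ℋ)⟧ = _
  rw [quotientFunc_mk]
  simp

/-- **Monic relation** for `f` itself. -/
theorem esymmFun_relation_self (τ : ℍ) :
    ∑ j ∈ range (Nat.card 𝒬 + 1),
      (-1 : ℂ) ^ j * (esymmFun ℋ f j τ * f τ ^ (Nat.card 𝒬 - j)) = 0 := by
  have := esymmFun_relation ℋ f ((1 : ℋ) : 𝒬) τ
  rwa [quotientFunc_one] at this

/-- **Monic relation** for the translates `f ∣[k] h⁻¹`, `h ∈ ℋ`. -/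
theorem esymmFun_relation_slash {h : GL (Fin 2) ℝ} (hh : h ∈ ℋ) (τ : ℍ) :
    ∑ j ∈ range (Nat.card 𝒬 + 1),
      (-1 : ℂ) ^ j * (esymmFun ℋ f j τ * ((f : ℍ → ℂ) ∣[k] h) τ ^ (Nat.card 𝒬 - j)) = 0 := by
  have := esymmFun_relation ℋ f (((⟨h, hh⟩ : ℋ)⁻¹ : ℋ) : 𝒬) τ
  have h2 : quotientFunc f (((⟨h, hh⟩ : ℋ)⁻¹ : ℋ) : 𝒬) = (f : ℍ → ℂ) ∣[k] h := by
    show quotientFunc f ⟦((⟨h, hh⟩ : ℋ)⁻¹ : ℋ)⟧ = _
    rw [quotientFunc_mk]
    simp
  rwa [h2] at this

end SIF

section Forms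

variable (ℋ) [𝒢.IsFiniteRelIndex ℋ]

omit [𝒢.IsFiniteRelIndex ℋ] in
lemma mdiff_quotientFunc [ModularFormClass F 𝒢 k] (q : 𝒬) : MDiff (quotientFunc f q) :=
  Quotient.inductionOn q fun r => (ModularForm.translate f r.val⁻¹).holo'

lemma mdiff_esymmFun [ModularFormClass F 𝒢 k] (i : ℕ) : MDiff (esymmFun ℋ f i) := by
  let := Fintype.ofFinite 𝒬
  rw [esymmFun_eq]
  exact .sum fun s _ => .prod fun q _ => mdiff_quotientFunc ℋ f q

lemma isBoundedAtImInfty_quotientFunc_slash [ModularFormClass F 𝒢 k] {c : OnePoint ℝ}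
    (hc : IsCusp c ℋ) (γ : GL (Fin 2) ℝ) (hγ : γ • OnePoint.infty = c) (q : 𝒬) :
    IsBoundedAtImInfty (quotientFunc f q ∣[k] γ) := by
  induction q using Quotient.inductionOn with
  | h r =>
    refine (ModularForm.translate f r.val⁻¹).bdd_at_cusps' ?_ γ hγ
    simpa using hc.of_isFiniteRelIndex_conj r.2

lemma isZeroAtImInfty_quotientFunc_slash [CuspFormClass F 𝒢 k] {c : OnePoint ℝ}
    (hc : IsCusp c ℋ) (γ : GL (Fin 2) ℝ) (hγ : γ • OnePoint.infty = c) (q : 𝒬) :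
    IsZeroAtImInfty (quotientFunc f q ∣[k] γ) := by
  induction q using Quotient.inductionOn with
  | h r =>
    refine (CuspForm.translate f r.val⁻¹).zero_at_cusps' ?_ γ hγ
    simpa using hc.of_isFiniteRelIndex_conj r.2

lemma isBoundedAtImInfty_esymmFun_slash [ModularFormClass F 𝒢 k] {c : OnePoint ℝ}
    (hc : IsCusp c ℋ) (γ : GL (Fin 2) ℝ) (hγ : γ • OnePoint.infty = c) (i : ℕ) :
    IsBoundedAtImInfty (esymmFun ℋ f i ∣[k * i] γ) := by
  let := Fintype.ofFinite 𝒬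
  rw [esymmFun_slash_eq]
  have hmem : ∀ q : 𝒬, (quotientFunc f q ∣[k] γ) ∈ boundedAtImInftySubalgebra ℂ :=
    fun q => isBoundedAtImInfty_quotientFunc_slash ℋ f hc γ hγ q
  have : (∑ s ∈ powersetCard i (univ : Finset 𝒬),
      |γ.det.val| ^ ((i : ℤ) - 1) • ∏ q ∈ s, (quotientFunc f q ∣[k] γ)) ∈
        boundedAtImInftySubalgebra ℂ := by
    refine Subalgebra.sum_mem _ fun s _ => ?_
    have h1 : (∏ q ∈ s, (quotientFunc f q ∣[k] γ)) ∈ boundedAtImInftySubalgebra ℂ :=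
      Subalgebra.prod_mem _ fun q _ => hmem q
    have h2 : (|γ.det.val| ^ ((i : ℤ) - 1) • ∏ q ∈ s, (quotientFunc f q ∣[k] γ)) =
        ((|γ.det.val| ^ ((i : ℤ) - 1) : ℝ) : ℂ) • ∏ q ∈ s, (quotientFunc f q ∣[k] γ) := by
      ext τ
      simp
    rw [h2]
    exact Subalgebra.smul_mem _ h1 _
  exact this

lemma isZeroAtImInfty_esymmFun_slash [CuspFormClass F 𝒢 k] {c : OnePoint ℝ}
    (hc : IsCusp c ℋ) (γ : GL (Fin 2) ℝ) (hγ : γ • OnePoint.infty = c) {i : ℕ} (hi : i ≠ 0) :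
    IsZeroAtImInfty (esymmFun ℋ f i ∣[k * i] γ) := by
  classical
  let := Fintype.ofFinite 𝒬
  rw [esymmFun_slash_eq]
  have hmem : ∀ q : 𝒬, (quotientFunc f q ∣[k] γ) ∈ zeroAtImInftySubmodule ℂ :=
    fun q => isZeroAtImInfty_quotientFunc_slash ℋ f hc γ hγ q
  have hb : ∀ q : 𝒬, IsBoundedAtImInfty (quotientFunc f q ∣[k] γ) :=
    fun q => (isZeroAtImInfty_quotientFunc_slash ℋ f hc γ hγ q).isBoundedAtImInfty
  have : (∑ s ∈ powersetCard i (univ : Finset 𝒬),
      |γ.det.val| ^ ((i : ℤ) - 1) • ∏ q ∈ s, (quotientFunc f q ∣[k] γ)) ∈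
        zeroAtImInftySubmodule ℂ := by
    refine Submodule.sum_mem _ fun s hs => ?_
    have hcard : s.card = i := (mem_powersetCard.mp hs).2
    have hne : s.Nonempty := by
      rw [← Finset.card_pos, hcard]; exact Nat.pos_of_ne_zero hi
    obtain ⟨q0, hq0⟩ := hne
    have h1 : (∏ q ∈ s, (quotientFunc f q ∣[k] γ)) ∈ zeroAtImInftySubmodule ℂ := by
      rw [← Finset.mul_prod_erase s _ hq0]
      have hbd : IsBoundedAtImInfty (∏ q ∈ s.erase q0, (quotientFunc f q ∣[k] γ)) := by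
        have : (∏ q ∈ s.erase q0, (quotientFunc f q ∣[k] γ)) ∈ boundedAtImInftySubalgebra ℂ :=
          Subalgebra.prod_mem _ fun q _ => hb q
        exact this
      exact Filter.ZeroAtFilter.mul_boundedAtFilter (hmem q0) hbd
    have h2 : (|γ.det.val| ^ ((i : ℤ) - 1) • ∏ q ∈ s, (quotientFunc f q ∣[k] γ)) =
        ((|γ.det.val| ^ ((i : ℤ) - 1) : ℝ) : ℂ) • ∏ q ∈ s, (quotientFunc f q ∣[k] γ) := by
      ext τ
      simp
    rw [h2]
    exact Submodule.smul_mem _ _ h1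
  exact this

variable [ℋ.HasDetPlusMinusOne]

/-- The `i`-th elementary symmetric function of the `ℋ`-translates of a `𝒢`-modular form of
weight `k`, as a modular form of weight `k * i` for `ℋ`. -/
noncomputable def esymmForm [ModularFormClass F 𝒢 k] (i : ℕ) : ModularForm ℋ (k * i) where
  toFun := esymmFun ℋ f i
  slash_action_eq' _ hh := esymmFun_slash ℋ f hh i
  holo' := mdiff_esymmFun ℋ f i
  bdd_at_cusps' hc γ hγ := isBoundedAtImInfty_esymmFun_slash ℋ f hc γ hγ i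

@[simp] lemma coe_esymmForm [ModularFormClass F 𝒢 k] (i : ℕ) :
    ⇑(esymmForm ℋ f i) = esymmFun ℋ f i := rfl

/-- The `i`-th elementary symmetric function (`i ≠ 0`) of the `ℋ`-translates of a `𝒢`-cusp form
of weight `k`, as a cusp form of weight `k * i` for `ℋ`. -/
noncomputable def esymmCuspForm [CuspFormClass F 𝒢 k] (i : ℕ) (hi : i ≠ 0) :
    CuspForm ℋ (k * i) where
  toFun := esymmFun ℋ f i
  slash_action_eq' _ hh := esymmFun_slash ℋ f hh i
  holo' := mdiff_esymmFun ℋ f i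
  zero_at_cusps' hc γ hγ := isZeroAtImInfty_esymmFun_slash ℋ f hc γ hγ hi

@[simp] lemma coe_esymmCuspForm [CuspFormClass F 𝒢 k] (i : ℕ) (hi : i ≠ 0) :
    ⇑(esymmCuspForm ℋ f i hi) = esymmFun ℋ f i := rfl

end Forms

end Fermat.Agent.S23.helper85
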