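import Mathlib

set_option autoImplicit false

open UpperHalfPlane ModularForm Matrix
open scoped MatrixGroups ModularForm Manifold

namespace Fermat.Agent.S23.helper983

/-- `F` is holomorphic on the upper half plane, `1`-periodic and bounded at `i∞`. -/
def IsNice (F : ℍ → ℂ) : Prop :=
  MDiff F ∧ Function.Periodic (F ∘ ofComplex) 1 ∧ IsBoundedAtImInfty F

theorem IsNice.analyticAt {F : ℍ → ℂ} (hF : IsNice F) :
    AnalyticAt ℂ (cuspFunction 1 F) 0 :=
  analyticAt_cuspFunction_zero one_pos hF.2.1 hF.1 hF.2.2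

theorem isNice_const (c : ℂ) : IsNice (fun _ : ℍ => c) := by
  refine ⟨mdifferentiable_const, fun x => rfl, ?_⟩
  exact Filter.const_boundedAtFilter _ c

theorem IsNice.add {F G : ℍ → ℂ} (hF : IsNice F) (hG : IsNice G) : IsNice (F + G) := by
  refine ⟨hF.1.add hG.1, ?_, hF.2.2.add hG.2.2⟩
  intro x
  have h1 := hF.2.1 x
  have h2 := hG.2.1 x
  simp only [Function.comp_apply, Pi.add_apply] at h1 h2 ⊢
  rw [h1, h2]

theorem IsNice.mul {F G : ℍ → ℂ} (hF : IsNice F) (hG : IsNice G) : IsNice (F * G) := by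
  refine ⟨hF.1.mul hG.1, ?_, hF.2.2.mul hG.2.2⟩
  intro x
  have h1 := hF.2.1 x
  have h2 := hG.2.1 x
  simp only [Function.comp_apply, Pi.mul_apply] at h1 h2 ⊢
  rw [h1, h2]

/-- The subalgebra of nice functions. -/
def niceAlg : Subalgebra ℂ (ℍ → ℂ) where
  carrier := {F | IsNice F}
  mul_mem' hF hG := hF.mul hG
  add_mem' hF hG := hF.add hG
  algebraMap_mem' c := isNice_const c

theorem mem_niceAlg {F : ℍ → ℂ} : F ∈ niceAlg ↔ IsNice F := Iff.rfl

theorem qExpansion_const (c : ℂ) : qExpansion 1 (fun _ : ℍ => c) = PowerSeries.C c := by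
  have h1 : (fun _ : ℍ => c) = c • (1 : ℍ → ℂ) := by
    ext z; simp
  rw [h1, qExpansion_smul, qExpansion_one]
  · ext n; simp [PowerSeries.coeff_C, PowerSeries.coeff_one]
  · exact (isNice_const 1).analyticAt

/-- The `q`-expansion as an algebra homomorphism on nice functions. -/
noncomputable def qE : niceAlg →ₐ[ℂ] PowerSeries ℂ where
  toFun F := qExpansion 1 (F : ℍ → ℂ)
  map_one' := qExpansion_one 1
  map_mul' F G := qExpansion_mul F.2.analyticAt G.2.analyticAt
  map_zero' := qExpansion_zero 1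
  map_add' F G := qExpansion_add F.2.analyticAt G.2.analyticAt
  commutes' c := by
    show qExpansion 1 (fun _ : ℍ => c) = _
    rw [qExpansion_const]
    rfl

theorem qE_apply (F : niceAlg) : qE F = qExpansion 1 (F : ℍ → ℂ) := rfl

theorem qE_injective : Function.Injective qE := by
  rw [injective_iff_map_eq_zero]
  intro F hF
  have := (qExpansion_eq_zero_iff one_pos F.2.2.1 F.2.1 F.2.2.2).mp hF
  exact Subtype.ext this

end Fermat.Agent.S23.helper983
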