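import Mathlib

set_option autoImplicit false

open Matrix

namespace Fermat.Agent.S23.helper983

theorem prod_zpow_eq_zpow_sum {ι : Type*} {u : ℂ} (hu : u ≠ 0) (s : Finset ι) (e : ι → ℤ) :
    ∏ i ∈ s, u ^ e i = u ^ ∑ i ∈ s, e i := by
  classical
  induction s using Finset.induction_on with
  | empty => simp
  | insert a s ha ih =>
    rw [Finset.prod_insert ha, Finset.sum_insert ha, ih, zpow_add₀ hu]

theorem two_mul_sum_fin (μ : ℕ) : 2 * ∑ i : Fin μ, ((i : ℕ) : ℤ) = ((μ * (μ - 1) : ℕ) : ℤ) := by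
  rw [Fin.sum_univ_eq_sum_range (fun i => ((i : ℕ) : ℤ)) μ, ← Nat.cast_sum,
    ← Finset.sum_range_id_mul_two μ]
  push_cast
  ring

/-- Scaling of the determinant of a Hankel-type matrix. -/
theorem det_scale (μ : ℕ) (A : Matrix (Fin μ) (Fin μ) ℂ) (u : ℂ) (hu : u ≠ 0) (l : ℤ) :
    (Matrix.of fun i j : Fin μ => u ^ (l * (((i : ℕ) + (j : ℕ) : ℕ) : ℤ)) * A i j).det
      = u ^ (l * ((μ * (μ - 1) : ℕ) : ℤ)) * A.det := by
  have h1 : (Matrix.of fun i j : Fin μ => u ^ (l * (((i : ℕ) + (j : ℕ) : ℕ) : ℤ)) * A i j)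
      = Matrix.diagonal (fun i : Fin μ => u ^ (l * ((i : ℕ) : ℤ))) * A *
        Matrix.diagonal (fun i : Fin μ => u ^ (l * ((i : ℕ) : ℤ))) := by
    ext i j
    rw [Matrix.mul_diagonal, Matrix.diagonal_mul, Matrix.of_apply]
    push_cast
    rw [mul_add, zpow_add₀ hu]
    ring
  rw [h1, Matrix.det_mul, Matrix.det_mul, Matrix.det_diagonal, prod_zpow_eq_zpow_sum hu]
  have h2 : ∑ i : Fin μ, l * ((i : ℕ) : ℤ) + ∑ i : Fin μ, l * ((i : ℕ) : ℤ)
      = l * ((μ * (μ - 1) : ℕ) : ℤ) := by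
    rw [← two_mul_sum_fin μ, ← Finset.mul_sum]
    ring
  rw [← h2, zpow_add₀ hu]
  ring

/-- Scaling of Cramer's rule for a Hankel-type system. -/
theorem cramer_scale (μ : ℕ) (A : Matrix (Fin μ) (Fin μ) ℂ) (v : Fin μ → ℂ) (u : ℂ) (hu : u ≠ 0)
    (l k : ℤ) (j : Fin μ) :
    ((Matrix.of fun i j : Fin μ => u ^ (l * (((i : ℕ) + (j : ℕ) : ℕ) : ℤ)) * A i j).adjugate *ᵥ
        (fun i => u ^ (k + l * ((i : ℕ) : ℤ)) * v i)) j
      = u ^ (l * ((μ * (μ - 1) : ℕ) : ℤ) + k - l * ((j : ℕ) : ℤ)) * (A.adjugate *ᵥ v) j := by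
  classical
  rw [← Matrix.cramer_eq_adjugate_mulVec, ← Matrix.cramer_eq_adjugate_mulVec, Matrix.cramer_apply,
    Matrix.cramer_apply]
  have h1 : (Matrix.of fun i j : Fin μ => u ^ (l * (((i : ℕ) + (j : ℕ) : ℕ) : ℤ)) * A i j).updateCol j
        (fun i => u ^ (k + l * ((i : ℕ) : ℤ)) * v i)
      = Matrix.diagonal (fun i : Fin μ => u ^ (l * ((i : ℕ) : ℤ))) * (A.updateCol j v) *
        Matrix.diagonal (fun i : Fin μ => u ^ (if i = j then k else l * ((i : ℕ) : ℤ))) := by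
    ext i j'
    rw [Matrix.mul_diagonal, Matrix.diagonal_mul, Matrix.updateCol_apply, Matrix.updateCol_apply]
    by_cases hj : j' = j
    · simp only [hj, if_true]
      rw [zpow_add₀ hu]
      ring
    · simp only [hj, if_false, Matrix.of_apply]
      push_cast
      rw [mul_add, zpow_add₀ hu]
      ring
  rw [h1, Matrix.det_mul, Matrix.det_mul, Matrix.det_diagonal, Matrix.det_diagonal,
    prod_zpow_eq_zpow_sum hu, prod_zpow_eq_zpow_sum hu]
  have h2 : ∑ i : Fin μ, (if i = j then k else l * ((i : ℕ) : ℤ))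
      = ∑ i : Fin μ, l * ((i : ℕ) : ℤ) + (k - l * ((j : ℕ) : ℤ)) := by
    have : ∀ i : Fin μ, (if i = j then k else l * ((i : ℕ) : ℤ))
        = l * ((i : ℕ) : ℤ) + (if i = j then k - l * ((j : ℕ) : ℤ) else 0) := by
      intro i
      by_cases hi : i = j
      · simp [hi]
      · simp [hi]
    rw [Finset.sum_congr rfl (fun i _ => this i), Finset.sum_add_distrib,
      Finset.sum_ite_eq' Finset.univ j]
    simp
  have h3 : l * ((μ * (μ - 1) : ℕ) : ℤ) + k - l * ((j : ℕ) : ℤ)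
      = ∑ i : Fin μ, l * ((i : ℕ) : ℤ) + (∑ i : Fin μ, l * ((i : ℕ) : ℤ) + (k - l * ((j : ℕ) : ℤ))) := by
    rw [← two_mul_sum_fin μ, ← Finset.mul_sum]
    ring
  rw [h2, h3]
  generalize ∑ i : Fin μ, l * ((i : ℕ) : ℤ) = S
  rw [zpow_add₀ hu S (S + (k - l * ((j : ℕ) : ℤ)))]
  ring

/-- Scaling of the Hankel "numerator" `∑ j, (adj A *ᵥ v) j * x ^ j`. -/
theorem numer_scale (μ : ℕ) (A : Matrix (Fin μ) (Fin μ) ℂ) (v : Fin μ → ℂ) (x u : ℂ) (hu : u ≠ 0)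
    (l k : ℤ) :
    ∑ j : Fin μ, ((Matrix.of fun i j : Fin μ => u ^ (l * (((i : ℕ) + (j : ℕ) : ℕ) : ℤ)) * A i j).adjugate *ᵥ
        (fun i => u ^ (k + l * ((i : ℕ) : ℤ)) * v i)) j * (u ^ l * x) ^ (j : ℕ)
      = u ^ (l * ((μ * (μ - 1) : ℕ) : ℤ) + k) * ∑ j : Fin μ, (A.adjugate *ᵥ v) j * x ^ (j : ℕ) := by
  rw [Finset.mul_sum]
  refine Finset.sum_congr rfl fun j _ => ?_
  rw [cramer_scale μ A v u hu l k j, mul_pow, ← zpow_natCast (u ^ l) (j : ℕ), ← _root_.zpow_mul]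
  have : u ^ (l * ((μ * (μ - 1) : ℕ) : ℤ) + k)
      = u ^ (l * ((μ * (μ - 1) : ℕ) : ℤ) + k - l * ((j : ℕ) : ℤ)) * u ^ (l * ((j : ℕ) : ℤ)) := by
    rw [← zpow_add₀ hu]
    congr 1
    ring
  rw [this]
  ring

/-! ### Hankel determinant and numerator over an arbitrary commutative ring -/

section Hankel

variable {R S : Type*} [CommRing R] [CommRing S]

/-- `det (p (i + j))_{i,j<μ}`. -/
noncomputable def hankelDet (p : ℕ → R) (μ : ℕ) : R :=
  (Matrix.of fun i j : Fin μ => p ((i : ℕ) + (j : ℕ))).det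

/-- `∑_{j<μ} (adj (p (i + j)) *ᵥ t) j * x ^ j`. -/
noncomputable def hankelNum (p t : ℕ → R) (x : R) (μ : ℕ) : R :=
  ∑ j : Fin μ, ((Matrix.of fun i j : Fin μ => p ((i : ℕ) + (j : ℕ))).adjugate *ᵥ
    (fun i : Fin μ => t (i : ℕ))) j * x ^ (j : ℕ)

theorem map_hankelDet (φ : R →+* S) (p : ℕ → R) (μ : ℕ) :
    φ (hankelDet p μ) = hankelDet (fun m => φ (p m)) μ := by
  unfold hankelDet
  rw [RingHom.map_det]
  congr 1

theorem map_hankelNum (φ : R →+* S) (p t : ℕ → R) (x : R) (μ : ℕ) :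
    φ (hankelNum p t x μ) = hankelNum (fun m => φ (p m)) (fun m => φ (t m)) (φ x) μ := by
  unfold hankelNum
  rw [map_sum]
  refine Finset.sum_congr rfl fun j _ => ?_
  rw [map_mul, map_pow, RingHom.map_mulVec]
  congr 2
  have := RingHom.map_adjugate φ (Matrix.of fun i j : Fin μ => p ((i : ℕ) + (j : ℕ)))
  rw [RingHom.mapMatrix_apply, RingHom.mapMatrix_apply] at this
  rw [this]
  congr 1

theorem hankelDet_congr {p p' : ℕ → R} (μ : ℕ) (h : ∀ m, p m = p' m) :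
    hankelDet p μ = hankelDet p' μ := by
  have : p = p' := funext h
  rw [this]

theorem hankelNum_congr {p p' t t' : ℕ → R} {x x' : R} (μ : ℕ) (hp : ∀ m, p m = p' m)
    (ht : ∀ m, t m = t' m) (hx : x = x') : hankelNum p t x μ = hankelNum p' t' x' μ := by
  have h1 : p = p' := funext hp
  have h2 : t = t' := funext ht
  rw [h1, h2, hx]

end Hankel

theorem hankelDet_scale (a : ℕ → ℂ) (μ : ℕ) (u : ℂ) (hu : u ≠ 0) (l : ℤ) :
    hankelDet (fun m => u ^ (l * (m : ℤ)) * a m) μ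
      = u ^ (l * ((μ * (μ - 1) : ℕ) : ℤ)) * hankelDet a μ := by
  unfold hankelDet
  exact det_scale μ (Matrix.of fun i j : Fin μ => a ((i : ℕ) + (j : ℕ))) u hu l

theorem hankelNum_scale (a b : ℕ → ℂ) (x : ℂ) (μ : ℕ) (u : ℂ) (hu : u ≠ 0) (l k : ℤ) :
    hankelNum (fun m => u ^ (l * (m : ℤ)) * a m) (fun m => u ^ (k + l * (m : ℤ)) * b m) (u ^ l * x) μ
      = u ^ (l * ((μ * (μ - 1) : ℕ) : ℤ) + k) * hankelNum a b x μ := by
  unfold hankelNum
  exact numer_scale μ (Matrix.of fun i j : Fin μ => a ((i : ℕ) + (j : ℕ))) (fun i : Fin μ => b (i : ℕ))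
    x u hu l k

end Fermat.Agent.S23.helper983
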