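import Mathlib
import Fermat.Prelude.Def_CuspForm_IntegralStructure
import Fermat.Prelude.Thm_CongruenceSubgroup_one_mem_strictPeriods_Gamma0
import Fermat.Agent.S23.helper983_Nice
import Fermat.Agent.S23.helper983_Scale

/-!
# S23, package (CONJ): stability of `q`-expansions of cusp forms on `Γ₀(N)` under ring
homomorphisms `σ : ℂ →+* ℂ` acting on coefficients — assembly from three inputs:

* `LevelOneConj`  (L1): level-one forms can be conjugated;
* `LemmaH N k`    (H) : the analytic converse (a quotient of invariant holomorphic functions which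
  is integral over level-one cusp forms is a cusp form);
* `HasPresentation N k f` (P)+(T)+(I): Hankel/trace presentation of `f` over level one, with a
  primitive element `w` with integral `q`-expansion, and a monic relation with cuspidal
  coefficients.
-/

set_option autoImplicit false

open UpperHalfPlane ModularForm CongruenceSubgroup Matrix
open scoped MatrixGroups ModularForm Manifold

namespace Fermat.Agent.S23.helper983

/-- (L1) Level-one modular forms can be conjugated by any ring endomorphism of `ℂ`. -/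
def LevelOneConj : Prop :=
  ∀ (σ : ℂ →+* ℂ) (w : ℤ) (r : ModularForm 𝒮ℒ w), ∃ r' : ModularForm 𝒮ℒ w,
    qExpansion 1 r' = PowerSeries.map σ (qExpansion 1 r)

/-- (H) Function-level "Lemma H": if `D, P` are holomorphic, `Γ₀(N)`-invariant of weights `m` and
`m + k`, `D ≠ 0`, and `P^n + ∑_{1 ≤ i ≤ n} ρ_i D^i P^(n-i) = 0` with `ρ_i` level-one cusp forms of
weight `k * i`, then `P / D` is a cusp form of weight `k` on `Γ₀(N)`. -/
def LemmaH (N : ℕ) (k : ℤ) : Prop :=
  ∀ (m : ℤ) (D P : ℍ → ℂ) (n : ℕ) (ρ : ℕ → ℍ → ℂ),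
    MDiff D → MDiff P → D ≠ 0 →
    (∀ γ ∈ Gamma0 N, D ∣[m] γ = D) → (∀ γ ∈ Gamma0 N, P ∣[m + k] γ = P) →
    (∀ i, 1 ≤ i → i ≤ n → ∃ c : CuspForm 𝒮ℒ (k * (i : ℤ)), ⇑c = ρ i) →
    (∀ z, P z ^ n + ∑ i ∈ Finset.Icc 1 n, ρ i z * D z ^ i * P z ^ (n - i) = 0) →
    ∃ g : CuspForm (Gamma0 N) k, ∀ z, g z * D z = P z

/-- (P)+(T)+(I) Hankel presentation of a function `f` (a cusp form of weight `k` on `Γ₀(N)`) over
level one: a primitive element `w` (weight `l`, integral `q`-expansion), level-one forms `p m`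
(weight `l * m`, the traces of `w ^ m`), `t i` (weight `k + l * i`, the traces of `f * w ^ i`),
level-one cusp forms `e i` (weight `k * i`, signed elementary symmetric functions of the
conjugates of `f`) such that `det(H) * f = ∑_j (adj(H) t)_j w^j`, `det H ≠ 0`, and
`f^μ + ∑_{1 ≤ i ≤ μ} e_i f^(μ - i) = 0`. -/
def HasPresentation (N : ℕ) (k : ℤ) (f : ℍ → ℂ) : Prop :=
  ∃ (l : ℤ) (w : ModularForm (Gamma0 N) l) (μ : ℕ) (p t e : ℕ → ℍ → ℂ),
    (∀ n, ∃ m : ℤ, (qExpansion 1 w).coeff n = m) ∧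
    (∀ m : ℕ, ∃ r : ModularForm 𝒮ℒ (l * (m : ℤ)), ⇑r = p m) ∧
    (∀ i : ℕ, ∃ r : ModularForm 𝒮ℒ (k + l * (i : ℤ)), ⇑r = t i) ∧
    (∀ i : ℕ, 1 ≤ i → ∃ r : CuspForm 𝒮ℒ (k * (i : ℤ)), ⇑r = e i) ∧
    (∃ z, hankelDet (fun m => p m z) μ ≠ 0) ∧
    (∀ z, hankelDet (fun m => p m z) μ * f z =
        hankelNum (fun m => p m z) (fun i => t i z) (w z) μ) ∧
    (∀ z, f z ^ μ + ∑ i ∈ Finset.Icc 1 μ, e i z * f z ^ (μ - i) = 0)

/-- (CONJ) Conjugation of cusp forms of weight `k` on `Γ₀(N)`. -/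
def StmtConj (N : ℕ) (k : ℤ) : Prop :=
  ∀ (σ : ℂ →+* ℂ) (f : CuspForm (Gamma0 N) k), ∃ g : CuspForm (Gamma0 N) k,
    ∀ n, ModularFormClass.qCoeff g n = σ (ModularFormClass.qCoeff f n)

/-! ### Basic facts -/

theorem isNice_levelOne {w : ℤ} (r : ModularForm 𝒮ℒ w) : IsNice r :=
  ⟨ModularFormClass.holo r,
    SlashInvariantFormClass.periodic_comp_ofComplex r one_mem_strictPeriods_SL,
    ModularFormClass.bdd_at_infty r⟩

theorem isNice_levelOne_cusp {w : ℤ} (r : CuspForm 𝒮ℒ w) : IsNice r :=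
  ⟨ModularFormClass.holo r,
    SlashInvariantFormClass.periodic_comp_ofComplex r one_mem_strictPeriods_SL,
    ModularFormClass.bdd_at_infty r⟩

theorem isNice_Gamma0 (N : ℕ) [NeZero N] {l : ℤ} (w : ModularForm (Gamma0 N) l) : IsNice w :=
  ⟨ModularFormClass.holo w,
    SlashInvariantFormClass.periodic_comp_ofComplex w
      (CongruenceSubgroup.one_mem_strictPeriods_Gamma0 N),
    ModularFormClass.bdd_at_infty w⟩

theorem isNice_Gamma0_cusp (N : ℕ) [NeZero N] {l : ℤ} (w : CuspForm (Gamma0 N) l) : IsNice w :=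
  ⟨ModularFormClass.holo w,
    SlashInvariantFormClass.periodic_comp_ofComplex w
      (CongruenceSubgroup.one_mem_strictPeriods_Gamma0 N),
    ModularFormClass.bdd_at_infty w⟩

theorem levelOne_auto {w : ℤ} (r : ModularForm 𝒮ℒ w) (γ : SL(2, ℤ)) (z : ℍ) :
    r (γ • z) = denom γ z ^ w * r z := by
  have hγ : (γ : GL (Fin 2) ℝ) ∈ 𝒮ℒ := ⟨γ, rfl⟩
  exact SlashInvariantForm.slash_action_eqn'' r hγ z

/-- Evaluation at a point, as a ring homomorphism on nice functions. -/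
noncomputable def evalHom (z : ℍ) : niceAlg →+* ℂ :=
  (Pi.evalRingHom (fun _ : ℍ => ℂ) z).comp (niceAlg.val : niceAlg →ₐ[ℂ] (ℍ → ℂ)).toRingHom

theorem evalHom_apply (z : ℍ) (F : niceAlg) : evalHom z F = (F : ℍ → ℂ) z := rfl

theorem slash_eq_of_auto {F : ℍ → ℂ} {m : ℤ} {γ : SL(2, ℤ)}
    (h : ∀ z, F (γ • z) = denom γ z ^ m * F z) : F ∣[m] γ = F := by
  ext z
  rw [SL_slash_apply, h z, _root_.zpow_neg]
  have : denom γ z ^ m ≠ 0 := zpow_ne_zero _ (denom_ne_zero _ _)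
  field_simp

theorem coe_hankelDet (p : ℕ → niceAlg) (μ : ℕ) (z : ℍ) :
    ((hankelDet p μ : niceAlg) : ℍ → ℂ) z = hankelDet (fun m => (p m : ℍ → ℂ) z) μ :=
  map_hankelDet (evalHom z) p μ

theorem coe_hankelNum (p t : ℕ → niceAlg) (x : niceAlg) (μ : ℕ) (z : ℍ) :
    ((hankelNum p t x μ : niceAlg) : ℍ → ℂ) z
      = hankelNum (fun m => (p m : ℍ → ℂ) z) (fun m => (t m : ℍ → ℂ) z) ((x : ℍ → ℂ) z) μ :=
  map_hankelNum (evalHom z) p t x μ

/-- Pure algebra: from `D * f = Z` and the monic relation for `f`, the homogenised relation. -/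
theorem homogenise {R : Type*} [CommRing R] (D Z f : R) (μ : ℕ) (e : ℕ → R) (h : D * f = Z)
    (hrel : f ^ μ + ∑ i ∈ Finset.Icc 1 μ, e i * f ^ (μ - i) = 0) :
    Z ^ μ + ∑ i ∈ Finset.Icc 1 μ, e i * D ^ i * Z ^ (μ - i) = 0 := by
  have h1 : Z ^ μ + ∑ i ∈ Finset.Icc 1 μ, e i * D ^ i * Z ^ (μ - i)
      = D ^ μ * (f ^ μ + ∑ i ∈ Finset.Icc 1 μ, e i * f ^ (μ - i)) := by
    rw [← h, mul_add, Finset.mul_sum, mul_pow]
    congr 1
    refine Finset.sum_congr rfl fun i hi => ?_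
    have hi' : i ≤ μ := (Finset.mem_Icc.mp hi).2
    have h2 : D ^ μ = D ^ i * D ^ (μ - i) := by
      rw [← pow_add]
      congr 1
      omega
    rw [mul_pow, h2]
    ring
  rw [h1, hrel, mul_zero]

/-- **(CONJ)** Assembly: conjugation of cusp forms on `Γ₀(N)` from (L1), (H) and the Hankel
presentation (P)+(T)+(I). -/
theorem stmtConj_of (N : ℕ) [NeZero N] (k : ℤ) (hL1 : LevelOneConj) (hH : LemmaH N k)
    (hP : ∀ f : CuspForm (Gamma0 N) k, HasPresentation N k f) : StmtConj N k := by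
  intro σ f
  obtain ⟨l, w, μ, p, t, e, hwint, hp, ht, he, hdet, hid, hrel⟩ := hP f
  choose Pf hPf using hp
  choose Tf hTf using ht
  choose Ef hEf using he
  -- the conjugated level-one data
  choose Pf' hPf' using fun m => hL1 σ _ (Pf m)
  choose Tf' hTf' using fun i => hL1 σ _ (Tf i)
  have hE' : ∀ (i : ℕ) (hi : 1 ≤ i), ∃ c : CuspForm 𝒮ℒ (k * (i : ℤ)),
      qExpansion 1 c = PowerSeries.map σ (qExpansion 1 (Ef i hi)) := by
    intro i hi
    obtain ⟨r', hr'⟩ := hL1 σ _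
      (ModularFormClass.modularForm (Ef i hi) : ModularForm 𝒮ℒ (k * (i : ℤ)))
    have hr'' : qExpansion 1 r' = PowerSeries.map σ (qExpansion 1 (Ef i hi)) := hr'
    have h0 : (qExpansion 1 r').coeff 0 = 0 := by
      rw [hr'', PowerSeries.coeff_map,
        CuspFormClass.qExpansion_coeff_zero (Ef i hi) one_pos one_mem_strictPeriods_SL, map_zero]
    exact ⟨ModularForm.toCuspForm r' h0, hr''⟩
  choose Ef' hEf' using hE'
  -- elements of the algebra of nice functions
  let pN : ℕ → niceAlg := fun m => ⟨Pf m, isNice_levelOne _⟩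
  let pN' : ℕ → niceAlg := fun m => ⟨Pf' m, isNice_levelOne _⟩
  let tN : ℕ → niceAlg := fun m => ⟨Tf m, isNice_levelOne _⟩
  let tN' : ℕ → niceAlg := fun m => ⟨Tf' m, isNice_levelOne _⟩
  let eN : ℕ → niceAlg := fun i =>
    if hi : 1 ≤ i then ⟨Ef i hi, isNice_levelOne_cusp _⟩ else 0
  let eN' : ℕ → niceAlg := fun i =>
    if hi : 1 ≤ i then ⟨Ef' i hi, isNice_levelOne_cusp _⟩ else 0
  let wN : niceAlg := ⟨w, isNice_Gamma0 N w⟩
  let fN : niceAlg := ⟨f, isNice_Gamma0_cusp N f⟩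
  let ψ : niceAlg →+* PowerSeries ℂ := qE.toRingHom
  let φ : niceAlg →+* PowerSeries ℂ := (PowerSeries.map σ).comp qE.toRingHom
  have hσinj : Function.Injective (PowerSeries.map σ) :=
    PowerSeries.map_injective σ σ.injective
  have hψinj : Function.Injective ψ := qE_injective
  have hpφ : ∀ m, ψ (pN' m) = φ (pN m) := fun m => hPf' m
  have htφ : ∀ m, ψ (tN' m) = φ (tN m) := fun m => hTf' m
  have heφ : ∀ i, 1 ≤ i → ψ (eN' i) = φ (eN i) := by
    intro i hi
    simp only [eN, eN', dif_pos hi]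
    exact hEf' i hi
  have hwφ : ψ wN = φ wN := by
    show qExpansion 1 w = PowerSeries.map σ (qExpansion 1 w)
    ext n
    obtain ⟨m, hm⟩ := hwint n
    rw [PowerSeries.coeff_map, hm, map_intCast]
  let D : niceAlg := hankelDet pN μ
  let Z : niceAlg := hankelNum pN tN wN μ
  let D' : niceAlg := hankelDet pN' μ
  let Z' : niceAlg := hankelNum pN' tN' wN μ
  have hDφ : ψ D' = φ D := by
    show ψ (hankelDet pN' μ) = φ (hankelDet pN μ)
    rw [map_hankelDet, map_hankelDet]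
    exact hankelDet_congr μ hpφ
  have hZφ : ψ Z' = φ Z := by
    show ψ (hankelNum pN' tN' wN μ) = φ (hankelNum pN tN wN μ)
    rw [map_hankelNum, map_hankelNum]
    exact hankelNum_congr μ hpφ htφ hwφ
  -- the identities for `f` inside the algebra of nice functions
  have hDz : ∀ z, (D : ℍ → ℂ) z = hankelDet (fun m => p m z) μ := by
    intro z
    rw [coe_hankelDet]
    exact hankelDet_congr μ fun m => congrFun (hPf m) z
  have hZz : ∀ z, (Z : ℍ → ℂ) z = hankelNum (fun m => p m z) (fun i => t i z) (w z) μ := by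
    intro z
    rw [coe_hankelNum]
    exact hankelNum_congr μ (fun m => congrFun (hPf m) z) (fun m => congrFun (hTf m) z) rfl
  have hDf : D * fN = Z := by
    apply Subtype.ext
    funext z
    show (D : ℍ → ℂ) z * f z = (Z : ℍ → ℂ) z
    rw [hDz, hZz, hid z]
  have hrelN : fN ^ μ + ∑ i ∈ Finset.Icc 1 μ, eN i * fN ^ (μ - i) = 0 := by
    apply Subtype.ext
    funext z
    show evalHom z (fN ^ μ + ∑ i ∈ Finset.Icc 1 μ, eN i * fN ^ (μ - i)) = 0
    rw [map_add, map_pow, map_sum]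
    have := hrel z
    rw [← this]
    congr 1
    refine Finset.sum_congr rfl fun i hi => ?_
    have hi1 : 1 ≤ i := (Finset.mem_Icc.mp hi).1
    rw [map_mul, map_pow]
    congr 1
    simp only [eN, dif_pos hi1]
    exact congrFun (hEf i hi1) z
  have hhom := homogenise D Z fN μ eN hDf hrelN
  -- transport by `σ`
  have hhom' : Z' ^ μ + ∑ i ∈ Finset.Icc 1 μ, eN' i * D' ^ i * Z' ^ (μ - i) = 0 := by
    apply hψinj
    rw [map_zero, map_add, map_pow, map_sum, hZφ]
    have h2 := congrArg φ hhom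
    rw [map_zero, map_add, map_pow, map_sum] at h2
    rw [← h2]
    congr 1
    refine Finset.sum_congr rfl fun i hi => ?_
    have hi1 : 1 ≤ i := (Finset.mem_Icc.mp hi).1
    rw [map_mul, map_mul, map_pow, map_pow, map_mul, map_mul, map_pow, map_pow, hZφ, hDφ, heφ i hi1]
  have hD0 : D ≠ 0 := by
    intro h0
    obtain ⟨z, hz⟩ := hdet
    apply hz
    rw [← hDz z, h0]
    rfl
  have hψD' : ψ D' ≠ 0 := by
    rw [hDφ]
    intro h0
    have h1 : (PowerSeries.map σ) (qE D) = (PowerSeries.map σ) 0 := by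
      rw [map_zero]
      exact h0
    have h2 : qE D = 0 := hσinj h1
    exact hD0 (qE_injective (h2.trans (map_zero qE).symm))
  have hD'0 : (D' : ℍ → ℂ) ≠ 0 := by
    intro h0
    apply hψD'
    have : D' = 0 := Subtype.ext h0
    rw [this, map_zero]
  -- invariance of `D'` and `Z'` under `Γ₀(N)`
  have hD'z : ∀ z, (D' : ℍ → ℂ) z = hankelDet (fun m => Pf' m z) μ := fun z =>
    coe_hankelDet pN' μ z
  have hZ'z : ∀ z, (Z' : ℍ → ℂ) z = hankelNum (fun m => Pf' m z) (fun i => Tf' i z) (w z) μ :=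
    fun z => coe_hankelNum pN' tN' wN μ z
  have hD'inv : ∀ γ ∈ Gamma0 N, (D' : ℍ → ℂ) ∣[l * ((μ * (μ - 1) : ℕ) : ℤ)] γ = D' := by
    intro γ _
    apply slash_eq_of_auto
    intro z
    rw [hD'z, hD'z, ← hankelDet_scale _ μ _ (denom_ne_zero γ z) l]
    exact hankelDet_congr μ fun m => levelOne_auto (Pf' m) γ z
  have hZ'inv : ∀ γ ∈ Gamma0 N, (Z' : ℍ → ℂ) ∣[l * ((μ * (μ - 1) : ℕ) : ℤ) + k] γ = Z' := by
    intro γ hγ
    apply slash_eq_of_auto
    intro z
    rw [hZ'z, hZ'z, ← hankelNum_scale _ _ _ μ _ (denom_ne_zero γ z) l k]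
    exact hankelNum_congr μ (fun m => levelOne_auto (Pf' m) γ z)
      (fun m => levelOne_auto (Tf' m) γ z) (SlashInvariantForm.slash_action_eqn_SL'' w hγ z)
  -- apply Lemma H
  obtain ⟨g, hg⟩ := hH (l * ((μ * (μ - 1) : ℕ) : ℤ)) (D' : ℍ → ℂ) (Z' : ℍ → ℂ) μ
    (fun i => (eN' i : ℍ → ℂ)) D'.2.1 Z'.2.1 hD'0 hD'inv hZ'inv
    (by
      intro i hi1 _
      refine ⟨Ef' i hi1, ?_⟩
      simp only [eN', dif_pos hi1])
    (by
      intro z
      have h2 := congrArg (evalHom z) hhom'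
      rw [map_zero, map_add, map_pow, map_sum] at h2
      rw [← h2]
      congr 1)
  refine ⟨g, ?_⟩
  let gN : niceAlg := ⟨g, isNice_Gamma0_cusp N g⟩
  have hgD : gN * D' = Z' := by
    apply Subtype.ext
    funext z
    exact hg z
  have h3 : ψ D' * ψ gN = ψ D' * φ fN := by
    rw [← map_mul, mul_comm, hgD, hZφ, ← hDf, map_mul, hDφ]
  have h4 : ψ gN = φ fN := mul_left_cancel₀ hψD' h3
  intro n
  have h5 := congrArg (PowerSeries.coeff n) h4
  show (qExpansion 1 g).coeff n = σ ((qExpansion 1 f).coeff n)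
  rw [← PowerSeries.coeff_map]
  exact h5

end Fermat.Agent.S23.helper983
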